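import Fermat.Agent.S16.EisForm
import Fermat.Prelude.Thm_CongruenceSubgroup_one_mem_strictPeriods_Gamma0

/-!
# S16 / EIS: the `q`-expansion of the Eisenstein series of level `Γ₀(p)`  (helper6)

`E = (p E₂(p z) - E₂(z)) / 24 = (p - 1)/24 + ∑_{m ≥ 1} σ'_p(m) q^m`.

Main result: `s16ei_main : s16_stmt_EIS`.
-/

set_option autoImplicit false

open UpperHalfPlane ModularForm EisensteinSeries
open Fermat.Agent.S20 Fermat.Agent.S24
open scoped MatrixGroups ModularForm Manifold Real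

noncomputable section

/-- The divisors of `p m` divisible by `p` are `p` times the divisors of `m`. -/
lemma s16ei_sum_dvd (p : ℕ) (hp : 0 < p) (m : ℕ) (hm : m ≠ 0) :
    ∑ d ∈ (p * m).divisors.filter (fun d => p ∣ d), (d : ℤ) = p * ∑ e ∈ m.divisors, (e : ℤ) := by
  rw [Finset.mul_sum]
  symm
  refine Finset.sum_bij (fun e _ => p * e) ?_ ?_ ?_ ?_
  · intro e he
    rw [Nat.mem_divisors] at he
    rw [Finset.mem_filter, Nat.mem_divisors]
    exact ⟨⟨Nat.mul_dvd_mul_left p he.1, Nat.mul_ne_zero hp.ne' hm⟩, dvd_mul_right p e⟩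
  · intro a _ b _ hab
    exact Nat.eq_of_mul_eq_mul_left hp hab
  · intro d hd
    rw [Finset.mem_filter, Nat.mem_divisors] at hd
    obtain ⟨⟨hd1, _⟩, e, rfl⟩ := hd
    refine ⟨e, ?_, rfl⟩
    rw [Nat.mem_divisors]
    exact ⟨Nat.dvd_of_mul_dvd_mul_left hp hd1, hm⟩
  · intro e _
    push_cast
    ring

/-- `σ₁(n) = σ'_p(n) + p σ₁(n / p) [p ∣ n]`. -/
lemma s16ei_sigma_split (p : ℕ) (hp : 0 < p) (n : ℕ) (hn : n ≠ 0) :
    (ArithmeticFunction.sigma 1 n : ℤ) =
      s16_sigmaP p n + p * (if p ∣ n then (ArithmeticFunction.sigma 1 (n / p) : ℤ) else 0) := by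
  rw [ArithmeticFunction.sigma_one_apply, s16_sigmaP]
  push_cast
  rw [← Finset.sum_filter_add_sum_filter_not n.divisors (fun d => ¬ p ∣ d)]
  congr 1
  simp only [not_not]
  by_cases hpn : p ∣ n
  · rw [if_pos hpn]
    obtain ⟨m, rfl⟩ := hpn
    have hm : m ≠ 0 := fun h => hn (by rw [h, mul_zero])
    rw [s16ei_sum_dvd p hp m hm, Nat.mul_div_cancel_left _ hp, ArithmeticFunction.sigma_one_apply]
    push_cast
    rfl
  · rw [if_neg hpn, mul_zero]
    refine Finset.sum_eq_zero ?_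
    intro d hd
    rw [Finset.mem_filter, Nat.mem_divisors] at hd
    exact absurd (hd.2.trans hd.1.1) hpn

/-- The coefficients of `E₂`. -/
def s16ei_c (m : ℕ) : ℂ := if m = 0 then 1 else -24 * (ArithmeticFunction.sigma 1 m : ℂ)

lemma s16ei_hasSum_E2 (τ : ℍ) :
    HasSum (fun m : ℕ => s16ei_c m • Function.Periodic.qParam 1 τ ^ m) (E2 τ) := by
  have h := hasSum_qExpansion_E2 (z := τ)
  simpa only [s16ei_c, Function.Periodic.qParam, Complex.ofReal_one, div_one] using h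

lemma s16ei_hasSum_E2_dmul (p : ℕ) [NeZero p] (τ : ℍ) :
    HasSum (fun m : ℕ => (if p ∣ m then s16ei_c (m / p) else 0)
      • Function.Periodic.qParam 1 τ ^ m) (E2 (dmul p τ)) := by
  have h := s16ei_hasSum_E2 (dmul p τ)
  rw [lr_qParam_dmul] at h
  have hd : p ≠ 0 := NeZero.ne p
  have hinj : Function.Injective fun n : ℕ => p * n := fun a b hab =>
    Nat.eq_of_mul_eq_mul_left (Nat.pos_of_ne_zero hd) hab
  refine (Function.Injective.hasSum_iff hinj ?_).mp ?_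
  · intro m hm
    have : ¬ p ∣ m := fun ⟨n, hn⟩ => hm ⟨n, hn.symm⟩
    simp [this]
  · convert h using 1
    funext n
    simp only [Function.comp_apply, dvd_mul_right, if_true, Nat.mul_div_cancel_left _
      (Nat.pos_of_ne_zero hd), smul_eq_mul, pow_mul]

/-- The coefficients of `(p E₂(p z) - E₂(z)) / 24`. -/
def s16ei_a (p m : ℕ) : ℂ :=
  (24 : ℂ)⁻¹ * ((p : ℂ) * (if p ∣ m then s16ei_c (m / p) else 0) - s16ei_c m)

lemma s16ei_hasSum_phi (p : ℕ) [NeZero p] (τ : ℍ) :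
    HasSum (fun m : ℕ => s16ei_a p m • Function.Periodic.qParam 1 τ ^ m)
      ((24 : ℂ)⁻¹ * s16ei_phi p τ) := by
  have h1 := (s16ei_hasSum_E2_dmul p τ).mul_left (p : ℂ)
  have h2 := ((h1.sub (s16ei_hasSum_E2 τ)).mul_left ((24 : ℂ)⁻¹))
  have h3 : (fun m : ℕ => s16ei_a p m • Function.Periodic.qParam 1 τ ^ m) =
      fun i : ℕ => (24 : ℂ)⁻¹ * ((p : ℂ) * (if p ∣ i then s16ei_c (i / p) else 0) •
        Function.Periodic.qParam 1 (τ : ℂ) ^ i - s16ei_c i • Function.Periodic.qParam 1 (τ : ℂ) ^ i) := by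
    funext m
    simp only [s16ei_a, smul_eq_mul]
    ring
  rw [h3]
  exact h2

lemma s16ei_a_zero (p : ℕ) : s16ei_a p 0 = ((p : ℂ) - 1) / 24 := by
  simp [s16ei_a, s16ei_c]
  ring

lemma s16ei_a_pos (p : ℕ) (hp : 0 < p) (m : ℕ) (hm : 1 ≤ m) :
    s16ei_a p m = (s16_sigmaP p m : ℂ) := by
  have hm0 : m ≠ 0 := by omega
  have hsplit := s16ei_sigma_split p hp m hm0
  have hs : ((ArithmeticFunction.sigma 1 m : ℕ) : ℂ) = (s16_sigmaP p m : ℂ) +
      p * (if p ∣ m then ((ArithmeticFunction.sigma 1 (m / p) : ℕ) : ℂ) else 0) := by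
    exact_mod_cast congrArg (Int.cast : ℤ → ℂ) hsplit
  have hc1 : s16ei_c m = -24 * (ArithmeticFunction.sigma 1 m : ℂ) := if_neg hm0
  rw [s16ei_a, hc1, hs]
  by_cases hpm : p ∣ m
  · have hmp : m / p ≠ 0 := by
      obtain ⟨k, rfl⟩ := hpm
      rw [Nat.mul_div_cancel_left _ hp]
      intro h
      exact hm0 (by rw [h, mul_zero])
    have hc2 : s16ei_c (m / p) = -24 * (ArithmeticFunction.sigma 1 (m / p) : ℂ) := if_neg hmp
    rw [if_pos hpm, if_pos hpm, hc2]
    ring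
  · rw [if_neg hpm, if_neg hpm]
    ring

/-- **EIS**: the Eisenstein series of weight 2 and level `Γ₀(p)`. -/
theorem s16ei_main : s16_stmt_EIS := by
  intro p _
  have hp : p.Prime := Fact.out
  have : NeZero p := ⟨hp.ne_zero⟩
  obtain ⟨f, hf⟩ := s16ei_exists_form p
  have hcoeff : ∀ m : ℕ, ModularFormClass.qCoeff (((24 : ℂ)⁻¹ • f :
      ModularForm (CongruenceSubgroup.Gamma0 p) 2) : ℍ → ℂ) m = s16ei_a p m := by
    intro m
    refine (ModularFormClass.qExpansion_coeff_unique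
      (f := ((24 : ℂ)⁻¹ • f : ModularForm (CongruenceSubgroup.Gamma0 p) 2))
      (c := s16ei_a p) one_pos
      (CongruenceSubgroup.one_mem_strictPeriods_Gamma0 p) (fun τ => ?_) m).symm
    have : ((24 : ℂ)⁻¹ • f : ModularForm (CongruenceSubgroup.Gamma0 p) 2) τ
        = (24 : ℂ)⁻¹ * s16ei_phi p τ := by
      rw [← hf]
      rfl
    rw [this]
    exact s16ei_hasSum_phi p τ
  refine ⟨(24 : ℂ)⁻¹ • f, ?_, ?_⟩
  · rw [hcoeff, s16ei_a_zero]
  · intro m hm
    rw [hcoeff, s16ei_a_pos p hp.pos m hm]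

end
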