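import Fermat.Agent.S16.CongBridge
import Fermat.Agent.S16.EisMain

/-!
# S16: `CONG` from the forbidden congruences alone  (helper6)

`s16ei_cong_of_F : F2a → F2b → F2c → F3a → F3b → F5 → Fp → CONG`
(the bridge `s16ei_cong` applied to `s16ei_main : s16_stmt_EIS`).
-/

set_option autoImplicit false

/-- `CONG` from the seven forbidden congruences. -/
theorem s16ei_cong_of_F (hF2a : s16_stmt_F2a) (hF2b : s16_stmt_F2b)
    (hF2c : s16_stmt_F2c) (hF3a : s16_stmt_F3a) (hF3b : s16_stmt_F3b) (hF5 : s16_stmt_F5)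
    (hFp : s16_stmt_Fp) : s16_stmt_CONG :=
  s16ei_cong s16ei_main hF2a hF2b hF2c hF3a hF3b hF5 hFp
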