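import Mathlib

/-!
# S16 / DUAL, part 2: a saturation criterion for submodules of the dual of a lattice

`R` a principal ideal domain, `L` a finite free `R`-module and `Λ ⊆ L^∨` a submodule such that,
for every non-unit `d`, every `x ∈ L` with `d ∣ φ x` for all `φ ∈ Λ` is divisible by `d` in `L`.
Then `Λ = L^∨`.  (Smith normal form of `Λ ⊆ L^∨` + reflexivity of `L`.)
-/

set_option autoImplicit false

theorem s16du_exists_functional {R : Type*} [CommRing R] [IsDomain R] [IsPrincipalIdealRing R]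
    {A : Type*} [AddCommGroup A] [Module R A] [Module.Finite R A]
    [Module.Free R A] (Λ : Submodule R A) (h : Λ ≠ ⊤) :
    ∃ (d : R) (ψ : A →ₗ[R] R) (a : A), ¬ IsUnit d ∧ ψ a = 1 ∧ ∀ φ ∈ Λ, d ∣ ψ φ := by
  classical
  obtain ⟨n, snf⟩ := Λ.smithNormalForm (Module.Free.chooseBasis R A)
  by_cases hsurj : Function.Surjective snf.f
  · by_cases hunit : ∀ j, IsUnit (snf.a j)
    · exfalso
      apply h
      rw [eq_top_iff, ← snf.bM.span_eq, Submodule.span_le]
      rintro _ ⟨i, rfl⟩
      obtain ⟨j, rfl⟩ := hsurj i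
      obtain ⟨u, hu⟩ := hunit j
      have h1 : (snf.bN j : A) ∈ Λ := (snf.bN j).2
      have h2 : snf.bM (snf.f j) = ((u⁻¹ : Rˣ) : R) • (snf.bN j : A) := by
        rw [snf.snf j, ← hu, smul_smul, ← Units.val_mul, inv_mul_cancel, Units.val_one, one_smul]
      rw [SetLike.mem_coe, h2]
      exact Λ.smul_mem _ h1
    · push Not at hunit
      obtain ⟨j, hj⟩ := hunit
      refine ⟨snf.a j, snf.bM.coord (snf.f j), snf.bM (snf.f j), hj, by simp, fun φ hφ => ?_⟩
      have h3 := LinearMap.congr_fun (snf.coord_apply_embedding_eq_smul_coord (i := j)) ⟨φ, hφ⟩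
      simp only [LinearMap.coe_comp, Function.comp_apply, Submodule.subtype_apply,
        LinearMap.smul_apply, smul_eq_mul] at h3
      rw [h3]
      exact Dvd.intro _ rfl
  · have hex : ∃ i₀, i₀ ∉ Set.range snf.f := by
      by_contra hcon
      push Not at hcon
      exact hsurj fun i => hcon i
    obtain ⟨i₀, hi₀⟩ := hex
    refine ⟨0, snf.bM.coord i₀, snf.bM i₀, not_isUnit_zero, by simp, fun φ hφ => ?_⟩
    have := snf.le_ker_coord_of_notMem_range hi₀ hφ
    rw [LinearMap.mem_ker] at this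
    rw [this]

theorem s16du_dual_top {R : Type*} [CommRing R] [IsDomain R] [IsPrincipalIdealRing R]
    {L : Type*} [AddCommGroup L] [Module R L] [Module.Finite R L]
    [Module.Free R L] (Λ : Submodule R (Module.Dual R L))
    (hsat : ∀ d : R, ¬ IsUnit d → ∀ x : L, (∀ φ ∈ Λ, d ∣ φ x) → ∃ x' : L, x = d • x') :
    Λ = ⊤ := by
  by_contra h
  obtain ⟨d, ψ, a, hd, hψa, hψ⟩ := s16du_exists_functional Λ h
  set x : L := (Module.evalEquiv R L).symm ψ with hx
  have hev : ∀ φ : Module.Dual R L, φ x = ψ φ := fun φ =>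
    Module.apply_evalEquiv_symm_apply R L φ ψ
  obtain ⟨x', hx'⟩ := hsat d hd x fun φ hφ => by rw [hev]; exact hψ φ hφ
  have h1 : d * a x' = 1 := by
    rw [← hψa, ← hev a, hx', map_smul, smul_eq_mul]
  exact hd (IsUnit.of_mul_eq_one _ h1)
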