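import Fermat.Agent.S16.Defs

/-!
# S16 / DUAL, part 1: arithmetic of `σ'_p` (sum of the divisors prime to `p`)

`σ'_p (m p) = σ'_p m` and, for a prime `ℓ ≠ p`,
`σ'_p (m ℓ) = (1 + ℓ) σ'_p m - [ℓ ∣ m] ℓ σ'_p (m / ℓ)`.
-/

set_option autoImplicit false

theorem s16du_sigmaP_one (p : ℕ) (hp : p.Prime) : s16_sigmaP p 1 = 1 := by
  have h : ¬ p ∣ 1 := fun h => hp.one_lt.ne' (Nat.dvd_one.mp h)
  simp [s16_sigmaP, Finset.filter_singleton, h]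

theorem s16du_sigmaP_mul_level (p m : ℕ) (hp : p.Prime) (hm : 1 ≤ m) :
    s16_sigmaP p (m * p) = s16_sigmaP p m := by
  unfold s16_sigmaP
  congr 1
  ext d
  simp only [Finset.mem_filter, Nat.mem_divisors]
  constructor
  · rintro ⟨⟨hd, -⟩, hpd⟩
    have hc : Nat.Coprime d p := ((Nat.Prime.coprime_iff_not_dvd hp).mpr hpd).symm
    exact ⟨⟨hc.dvd_of_dvd_mul_right hd, by omega⟩, hpd⟩
  · rintro ⟨⟨hd, -⟩, hpd⟩
    exact ⟨⟨Dvd.dvd.mul_right hd p, Nat.mul_ne_zero (by omega) hp.ne_zero⟩, hpd⟩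

/-- the divisors of `n ℓ` prime to `p` and divisible by `ℓ` are the `e ℓ`, `e ∣ n` prime to `p`. -/
theorem s16du_filter_dvd (p ℓ n : ℕ) (hp : p.Prime) (hℓ : ℓ.Prime) (hℓp : ℓ ≠ p) (hn : 1 ≤ n) :
    ((n * ℓ).divisors.filter (fun d => ¬ p ∣ d)).filter (fun d => ℓ ∣ d)
      = (n.divisors.filter (fun d => ¬ p ∣ d)).image (fun e => e * ℓ) := by
  ext d
  simp only [Finset.mem_filter, Nat.mem_divisors, Finset.mem_image]
  constructor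
  · rintro ⟨⟨⟨hd, -⟩, hpd⟩, e, rfl⟩
    refine ⟨e, ⟨⟨?_, by omega⟩, fun h => hpd (Dvd.dvd.mul_left h ℓ)⟩, mul_comm e ℓ⟩
    rw [mul_comm n ℓ] at hd
    exact (Nat.mul_dvd_mul_iff_left hℓ.pos).mp hd
  · rintro ⟨e, ⟨⟨he, -⟩, hpe⟩, rfl⟩
    refine ⟨⟨⟨Nat.mul_dvd_mul_right he ℓ, Nat.mul_ne_zero (by omega) hℓ.ne_zero⟩, ?_⟩,
      Dvd.intro_left e rfl⟩
    intro h
    rcases (Nat.Prime.dvd_mul hp).mp h with h1 | h1
    · exact hpe h1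
    · exact hℓp ((Nat.prime_dvd_prime_iff_eq hp hℓ).mp h1).symm

theorem s16du_sum_dvd (p ℓ n : ℕ) (hp : p.Prime) (hℓ : ℓ.Prime) (hℓp : ℓ ≠ p) (hn : 1 ≤ n) :
    ∑ d ∈ ((n * ℓ).divisors.filter (fun d => ¬ p ∣ d)).filter (fun d => ℓ ∣ d), (d : ℤ)
      = (ℓ : ℤ) * s16_sigmaP p n := by
  rw [s16du_filter_dvd p ℓ n hp hℓ hℓp hn, Finset.sum_image]
  · unfold s16_sigmaP
    rw [Finset.mul_sum]
    refine Finset.sum_congr rfl fun e _ => ?_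
    push_cast
    ring
  · intro a _ b _ hab
    exact Nat.eq_of_mul_eq_mul_right hℓ.pos hab

theorem s16du_filter_not_dvd (p ℓ n : ℕ) (hℓ : ℓ.Prime) (hn : 1 ≤ n) :
    ((n * ℓ).divisors.filter (fun d => ¬ p ∣ d)).filter (fun d => ¬ ℓ ∣ d)
      = (n.divisors.filter (fun d => ¬ p ∣ d)).filter (fun d => ¬ ℓ ∣ d) := by
  ext d
  simp only [Finset.mem_filter, Nat.mem_divisors]
  constructor
  · rintro ⟨⟨⟨hd, -⟩, hpd⟩, hℓd⟩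
    have hc : Nat.Coprime d ℓ := ((Nat.Prime.coprime_iff_not_dvd hℓ).mpr hℓd).symm
    exact ⟨⟨⟨hc.dvd_of_dvd_mul_right hd, by omega⟩, hpd⟩, hℓd⟩
  · rintro ⟨⟨⟨hd, -⟩, hpd⟩, hℓd⟩
    exact ⟨⟨⟨Dvd.dvd.mul_right hd ℓ, Nat.mul_ne_zero (by omega) hℓ.ne_zero⟩, hpd⟩, hℓd⟩

theorem s16du_sigmaP_split (p ℓ n : ℕ) :
    s16_sigmaP p n
      = ∑ d ∈ (n.divisors.filter (fun d => ¬ p ∣ d)).filter (fun d => ℓ ∣ d), (d : ℤ)
        + ∑ d ∈ (n.divisors.filter (fun d => ¬ p ∣ d)).filter (fun d => ¬ ℓ ∣ d), (d : ℤ) := by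
  unfold s16_sigmaP
  exact (Finset.sum_filter_add_sum_filter_not _ _ _).symm

theorem s16du_sigmaP_mul_prime (p ℓ m : ℕ) (hp : p.Prime) (hℓ : ℓ.Prime) (hℓp : ℓ ≠ p)
    (hm : 1 ≤ m) :
    s16_sigmaP p (m * ℓ)
      = (1 + (ℓ : ℤ)) * s16_sigmaP p m
        - (if ℓ ∣ m then (ℓ : ℤ) * s16_sigmaP p (m / ℓ) else 0) := by
  have h1 := s16du_sigmaP_split p ℓ (m * ℓ)
  rw [s16du_sum_dvd p ℓ m hp hℓ hℓp hm, s16du_filter_not_dvd p ℓ m hℓ hm] at h1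
  have h2 := s16du_sigmaP_split p ℓ m
  by_cases hℓm : ℓ ∣ m
  · rw [if_pos hℓm]
    obtain ⟨c, rfl⟩ := hℓm
    have hc : 1 ≤ c := by
      rcases Nat.eq_zero_or_pos c with h0 | h0
      · rw [h0, mul_zero] at hm
        omega
      · exact h0
    have h3 := s16du_sum_dvd p ℓ c hp hℓ hℓp hc
    rw [mul_comm c ℓ] at h3
    rw [h3] at h2
    rw [Nat.mul_div_cancel_left c hℓ.pos]
    linarith
  · rw [if_neg hℓm]
    have h3 : (m.divisors.filter (fun d => ¬ p ∣ d)).filter (fun d => ℓ ∣ d) = ∅ := by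
      ext d
      simp only [Finset.mem_filter, Nat.mem_divisors, Finset.notMem_empty, iff_false]
      rintro ⟨⟨⟨hd, -⟩, -⟩, hℓd⟩
      exact hℓm (dvd_trans hℓd hd)
    rw [h3, Finset.sum_empty, zero_add] at h2
    linarith
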