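import Fermat.Agent.S16.Defs
import Fermat.Agent.S16.DualArith
import Fermat.Agent.S16.DualAlg
import Fermat.Agent.S23
import Fermat.Agent.S49.Basic

/-!
# S16 / DUAL: Hecke duality over `ℤ`

`s16du_main : s16_stmt_DUAL`: if `M ∣ ε(t)` for every relation `t` (`heckeEvalForms p 2 t = 0`),
then there is a cusp form with integral `q`-expansion congruent to the Eisenstein series mod `M`.

Route: `L = intLattice p 2` (free of finite rank, saturated), `Λ ⊆ L^∨` the span of the coefficient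
functionals `a_m` (`m ≥ 1`); `Λ = L^∨` (`s16du_dual_top`); `a_m = a_1 ∘ T_m` with `T_m ∈ HeckeAlg`,
`ε(T_m) = σ'_p(m)`; so every `ψ ∈ L^∨` is `a_1 ∘ t` for some `t`; a relation for `a_1 ∘ t = 0` on `L`
is a relation on `S_2` (S23).  Take `t_i ↦ b_i^*` for a basis `b` of `L` and `f = ∑ ε(t_i) b_i`.
-/

set_option autoImplicit false

open ModularCurve CuspForm CongruenceSubgroup ModularFormClass

noncomputable section

/-- Evaluation of the abstract Hecke algebra in `End_ℂ S_2(Γ0(p))`. -/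
def s16du_ev (p : ℕ) [NeZero p] : HeckeAlg →+* Module.End ℂ (CuspForm (Gamma0 p) 2) :=
  (heckeAlgebra p 2 ∅).val.toRingHom.comp (heckeEvalForms p 2)

theorem s16du_ev_apply (p : ℕ) [NeZero p] (t : HeckeAlg) :
    s16du_ev p t = ((heckeEvalForms p 2 t : heckeAlgebra p 2 ∅) :
      Module.End ℂ (CuspForm (Gamma0 p) 2)) := rfl

theorem s16du_ev_gen_dvd (p : ℕ) [NeZero p] {q : Nat.Primes} (h : (q : ℕ) ∣ p) :
    s16du_ev p (heckeGen q) = heckeULin 2 h := by
  rw [s16du_ev_apply, heckeEvalForms_heckeGen_of_dvd h]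
  rfl

theorem s16du_ev_gen_not_dvd (p : ℕ) [NeZero p] {q : Nat.Primes} (h : ¬ (q : ℕ) ∣ p) :
    s16du_ev p (heckeGen q) = heckeTLin 2 q.2 h := by
  rw [s16du_ev_apply, heckeEvalForms_heckeGen_of_not_dvd h]
  rfl

theorem s16du_ev_mem (p : ℕ) [NeZero p] (t : HeckeAlg) {f : CuspForm (Gamma0 p) 2}
    (hf : f ∈ intLattice p 2) : s16du_ev p t f ∈ intLattice p 2 :=
  mem_intLattice_of_mem_heckeAlgebra one_le_two (heckeEvalForms p 2 t).2 hf

theorem s16du_ev_comm (p : ℕ) [NeZero p] (s t : HeckeAlg) (f : CuspForm (Gamma0 p) 2) :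
    s16du_ev p s (s16du_ev p t f) = s16du_ev p t (s16du_ev p s f) := by
  rw [← Module.End.mul_apply, ← Module.End.mul_apply, ← map_mul, ← map_mul, mul_comm]

theorem s16du_eps_gen (p : ℕ) (q : Nat.Primes) :
    s16_eps p (heckeGen q) = eisensteinSystem p q := by
  show MvPolynomial.aeval (R := ℤ) (eisensteinSystem p) (heckeGen q) = _
  rw [aeval_heckeGen]

/-- the first coefficient of `t f`, as a `ℂ`-linear functional of `f`. -/
def s16du_pair (p : ℕ) [NeZero p] (t : HeckeAlg) : CuspForm (Gamma0 p) 2 →ₗ[ℂ] ℂ :=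
  (Fermat.Agent.S49.qcLin p 1) ∘ₗ (s16du_ev p t)

theorem s16du_pair_apply (p : ℕ) [NeZero p] (t : HeckeAlg) (f : CuspForm (Gamma0 p) 2) :
    s16du_pair p t f = qCoeff (s16du_ev p t f) 1 := rfl

theorem s16du_pair_add (p : ℕ) [NeZero p] (s t : HeckeAlg) :
    s16du_pair p (s + t) = s16du_pair p s + s16du_pair p t := by
  unfold s16du_pair
  rw [map_add, LinearMap.comp_add]

theorem s16du_pair_zero (p : ℕ) [NeZero p] : s16du_pair p 0 = 0 := by
  unfold s16du_pair
  rw [map_zero, LinearMap.comp_zero]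

theorem s16du_pair_sub (p : ℕ) [NeZero p] (s t : HeckeAlg) :
    s16du_pair p (s - t) = s16du_pair p s - s16du_pair p t := by
  unfold s16du_pair
  rw [map_sub, LinearMap.comp_sub]

theorem s16du_pair_intCast_mul (p : ℕ) [NeZero p] (c : ℤ) (t : HeckeAlg) :
    s16du_pair p ((c : HeckeAlg) * t) = (c : ℂ) • s16du_pair p t := by
  ext f
  rw [LinearMap.smul_apply, s16du_pair_apply, s16du_pair_apply, map_mul, map_intCast,
    Module.End.mul_apply, Module.End.intCast_apply, ← Int.cast_smul_eq_zsmul ℂ,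
    ← Fermat.Agent.S49.qcLin_apply, map_smul, Fermat.Agent.S49.qcLin_apply]

theorem s16du_pair_sum (p : ℕ) [NeZero p] {ι : Type*} (s : Finset ι) (t : ι → HeckeAlg) :
    s16du_pair p (∑ i ∈ s, t i) = ∑ i ∈ s, s16du_pair p (t i) := by
  classical
  induction s using Finset.induction_on with
  | empty => simp [s16du_pair_zero]
  | insert a s ha ih => rw [Finset.sum_insert ha, Finset.sum_insert ha, s16du_pair_add, ih]

/-! ### The elements `T_m` -/

theorem s16du_exists_Tm (p : ℕ) [Fact p.Prime] (m : ℕ) (hm : 1 ≤ m) :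
    ∃ t : HeckeAlg, (∀ f : CuspForm (Gamma0 p) 2, s16du_pair p t f = qCoeff f m) ∧
      s16_eps p t = s16_sigmaP p m := by
  have hp : p.Prime := Fact.out
  induction m using Nat.strong_induction_on with
  | _ n ih =>
    rcases Nat.eq_or_lt_of_le hm with h1 | h1
    · subst h1
      refine ⟨1, fun f => ?_, ?_⟩
      · rw [s16du_pair_apply, map_one, Module.End.one_apply]
      · rw [map_one, s16du_sigmaP_one p hp]
    · have hn1 : n ≠ 1 := by omega
      have hℓ : (n.minFac).Prime := Nat.minFac_prime hn1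
      set ℓ := n.minFac with hℓdef
      have hℓn : ℓ ∣ n := Nat.minFac_dvd n
      set m := n / ℓ with hmdef
      have hmℓ : m * ℓ = n := Nat.div_mul_cancel hℓn
      have hm1 : 1 ≤ m := by
        rcases Nat.eq_zero_or_pos m with h0 | h0
        · rw [h0, zero_mul] at hmℓ
          omega
        · exact h0
      have hmn : m < n := by
        have := hℓ.two_le
        nlinarith
      obtain ⟨tm, htm, htm'⟩ := ih m hmn hm1
      by_cases hℓp : ℓ ∣ p
      · -- `ℓ = p`
        have hℓeq : ℓ = p := (Nat.prime_dvd_prime_iff_eq hℓ hp).mp hℓp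
        refine ⟨tm * heckeGen ⟨ℓ, hℓ⟩, fun f => ?_, ?_⟩
        · rw [s16du_pair_apply, map_mul, Module.End.mul_apply, ← s16du_pair_apply, htm,
            s16du_ev_gen_dvd p (q := ⟨ℓ, hℓ⟩) hℓp, Fermat.Agent.S49.qCoeff_U hℓ hℓp, hmℓ]
        · rw [map_mul, htm', s16du_eps_gen, eisensteinSystem_of_dvd (ℓ := ⟨ℓ, hℓ⟩) hℓp, mul_one,
            ← hmℓ, hℓeq, s16du_sigmaP_mul_level p m hp hm1]
      · have hℓne : ℓ ≠ p := fun h => hℓp (h ▸ dvd_refl _)
        have hσ := s16du_sigmaP_mul_prime p ℓ m hp hℓ hℓne hm1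
        rw [hmℓ] at hσ
        have hεg : s16_eps p (heckeGen ⟨ℓ, hℓ⟩) = 1 + (ℓ : ℤ) := by
          rw [s16du_eps_gen, eisensteinSystem_of_not_dvd (ℓ := ⟨ℓ, hℓ⟩) hℓp]
        by_cases hℓm : ℓ ∣ m
        · have hmℓ1 : 1 ≤ m / ℓ := by
            obtain ⟨c, hc⟩ := hℓm
            rw [hc, Nat.mul_div_cancel_left c hℓ.pos]
            rcases Nat.eq_zero_or_pos c with h0 | h0
            · rw [h0, mul_zero] at hc
              omega
            · exact h0
          have hmℓn : m / ℓ < n := lt_of_le_of_lt (Nat.div_le_self m ℓ) hmn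
          obtain ⟨t', ht', ht''⟩ := ih (m / ℓ) hmℓn hmℓ1
          refine ⟨tm * heckeGen ⟨ℓ, hℓ⟩ - ((ℓ : ℤ) : HeckeAlg) * t', fun f => ?_, ?_⟩
          · rw [s16du_pair_sub, LinearMap.sub_apply, s16du_pair_intCast_mul, LinearMap.smul_apply,
              ht', s16du_pair_apply, map_mul, Module.End.mul_apply, ← s16du_pair_apply, htm,
              s16du_ev_gen_not_dvd p (q := ⟨ℓ, hℓ⟩) hℓp,
              Fermat.Agent.S49.qCoeff_T hℓ hℓp, if_pos hℓm, hmℓ]
            simp
          · rw [map_sub, map_mul, map_mul, htm', ht'', hεg, map_intCast, hσ, if_pos hℓm]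
            simp
            ring
        · refine ⟨tm * heckeGen ⟨ℓ, hℓ⟩, fun f => ?_, ?_⟩
          · rw [s16du_pair_apply, map_mul, Module.End.mul_apply, ← s16du_pair_apply, htm,
              s16du_ev_gen_not_dvd p (q := ⟨ℓ, hℓ⟩) hℓp,
              Fermat.Agent.S49.qCoeff_T hℓ hℓp, if_neg hℓm, hmℓ, add_zero]
          · rw [map_mul, htm', hεg, hσ, if_neg hℓm]
            ring

/-! ### Integer coefficient functionals on the lattice -/

theorem s16du_exists_int (N : ℕ) (n : ℕ) (f : ↥(intLattice N 2)) :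
    ∃ z : ℤ, qCoeff (f : CuspForm (Gamma0 N) 2) n = (z : ℂ) :=
  (Fermat.Agent.S49.mem_intLattice_iff' (f : CuspForm (Gamma0 N) 2)).mp f.2 n

/-- the `n`-th `q`-coefficient of a lattice element, as an integer. -/
def s16du_czFun (N : ℕ) (n : ℕ) (f : ↥(intLattice N 2)) : ℤ :=
  Classical.choose (s16du_exists_int N n f)

theorem s16du_czFun_spec (N : ℕ) (n : ℕ) (f : ↥(intLattice N 2)) :
    ((s16du_czFun N n f : ℤ) : ℂ) = qCoeff (f : CuspForm (Gamma0 N) 2) n :=
  (Classical.choose_spec (s16du_exists_int N n f)).symm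

theorem s16du_qCoeff_zsmul (N : ℕ) (c : ℤ) (g : CuspForm (Gamma0 N) 2) (n : ℕ) :
    qCoeff (⇑(c • g : CuspForm (Gamma0 N) 2)) n = (c : ℂ) * qCoeff (⇑g) n := by
  rw [← Int.cast_smul_eq_zsmul ℂ c g, Fermat.Agent.S49.qCoeff_smul']

/-- the `n`-th `q`-coefficient as a `ℤ`-linear functional on the lattice. -/
def s16du_cz (N : ℕ) (n : ℕ) : ↥(intLattice N 2) →ₗ[ℤ] ℤ where
  toFun := s16du_czFun N n
  map_add' f g := by
    apply Int.cast_injective (α := ℂ)
    rw [Int.cast_add, s16du_czFun_spec, s16du_czFun_spec, s16du_czFun_spec, Submodule.coe_add,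
      Fermat.Agent.S49.qCoeff_add']
  map_smul' c f := by
    apply Int.cast_injective (α := ℂ)
    rw [RingHom.id_apply, smul_eq_mul, Int.cast_mul, s16du_czFun_spec, s16du_czFun_spec,
      Submodule.coe_smul, s16du_qCoeff_zsmul]

theorem s16du_cz_spec (N : ℕ) (n : ℕ) (f : ↥(intLattice N 2)) :
    ((s16du_cz N n f : ℤ) : ℂ) = qCoeff (f : CuspForm (Gamma0 N) 2) n :=
  s16du_czFun_spec N n f

/-- saturation of the lattice: a lattice element all of whose coefficients are divisible by `d`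
is divisible by `d` in the lattice. -/
theorem s16du_saturated (N : ℕ) (d : ℤ) (x : ↥(intLattice N 2))
    (h : ∀ m : ℕ, 1 ≤ m → d ∣ s16du_cz N m x) : ∃ x' : ↥(intLattice N 2), x = d • x' := by
  rcases eq_or_ne d 0 with hd | hd
  · subst hd
    refine ⟨0, ?_⟩
    rw [smul_zero]
    apply Subtype.ext
    rw [Submodule.coe_zero]
    apply Fermat.Agent.S49.eq_zero_of_qCoeff
    intro n
    rcases Nat.eq_zero_or_pos n with hn | hn
    · rw [hn]
      exact Fermat.Agent.S49.qCoeff_zero_idx _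
    · have h1 := h n hn
      rw [zero_dvd_iff] at h1
      rw [← s16du_cz_spec, h1, Int.cast_zero]
  · have hdC : (d : ℂ) ≠ 0 := Int.cast_ne_zero.mpr hd
    have hmem : ((d : ℂ)⁻¹ • (x : CuspForm (Gamma0 N) 2)) ∈ intLattice N 2 := by
      rw [Fermat.Agent.S49.mem_intLattice_iff']
      intro n
      rw [Fermat.Agent.S49.qCoeff_smul']
      rcases Nat.eq_zero_or_pos n with hn | hn
      · refine ⟨0, ?_⟩
        rw [hn, Fermat.Agent.S49.qCoeff_zero_idx, mul_zero, Int.cast_zero]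
      · obtain ⟨k, hk⟩ := h n hn
        refine ⟨k, ?_⟩
        rw [← s16du_cz_spec, hk, Int.cast_mul, ← mul_assoc, inv_mul_cancel₀ hdC, one_mul]
    refine ⟨⟨_, hmem⟩, ?_⟩
    apply Subtype.ext
    rw [Submodule.coe_smul, ← Int.cast_smul_eq_zsmul ℂ, smul_smul, mul_inv_cancel₀ hdC, one_smul]

/-! ### Relations on the lattice are relations on `S_2` -/

theorem s16du_ker (p : ℕ) [Fact p.Prime] (t : HeckeAlg)
    (h : ∀ f : ↥(intLattice p 2), s16du_pair p t (f : CuspForm (Gamma0 p) 2) = 0) :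
    heckeEvalForms p 2 t = 0 := by
  apply latticeRestrict_injective p ∅ (Fermat.Agent.S23.result p) (heckeEvalForms p 2 t)
  refine LinearMap.ext fun f => Subtype.ext ?_
  show s16du_ev p t (f : CuspForm (Gamma0 p) 2) = 0
  apply Fermat.Agent.S49.eq_zero_of_qCoeff
  intro n
  rcases Nat.eq_zero_or_pos n with hn | hn
  · rw [hn]
    exact Fermat.Agent.S49.qCoeff_zero_idx _
  · obtain ⟨T, hT, -⟩ := s16du_exists_Tm p n hn
    rw [← hT, s16du_pair_apply, s16du_ev_comm, ← s16du_pair_apply]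
    exact h ⟨_, s16du_ev_mem p T f.2⟩

/-! ### Every functional on the lattice is `a_1 ∘ t` -/

theorem s16du_span_top (p : ℕ) [Fact p.Prime] :
    Submodule.span ℤ (Set.range fun m : ℕ => s16du_cz p (m + 1)) = ⊤ := by
  haveI := intLattice.moduleFinite p
  haveI := intLattice.moduleFree p
  apply s16du_dual_top
  intro d _ x hx
  apply s16du_saturated p d x
  intro m hm
  obtain ⟨k, rfl⟩ : ∃ k, m = k + 1 := ⟨m - 1, by omega⟩
  exact hx _ (Submodule.subset_span ⟨k, rfl⟩)

theorem s16du_repr (p : ℕ) [Fact p.Prime] (ψ : Module.Dual ℤ ↥(intLattice p 2)) :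
    ∃ t : HeckeAlg, ∀ f : ↥(intLattice p 2),
      s16du_pair p t (f : CuspForm (Gamma0 p) 2) = ((ψ f : ℤ) : ℂ) := by
  have hψ : ψ ∈ Submodule.span ℤ (Set.range fun m : ℕ => s16du_cz p (m + 1)) := by
    rw [s16du_span_top]
    exact Submodule.mem_top
  induction hψ using Submodule.span_induction with
  | mem φ hφ =>
    obtain ⟨m, rfl⟩ := hφ
    obtain ⟨T, hT, -⟩ := s16du_exists_Tm p (m + 1) (by omega)
    exact ⟨T, fun f => by rw [hT, s16du_cz_spec]⟩
  | zero => exact ⟨0, fun f => by rw [s16du_pair_zero]; simp⟩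
  | add φ₁ φ₂ _ _ h₁ h₂ =>
    obtain ⟨t₁, ht₁⟩ := h₁
    obtain ⟨t₂, ht₂⟩ := h₂
    exact ⟨t₁ + t₂, fun f => by
      rw [s16du_pair_add, LinearMap.add_apply, ht₁, ht₂, LinearMap.add_apply, Int.cast_add]⟩
  | smul c φ _ h₁ =>
    obtain ⟨t₁, ht₁⟩ := h₁
    exact ⟨(c : HeckeAlg) * t₁, fun f => by
      rw [s16du_pair_intCast_mul, LinearMap.smul_apply, ht₁, LinearMap.smul_apply, smul_eq_mul,
        smul_eq_mul, Int.cast_mul]⟩

/-! ### The main theorem -/

/-- the duality statement for every modulus `M` (including `M = 0`). -/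
theorem s16du_main_all (p : ℕ) [Fact p.Prime] (M : ℕ)
    (hM : ∀ t : HeckeAlg, heckeEvalForms p 2 t = 0 → (M : ℤ) ∣ s16_eps p t) :
    ∃ f : CuspForm (CongruenceSubgroup.Gamma0 p) 2, s16_IsEisCong p M f := by
  classical
  haveI := intLattice.moduleFinite p
  haveI := intLattice.moduleFree p
  set r := Module.finrank ℤ ↥(intLattice p 2) with hr
  let b : Module.Basis (Fin r) ℤ ↥(intLattice p 2) := Module.finBasis ℤ ↥(intLattice p 2)
  have hex : ∀ i : Fin r, ∃ t : HeckeAlg, ∀ f : ↥(intLattice p 2),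
      s16du_pair p t (f : CuspForm (Gamma0 p) 2) = ((b.coord i f : ℤ) : ℂ) :=
    fun i => s16du_repr p (b.coord i)
  choose t ht using hex
  -- the cusp form
  set f : ↥(intLattice p 2) := ∑ i, s16_eps p (t i) • b i with hf
  refine ⟨(f : CuspForm (Gamma0 p) 2), fun m hm => ⟨s16du_cz p m f, (s16du_cz_spec p m f).symm, ?_⟩⟩
  obtain ⟨T, hT, hTε⟩ := s16du_exists_Tm p m hm
  -- the relation
  set t' : HeckeAlg := T - ∑ i, ((s16du_cz p m (b i) : ℤ) : HeckeAlg) * t i with ht'
  have hcz : ∀ g : ↥(intLattice p 2),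
      s16du_cz p m g = ∑ i, b.coord i g * s16du_cz p m (b i) := by
    intro g
    conv_lhs => rw [← b.sum_repr g]
    rw [map_sum]
    refine Finset.sum_congr rfl fun i _ => ?_
    rw [map_smul, smul_eq_mul, Module.Basis.coord_apply]
  have hrel : heckeEvalForms p 2 t' = 0 := by
    apply s16du_ker p t'
    intro g
    rw [ht', s16du_pair_sub, LinearMap.sub_apply, hT, s16du_pair_sum, LinearMap.sum_apply,
      ← s16du_cz_spec, hcz g, Int.cast_sum, sub_eq_zero]
    refine Finset.sum_congr rfl fun i _ => ?_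
    rw [s16du_pair_intCast_mul, LinearMap.smul_apply, ht i g, smul_eq_mul, Int.cast_mul, mul_comm]
  have hdiv := hM t' hrel
  rw [ht', map_sub, hTε, map_sum] at hdiv
  have hval : s16du_cz p m f = ∑ i, s16_eps p (t i) * s16du_cz p m (b i) := by
    rw [hf, map_sum]
    refine Finset.sum_congr rfl fun i _ => ?_
    rw [map_smul, smul_eq_mul]
  have hsum : ∑ i, s16_eps p (((s16du_cz p m (b i) : ℤ) : HeckeAlg) * t i)
      = ∑ i, s16_eps p (t i) * s16du_cz p m (b i) := by
    refine Finset.sum_congr rfl fun i _ => ?_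
    rw [map_mul, map_intCast, Int.cast_id, mul_comm]
  rw [hsum, ← hval] at hdiv
  have := (dvd_neg (a := (M : ℤ))).mpr hdiv
  rwa [neg_sub] at this

theorem s16du_main : s16_stmt_DUAL := fun p _ M _ hM => s16du_main_all p M hM

end
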