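import Fermat.Agent.S28.CAFormal
import Fermat.Agent.S28.NBMain
import Fermat.Agent.S28.ThetaFormal
import Fermat.Prelude.Thm_ModularCurve_coeffMap_qExpand

/-!
# S16 / F3b: the algebraic core  (OWNER: helper2; off-main)

Let `k = ZMod 3`, `J = j ∈ k⸨q⸩` and `ξ ∈ k⸨q⸩` a root of the Artin-Schreier type cubic
`X³ - J² X - J²`.  If the norm polynomial `(X - ξ) · charpoly (mult. by y)` (`y ∈ k⸨s⸩`,
`s = q^{1/p}`, `p ≠ 3`) has coefficients in `k[J]`, we get a contradiction:

* the cubic is irreducible over `k(J)` (`s16f3_cubic_irreducible`), hence divides the norm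
  polynomial, so its other roots `ξ ± J` are roots of `charpoly (mult. by y)`;
* a root `w ∈ k⸨q⸩` of `charpoly (mult. by y)` satisfies `w(s^p) = y` (`s16f3_root`);
* hence `ξ + J = ξ - J`, i.e. `J = 0`.
-/

set_option autoImplicit false
set_option linter.style.haveILetI false

noncomputable section

namespace Fermat.Agent.S16

open ModularCurve Polynomial Fermat.Agent.S28

/-! ### Roots of the norm polynomial in `k⸨q⸩` -/

section Root

variable {F : Type*} [Field F]

lemma s16f3_scale_inv_scale (ξ : Fˣ) (x : LaurentSeries F) :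
    s28_scale ξ⁻¹ (s28_scale ξ x) = x := by
  ext n
  rw [s28_scale_coeff, s28_scale_coeff, ← mul_assoc, ← Units.val_mul, inv_zpow, inv_mul_cancel,
    Units.val_one, one_mul]

/-- over a field with a primitive `p`-th root of unity: a root `w(s^p)` of the norm polynomial
of `y` is `y`. -/
lemma s16f3_root_aux (p : ℕ) [NeZero p] (ζ : Fˣ) (hζ : IsPrimitiveRoot (ζ : F) p)
    (y w : LaurentSeries F)
    (h : (((s28caf_M p y).map ⇑(qExpand F p)).charpoly).eval (qExpand F p w) = 0) :
    qExpand F p w = y := by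
  classical
  rw [s28caf_charpoly_eq_prod p ζ hζ, eval_prod] at h
  obtain ⟨b, -, hb⟩ := Finset.prod_eq_zero_iff.mp h
  rw [eval_sub, eval_X, eval_C, sub_eq_zero] at hb
  have hpow : ((ζ ^ (b : ℕ))⁻¹ : Fˣ) ^ p = 1 := by
    have h1 : (ζ : F) ^ p = 1 := hζ.pow_eq_one
    have h2 : ζ ^ p = 1 := Units.ext (by rw [Units.val_pow_eq_pow_val, h1, Units.val_one])
    rw [inv_pow, ← pow_mul, mul_comm, pow_mul, h2, one_pow, inv_one]
  have h3 := congrArg (s28_scale (ζ ^ (b : ℕ))⁻¹) hb
  rw [s28caf_scale_qExpand p _ hpow, s16f3_scale_inv_scale] at h3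
  exact h3

/-- a root `w ∈ k⸨q⸩` of the norm polynomial of `y ∈ k⸨s⸩` satisfies `w(s^p) = y`. -/
theorem s16f3_root (p : ℕ) [NeZero p] (hpF : (p : F) ≠ 0) (y w : LaurentSeries F)
    (h : ((s28caf_M p y).charpoly).eval w = 0) : qExpand F p w = y := by
  classical
  haveI : NeZero (p : F) := ⟨hpF⟩
  let E := AlgebraicClosure F
  let ι : F →+* E := algebraMap F E
  have hι : Function.Injective ι := (algebraMap F E).injective
  obtain ⟨ζ₀, hζ₀⟩ := HasEnoughRootsOfUnity.exists_primitiveRoot E p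
  have hζ₀u : IsUnit ζ₀ := hζ₀.isUnit (NeZero.ne p)
  obtain ⟨ζ, rfl⟩ := hζ₀u
  -- transport the equation
  have hM : ((s28caf_M p y).map ⇑((qExpand E p).comp (coeffMap ι))) =
      (s28caf_M p (coeffMap ι y)).map ⇑(qExpand E p) := by
    apply Matrix.ext
    intro i j
    simp only [Matrix.map_apply, s28caf_M, Matrix.of_apply, RingHom.comp_apply]
    rw [s28caf_coeffMap_entry]
  have h1 := congrArg ((qExpand E p).comp (coeffMap ι)) h
  rw [map_zero, ← Polynomial.eval₂_hom, ← Polynomial.eval_map, ← Matrix.charpoly_map, hM,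
    RingHom.comp_apply] at h1
  have h2 := s16f3_root_aux p ζ hζ₀ (coeffMap ι y) (coeffMap ι w) h1
  rw [← coeffMap_qExpand] at h2
  exact s28cg_coeffMap_injective ι hι h2

end Root

/-! ### The cubic `X³ - T² X - T²` has no root in `k(T)` -/

section Cubic

variable {k : Type*} [Field k]

/-- no polynomial `a` satisfies `a³ = T² a + T²`. -/
theorem s16f3_no_poly_root (a : Polynomial k) :
    a ^ 3 - (X : Polynomial k) ^ 2 * a - X ^ 2 ≠ 0 := by
  intro h
  have h1 : a ^ 3 = X ^ 2 * (a + 1) := by linear_combination h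
  have h2 : (X : Polynomial k) ∣ a ^ 3 := ⟨X * (a + 1), by rw [h1]; ring⟩
  have h3 : (X : Polynomial k) ∣ a := Polynomial.prime_X.dvd_of_dvd_pow h2
  obtain ⟨b, rfl⟩ := h3
  have h4 : (X : Polynomial k) ^ 2 * (X * b ^ 3 - X * b - 1) = 0 := by linear_combination h
  have h5 : (X : Polynomial k) * b ^ 3 - X * b - 1 = 0 := by
    rcases mul_eq_zero.mp h4 with h6 | h6
    · exact absurd (pow_eq_zero_iff (two_ne_zero) |>.mp h6) Polynomial.X_ne_zero
    · exact h6
  have h6 := congrArg (Polynomial.eval 0) h5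
  simp at h6

/-- the cubic over `k(T)`. -/
def s16f3_cubic (k : Type*) [Field k] : Polynomial (RatFunc k) :=
  X ^ 3 - C (RatFunc.X ^ 2) * X - C (RatFunc.X ^ 2)

theorem s16f3_cubic_monic : (s16f3_cubic k).Monic := by
  unfold s16f3_cubic
  have h : (X : Polynomial (RatFunc k)) ^ 3 - C (RatFunc.X ^ 2) * X - C (RatFunc.X ^ 2) =
      X ^ 3 - (C (RatFunc.X ^ 2) * X + C (RatFunc.X ^ 2)) := by ring
  rw [h]
  apply Polynomial.monic_X_pow_sub
  refine lt_of_le_of_lt (Polynomial.degree_linear_le) ?_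
  norm_num

theorem s16f3_cubic_natDegree : (s16f3_cubic k).natDegree = 3 := by
  unfold s16f3_cubic
  have h : (X : Polynomial (RatFunc k)) ^ 3 - C (RatFunc.X ^ 2) * X - C (RatFunc.X ^ 2) =
      X ^ 3 - (C (RatFunc.X ^ 2) * X + C (RatFunc.X ^ 2)) := by ring
  rw [h, Polynomial.natDegree_sub_eq_left_of_natDegree_lt, natDegree_X_pow]
  rw [natDegree_X_pow]
  exact lt_of_le_of_lt Polynomial.natDegree_linear_le (by norm_num)

theorem s16f3_cubic_no_root (r : RatFunc k) : (s16f3_cubic k).eval r ≠ 0 := by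
  intro h
  have hint : IsIntegral (Polynomial k) r := by
    refine ⟨X ^ 3 - (C (X ^ 2) * X + C (X ^ 2)), ?_, ?_⟩
    · apply Polynomial.monic_X_pow_sub
      refine lt_of_le_of_lt Polynomial.degree_linear_le ?_
      norm_num
    · unfold s16f3_cubic at h
      simp only [eval_sub, eval_pow, eval_X, eval_mul, eval_C] at h
      simp only [eval₂_sub, eval₂_add, eval₂_pow, eval₂_X, eval₂_mul, eval₂_C, map_pow,
        RatFunc.algebraMap_X]
      linear_combination h
  obtain ⟨a, ha⟩ := IsIntegrallyClosed.isIntegral_iff.mp hint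
  apply s16f3_no_poly_root a
  apply IsFractionRing.injective (Polynomial k) (RatFunc k)
  rw [map_sub, map_sub, map_mul, map_pow, map_pow, ha, RatFunc.algebraMap_X, map_zero]
  unfold s16f3_cubic at h
  simpa only [eval_sub, eval_pow, eval_X, eval_mul, eval_C] using h

theorem s16f3_cubic_irreducible : Irreducible (s16f3_cubic k) := by
  rw [(s16f3_cubic_monic (k := k)).irreducible_iff_roots_eq_zero_of_degree_le_three
    (by rw [s16f3_cubic_natDegree]; norm_num) (le_of_eq s16f3_cubic_natDegree)]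
  apply Multiset.eq_zero_of_forall_notMem
  intro r hr
  exact s16f3_cubic_no_root r ((mem_roots (s16f3_cubic_monic (k := k)).ne_zero).mp hr)

end Cubic

/-! ### The contradiction -/

theorem s16f3_three_eq_zero : (3 : LaurentSeries (ZMod 3)) = 0 := by
  have h : ((3 : ℕ) : ZMod 3) = 0 := ZMod.natCast_self 3
  have h2 := congrArg (HahnSeries.C : ZMod 3 →+* LaurentSeries (ZMod 3)) h
  rw [map_natCast, map_zero] at h2
  exact_mod_cast h2

/-- **Algebraic core of F3b.** -/
theorem s16f3_alg (p : ℕ) [NeZero p] (hp3 : ((p : ℕ) : ZMod 3) ≠ 0)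
    (ξ y : LaurentSeries (ZMod 3))
    (hξ : ξ ^ 3 - jqModC (ZMod 3) ^ 2 * ξ - jqModC (ZMod 3) ^ 2 = 0)
    (U : Polynomial (Polynomial ℤ))
    (hU : U.map (s28_evalAt (jqModC (ZMod 3))) = (X - C ξ) * (s28caf_M p y).charpoly) :
    False := by
  classical
  have hJ : Transcendental (ZMod 3) (jqModC (ZMod 3)) := s28nb_transcendental_jq (ZMod 3)
  have hφ : Function.Injective (Polynomial.aeval (R := ZMod 3) (jqModC (ZMod 3))) :=
    transcendental_iff_injective.mp hJ
  let ψ : RatFunc (ZMod 3) →ₐ[ZMod 3] LaurentSeries (ZMod 3) :=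
    IsFractionRing.liftAlgHom (K := RatFunc (ZMod 3)) hφ
  have hψ : ∀ P : Polynomial (ZMod 3), ψ (algebraMap (Polynomial (ZMod 3)) (RatFunc (ZMod 3)) P) =
      Polynomial.aeval (jqModC (ZMod 3)) P := fun P => by
    rw [IsFractionRing.liftAlgHom_apply, IsFractionRing.lift_algebraMap]
    rfl
  have hψX : ψ RatFunc.X = jqModC (ZMod 3) := by
    rw [← RatFunc.algebraMap_X, hψ, Polynomial.aeval_X]
  let ρ : Polynomial ℤ →+* RatFunc (ZMod 3) :=
    (algebraMap (Polynomial (ZMod 3)) (RatFunc (ZMod 3))).comp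
      (Polynomial.mapRingHom (Int.castRingHom (ZMod 3)))
  have hcomp : (ψ : RatFunc (ZMod 3) →+* LaurentSeries (ZMod 3)).comp ρ =
      s28_evalAt (jqModC (ZMod 3)) := by
    apply Polynomial.ringHom_ext
    · intro a
      simp [s28_evalAt, ρ]
    · simp only [ρ, RingHom.coe_comp, Function.comp_apply, Polynomial.coe_mapRingHom,
        Polynomial.map_X]
      refine ((hψ Polynomial.X).trans (Polynomial.aeval_X _)).trans ?_
      simp [s28_evalAt]
  have hc : eval₂ (ψ : RatFunc (ZMod 3) →+* LaurentSeries (ZMod 3)) ξ (s16f3_cubic (ZMod 3)) = 0 := by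
    unfold s16f3_cubic
    simp only [eval₂_sub, eval₂_pow, eval₂_X, eval₂_mul, eval₂_C, map_pow]
    rw [show (ψ : RatFunc (ZMod 3) →+* LaurentSeries (ZMod 3)) RatFunc.X = jqModC (ZMod 3) from hψX]
    exact hξ
  have hn : eval₂ (ψ : RatFunc (ZMod 3) →+* LaurentSeries (ZMod 3)) ξ (U.map ρ) = 0 := by
    rw [eval₂_map, hcomp, ← eval_map, hU, eval_mul, eval_sub, eval_X, eval_C, sub_self, zero_mul]
  -- the cubic divides the norm polynomial over `k(T)`
  have hdvd : s16f3_cubic (ZMod 3) ∣ U.map ρ := by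
    by_contra hnd
    have hcop : IsCoprime (s16f3_cubic (ZMod 3)) (U.map ρ) :=
      (s16f3_cubic_irreducible.coprime_iff_not_dvd).mpr hnd
    obtain ⟨a, b, hab⟩ := hcop
    have h1 := congrArg (eval₂ (ψ : RatFunc (ZMod 3) →+* LaurentSeries (ZMod 3)) ξ) hab
    rw [eval₂_add, eval₂_mul, eval₂_mul, eval₂_one, hc, hn, mul_zero, mul_zero, add_zero] at h1
    exact zero_ne_one h1
  have hdvdL : (s16f3_cubic (ZMod 3)).map (ψ : RatFunc (ZMod 3) →+* LaurentSeries (ZMod 3)) ∣
      (X - C ξ) * (s28caf_M p y).charpoly := by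
    have h1 := Polynomial.map_dvd (ψ : RatFunc (ZMod 3) →+* LaurentSeries (ZMod 3)) hdvd
    rwa [Polynomial.map_map, hcomp, hU] at h1
  have h3 := s16f3_three_eq_zero
  have hJ0 : jqModC (ZMod 3) ≠ 0 := by
    intro h
    apply hJ
    rw [h]
    exact isAlgebraic_zero
  have hroot : ∀ w : LaurentSeries (ZMod 3),
      w ^ 3 - jqModC (ZMod 3) ^ 2 * w - jqModC (ZMod 3) ^ 2 = 0 → w ≠ ξ →
        qExpand (ZMod 3) p w = y := by
    intro w hw hne
    apply s16f3_root p hp3 y w
    obtain ⟨Q, hQ⟩ := hdvdL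
    have h4 := congrArg (Polynomial.eval w) hQ
    have h5 : eval w ((s16f3_cubic (ZMod 3)).map
        (ψ : RatFunc (ZMod 3) →+* LaurentSeries (ZMod 3))) = 0 := by
      unfold s16f3_cubic
      simp only [Polynomial.map_sub, Polynomial.map_pow, Polynomial.map_X, Polynomial.map_mul,
        Polynomial.map_C, eval_sub, eval_pow, eval_X, eval_mul, eval_C, map_pow]
      rw [show (ψ : RatFunc (ZMod 3) →+* LaurentSeries (ZMod 3)) RatFunc.X = jqModC (ZMod 3)
        from hψX]
      exact hw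
    rw [eval_mul, eval_sub, eval_X, eval_C, eval_mul, h5, zero_mul] at h4
    rcases mul_eq_zero.mp h4 with h6 | h6
    · exact absurd (sub_eq_zero.mp h6) hne
    · exact h6
  have hp1 := hroot (ξ + jqModC (ZMod 3))
    (by linear_combination hξ + (ξ ^ 2 * jqModC (ZMod 3) + ξ * jqModC (ZMod 3) ^ 2) * h3)
    (by
      intro h
      apply hJ0
      linear_combination h)
  have hp2 := hroot (ξ - jqModC (ZMod 3))
    (by linear_combination hξ + (-(ξ ^ 2 * jqModC (ZMod 3)) + ξ * jqModC (ZMod 3) ^ 2) * h3)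
    (by
      intro h
      apply hJ0
      linear_combination -h)
  have h5 : ξ + jqModC (ZMod 3) = ξ - jqModC (ZMod 3) :=
    qExpand_injective p (hp1.trans hp2.symm)
  apply hJ0
  linear_combination jqModC (ZMod 3) * h3 - h5

end Fermat.Agent.S16
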