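import Fermat.Agent.S16.F3FormalZero
import Fermat.Agent.S16.F3Alg

/-!
# S16 / F3b: the formal part, expansion at infinity, and the assembly  (OWNER: helper2; off-main)

* `s16f3_formal_inf`: the expansion `c (E₄ - G²) E₄² / Δ` of `φ` at infinity has integral
  coefficients and reduces mod `3` to `ξ = -A j`;
* `s16f3_formal_all : s16f3_stmt_formal`;
* `s16f3_final : s16tr_stmt → s16_stmt_F3b` is in `F3Final.lean`.
-/

set_option autoImplicit false

namespace Fermat.Agent.S16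

noncomputable section

open ModularCurve Fermat.Agent.S28

theorem s16f3_formal_inf (p : ℕ) [NeZero p] (D : ℕ) (g : ℕ → ℤ) (Gs : PowerSeries ℂ)
    (hp : ((p : ℕ) : ZMod 3) ≠ 0) (hD : ((D : ℕ) : ZMod 3) ≠ 0)
    (hcoef : ∀ m : ℕ, (D : ℂ) * PowerSeries.coeff m Gs =
      (if m = 0 then (D : ℂ) else 0) + 9 * (g m : ℂ)) :
    ∃ x : LaurentSeries ℤ,
      coeffMap (Int.castRingHom ℂ) x = s16f3_Xser 1 (((p : ℂ) * (D : ℂ)) ^ 2 / 3) Gs ∧
      coeffMap (Int.castRingHom (ZMod 3)) x = s16f3_xi := by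
  -- the power series identity `D Gs = D + 9 g`
  have hps : PowerSeries.C (D : ℂ) * Gs =
      PowerSeries.C (D : ℂ) + PowerSeries.C (9 : ℂ) *
        PowerSeries.map (Int.castRingHom ℂ) (PowerSeries.mk g) := by
    ext n
    rw [PowerSeries.coeff_C_mul, map_add, PowerSeries.coeff_C_mul, PowerSeries.coeff_map,
      PowerSeries.coeff_mk, PowerSeries.coeff_C, hcoef n, eq_intCast]
  have hL := congrArg (HahnSeries.ofPowerSeries ℤ ℂ) hps
  simp only [map_mul, map_add, map_ofNat, map_natCast] at hL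
  have hp1 : ((p : ℕ) : ZMod 3) * ((p : ℕ) : ZMod 3) = 1 := s16f3_sq_eq_one _ hp
  have hD1 : ((D : ℕ) : ZMod 3) * ((D : ℕ) : ZMod 3) = 1 := s16f3_sq_eq_one _ hD
  -- the three constants
  obtain ⟨K1, hK1, hK1'⟩ : ∃ K : LaurentSeries ℤ,
      coeffMap (Int.castRingHom ℂ) K =
        80 * (p : LaurentSeries ℂ) ^ 2 * (D : LaurentSeries ℂ) ^ 2 ∧
      coeffMap (Int.castRingHom (ZMod 3)) K = -1 := by
    refine ⟨80 * (p : LaurentSeries ℤ) ^ 2 * (D : LaurentSeries ℤ) ^ 2, ?_, ?_⟩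
    · simp only [map_mul, map_pow, map_natCast, map_ofNat]
    · simp only [map_mul, map_pow, map_natCast, map_ofNat]
      have e80 : (80 : LaurentSeries (ZMod 3)) = -1 := by
        have h : ((80 : ℕ) : ZMod 3) = -1 := by decide
        have h2 := congrArg (HahnSeries.C : ZMod 3 →+* LaurentSeries (ZMod 3)) h
        rw [map_natCast, map_neg, map_one] at h2
        exact_mod_cast h2
      have ep : (p : LaurentSeries (ZMod 3)) ^ 2 = 1 := by
        have h2 := congrArg (HahnSeries.C : ZMod 3 →+* LaurentSeries (ZMod 3)) hp1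
        rw [map_mul, map_natCast, map_one] at h2
        rw [pow_two, h2]
      have eD : (D : LaurentSeries (ZMod 3)) ^ 2 = 1 := by
        have h2 := congrArg (HahnSeries.C : ZMod 3 →+* LaurentSeries (ZMod 3)) hD1
        rw [map_mul, map_natCast, map_one] at h2
        rw [pow_two, h2]
      rw [e80, ep, eD, mul_one, mul_one]
  obtain ⟨K2, hK2, hK2'⟩ : ∃ K : LaurentSeries ℤ,
      coeffMap (Int.castRingHom ℂ) K =
        6 * (p : LaurentSeries ℂ) ^ 2 * (D : LaurentSeries ℂ) ∧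
      coeffMap (Int.castRingHom (ZMod 3)) K = 0 := by
    refine ⟨6 * (p : LaurentSeries ℤ) ^ 2 * (D : LaurentSeries ℤ), ?_, ?_⟩
    · simp only [map_mul, map_pow, map_natCast, map_ofNat]
    · simp only [map_mul, map_pow, map_natCast, map_ofNat]
      have e6 : (6 : LaurentSeries (ZMod 3)) = 0 := by
        have h3 := s16f3_three_eq_zero
        linear_combination (2 : LaurentSeries (ZMod 3)) * h3
      rw [e6, zero_mul, zero_mul]
  obtain ⟨K3, hK3, hK3'⟩ : ∃ K : LaurentSeries ℤ,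
      coeffMap (Int.castRingHom ℂ) K = 27 * (p : LaurentSeries ℂ) ^ 2 ∧
      coeffMap (Int.castRingHom (ZMod 3)) K = 0 := by
    refine ⟨27 * (p : LaurentSeries ℤ) ^ 2, ?_, ?_⟩
    · simp only [map_mul, map_pow, map_natCast, map_ofNat]
    · simp only [map_mul, map_pow, map_natCast, map_ofNat]
      have e27 : (27 : LaurentSeries (ZMod 3)) = 0 := by
        have h3 := s16f3_three_eq_zero
        linear_combination (9 : LaurentSeries (ZMod 3)) * h3
      rw [e27, zero_mul]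
  refine ⟨(K1 * qExpand ℤ 1 (HahnSeries.ofPowerSeries ℤ ℤ s16f3_A) -
      K2 * HahnSeries.ofPowerSeries ℤ ℤ (PowerSeries.mk g) -
      K3 * HahnSeries.ofPowerSeries ℤ ℤ (PowerSeries.mk g) ^ 2) *
      qExpand ℤ 1 (HahnSeries.ofPowerSeries ℤ ℤ eisenstein4) ^ 2 *
      qExpand ℤ 1 (s28_DeltaInv ℤ), ?_, ?_⟩
  · unfold s16f3_Xser
    rw [map_mul, map_mul, map_pow, ← s16f3_E4_level_int, coeffMap_qExpand,
      s28ca_coeffMap_DeltaInv]
    congr 2
    rw [s16f3_E4_level 1, map_sub, map_sub, map_mul, map_mul, map_mul, map_pow, hK1, hK2, hK3,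
      coeffMap_qExpand, s28cg_coeffMap_ofPowerSeries, s28cg_coeffMap_ofPowerSeries]
    set a : LaurentSeries ℂ := qExpand ℂ 1 (HahnSeries.ofPowerSeries ℤ ℂ
        (PowerSeries.map (Int.castRingHom ℂ) s16f3_A)) with ha
    set g' : LaurentSeries ℂ := HahnSeries.ofPowerSeries ℤ ℂ
        (PowerSeries.map (Int.castRingHom ℂ) (PowerSeries.mk g)) with hg'
    set G0 : LaurentSeries ℂ := HahnSeries.ofPowerSeries ℤ ℂ Gs with hG0
    have e1 : (HahnSeries.C (((p : ℂ) * (D : ℂ)) ^ 2 / 3) : LaurentSeries ℂ) =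
        (p : LaurentSeries ℂ) ^ 2 * (D : LaurentSeries ℂ) ^ 2 * HahnSeries.C (1 / 3 : ℂ) := by
      rw [← map_natCast (HahnSeries.C (Γ := ℤ) (R := ℂ)) p,
        ← map_natCast (HahnSeries.C (Γ := ℤ) (R := ℂ)) D, ← map_pow, ← map_pow, ← map_mul,
        ← map_mul]
      congr 1
      ring
    have h3 : (HahnSeries.C (1 / 3 : ℂ) : LaurentSeries ℂ) * 3 = 1 := by
      rw [← map_ofNat (HahnSeries.C (Γ := ℤ) (R := ℂ)) 3, ← map_mul]
      have : (1 / 3 : ℂ) * 3 = 1 := by norm_num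
      rw [this, map_one]
    rw [e1]
    set P : LaurentSeries ℂ := (p : LaurentSeries ℂ) with hP
    set Dc : LaurentSeries ℂ := (D : LaurentSeries ℂ) with hDc
    set t : LaurentSeries ℂ := HahnSeries.C (1 / 3 : ℂ) with ht
    linear_combination
      (-(80 * P ^ 2 * Dc ^ 2 * a - 6 * P ^ 2 * Dc * g' - 27 * P ^ 2 * g' ^ 2)) * h3 +
      (t * P ^ 2 * (Dc * G0 + Dc + 9 * g')) * hL
  · rw [map_mul, map_mul, map_pow, map_sub, map_sub, map_mul, map_mul, map_mul, hK1', hK2', hK3',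
      zero_mul, zero_mul, sub_zero, sub_zero, qExpand_one_apply,
      qExpand_one_apply, qExpand_one_apply, s28cg_coeffMap_ofPowerSeries,
      s28cg_coeffMap_ofPowerSeries, s16f3_map_eis, map_one, one_pow, mul_one,
      s28ca_coeffMap_DeltaInv, ← s16f3_jq_eq, neg_one_mul, neg_mul]
    rfl

/-- **the formal part of F3b.** -/
theorem s16f3_formal_all : s16f3_stmt_formal := by
  intro p _ D g Gs Gs0 hp hD _ hcoef hGs0
  obtain ⟨x, hx, hxi⟩ := s16f3_formal_inf p D g Gs hp hD hcoef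
  obtain ⟨x0, hx0⟩ := s16f3_formal_zero p D g Gs Gs0 hp hcoef hGs0
  exact ⟨x, x0, hx, hx0, hxi⟩

end

end Fermat.Agent.S16
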