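import Fermat.Agent.S16.F3Main
import Fermat.Agent.S16.F3FormalInf

/-!
# S16 / F3b: final statement  (OWNER: helper2; off-main)

`s16f3_final : s16tr_stmt → s16_stmt_F3b` (`ℓ = 3`, `p ≡ 2 mod 3`: no `G ≡ 1 mod 9`), modulo the
trace statement (TR) only.
-/

set_option autoImplicit false

namespace Fermat.Agent.S16

/-- **F3b** modulo (TR). -/
theorem s16f3_final (hTR : s16tr_stmt) : s16_stmt_F3b :=
  s16f3_main hTR s16f3_formal_all

end Fermat.Agent.S16
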