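import Fermat.Agent.S28.NBMain
import Fermat.Agent.S28.NBOrder

/-!
# S16 / (F5), Step 5: the algebra on the `j`-line  (helper8)

If `c Δ⁻¹ = Q₁(j)`, `y₂ = Q₂(j)`, `y₃ = Q₃(j)` in `𝔽_ℓ((q))` with `y₂³ = j (c Δ⁻¹)²` and
`y₃² = (j - 1728) (c Δ⁻¹)`, `c ≠ 0`, then `ℓ ∣ 1728`; in particular `ℓ < 5`.
-/

set_option autoImplicit false

noncomputable section

namespace Fermat.Agent.S16

open Polynomial HahnSeries ModularCurve Fermat.Agent.S28

theorem s16f5_coeff_DeltaInv (A : Type*) [CommRing A] :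
    (s28_DeltaInv A).coeff (-1) = 1 := by
  have h1 : (s28_DeltaInv A).coeff (-1) = (s28_DeltaInv A).coeff (0 + (-1)) := by
    rw [zero_add]
  rw [h1, s28_DeltaInv, HahnSeries.coeff_single_mul_add, one_mul]
  rw [show (0 : ℤ) = ((0 : ℕ) : ℤ) from rfl, HahnSeries.ofPowerSeries_apply_coeff,
    PowerSeries.coeff_map, PowerSeries.coeff_zero_eq_constantCoeff,
    constantCoeff_dedekindEtaUnitInv]
  simp

theorem s16f5_natDegree_Q1 {k : Type*} [Field k] (c : k) (hc : c ≠ 0) (Q : Polynomial k)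
    (h : HahnSeries.C c * s28_DeltaInv k = Polynomial.aeval (jqModC k) Q) :
    Q.natDegree = 1 := by
  rw [s28nb_aeval_eq_eval₂] at h
  have hcoeff : (HahnSeries.C c * s28_DeltaInv k).coeff (-1) = c := by
    rw [HahnSeries.C_mul_eq_smul, HahnSeries.coeff_smul, s16f5_coeff_DeltaInv, smul_eq_mul,
      mul_one]
  have hQ0 : Q ≠ 0 := by
    intro h0
    rw [h0, Polynomial.eval₂_zero] at h
    rw [h, HahnSeries.coeff_zero] at hcoeff
    exact hc hcoeff.symm
  have hlead := s28nb_coeff_aeval_jq Q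
  rw [← h] at hlead
  have hle : Q.natDegree ≤ 1 := by
    by_contra hgt
    rw [not_le] at hgt
    have h0 : (HahnSeries.C c * s28_DeltaInv k).coeff (-(Q.natDegree : ℤ)) = 0 := by
      rw [HahnSeries.C_mul_eq_smul, HahnSeries.coeff_smul,
        s28nb_vanishBelow_DeltaInv k _ (by omega), smul_zero]
    rw [h0] at hlead
    exact hQ0 (Polynomial.leadingCoeff_eq_zero.mp hlead.symm)
  rcases Nat.eq_zero_or_pos Q.natDegree with h0 | hpos
  · exfalso
    rw [Polynomial.eq_C_of_natDegree_eq_zero h0, Polynomial.eval₂_C] at h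
    rw [h, HahnSeries.C_apply, HahnSeries.coeff_single_of_ne (by norm_num)] at hcoeff
    exact hc hcoeff.symm
  · omega

theorem s16f5_alg_poly {k : Type*} [Field k] (Q₁ Q₂ Q₃ : Polynomial k) (t : k)
    (hd : Q₁.natDegree = 1)
    (r2 : Q₂ ^ 3 = Polynomial.X * Q₁ ^ 2)
    (r3 : Q₃ ^ 2 = (Polynomial.X - Polynomial.C t) * Q₁) : t = 0 := by
  -- `Q₂(0) = 0`
  have e2 : Q₂.eval 0 = 0 := by
    have := congrArg (Polynomial.eval 0) r2
    simp only [Polynomial.eval_pow, Polynomial.eval_mul, Polynomial.eval_X, zero_mul] at this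
    exact pow_eq_zero_iff (n := 3) (by norm_num) |>.mp this
  obtain ⟨R₂, hR₂⟩ : Polynomial.X ∣ Q₂ := by
    rw [Polynomial.X_dvd_iff, Polynomial.coeff_zero_eq_eval_zero]
    exact e2
  -- `Q₁(0) = 0`
  have e1 : Q₁.eval 0 = 0 := by
    rw [hR₂] at r2
    have h1 : Polynomial.X * (Polynomial.X ^ 2 * R₂ ^ 3) = Polynomial.X * Q₁ ^ 2 := by
      rw [← r2]
      ring
    have h2 := mul_left_cancel₀ Polynomial.X_ne_zero h1
    have := congrArg (Polynomial.eval 0) h2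
    simp only [Polynomial.eval_pow, Polynomial.eval_mul, Polynomial.eval_X] at this
    rw [zero_pow (by norm_num), zero_mul] at this
    exact pow_eq_zero_iff (n := 2) (by norm_num) |>.mp this.symm
  obtain ⟨R₁, hR₁⟩ : Polynomial.X ∣ Q₁ := by
    rw [Polynomial.X_dvd_iff, Polynomial.coeff_zero_eq_eval_zero]
    exact e1
  -- `R₁` is a nonzero constant
  have hR₁0 : R₁ ≠ 0 := by
    intro h0
    rw [hR₁, h0, mul_zero, Polynomial.natDegree_zero] at hd
    omega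
  have hR₁d : R₁.natDegree = 0 := by
    rw [hR₁, Polynomial.natDegree_X_mul hR₁0] at hd
    omega
  have hR₁e : R₁.eval 0 ≠ 0 := by
    rw [Polynomial.eq_C_of_natDegree_eq_zero hR₁d, Polynomial.eval_C]
    intro h0
    apply hR₁0
    rw [Polynomial.eq_C_of_natDegree_eq_zero hR₁d, h0, Polynomial.C_0]
  -- `Q₃(0) = 0`
  have e3 : Q₃.eval 0 = 0 := by
    have := congrArg (Polynomial.eval 0) r3
    simp only [Polynomial.eval_pow, Polynomial.eval_mul, e1, mul_zero] at this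
    exact pow_eq_zero_iff (n := 2) (by norm_num) |>.mp this
  obtain ⟨R₃, hR₃⟩ : Polynomial.X ∣ Q₃ := by
    rw [Polynomial.X_dvd_iff, Polynomial.coeff_zero_eq_eval_zero]
    exact e3
  rw [hR₃, hR₁] at r3
  have h1 : Polynomial.X * (Polynomial.X * R₃ ^ 2) =
      Polynomial.X * ((Polynomial.X - Polynomial.C t) * R₁) := by
    rw [show Polynomial.X * (Polynomial.X * R₃ ^ 2) = (Polynomial.X * R₃) ^ 2 by ring, r3]
    ring
  have h2 := mul_left_cancel₀ Polynomial.X_ne_zero h1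
  have h3 := congrArg (Polynomial.eval 0) h2
  simp only [Polynomial.eval_pow, Polynomial.eval_mul, Polynomial.eval_X, Polynomial.eval_sub,
    Polynomial.eval_C, zero_mul, zero_sub] at h3
  rcases mul_eq_zero.mp h3.symm with h4 | h4
  · exact neg_eq_zero.mp h4
  · exact absurd h4 hR₁e

/-- **Step 5** -/
theorem s16f5_alg (ℓ : ℕ) [Fact ℓ.Prime] (hℓ : 5 ≤ ℓ) (c : ZMod ℓ) (hc : c ≠ 0)
    (y₂ y₃ : LaurentSeries (ZMod ℓ)) (Q₁ Q₂ Q₃ : Polynomial (ZMod ℓ))
    (h1 : HahnSeries.C c * s28_DeltaInv (ZMod ℓ) = Polynomial.aeval (jqModC (ZMod ℓ)) Q₁)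
    (h2 : y₂ = Polynomial.aeval (jqModC (ZMod ℓ)) Q₂)
    (h3 : y₃ = Polynomial.aeval (jqModC (ZMod ℓ)) Q₃)
    (r2 : y₂ ^ 3 = jqModC (ZMod ℓ) * (HahnSeries.C c * s28_DeltaInv (ZMod ℓ)) ^ 2)
    (r3 : y₃ ^ 2 = (jqModC (ZMod ℓ) - HahnSeries.C (1728 : ZMod ℓ)) *
      (HahnSeries.C c * s28_DeltaInv (ZMod ℓ))) : False := by
  have hℓp : ℓ.Prime := Fact.out
  have hinj : Function.Injective (Polynomial.aeval (R := ZMod ℓ) (jqModC (ZMod ℓ))) :=
    transcendental_iff_injective.mp (s28nb_transcendental_jq (ZMod ℓ))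
  have hd := s16f5_natDegree_Q1 c hc Q₁ h1
  have p2 : Q₂ ^ 3 = Polynomial.X * Q₁ ^ 2 := by
    apply hinj
    rw [map_pow, map_mul, map_pow, Polynomial.aeval_X, ← h1, ← h2]
    exact r2
  have p3 : Q₃ ^ 2 = (Polynomial.X - Polynomial.C (1728 : ZMod ℓ)) * Q₁ := by
    apply hinj
    rw [map_pow, map_mul, map_sub, Polynomial.aeval_X, Polynomial.aeval_C, ← h1, ← h3,
      s28nb_algebraMap_eq_C']
    exact r3
  have ht := s16f5_alg_poly Q₁ Q₂ Q₃ (1728 : ZMod ℓ) hd p2 p3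
  have h1728 : ((1728 : ℕ) : ZMod ℓ) = 0 := by
    rw [← ht]
    norm_num
  rw [ZMod.natCast_eq_zero_iff] at h1728
  have e : (1728 : ℕ) = 2 ^ 6 * 3 ^ 3 := by norm_num
  rw [e] at h1728
  rcases (Nat.Prime.dvd_mul hℓp).mp h1728 with h | h
  · have := (Nat.prime_dvd_prime_iff_eq hℓp Nat.prime_two).mp (hℓp.dvd_of_dvd_pow h)
    omega
  · have := (Nat.prime_dvd_prime_iff_eq hℓp Nat.prime_three).mp (hℓp.dvd_of_dvd_pow h)
    omega

end Fermat.Agent.S16
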