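import Fermat.Agent.S28.NBMain
import Fermat.Agent.S28.NBTheta

/-!
# S16 / F5: the pure-algebra lemma (CUSP)  (OWNER: helper8; off-main)

Let `k = ZMod ℓ`, `J = j ∈ k⸨q⸩`, `K = k(J)`.

* `s16f5_frob_mem`: `w ^ ℓ ∈ K → w ∈ K` (derivative argument with `θ = q d/dq`);
* `s16f5_cusp`: if `(X - a y) (X - y) ^ p` has coefficients in `ℤ[J]` (`a ≠ 0`, `ℓ ∤ p`,
  `ℓ ≠ 2`, `2 ≤ p`), then `y` is a polynomial in `J`.
-/

set_option autoImplicit false
set_option linter.style.haveILetI false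

noncomputable section

namespace Fermat.Agent.S16

open Polynomial ModularCurve Fermat.Agent.S28

section Theta

variable {k : Type*} [Field k]

/-- chain rule for `θ` on polynomials in `x`. -/
theorem s16f5_theta_aeval (x : LaurentSeries k) (T : Polynomial k) :
    s28_theta (Polynomial.aeval x T) = Polynomial.aeval x (Polynomial.derivative T) * s28_theta x := by
  induction T using Polynomial.induction_on' with
  | add P Q hP hQ =>
    rw [map_add, map_add, hP, hQ, Polynomial.derivative_add, map_add, add_mul]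
  | monomial n c =>
    rw [Polynomial.aeval_monomial, s28nb_algebraMap_eq_C, s28nb_theta_mul, s28nb_theta_C,
      zero_mul, zero_add, Polynomial.derivative_monomial, Polynomial.aeval_monomial,
      s28nb_algebraMap_eq_C]
    cases n with
    | zero =>
      simp [s28nb_theta_one]
    | succ n =>
      rw [s28nb_theta_pow, Nat.add_sub_cancel, map_mul, map_natCast]
      push_cast
      ring

theorem s16f5_theta_pow' {A : Type*} [CommRing A] (x : LaurentSeries A) (n : ℕ) :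
    s28_theta (x ^ n) = (n : LaurentSeries A) * x ^ (n - 1) * s28_theta x := by
  cases n with
  | zero => simp [s28nb_theta_one]
  | succ n => rw [s28nb_theta_pow, Nat.add_sub_cancel]

theorem s16f5_theta_jq_ne_zero : s28_theta (jqModC k) ≠ 0 := by
  intro h
  have h1 := congrArg (fun z : LaurentSeries k => z.coeff (-1)) h
  simp only [s28_theta_coeff, HahnSeries.coeff_zero, coeff_jqModC_neg_one] at h1
  simp at h1

end Theta

section Frob

variable (ℓ : ℕ) [Fact ℓ.Prime]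

instance s16f5_charP : CharP (LaurentSeries (ZMod ℓ)) ℓ :=
  charP_of_injective_algebraMap (algebraMap (ZMod ℓ) (LaurentSeries (ZMod ℓ))).injective ℓ

/-- `w ^ ℓ = T(J)` implies `w = T₁(J)`. -/
theorem s16f5_frob_root (w : LaurentSeries (ZMod ℓ)) (T : Polynomial (ZMod ℓ))
    (h : w ^ ℓ = Polynomial.aeval (jqModC (ZMod ℓ)) T) :
    ∃ T₁ : Polynomial (ZMod ℓ), w = Polynomial.aeval (jqModC (ZMod ℓ)) T₁ := by
  have hℓ : ℓ ≠ 0 := (Fact.out : ℓ.Prime).ne_zero
  -- `θ (w ^ ℓ) = 0`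
  have h1 : s28_theta (w ^ ℓ) = 0 := by
    rw [s16f5_theta_pow', CharP.cast_eq_zero, zero_mul, zero_mul]
  rw [h, s16f5_theta_aeval] at h1
  have h2 : Polynomial.aeval (jqModC (ZMod ℓ)) (Polynomial.derivative T) = 0 := by
    rcases mul_eq_zero.mp h1 with h3 | h3
    · exact h3
    · exact absurd h3 s16f5_theta_jq_ne_zero
  have h3 : Polynomial.derivative T = 0 := by
    have := (transcendental_iff.mp (s28nb_transcendental_jq (ZMod ℓ))) (Polynomial.derivative T)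
    by_contra hne
    exact this h2 |> hne
  have h4 : Polynomial.expand (ZMod ℓ) ℓ (Polynomial.contract ℓ T) = T :=
    Polynomial.expand_contract ℓ h3 hℓ
  rw [ZMod.expand_card] at h4
  refine ⟨Polynomial.contract ℓ T, ?_⟩
  have h5 : w ^ ℓ = (Polynomial.aeval (jqModC (ZMod ℓ)) (Polynomial.contract ℓ T)) ^ ℓ := by
    rw [h, ← map_pow, h4]
  have h6 : (w - Polynomial.aeval (jqModC (ZMod ℓ)) (Polynomial.contract ℓ T)) ^ ℓ = 0 := by
    rw [sub_pow_char, h5, sub_self]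
  exact sub_eq_zero.mp (pow_eq_zero_iff hℓ |>.mp h6)

/-- `w ^ ℓ ∈ k(J)` implies `w ∈ k(J)`. -/
theorem s16f5_frob_mem (w : LaurentSeries (ZMod ℓ))
    (h : w ^ ℓ ∈ IntermediateField.adjoin (ZMod ℓ) {jqModC (ZMod ℓ)}) :
    w ∈ IntermediateField.adjoin (ZMod ℓ) {jqModC (ZMod ℓ)} := by
  have hℓ : ℓ ≠ 0 := (Fact.out : ℓ.Prime).ne_zero
  obtain ⟨N, D, hND⟩ := (IntermediateField.mem_adjoin_simple_iff (ZMod ℓ) _).mp h
  set J := jqModC (ZMod ℓ) with hJ
  by_cases hD : Polynomial.aeval J D = 0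
  · rw [hD, div_zero] at hND
    have : w = 0 := pow_eq_zero_iff hℓ |>.mp hND
    rw [this]
    exact zero_mem _
  · have h1 : (w * Polynomial.aeval J D) ^ ℓ = Polynomial.aeval J (N * D ^ (ℓ - 1)) := by
      rw [mul_pow, hND, map_mul, map_pow, ← pow_sub_one_mul hℓ (Polynomial.aeval J D)]
      field_simp
    obtain ⟨T₁, hT₁⟩ := s16f5_frob_root ℓ _ _ h1
    have h2 : w = Polynomial.aeval J T₁ / Polynomial.aeval J D := by
      rw [← hT₁]
      field_simp
    rw [h2]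
    exact (IntermediateField.mem_adjoin_simple_iff (ZMod ℓ) _).mpr ⟨T₁, D, rfl⟩

theorem s16f5_frob_pow_mem (b : ℕ) (w : LaurentSeries (ZMod ℓ))
    (h : w ^ (ℓ ^ b) ∈ IntermediateField.adjoin (ZMod ℓ) {jqModC (ZMod ℓ)}) :
    w ∈ IntermediateField.adjoin (ZMod ℓ) {jqModC (ZMod ℓ)} := by
  induction b generalizing w with
  | zero => simpa using h
  | succ b ih =>
    apply ih
    apply s16f5_frob_mem ℓ
    rw [← pow_mul, ← pow_succ]
    exact h

end Frob

/-! ### The polynomial `(X - a) (X - 1) ^ p` over `ZMod ℓ` -/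

section NumberTheory

variable (ℓ : ℕ) [Fact ℓ.Prime]

/-- `g = (X - a) (X - 1) ^ p`. -/
def s16f5_g (p : ℕ) (a : ZMod ℓ) : Polynomial (ZMod ℓ) :=
  (X - C a) * (X - C 1) ^ p

theorem s16f5_X_sub_one_pow_coeff (n i : ℕ) :
    ((X - C (1 : ZMod ℓ)) ^ n).coeff i = (-1) ^ (n - i) * (n.choose i : ZMod ℓ) := by
  have e : (X - C (1 : ZMod ℓ)) = X + C (-1) := by
    rw [map_neg, sub_eq_add_neg]
  rw [e, Polynomial.coeff_X_add_C_pow]

theorem s16f5_X_sub_one_pow_expand (b m : ℕ) :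
    (X - C (1 : ZMod ℓ)) ^ (ℓ ^ b * m) =
      Polynomial.expand (ZMod ℓ) (ℓ ^ b) ((X - C 1) ^ m) := by
  rw [pow_mul, sub_pow_char_pow, map_pow, map_sub, Polynomial.expand_X, Polynomial.expand_C,
    ← map_pow, one_pow]

theorem s16f5_g_coeff_zero (p : ℕ) (a : ZMod ℓ) :
    (s16f5_g ℓ p a).coeff 0 = -a * (-1) ^ p := by
  rw [s16f5_g, Polynomial.mul_coeff_zero, s16f5_X_sub_one_pow_coeff]
  simp

theorem s16f5_g_coeff_one (p : ℕ) (hp : 1 ≤ p) (a : ZMod ℓ) :
    (s16f5_g ℓ p a).coeff 1 = (-1) ^ p * (1 + (p : ZMod ℓ) * a) := by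
  have h := Polynomial.coeff_X_sub_C_mul (R := ZMod ℓ) (r := a) (a := 0)
    (p := (X - C 1) ^ p)
  rw [zero_add] at h
  rw [s16f5_g, h, s16f5_X_sub_one_pow_coeff, s16f5_X_sub_one_pow_coeff]
  obtain ⟨n, rfl⟩ : ∃ n, p = n + 1 := ⟨p - 1, (Nat.sub_add_cancel hp).symm⟩
  simp only [Nat.sub_zero, Nat.choose_zero_right, Nat.cast_one, mul_one, Nat.add_sub_cancel,
    Nat.choose_one_right]
  rw [pow_succ]
  ring

theorem s16f5_g_coeff_p (p : ℕ) (hp : 1 ≤ p) (a : ZMod ℓ) :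
    (s16f5_g ℓ p a).coeff p = -((p : ZMod ℓ) + a) := by
  obtain ⟨n, rfl⟩ : ∃ n, p = n + 1 := ⟨p - 1, (Nat.sub_add_cancel hp).symm⟩
  rw [s16f5_g, Polynomial.coeff_X_sub_C_mul, s16f5_X_sub_one_pow_coeff,
    s16f5_X_sub_one_pow_coeff]
  simp only [Nat.add_sub_cancel_left, pow_one, Nat.sub_self, pow_zero, Nat.choose_self,
    Nat.cast_one, mul_one]
  have e : (n + 1).choose n = n + 1 := Nat.choose_succ_self_right n
  rw [e]
  push_cast
  ring

/-- degenerate case `ℓ ∣ p + 1`, `a = 1`. -/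
theorem s16f5_g_case_neg (p : ℕ) (hpl : ℓ ∣ p + 1) :
    ∃ b : ℕ, 1 ≤ b ∧ ℓ ^ b ≤ p + 1 ∧ (s16f5_g ℓ p 1).coeff (ℓ ^ b) ≠ 0 := by
  have hℓ := (Fact.out : ℓ.Prime)
  obtain ⟨b, m, hm, hpm⟩ := Nat.exists_eq_pow_mul_and_not_dvd (Nat.succ_ne_zero p) ℓ hℓ.ne_one
  have hb : 1 ≤ b := by
    rcases Nat.eq_zero_or_pos b with h0 | h0
    · subst h0
      rw [pow_zero, one_mul] at hpm
      exact absurd (hpm ▸ hpl) hm
    · exact h0
  have hm0 : m ≠ 0 := by
    rintro rfl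
    exact hm (dvd_zero _)
  refine ⟨b, hb, ?_, ?_⟩
  · have : ℓ ^ b ≤ ℓ ^ b * m := Nat.le_mul_of_pos_right _ (Nat.pos_of_ne_zero hm0)
    have h2 : p + 1 = ℓ ^ b * m := hpm
    omega
  · have e : s16f5_g ℓ p 1 = (X - C 1) ^ (ℓ ^ b * m) := by
      have h2 : p + 1 = ℓ ^ b * m := hpm
      rw [s16f5_g, ← h2, pow_succ, mul_comm]
    rw [e, s16f5_X_sub_one_pow_expand]
    have h3 := Polynomial.coeff_expand_mul (R := ZMod ℓ) (p := ℓ ^ b)
      (pow_pos hℓ.pos b) ((X - C 1) ^ m) 1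
    rw [one_mul] at h3
    rw [h3, s16f5_X_sub_one_pow_coeff, Nat.choose_one_right]
    apply mul_ne_zero
    · exact pow_ne_zero _ (neg_ne_zero.mpr one_ne_zero)
    · intro h4
      exact hm ((ZMod.natCast_eq_zero_iff m ℓ).mp h4)

/-- degenerate case `ℓ ∣ p - 1`, `a = -1`. -/
theorem s16f5_g_case_pos (hℓ2 : ℓ ≠ 2) (p : ℕ) (hp : 2 ≤ p) (hpl : ℓ ∣ p - 1) :
    ∃ b : ℕ, 1 ≤ b ∧ ℓ ^ b ≤ p + 1 ∧ (s16f5_g ℓ p (-1)).coeff (ℓ ^ b) ≠ 0 := by
  have hℓ := (Fact.out : ℓ.Prime)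
  have hp1 : p - 1 ≠ 0 := by omega
  obtain ⟨b, m, hm, hpm⟩ := Nat.exists_eq_pow_mul_and_not_dvd hp1 ℓ hℓ.ne_one
  have hb : 1 ≤ b := by
    rcases Nat.eq_zero_or_pos b with h0 | h0
    · subst h0
      rw [pow_zero, one_mul] at hpm
      exact absurd (hpm ▸ hpl) hm
    · exact h0
  have hm0 : m ≠ 0 := by
    rintro rfl
    exact hm (dvd_zero _)
  have hℓ3 : 3 ≤ ℓ := by
    have := hℓ.two_le
    omega
  have hn3 : 3 ≤ ℓ ^ b := by
    calc 3 ≤ ℓ := hℓ3
      _ = ℓ ^ 1 := (pow_one ℓ).symm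
      _ ≤ ℓ ^ b := Nat.pow_le_pow_right hℓ.pos hb
  set n := ℓ ^ b with hn
  have hle : n ≤ n * m := Nat.le_mul_of_pos_right _ (Nat.pos_of_ne_zero hm0)
  refine ⟨b, hb, by omega, ?_⟩
  have hpe : p = (n * m) + 1 := by omega
  set E := Polynomial.expand (ZMod ℓ) n ((X - C 1) ^ m) with hE
  have e : s16f5_g ℓ p (-1) = (X - C (-1)) * ((X - C 1) * E) := by
    rw [s16f5_g, hpe, pow_succ, hn, s16f5_X_sub_one_pow_expand, mul_comm (Polynomial.expand _ _ _)]
  have hnpos : 0 < n := by omega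
  have c1 : E.coeff (n - 2) = 0 := by
    rw [hE, Polynomial.coeff_expand hnpos, if_neg]
    intro hdvd
    have := Nat.le_of_dvd (by omega) hdvd
    omega
  have c2 : E.coeff (n - 1) = 0 := by
    rw [hE, Polynomial.coeff_expand hnpos, if_neg]
    intro hdvd
    have := Nat.le_of_dvd (by omega) hdvd
    omega
  have c3 : E.coeff n = (-1) ^ (m - 1) * (m : ZMod ℓ) := by
    have h3 := Polynomial.coeff_expand_mul (R := ZMod ℓ) (p := n) hnpos ((X - C 1) ^ m) 1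
    rw [one_mul] at h3
    rw [hE, h3, s16f5_X_sub_one_pow_coeff, Nat.choose_one_right]
  have d1 : ((X - C (1 : ZMod ℓ)) * E).coeff (n - 1) = 0 := by
    have h := Polynomial.coeff_X_sub_C_mul (R := ZMod ℓ) (r := 1) (a := n - 2) (p := E)
    have e2 : n - 2 + 1 = n - 1 := by omega
    rw [e2] at h
    rw [h, c1, c2]
    simp
  have d2 : ((X - C (1 : ZMod ℓ)) * E).coeff n = -((-1) ^ (m - 1) * (m : ZMod ℓ)) := by
    have h := Polynomial.coeff_X_sub_C_mul (R := ZMod ℓ) (r := 1) (a := n - 1) (p := E)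
    have e2 : n - 1 + 1 = n := by omega
    rw [e2] at h
    rw [h, c2, c3]
    simp
  have d3 : (s16f5_g ℓ p (-1)).coeff n = -((-1) ^ (m - 1) * (m : ZMod ℓ)) := by
    have h := Polynomial.coeff_X_sub_C_mul (R := ZMod ℓ) (r := -1) (a := n - 1)
      (p := (X - C 1) * E)
    have e2 : n - 1 + 1 = n := by omega
    rw [e2] at h
    rw [e, h, d1, d2]
    ring
  rw [d3]
  apply neg_ne_zero.mpr
  apply mul_ne_zero
  · exact pow_ne_zero _ (neg_ne_zero.mpr one_ne_zero)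
  · intro h4
    exact hm ((ZMod.natCast_eq_zero_iff m ℓ).mp h4)

/-- the number-theoretic core of (CUSP). -/
theorem s16f5_g_exists (hℓ2 : ℓ ≠ 2) (p : ℕ) (hp : 2 ≤ p) (a : ZMod ℓ) :
    (s16f5_g ℓ p a).coeff 1 ≠ 0 ∨ (s16f5_g ℓ p a).coeff p ≠ 0 ∨
      ∃ b : ℕ, 1 ≤ b ∧ ℓ ^ b ≤ p + 1 ∧ (s16f5_g ℓ p a).coeff (ℓ ^ b) ≠ 0 := by
  have hℓ := (Fact.out : ℓ.Prime)
  by_cases h1 : (s16f5_g ℓ p a).coeff 1 = 0
  swap
  · exact Or.inl h1
  by_cases h2 : (s16f5_g ℓ p a).coeff p = 0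
  swap
  · exact Or.inr (Or.inl h2)
  right; right
  rw [s16f5_g_coeff_one ℓ p (by omega)] at h1
  rw [s16f5_g_coeff_p ℓ p (by omega)] at h2
  have ha : a = -(p : ZMod ℓ) := by
    have := neg_eq_zero.mp h2
    exact eq_neg_of_add_eq_zero_right this
  have h3 : (1 : ZMod ℓ) + (p : ZMod ℓ) * a = 0 := by
    rcases mul_eq_zero.mp h1 with h | h
    · exact absurd h (pow_ne_zero _ (neg_ne_zero.mpr one_ne_zero))
    · exact h
  have h4 : ((p : ZMod ℓ) - 1) * ((p : ZMod ℓ) + 1) = 0 := by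
    rw [ha] at h3
    linear_combination -h3
  rcases mul_eq_zero.mp h4 with h5 | h5
  · -- `p = 1`, `a = -1`
    have hp1 : (p : ZMod ℓ) = 1 := sub_eq_zero.mp h5
    have ha' : a = -1 := by rw [ha, hp1]
    have hdvd : ℓ ∣ p - 1 := by
      rw [← ZMod.natCast_eq_zero_iff, Nat.cast_sub (by omega), hp1]
      simp
    rw [ha']
    exact s16f5_g_case_pos ℓ hℓ2 p hp hdvd
  · -- `p = -1`, `a = 1`
    have hp1 : (p : ZMod ℓ) = -1 := eq_neg_of_add_eq_zero_left h5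
    have ha' : a = 1 := by rw [ha, hp1, neg_neg]
    have hdvd : ℓ ∣ p + 1 := by
      rw [← ZMod.natCast_eq_zero_iff]
      push_cast
      rw [hp1]
      simp
    rw [ha']
    exact s16f5_g_case_neg ℓ p hdvd

end NumberTheory

/-! ### The lemma (CUSP) -/

section Cusp

variable (ℓ : ℕ) [Fact ℓ.Prime]

theorem s16f5_evalAt_mem (Q : Polynomial ℤ) :
    s28_evalAt (jqModC (ZMod ℓ)) Q ∈
      IntermediateField.adjoin (ZMod ℓ) {jqModC (ZMod ℓ)} := by
  rw [s28_evalAt, Polynomial.coe_eval₂RingHom, Polynomial.eval₂_eq_sum_range]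
  refine sum_mem fun i _ => mul_mem ?_ (pow_mem ?_ i)
  · rw [eq_intCast]
    exact intCast_mem _ _
  · exact IntermediateField.subset_adjoin _ _ (Set.mem_singleton _)

theorem s16f5_C_mem (c : ZMod ℓ) :
    (HahnSeries.C c : LaurentSeries (ZMod ℓ)) ∈
      IntermediateField.adjoin (ZMod ℓ) {jqModC (ZMod ℓ)} := by
  rw [← s28nb_algebraMap_eq_C]
  exact IntermediateField.algebraMap_mem _ c

/-- homogeneity of the norm polynomial. -/
theorem s16f5_homog (p : ℕ) (a : ZMod ℓ) (y : LaurentSeries (ZMod ℓ)) (i : ℕ) :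
    ((X - C (HahnSeries.C a * y)) * (X - C y) ^ p).coeff i =
      HahnSeries.C ((s16f5_g ℓ p a).coeff i) * y ^ (p + 1 - i) := by
  set G : Polynomial (LaurentSeries (ZMod ℓ)) :=
    (X - C (HahnSeries.C a)) * (X - C 1) ^ p with hG
  have hGmap : G = (s16f5_g ℓ p a).map (HahnSeries.C : ZMod ℓ →+* LaurentSeries (ZMod ℓ)) := by
    rw [hG, s16f5_g, Polynomial.map_mul, Polynomial.map_pow, Polynomial.map_sub,
      Polynomial.map_sub, Polynomial.map_X, Polynomial.map_C, Polynomial.map_C]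
    simp only [map_one]
  have hdeg : G.natDegree = p + 1 := by
    rw [hG, (monic_X_sub_C _).natDegree_mul ((monic_X_sub_C _).pow p),
      ((monic_X_sub_C _)).natDegree_pow, natDegree_X_sub_C, natDegree_X_sub_C]
    ring
  have hsc : G.scaleRoots y = (X - C (HahnSeries.C a * y)) * (X - C y) ^ p := by
    rw [hG, Polynomial.mul_scaleRoots_of_noZeroDivisors, Polynomial.pow_scaleRoots_of_isReduced,
      Polynomial.X_sub_C_scaleRoots, Polynomial.X_sub_C_scaleRoots, one_mul]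
  rw [← hsc, Polynomial.coeff_scaleRoots, hdeg, hGmap, Polynomial.coeff_map]

/-- **(CUSP)**: if `(X - a y) (X - y) ^ p` has coefficients in `ℤ[J]`, then `y ∈ k[J]`. -/
theorem s16f5_cusp (hℓ2 : ℓ ≠ 2) (p : ℕ) (hp : 2 ≤ p) (a : ZMod ℓ) (ha : a ≠ 0)
    (y : LaurentSeries (ZMod ℓ)) (U : Polynomial (Polynomial ℤ)) (hU : U.Monic)
    (hmap : U.map (s28_evalAt (jqModC (ZMod ℓ))) =
      (X - C (HahnSeries.C a * y)) * (X - C y) ^ p) :
    ∃ Q : Polynomial (ZMod ℓ), y = Polynomial.aeval (jqModC (ZMod ℓ)) Q := by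
  have hCne : ∀ c : ZMod ℓ, c ≠ 0 → (HahnSeries.C c : LaurentSeries (ZMod ℓ)) ≠ 0 := by
    intro c hc h
    apply hc
    have := congrArg (fun z : LaurentSeries (ZMod ℓ) => z.coeff 0) h
    simpa using this
  -- coefficients in `K`
  have hcoef : ∀ i, HahnSeries.C ((s16f5_g ℓ p a).coeff i) * y ^ (p + 1 - i) ∈
      IntermediateField.adjoin (ZMod ℓ) {jqModC (ZMod ℓ)} := by
    intro i
    rw [← s16f5_homog, ← hmap, Polynomial.coeff_map]
    exact s16f5_evalAt_mem ℓ _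
  have hpow : ∀ i, (s16f5_g ℓ p a).coeff i ≠ 0 →
      y ^ (p + 1 - i) ∈ IntermediateField.adjoin (ZMod ℓ) {jqModC (ZMod ℓ)} := by
    intro i hi
    have h1 := hcoef i
    have h2 : y ^ (p + 1 - i) = (HahnSeries.C ((s16f5_g ℓ p a).coeff i))⁻¹ *
        (HahnSeries.C ((s16f5_g ℓ p a).coeff i) * y ^ (p + 1 - i)) := by
      rw [← mul_assoc, inv_mul_cancel₀ (hCne _ hi), one_mul]
    rw [h2]
    exact mul_mem (inv_mem (s16f5_C_mem ℓ _)) h1
  -- `y ∈ K`
  have hyK : y ∈ IntermediateField.adjoin (ZMod ℓ) {jqModC (ZMod ℓ)} := by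
    by_cases hy : y = 0
    · rw [hy]
      exact zero_mem _
    have hfull : y ^ (p + 1) ∈ IntermediateField.adjoin (ZMod ℓ) {jqModC (ZMod ℓ)} := by
      have := hpow 0 (by
        rw [s16f5_g_coeff_zero]
        exact mul_ne_zero (neg_ne_zero.mpr ha) (pow_ne_zero _ (neg_ne_zero.mpr one_ne_zero)))
      simpa using this
    have hdiv : ∀ i, i ≤ p + 1 → (s16f5_g ℓ p a).coeff i ≠ 0 →
        y ^ i ∈ IntermediateField.adjoin (ZMod ℓ) {jqModC (ZMod ℓ)} := by
      intro i hi hne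
      have h1 := hpow i hne
      have h2 : y ^ i = y ^ (p + 1) * (y ^ (p + 1 - i))⁻¹ := by
        rw [eq_mul_inv_iff_mul_eq₀ (pow_ne_zero _ hy), ← pow_add]
        congr 1
        omega
      rw [h2]
      exact mul_mem hfull (inv_mem h1)
    rcases s16f5_g_exists ℓ hℓ2 p hp a with h | h | ⟨b, -, hle, h⟩
    · simpa using hdiv 1 (by omega) h
    · have := hpow p h
      have e : p + 1 - p = 1 := by omega
      rw [e, pow_one] at this
      exact this
    · exact s16f5_frob_pow_mem ℓ b y (hdiv _ hle h)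
  -- integrality
  have hroot : (U.map (s28_evalAt (jqModC (ZMod ℓ)))).eval y = 0 := by
    have e : eval y (X - C y) = 0 := by
      rw [eval_sub, eval_X, eval_C, sub_self]
    rw [hmap, eval_mul, eval_pow, e, zero_pow (by omega), mul_zero]
  exact s28nb_mem_poly_of_integral (jqModC (ZMod ℓ)) (s28nb_transcendental_jq _) y hyK U hU hroot

end Cusp

end Fermat.Agent.S16
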