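import Fermat.Agent.S28.Theta
import Fermat.Agent.S28.NBOrder

/-!
# S16 / (F5): the integral `q`-series of `E₄`, `E₆` and the relations with `j`, `Δ`  (helper8)

* `s16f5_e6`: the integral power series `1 - 504 ∑ σ₅(n) qⁿ`, `qExpansion 1 E₆ = s16f5_e6`;
* `s16f5_e4_cube`: `e₄³ Δ⁻¹ = j` over every commutative ring;
* `s16f5_e6_sq`: `e₆² Δ⁻¹ = j - 1728` over every commutative ring.
-/

set_option autoImplicit false

noncomputable section

namespace Fermat.Agent.S16

open UpperHalfPlane hiding I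
open EisensteinSeries ModularForm HahnSeries ModularCurve
open Fermat.Agent.S20 Fermat.Agent.S24 Fermat.Agent.S28
open scoped MatrixGroups ModularForm

/-- the integral `q`-series of `E₆`. -/
def s16f5_e6 : PowerSeries ℤ :=
  PowerSeries.mk fun n => if n = 0 then 1 else -504 * ∑ d ∈ n.divisors, (d : ℤ) ^ 5

theorem s16f5_qExpansion_E6 :
    qExpansion 1 E₆ = PowerSeries.map (Int.castRingHom ℂ) s16f5_e6 := by
  ext m
  rw [E_qExpansion_coeff (by norm_num) ⟨3, rfl⟩ m, PowerSeries.coeff_map,
    s16f5_e6, PowerSeries.coeff_mk]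
  split_ifs with h
  · simp
  · have hb : bernoulli 6 = 1 / 42 := by decide +kernel
    rw [hb]
    simp only [ArithmeticFunction.sigma_apply]
    push_cast
    norm_num

/-- `e₄` over a ring `A`. -/
def s16f5_E4s (A : Type*) [CommRing A] : LaurentSeries A :=
  HahnSeries.ofPowerSeries ℤ A (eisenstein4.map (Int.castRingHom A))

/-- `e₆` over a ring `A`. -/
def s16f5_E6s (A : Type*) [CommRing A] : LaurentSeries A :=
  HahnSeries.ofPowerSeries ℤ A (s16f5_e6.map (Int.castRingHom A))

theorem s16f5_e4_cube (A : Type*) [CommRing A] :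
    s16f5_E4s A ^ 3 * s28_DeltaInv A = jqModC A := by
  rw [s16f5_E4s, s28_DeltaInv, jqModC, jNum, map_mul, map_pow, map_mul, map_pow]
  ring

/-- `e₆² = e₄³ - 1728 q ∏ (1 - qⁿ)²⁴` in `ℤ⟦q⟧`. -/
theorem s16f5_e6_sq_int :
    s16f5_e6 ^ 2 = eisenstein4 ^ 3 - 1728 * (PowerSeries.X * dedekindEtaUnit) := by
  have hinj : Function.Injective (PowerSeries.map (Int.castRingHom ℂ)) := by
    intro x y hxy
    ext n
    have := congrArg (PowerSeries.coeff n) hxy
    rw [PowerSeries.coeff_map, PowerSeries.coeff_map] at this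
    exact Int.cast_injective this
  apply hinj
  have h := s28cg_P2
  rw [qExpansion_discriminant, qExpansion_E4, s16f5_qExpansion_E6] at h
  rw [map_sub, map_pow, map_pow, map_mul, map_mul, PowerSeries.map_X, map_ofNat, h]
  ring

theorem s16f5_e6_sq (A : Type*) [CommRing A] :
    s16f5_E6s A ^ 2 * s28_DeltaInv A = jqModC A - HahnSeries.C (1728 : A) := by
  have h := congrArg (fun x => HahnSeries.ofPowerSeries ℤ A (x.map (Int.castRingHom A)))
    s16f5_e6_sq_int
  simp only [map_sub, map_pow, map_mul, PowerSeries.map_X, HahnSeries.ofPowerSeries_X,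
    map_ofNat] at h
  have hΔ : HahnSeries.single (1 : ℤ) (1 : A) *
      HahnSeries.ofPowerSeries ℤ A (dedekindEtaUnit.map (Int.castRingHom A)) = s28_Delta A := rfl
  rw [hΔ] at h
  have h1728 : (HahnSeries.C (1728 : A) : LaurentSeries A) = 1728 := map_ofNat _ 1728
  rw [s16f5_E6s, h, sub_mul, ← s16f5_E4s, s16f5_e4_cube, mul_assoc, s28nb_Delta_mul_inv, mul_one,
    h1728]

end Fermat.Agent.S16
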