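import Fermat.Agent.S28.CAQExp

/-!
# S16 / (TR): trace to level one, interface statement  (OWNER: helper7)

For `G ∈ M_2(Γ0(p))` the function `G ∣[2] S` (`(G∣S)(τ) = τ⁻² G(-1/τ)`) has the expansion
`-(1/p) ∑_n a_{pn}(G) s^n` in the variable `s = exp (2πi τ / p)`
(equivalently: `G ∣ W_p = - U_p G`, and `U_p² G = G`).

Producer: `s16tr_main : s16tr_stmt` (file `TR.lean`).
-/

set_option autoImplicit false

open UpperHalfPlane CongruenceSubgroup
open scoped MatrixGroups ModularForm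

/-- the `s = q^(1/p)`-expansion of `G ∣[2] S` predicted by the trace to level one. -/
noncomputable def s16tr_series (p : ℕ) [NeZero p]
    (G : ModularForm (CongruenceSubgroup.Gamma0 p) 2) : PowerSeries ℂ :=
  PowerSeries.mk fun n => -(p : ℂ)⁻¹ * (UpperHalfPlane.qExpansion 1 G).coeff (p * n)

/-- **(TR)** the expansion of `G ∣[2] S` at infinity, in the variable `s = q^(1/p)`. -/
def s16tr_stmt : Prop :=
  ∀ (p : ℕ) [Fact p.Prime] [NeZero p] (G : ModularForm (CongruenceSubgroup.Gamma0 p) 2),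
    Fermat.Agent.S28.s28ca_HasQExp p (fun τ => ((⇑G) ∣[(2 : ℤ)] ModularGroup.S) τ)
      (HahnSeries.ofPowerSeries ℤ ℂ (s16tr_series p G))

/-- **(TR')** `U_p² = 1` on `M_2(Γ0(p))`: `a_{p² n}(G) = a_n(G)`. -/
def s16tr_stmt_UU : Prop :=
  ∀ (p : ℕ) [Fact p.Prime] [NeZero p] (G : ModularForm (CongruenceSubgroup.Gamma0 p) 2) (n : ℕ),
    (UpperHalfPlane.qExpansion 1 G).coeff (p * (p * n)) =
      (UpperHalfPlane.qExpansion 1 G).coeff n
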