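import Fermat.Agent.S16.GenUse
import Fermat.Agent.S16.TRDefs
import Fermat.Agent.S16.F5Cusp
import Fermat.Agent.S16.F5Series
import Fermat.Agent.S28.CBMain

/-!
# S16 / (F5): the analytic core  (helper8)

Let `G ∈ M_2(Γ₀(p))` with `N0 G = N0 + ℓ^r w` (`w` an integral power series), `a, k` with
`2 a + k = 12` and `E` a holomorphic function of weight `k` for `SL₂(ℤ)` with integral
`q`-expansion `e`.  Then `φ = (p N0 G)^a E / Δ` is `Γ₀(p)`-invariant with integral expansions at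
both cusps (the second one by (TR)), and the reduction mod `ℓ` of the norm polynomial is
`(X - (-p)^a y) (X - y)^p` with `y = (-N0)^a e Δ⁻¹`; hence `y ∈ 𝔽_ℓ[j]` (`s16f5_cusp`).
-/

set_option autoImplicit false

noncomputable section

namespace Fermat.Agent.S16

open UpperHalfPlane hiding I
open Polynomial CongruenceSubgroup
open EisensteinSeries ModularForm HahnSeries ModularCurve
open Fermat.Agent.S20 Fermat.Agent.S24 Fermat.Agent.S28
open scoped MatrixGroups ModularForm Manifold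

/-- slash invariance of a form of level `Γ₀(p)`, at the level of functions. -/
theorem s16f5_smul_G (p : ℕ) (G : ModularForm (Gamma0 p) 2) (γ : SL(2, ℤ)) (hγ : γ ∈ Gamma0 p)
    (z : ℍ) : G (γ • z) = denom γ z ^ 2 * G z := by
  have hG : (⇑G) ∣[(2 : ℤ)] γ = ⇑G := by
    rw [ModularForm.SL_slash]
    exact SlashInvariantFormClass.slash_action_eq G _ (Subgroup.mem_map_of_mem _ hγ)
  have h := congrFun hG z
  rw [ModularForm.SL_slash_apply] at h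
  have hd : denom γ z ≠ 0 := denom_ne_zero _ z
  rw [← h, mul_comm, mul_assoc, ← zpow_natCast, ← zpow_add₀ hd]
  simp

/-- the value at `S τ` in terms of the slash. -/
theorem s16f5_smul_S (f : ℍ → ℂ) (z : ℍ) :
    f (ModularGroup.S • z) = denom ModularGroup.S z ^ 2 * (f ∣[(2 : ℤ)] ModularGroup.S) z := by
  rw [ModularForm.SL_slash_apply]
  have hd : denom ModularGroup.S z ≠ 0 := denom_ne_zero _ z
  rw [mul_comm, mul_assoc, ← zpow_natCast, ← zpow_add₀ hd]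
  simp

/-- the function `φ = (c G)^a E / Δ`. -/
def s16f5_phi (c : ℂ) (G E : ℍ → ℂ) (a : ℕ) (τ : ℍ) : ℂ :=
  (c * G τ) ^ a * E τ / ModularForm.discriminant τ

theorem s16f5_phi_mdiff (c : ℂ) (G E : ℍ → ℂ) (a : ℕ) (hG : MDiff G) (hE : MDiff E) :
    MDiff (s16f5_phi c G E a) := by
  have h1 : MDiff (fun τ : ℍ => c * G τ) := by
    have := (mdifferentiable_const (c := c) (I := 𝓘(ℂ)) (I' := 𝓘(ℂ)) (M := ℍ)).mul hG
    exact this
  have h2 : MDiff (fun τ : ℍ => (c * G τ) ^ a * E τ) := (h1.pow a).mul hE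
  exact s28cb_mdiff_div_delta _ h2

/-- the weight bookkeeping: `φ(γ τ) = φ(τ)` as soon as `G`, `E` transform with weights `2`, `k`. -/
theorem s16f5_phi_inv_aux (c : ℂ) (a k : ℕ) (hak : 2 * a + k = 12) (d g g' e e' Δ : ℂ) (hd : d ≠ 0)
    (hg : g' = d ^ 2 * g) (he : e' = d ^ k * e) :
    (c * g') ^ a * e' / (d ^ (12 : ℤ) * Δ) = (c * g) ^ a * e / Δ := by
  rw [hg, he]
  have h12 : d ^ (12 : ℤ) = d ^ (2 * a + k) := by
    rw [hak]
    norm_cast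
  rw [h12]
  have h1 : (c * (d ^ 2 * g)) ^ a * (d ^ k * e) = d ^ (2 * a + k) * ((c * g) ^ a * e) := by
    rw [_root_.pow_add, pow_mul]
    ring
  rw [h1, mul_div_mul_left _ _ (pow_ne_zero _ hd)]

theorem s16f5_phi_inv (p : ℕ) (c : ℂ) (G : ModularForm (Gamma0 p) 2) (E : ℍ → ℂ) (a k : ℕ)
    (hak : 2 * a + k = 12)
    (hEinv : ∀ (γ : SL(2, ℤ)) (τ : ℍ), E (γ • τ) = denom γ τ ^ k * E τ)
    (γ : SL(2, ℤ)) (hγ : γ ∈ Gamma0 p) (τ : ℍ) :
    s16f5_phi c G E a (γ • τ) = s16f5_phi c G E a τ := by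
  rw [s16f5_phi, s16f5_phi, jf_delta_smul]
  exact s16f5_phi_inv_aux c a k hak _ _ _ _ _ _ (denom_ne_zero _ τ)
    (s16f5_smul_G p G γ hγ τ) (hEinv γ τ)

theorem s16f5_phi_S (c : ℂ) (G : ℍ → ℂ) (E : ℍ → ℂ) (a k : ℕ)
    (hak : 2 * a + k = 12)
    (hEinv : ∀ (γ : SL(2, ℤ)) (τ : ℍ), E (γ • τ) = denom γ τ ^ k * E τ) (τ : ℍ) :
    s16f5_phi c G E a (ModularGroup.S • τ) =
      (c * (G ∣[(2 : ℤ)] ModularGroup.S) τ) ^ a * E τ * (ModularForm.discriminant τ)⁻¹ := by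
  rw [s16f5_phi, jf_delta_smul, ← div_eq_mul_inv]
  exact s16f5_phi_inv_aux c a k hak _ _ _ _ _ _ (denom_ne_zero _ τ)
    (s16f5_smul_S G τ) (hEinv _ τ)

/-! ### Expansions -/

theorem s16f5_hasQExp_phi (N : ℕ) [NeZero N] (c : ℂ) (g E : ℍ → ℂ) (a : ℕ)
    (A B : LaurentSeries ℂ) (hg : s28ca_HasQExp N g A) (hE : s28ca_HasQExp 1 E B) :
    s28ca_HasQExp N (fun τ => (c * g τ) ^ a * E τ * (ModularForm.discriminant τ)⁻¹)
      ((HahnSeries.C c * A) ^ a * qExpand ℂ N (B * s28_DeltaInv ℂ)) := by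
  have h1 := s28ca_hasQExp_pow (s28ca_hasQExp_mul (s28ca_hasQExp_const N c) hg) a
  have h2 := s28ca_hasQExp_level N N (by simp) (s28ca_hasQExp_mul hE s28ca_hasQExp_deltaInv)
  have h3 := s28ca_hasQExp_mul h1 h2
  exact s28ca_hasQExp_congr h3 (fun τ => by ring)

/-- the integral series of `N0 G`. -/
def s16f5_gP (ℓ r N0 : ℕ) (w : ℕ → ℤ) : PowerSeries ℤ :=
  PowerSeries.mk fun m => (if m = 0 then (N0 : ℤ) else 0) + (ℓ : ℤ) ^ r * w m

/-- the integral series of `p N0 (G ∣ S)`. -/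
def s16f5_g0P (p ℓ r N0 : ℕ) (w : ℕ → ℤ) : PowerSeries ℤ :=
  PowerSeries.mk fun n => -((if n = 0 then (N0 : ℤ) else 0) + (ℓ : ℤ) ^ r * w (p * n))

theorem s16f5_gP_complex (p ℓ r N0 : ℕ) (w : ℕ → ℤ) (q : PowerSeries ℂ)
    (hw : ∀ m : ℕ, (N0 : ℂ) * PowerSeries.coeff m q =
      (if m = 0 then (N0 : ℂ) else 0) + ((ℓ : ℂ) ^ r) * (w m : ℂ)) :
    HahnSeries.ofPowerSeries ℤ ℂ
        ((PowerSeries.C (p : ℤ) * s16f5_gP ℓ r N0 w).map (Int.castRingHom ℂ)) =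
      HahnSeries.C ((p : ℂ) * N0) * HahnSeries.ofPowerSeries ℤ ℂ q := by
  rw [← HahnSeries.ofPowerSeries_C, ← map_mul]
  congr 1
  ext m
  rw [PowerSeries.coeff_map, PowerSeries.coeff_C_mul, PowerSeries.coeff_C_mul, s16f5_gP,
    PowerSeries.coeff_mk, mul_assoc, hw m]
  split_ifs <;> simp

theorem s16f5_g0P_complex (p ℓ r N0 : ℕ) (hp : p ≠ 0) (w : ℕ → ℤ) (q : PowerSeries ℂ)
    (hw : ∀ m : ℕ, (N0 : ℂ) * PowerSeries.coeff m q =
      (if m = 0 then (N0 : ℂ) else 0) + ((ℓ : ℂ) ^ r) * (w m : ℂ)) :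
    HahnSeries.ofPowerSeries ℤ ℂ ((s16f5_g0P p ℓ r N0 w).map (Int.castRingHom ℂ)) =
      HahnSeries.C ((p : ℂ) * N0) * HahnSeries.ofPowerSeries ℤ ℂ
        (PowerSeries.mk fun n => -(p : ℂ)⁻¹ * PowerSeries.coeff (p * n) q) := by
  rw [← HahnSeries.ofPowerSeries_C, ← map_mul]
  congr 1
  ext n
  have hpc : (p : ℂ) ≠ 0 := Nat.cast_ne_zero.mpr hp
  have h1 : (p : ℂ) * N0 * (-(p : ℂ)⁻¹ * PowerSeries.coeff (p * n) q) =
      -((N0 : ℂ) * PowerSeries.coeff (p * n) q) := by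
    field_simp
  rw [PowerSeries.coeff_map, PowerSeries.coeff_C_mul, PowerSeries.coeff_mk, s16f5_g0P,
    PowerSeries.coeff_mk, h1, hw (p * n)]
  have h2 : p * n = 0 ↔ n = 0 := by
    constructor
    · intro h
      exact (Nat.mul_eq_zero.mp h).resolve_left hp
    · rintro rfl
      rfl
  simp only [h2]
  split_ifs <;> simp

theorem s16f5_gP_mod (p ℓ r N0 : ℕ) (hr : 1 ≤ r) (w : ℕ → ℤ) :
    HahnSeries.ofPowerSeries ℤ (ZMod ℓ)
        ((PowerSeries.C (p : ℤ) * s16f5_gP ℓ r N0 w).map (Int.castRingHom (ZMod ℓ))) =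
      HahnSeries.C ((p : ZMod ℓ) * N0) := by
  rw [← HahnSeries.ofPowerSeries_C]
  congr 1
  ext m
  have hℓ : ((ℓ : ℤ) : ZMod ℓ) ^ r = 0 := by
    rw [Int.cast_natCast, ZMod.natCast_self, zero_pow (by omega)]
  rw [PowerSeries.coeff_map, PowerSeries.coeff_C_mul, s16f5_gP, PowerSeries.coeff_mk,
    PowerSeries.coeff_C]
  simp only [eq_intCast, Int.cast_mul, Int.cast_add, Int.cast_pow, hℓ, zero_mul, add_zero]
  split_ifs <;> simp

theorem s16f5_g0P_mod (p ℓ r N0 : ℕ) (hr : 1 ≤ r) (w : ℕ → ℤ) :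
    HahnSeries.ofPowerSeries ℤ (ZMod ℓ)
        ((s16f5_g0P p ℓ r N0 w).map (Int.castRingHom (ZMod ℓ))) =
      HahnSeries.C (-(N0 : ZMod ℓ)) := by
  rw [← HahnSeries.ofPowerSeries_C]
  congr 1
  ext m
  have hℓ : ((ℓ : ℤ) : ZMod ℓ) ^ r = 0 := by
    rw [Int.cast_natCast, ZMod.natCast_self, zero_pow (by omega)]
  rw [PowerSeries.coeff_map, s16f5_g0P, PowerSeries.coeff_mk, PowerSeries.coeff_C]
  simp only [eq_intCast, Int.cast_neg, Int.cast_mul, Int.cast_add, Int.cast_pow, hℓ, zero_mul,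
    add_zero]
  split_ifs <;> simp

theorem s16f5_qExpand_C {R : Type*} [CommRing R] (N : ℕ) [NeZero N] (c : R) :
    qExpand R N (HahnSeries.C c) = HahnSeries.C c := by
  rw [HahnSeries.C_apply, qExpand_single, mul_zero]

theorem s16f5_coeffMap_x {R S : Type*} [CommRing R] [CommRing S] (f : R →+* S)
    (P e : PowerSeries R) (a : ℕ) :
    coeffMap f ((HahnSeries.ofPowerSeries ℤ R P) ^ a *
        (HahnSeries.ofPowerSeries ℤ R e * s28_DeltaInv R)) =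
      (HahnSeries.ofPowerSeries ℤ S (P.map f)) ^ a *
        (HahnSeries.ofPowerSeries ℤ S (e.map f) * s28_DeltaInv S) := by
  rw [map_mul, map_pow, map_mul, coeffMap_ofPowerSeries, coeffMap_ofPowerSeries,
    s28ca_coeffMap_DeltaInv]

theorem s16f5_coeffMap_x0 {R S : Type*} [CommRing R] [CommRing S] (f : R →+* S)
    (p : ℕ) [NeZero p] (P e : PowerSeries R) (a : ℕ) :
    coeffMap f ((HahnSeries.ofPowerSeries ℤ R P) ^ a *
        qExpand R p (HahnSeries.ofPowerSeries ℤ R e * s28_DeltaInv R)) =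
      (HahnSeries.ofPowerSeries ℤ S (P.map f)) ^ a *
        qExpand S p (HahnSeries.ofPowerSeries ℤ S (e.map f) * s28_DeltaInv S) := by
  rw [map_mul, map_pow, coeffMap_qExpand, map_mul, coeffMap_ofPowerSeries,
    coeffMap_ofPowerSeries, s28ca_coeffMap_DeltaInv]

/-- **the core of (F5)**: `(-N0)^a e Δ⁻¹ ∈ 𝔽_ℓ[j]`. -/
theorem s16f5_core (hTR : s16tr_stmt) (p : ℕ) [Fact p.Prime] (ℓ : ℕ) [Fact ℓ.Prime]
    (hℓ2 : ℓ ≠ 2) (hℓp : ℓ ≠ p) (r : ℕ) (hr : 1 ≤ r)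
    (G : ModularForm (Gamma0 p) 2) (N0 : ℕ) (w : ℕ → ℤ)
    (hw : ∀ m : ℕ, (N0 : ℂ) * PowerSeries.coeff m (qExpansion 1 G) =
      (if m = 0 then (N0 : ℂ) else 0) + ((ℓ : ℂ) ^ r) * (w m : ℂ))
    (a k : ℕ) (hak : 2 * a + k = 12) (E : ℍ → ℂ) (hE : MDiff E)
    (hEinv : ∀ (γ : SL(2, ℤ)) (τ : ℍ), E (γ • τ) = denom γ τ ^ k * E τ)
    (e : PowerSeries ℤ)
    (hEexp : s28ca_HasQExp 1 E (HahnSeries.ofPowerSeries ℤ ℂ (e.map (Int.castRingHom ℂ)))) :
    ∃ Q : Polynomial (ZMod ℓ),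
      HahnSeries.C ((-(N0 : ZMod ℓ)) ^ a) *
          (HahnSeries.ofPowerSeries ℤ (ZMod ℓ) (e.map (Int.castRingHom (ZMod ℓ))) *
            s28_DeltaInv (ZMod ℓ)) =
        Polynomial.aeval (jqModC (ZMod ℓ)) Q := by
  have hp : p.Prime := Fact.out
  have hℓ : ℓ.Prime := Fact.out
  have _inst : NeZero p := ⟨hp.ne_zero⟩
  set c : ℂ := (p : ℂ) * N0 with hc
  set x : LaurentSeries ℤ :=
    (HahnSeries.ofPowerSeries ℤ ℤ (PowerSeries.C (p : ℤ) * s16f5_gP ℓ r N0 w)) ^ a *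
      (HahnSeries.ofPowerSeries ℤ ℤ e * s28_DeltaInv ℤ) with hx
  set x0 : LaurentSeries ℤ :=
    (HahnSeries.ofPowerSeries ℤ ℤ (s16f5_g0P p ℓ r N0 w)) ^ a *
      qExpand ℤ p (HahnSeries.ofPowerSeries ℤ ℤ e * s28_DeltaInv ℤ) with hx0
  -- the expansion at infinity
  have h : s28ca_HasQExp 1 (s16f5_phi c G E a) (coeffMap (Int.castRingHom ℂ) x) := by
    have h1 := s16f5_hasQExp_phi 1 c G E a _ _ (s16g_hasQExp_of_modularForm p G) hEexp
    rw [qExpand_one_apply] at h1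
    have e1 : coeffMap (Int.castRingHom ℂ) x =
        (HahnSeries.C c * HahnSeries.ofPowerSeries ℤ ℂ (qExpansion 1 G)) ^ a *
          (HahnSeries.ofPowerSeries ℤ ℂ (e.map (Int.castRingHom ℂ)) * s28_DeltaInv ℂ) := by
      rw [hx, s16f5_coeffMap_x, s16f5_gP_complex p ℓ r N0 w _ hw]
    rw [e1]
    exact s28ca_hasQExp_congr h1 (fun τ => by rw [s16f5_phi, div_eq_mul_inv])
  -- the expansion at the cusp `0`
  have h0 : s28ca_HasQExp p (fun τ => s16f5_phi c G E a (ModularGroup.S • τ))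
      (coeffMap (Int.castRingHom ℂ) x0) := by
    have h1 := s16f5_hasQExp_phi p c _ E a _ _ (hTR p G) hEexp
    have e1 : coeffMap (Int.castRingHom ℂ) x0 =
        (HahnSeries.C c * HahnSeries.ofPowerSeries ℤ ℂ (s16tr_series p G)) ^ a *
          qExpand ℂ p
            (HahnSeries.ofPowerSeries ℤ ℂ (e.map (Int.castRingHom ℂ)) * s28_DeltaInv ℂ) := by
      rw [hx0, s16f5_coeffMap_x0, s16f5_g0P_complex p ℓ r N0 hp.ne_zero w _ hw]
      rfl
    rw [e1]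
    exact s28ca_hasQExp_congr h1 (fun τ => (s16f5_phi_S c G E a k hak hEinv τ).symm)
  -- the norm polynomial
  obtain ⟨U, hU, -, hmap⟩ := s16g_main_map p hp (s16f5_phi c G E a)
    (s16f5_phi_mdiff c G E a (ModularFormClass.holo G) hE)
    (fun γ hγ τ => s16f5_phi_inv p c G E a k hak hEinv γ hγ τ) x x0 h h0 (ZMod ℓ)
  set y : LaurentSeries (ZMod ℓ) := HahnSeries.C ((-(N0 : ZMod ℓ)) ^ a) *
    (HahnSeries.ofPowerSeries ℤ (ZMod ℓ) (e.map (Int.castRingHom (ZMod ℓ))) *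
      s28_DeltaInv (ZMod ℓ)) with hy
  have e0 : coeffMap (Int.castRingHom (ZMod ℓ)) x0 = qExpand (ZMod ℓ) p y := by
    have hq : qExpand (ZMod ℓ) p y = HahnSeries.C ((-(N0 : ZMod ℓ)) ^ a) *
        qExpand (ZMod ℓ) p
          (HahnSeries.ofPowerSeries ℤ (ZMod ℓ) (e.map (Int.castRingHom (ZMod ℓ))) *
            s28_DeltaInv (ZMod ℓ)) := by
      rw [hy, map_mul, s16f5_qExpand_C]
    rw [hq, hx0, s16f5_coeffMap_x0, s16f5_g0P_mod p ℓ r N0 hr w, map_pow]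
  have e1 : coeffMap (Int.castRingHom (ZMod ℓ)) x =
      HahnSeries.C ((-(p : ZMod ℓ)) ^ a) * y := by
    have hC : (HahnSeries.C ((p : ZMod ℓ) * N0) : LaurentSeries (ZMod ℓ)) ^ a =
        HahnSeries.C ((-(p : ZMod ℓ)) ^ a) * HahnSeries.C ((-(N0 : ZMod ℓ)) ^ a) := by
      rw [← map_mul, ← mul_pow, neg_mul_neg, map_pow]
    rw [hx, s16f5_coeffMap_x, s16f5_gP_mod p ℓ r N0 hr w, hy, hC, mul_assoc]
  rw [e0, e1, s16g_charpoly_qExpand] at hmap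
  have hpℓ : (-(p : ZMod ℓ)) ^ a ≠ 0 := by
    apply pow_ne_zero
    rw [neg_ne_zero]
    intro h0
    rw [ZMod.natCast_eq_zero_iff] at h0
    exact hℓp ((Nat.prime_dvd_prime_iff_eq hℓ hp).mp h0)
  exact s16f5_cusp ℓ hℓ2 p hp.two_le _ hpℓ y U hU hmap

end Fermat.Agent.S16
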