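import Fermat.Agent.S16.Defs

/-!
# S16: normalisation of a form `G ≡ 1 mod ℓ^r`

`s16om_normalise`: if `s16_IsOneMod p ℓ r G`, then there are `N0 > 0` prime to `ℓ` and integers
`w m` (`w 0 = 0`) with `N0 * a_m(G) = [m = 0] N0 + ℓ^r * w m` for all `m`, i.e.
`N0 • G = N0 + ℓ^r • (integral power series without constant term)`.
-/

set_option autoImplicit false

open ModularFormClass

/-- the rational core: `D x = z ∈ ℤ`, `D = ℓ^e N0`, `v_ℓ(x) ≥ r` imply `N0 x = ℓ^r w`. -/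
theorem s16om_rat (ℓ : ℕ) [Fact ℓ.Prime] (r e N0 : ℕ) (x : ℚ) (z : ℤ)
    (hz : ((ℓ ^ e * N0 : ℕ) : ℚ) * x = (z : ℚ)) (hN0 : 0 < N0)
    (hx : x = 0 ∨ (r : ℤ) ≤ padicValRat ℓ x) :
    ∃ w : ℤ, (N0 : ℚ) * x = (ℓ : ℚ) ^ r * (w : ℚ) := by
  have hℓ : ℓ.Prime := Fact.out
  rcases eq_or_ne x 0 with hx0 | hx0
  · exact ⟨0, by rw [hx0]; simp⟩
  · have hr : (r : ℤ) ≤ padicValRat ℓ x := hx.resolve_left hx0
    have hD0 : (ℓ ^ e * N0 : ℕ) ≠ 0 := Nat.mul_ne_zero (pow_ne_zero _ hℓ.ne_zero) (by omega)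
    have hDQ : ((ℓ ^ e * N0 : ℕ) : ℚ) ≠ 0 := Nat.cast_ne_zero.mpr hD0
    have hz0 : z ≠ 0 := by
      intro h0
      rw [h0, Int.cast_zero] at hz
      exact (mul_ne_zero hDQ hx0) hz
    have hvD : (e : ℤ) ≤ padicValRat ℓ ((ℓ ^ e * N0 : ℕ) : ℚ) := by
      rw [padicValRat.of_nat]
      exact_mod_cast (padicValNat_dvd_iff_le hD0).mp (Dvd.intro _ rfl)
    have hvz : ((e + r : ℕ) : ℤ) ≤ padicValInt ℓ z := by
      have h1 : padicValRat ℓ (z : ℚ) = padicValRat ℓ ((ℓ ^ e * N0 : ℕ) : ℚ) + padicValRat ℓ x := by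
        rw [← hz]
        exact padicValRat.mul hDQ hx0
      rw [padicValRat.of_int] at h1
      have h2 : ((e + r : ℕ) : ℤ) ≤ (padicValInt ℓ z : ℤ) := by
        rw [h1, Nat.cast_add]
        exact add_le_add hvD hr
      exact_mod_cast h2
    have hdvd : ((ℓ : ℤ) ^ (e + r)) ∣ z := by
      rw [padicValInt_dvd_iff]
      exact Or.inr (by exact_mod_cast hvz)
    obtain ⟨w, hw⟩ := hdvd
    refine ⟨w, ?_⟩
    have hℓQ : (ℓ : ℚ) ^ e ≠ 0 := pow_ne_zero _ (Nat.cast_ne_zero.mpr hℓ.ne_zero)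
    apply mul_left_cancel₀ hℓQ
    have h3 : (ℓ : ℚ) ^ e * ((N0 : ℚ) * x) = (z : ℚ) := by
      rw [← hz]
      push_cast
      ring
    rw [h3, hw]
    push_cast
    ring

theorem s16om_normalise (p ℓ r : ℕ) [NeZero p] [Fact ℓ.Prime]
    (G : ModularForm (CongruenceSubgroup.Gamma0 p) 2) (h : s16_IsOneMod p ℓ r G) :
    ∃ (N0 : ℕ) (w : ℕ → ℤ), 0 < N0 ∧ ¬ ℓ ∣ N0 ∧ w 0 = 0 ∧
      ∀ m : ℕ, (N0 : ℂ) * qCoeff G m
        = (if m = 0 then (N0 : ℂ) else 0) + ((ℓ : ℂ) ^ r) * (w m : ℂ) := by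
  classical
  have hℓ : ℓ.Prime := Fact.out
  obtain ⟨h0, hrat, D, hD, hint⟩ := h
  obtain ⟨e, N0, hN0, hDeq⟩ := Nat.exists_eq_pow_mul_and_not_dvd (Nat.pos_iff_ne_zero.mp hD) ℓ
    hℓ.ne_one
  have hN0pos : 0 < N0 := by
    rcases Nat.eq_zero_or_pos N0 with h | h
    · exact absurd (h ▸ dvd_zero ℓ) hN0
    · exact h
  have key : ∀ m : ℕ, 1 ≤ m → ∃ w : ℤ, (N0 : ℂ) * qCoeff G m = ((ℓ : ℂ) ^ r) * (w : ℂ) := by
    intro m hm
    obtain ⟨x, hx, hxv⟩ := hrat m hm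
    obtain ⟨z, hz⟩ := hint m
    have hzQ : ((ℓ ^ e * N0 : ℕ) : ℚ) * x = (z : ℚ) := by
      have : (((ℓ ^ e * N0 : ℕ) : ℚ) * x : ℂ) = ((z : ℚ) : ℂ) := by
        rw [← hDeq]
        push_cast
        rw [← hx]
        exact hz
      exact_mod_cast this
    obtain ⟨w, hw⟩ := s16om_rat ℓ r e N0 x z hzQ hN0pos hxv
    refine ⟨w, ?_⟩
    rw [hx]
    have : (((N0 : ℚ) * x : ℚ) : ℂ) = (((ℓ : ℚ) ^ r * (w : ℚ) : ℚ) : ℂ) := by rw [hw]
    push_cast at this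
    exact this
  choose! w hw using key
  refine ⟨N0, fun m => if m = 0 then 0 else w m, hN0pos, hN0, by simp, fun m => ?_⟩
  rcases Nat.eq_zero_or_pos m with hm | hm
  · subst hm
    simp [h0]
  · have hm0 : m ≠ 0 := by omega
    dsimp only
    rw [if_neg hm0, if_neg hm0, zero_add]
    exact hw m hm
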