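import Fermat.Agent.S16.Defs
import Fermat.Agent.S16.OneMod
import Fermat.Agent.S16.F5Core
import Fermat.Agent.S16.F5Alg

/-!
# S16 / (F5): no `G ∈ M_2(Γ₀(p))` with `G ≡ 1 mod ℓ`, `ℓ ≥ 5`, `ℓ ≠ p`  (helper8)

`s16f5_main : s16tr_stmt → s16_stmt_F5`.

Proof.  Normalise `N0 G = N0 + ℓ^r w` (`s16om_normalise`).  The three `Γ₀(p)`-invariant functions
`(p N0 G)⁶ / Δ`, `(p N0 G)⁴ E₄ / Δ`, `(p N0 G)³ E₆ / Δ` have integral expansions at both cusps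
(the cusp `0` by (TR)); by (GEN) and (CUSP) (`s16f5_core`) the reductions mod `ℓ`
`y₁ = N0⁶ Δ⁻¹`, `y₂ = N0⁴ e₄ Δ⁻¹`, `y₃ = -N0³ e₆ Δ⁻¹` are polynomials in `j` over `𝔽_ℓ`.
As `y₂³ = j y₁²` and `y₃² = (j - 1728) y₁`, this forces `ℓ ∣ 1728` (`s16f5_alg`).
-/

set_option autoImplicit false

noncomputable section

namespace Fermat.Agent.S16

open UpperHalfPlane hiding I
open Polynomial CongruenceSubgroup
open EisensteinSeries ModularForm HahnSeries ModularCurve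
open Fermat.Agent.S20 Fermat.Agent.S24 Fermat.Agent.S28
open scoped MatrixGroups ModularForm Manifold

theorem s16f5_levelOne_smul {k : ℕ} (φ : ModularForm 𝒮ℒ (k : ℤ)) (γ : SL(2, ℤ)) (z : ℍ) :
    φ (γ • z) = denom γ z ^ k * φ z := by
  rw [div_levelOne_smul φ γ z, zpow_natCast]

/-- **(F5)** from (TR). -/
theorem s16f5_main (hTR : s16tr_stmt) : s16_stmt_F5 := by
  intro p _ ℓ _ r _ hP _ hex
  obtain ⟨hℓ5, hℓp, hr⟩ := hP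
  obtain ⟨G, hG⟩ := hex
  have hℓ : ℓ.Prime := Fact.out
  obtain ⟨N0, w, -, hN0, -, hw⟩ := s16om_normalise p ℓ r G hG
  have hw' : ∀ m : ℕ, (N0 : ℂ) * PowerSeries.coeff m (qExpansion 1 G) =
      (if m = 0 then (N0 : ℂ) else 0) + ((ℓ : ℂ) ^ r) * (w m : ℂ) := hw
  have hℓ2 : ℓ ≠ 2 := by omega
  -- `E = 1`
  obtain ⟨Q₁, h1⟩ := s16f5_core hTR p ℓ hℓ2 hℓp r hr G N0 w hw' 6 0 rfl (fun _ => 1)
    mdifferentiable_const (fun γ τ => by simp) 1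
    (by
      have := s28ca_hasQExp_const 1 (1 : ℂ)
      simpa using this)
  -- `E = E₄`
  obtain ⟨Q₂, h2⟩ := s16f5_core hTR p ℓ hℓ2 hℓp r hr G N0 w hw' 4 4 rfl E₄
    (ModularFormClass.holo E₄) (fun γ τ => s16f5_levelOne_smul (k := 4) E₄ γ τ) eisenstein4
    (by
      rw [← qExpansion_E4]
      exact s16g_hasQExp_of_levelOne E₄)
  -- `E = E₆`
  obtain ⟨Q₃, h3⟩ := s16f5_core hTR p ℓ hℓ2 hℓp r hr G N0 w hw' 3 6 rfl E₆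
    (ModularFormClass.holo E₆) (fun γ τ => s16f5_levelOne_smul (k := 6) E₆ γ τ) s16f5_e6
    (by
      rw [← s16f5_qExpansion_E6]
      exact s16g_hasQExp_of_levelOne E₆)
  have hn : (-(N0 : ZMod ℓ)) ≠ 0 := by
    rw [neg_ne_zero]
    intro h0
    rw [ZMod.natCast_eq_zero_iff] at h0
    exact hN0 h0
  rw [map_one, map_one, one_mul] at h1
  rw [map_pow] at h1 h2 h3
  set Cn : LaurentSeries (ZMod ℓ) := HahnSeries.C (-(N0 : ZMod ℓ)) with hCn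
  set D : LaurentSeries (ZMod ℓ) := s28_DeltaInv (ZMod ℓ) with hD
  have h1' : HahnSeries.C ((-(N0 : ZMod ℓ)) ^ 6) * D = Polynomial.aeval (jqModC (ZMod ℓ)) Q₁ := by
    rw [map_pow]
    exact h1
  have hC6 : (HahnSeries.C ((-(N0 : ZMod ℓ)) ^ 6) : LaurentSeries (ZMod ℓ)) = Cn ^ 6 :=
    map_pow _ _ _
  refine s16f5_alg ℓ hℓ5 ((-(N0 : ZMod ℓ)) ^ 6) (pow_ne_zero _ hn) _ _ Q₁ Q₂ Q₃ h1' h2 h3 ?_ ?_
  · rw [hC6, ← s16f5_e4_cube (ZMod ℓ)]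
    show (Cn ^ 4 * (s16f5_E4s (ZMod ℓ) * D)) ^ 3 = s16f5_E4s (ZMod ℓ) ^ 3 * D * (Cn ^ 6 * D) ^ 2
    ring
  · rw [hC6, ← s16f5_e6_sq (ZMod ℓ)]
    show (Cn ^ 3 * (s16f5_E6s (ZMod ℓ) * D)) ^ 2 = s16f5_E6s (ZMod ℓ) ^ 2 * D * (Cn ^ 6 * D)
    ring

end Fermat.Agent.S16
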