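import Fermat.Agent.S16.Defs

/-!
# S16: the forbidden congruences that follow from the weight-4 identity alone

`s16_stmt_W4 → s16_stmt_F2a ∧ s16_stmt_F2b ∧ s16_stmt_F3a ∧ s16_stmt_Fp`.
-/

set_option autoImplicit false
open ModularCurve CuspForm

theorem s16w_F2a_of_W4 (h : s16_stmt_W4) : s16_stmt_F2a := by
  intro p _ ℓ _ r hp5 hP hU hG
  obtain ⟨rfl, hp4, hr⟩ := hP
  have h1 : 2 ^ r ∣ p + 1 := h p 2 r hp5 hU hG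
  have h2 : 2 ^ 2 ∣ p + 1 := (pow_dvd_pow 2 hr).trans h1
  omega

theorem s16w_F2b_of_W4 (h : s16_stmt_W4) : s16_stmt_F2b := by
  intro p _ ℓ _ r hp5 hP hU hG
  obtain ⟨rfl, hp8, hr⟩ := hP
  have h1 : 2 ^ r ∣ p + 1 := h p 2 r hp5 hU hG
  have h2 : 2 ^ 3 ∣ p + 1 := (pow_dvd_pow 2 hr).trans h1
  omega

theorem s16w_F3a_of_W4 (h : s16_stmt_W4) : s16_stmt_F3a := by
  intro p _ ℓ _ r hp5 hP hU hG
  obtain ⟨rfl, hp3, hr⟩ := hP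
  have h1 : 3 ^ r ∣ p + 1 := h p 3 r hp5 hU hG
  have h2 : 3 ^ 1 ∣ p + 1 := (pow_dvd_pow 3 hr).trans h1
  omega

theorem s16w_Fp_of_W4 (h : s16_stmt_W4) : s16_stmt_Fp := by
  intro p _ ℓ _ r hp5 hP hU hG
  obtain ⟨rfl, hr⟩ := hP
  have h1 : ℓ ^ r ∣ ℓ + 1 := h ℓ ℓ r hp5 hU hG
  have h2 : ℓ ^ 1 ∣ ℓ + 1 := (pow_dvd_pow ℓ hr).trans h1
  rw [pow_one] at h2
  have h3 : ℓ ∣ 1 := (Nat.dvd_add_right (dvd_refl ℓ)).1 h2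
  have := Nat.le_of_dvd one_pos h3
  omega
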