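import Fermat.Prelude.Def_CuspForm_HeckeLocal
import Fermat.Prelude.Def_CuspForm_HeckeEvalForms
import Fermat.Prelude.Def_HeckeGalois_EichlerShimura
import Fermat.Prelude.Def_ModularCurve_ModularUnit

/-!
# S16 (Eisenstein ideal index): interface statements

Everything here is a plain definition; the pieces are proved in separate modules and
assembled in `Fermat/Agent/S16/Alg.lean` and `Fermat/Agent/S16.lean`.
-/

set_option autoImplicit false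
open ModularCurve CuspForm

noncomputable section

/-- The Eisenstein character `HeckeAlg → ℤ` (`X_ℓ ↦ 1 + ℓ` for `ℓ ≠ p`, `X_p ↦ 1`). -/
def s16_eps (p : ℕ) : HeckeAlg →+* ℤ :=
  (MvPolynomial.aeval (R := ℤ) (eisensteinSystem p)).toRingHom

/-- `σ'_p(m)`: the sum of the divisors of `m` that are prime to `p`. -/
def s16_sigmaP (p m : ℕ) : ℤ :=
  ∑ d ∈ m.divisors.filter (fun d => ¬ p ∣ d), (d : ℤ)

/-- LOWER BOUND: every Hecke relation on `S_2(Γ0(p))` has Eisenstein value divisible by `n`. -/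
def s16_stmt_LB : Prop :=
  ∀ (p : ℕ) [Fact p.Prime] (t : HeckeAlg),
    heckeEvalForms p 2 t = 0 → ((eisensteinNumerator p : ℕ) : ℤ) ∣ s16_eps p t

/-- UPPER BOUND: there is a Hecke relation on `S_2(Γ0(p))` with Eisenstein value exactly `n`. -/
def s16_stmt_UB : Prop :=
  ∀ (p : ℕ) [Fact p.Prime],
    ∃ t : HeckeAlg, heckeEvalForms p 2 t = 0 ∧ s16_eps p t = ((eisensteinNumerator p : ℕ) : ℤ)

/-- `f` is a cusp form with integral `q`-expansion congruent to the Eisenstein series mod `M`: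
`a_m(f) ≡ σ'_p(m) mod M` for all `m ≥ 1`. -/
def s16_IsEisCong (p M : ℕ) [NeZero p]
    (f : CuspForm (CongruenceSubgroup.Gamma0 p) 2) : Prop :=
  ∀ m : ℕ, 1 ≤ m →
    ∃ a : ℤ, ModularFormClass.qCoeff f m = (a : ℂ) ∧ (M : ℤ) ∣ a - s16_sigmaP p m

/-- DUALITY (D2): for `M > 0`, if `M` divides the Eisenstein value of every relation, then some integral cusp
form is congruent to the Eisenstein series mod `M`. -/
def s16_stmt_DUAL : Prop :=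
  ∀ (p : ℕ) [Fact p.Prime] (M : ℕ), 0 < M →
    (∀ t : HeckeAlg, heckeEvalForms p 2 t = 0 → (M : ℤ) ∣ s16_eps p t) →
      ∃ f : CuspForm (CongruenceSubgroup.Gamma0 p) 2, s16_IsEisCong p M f

/-- CONGRUENCE BOUND: a cusp form congruent to the Eisenstein series mod `ℓ^k` forces `ℓ^k ∣ n`. -/
def s16_stmt_CONG : Prop :=
  ∀ (p : ℕ) [Fact p.Prime] (ℓ k : ℕ), ℓ.Prime →
    (∃ f : CuspForm (CongruenceSubgroup.Gamma0 p) 2, s16_IsEisCong p (ℓ ^ k) f) →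
      ℓ ^ k ∣ eisensteinNumerator p

/-- EISENSTEIN SERIES of weight 2 and level `p`:
`E = (p-1)/24 + ∑_{m ≥ 1} σ'_p(m) q^m ∈ M_2(Γ0(p))`. -/
def s16_stmt_EIS : Prop :=
  ∀ (p : ℕ) [Fact p.Prime],
    ∃ E : ModularForm (CongruenceSubgroup.Gamma0 p) 2,
      ModularFormClass.qCoeff E 0 = ((p : ℂ) - 1) / 24 ∧
      ∀ m : ℕ, 1 ≤ m → ModularFormClass.qCoeff E m = (s16_sigmaP p m : ℂ)

/-- `G ∈ M_2(Γ0(p))` has constant term `1` and all higher `q`-coefficients rational, divisible by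
`ℓ^r` in `ℤ_(ℓ)` (i.e. `G ≡ 1 mod ℓ^r` with `ℓ`-integral `q`-expansion), with bounded
denominators (`D • G` has integral `q`-expansion for some `D > 0`). -/
def s16_IsOneMod (p ℓ r : ℕ) [NeZero p] [Fact ℓ.Prime]
    (G : ModularForm (CongruenceSubgroup.Gamma0 p) 2) : Prop :=
  ModularFormClass.qCoeff G 0 = 1 ∧
    (∀ m : ℕ, 1 ≤ m → ∃ x : ℚ, ModularFormClass.qCoeff G m = (x : ℂ) ∧
      (x = 0 ∨ (r : ℤ) ≤ padicValRat ℓ x)) ∧
    (∃ D : ℕ, 0 < D ∧ ∀ m : ℕ, ∃ z : ℤ, (D : ℂ) * ModularFormClass.qCoeff G m = (z : ℂ))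

/-- There is a cusp form of weight 2 and level `p` with integral `q`-expansion whose first
coefficient is prime to `ℓ`.  (In the application: the cusp form congruent to the Eisenstein
series, whose first coefficient is `≡ 1 mod ℓ`.) -/
def s16_HasUnitCusp (p ℓ : ℕ) [NeZero p] : Prop :=
  ∃ f : CuspForm (CongruenceSubgroup.Gamma0 p) 2,
    (∀ m : ℕ, ∃ a : ℤ, ModularFormClass.qCoeff f m = (a : ℂ)) ∧
      ∃ a : ℤ, ModularFormClass.qCoeff f 1 = (a : ℂ) ∧ ¬ (ℓ : ℤ) ∣ a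

/-- FORBIDDEN CONGRUENCES (upper bound, prime by prime), for a prime level `p ≥ 5`, in the
presence of a cusp form with integral `q`-expansion and first coefficient prime to `ℓ`
(this extra hypothesis may be ignored by the proofs that do not need it). -/
def s16_stmt_F (P : ℕ → ℕ → ℕ → Prop) : Prop :=
  ∀ (p : ℕ) [Fact p.Prime] (ℓ : ℕ) [Fact ℓ.Prime] (r : ℕ), 5 ≤ p → P p ℓ r →
    s16_HasUnitCusp p ℓ →
    ¬ ∃ G : ModularForm (CongruenceSubgroup.Gamma0 p) 2, s16_IsOneMod p ℓ r G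

/-- W4 (weight-4 trace identity): `G ≡ 1 mod ℓ^r` forces `ℓ^r ∣ p + 1`. -/
def s16_stmt_W4 : Prop :=
  ∀ (p : ℕ) [Fact p.Prime] (ℓ : ℕ) [Fact ℓ.Prime] (r : ℕ), 5 ≤ p →
    s16_HasUnitCusp p ℓ →
    (∃ G : ModularForm (CongruenceSubgroup.Gamma0 p) 2, s16_IsOneMod p ℓ r G) →
      ℓ ^ r ∣ p + 1

/-- `ℓ = 2`, `p ≡ 1 mod 4`: no `G ≡ 1 mod 4`. -/
def s16_stmt_F2a : Prop := s16_stmt_F (fun p ℓ r => ℓ = 2 ∧ p % 4 = 1 ∧ 2 ≤ r)
/-- `ℓ = 2`, `p ≡ 3 mod 8`: no `G ≡ 1 mod 8`. -/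
def s16_stmt_F2b : Prop := s16_stmt_F (fun p ℓ r => ℓ = 2 ∧ p % 8 = 3 ∧ 3 ≤ r)
/-- `ℓ = 2`, `p ≡ 7 mod 8`: no `G ≡ 1 mod 8` (R1). -/
def s16_stmt_F2c : Prop := s16_stmt_F (fun p ℓ r => ℓ = 2 ∧ p % 8 = 7 ∧ 3 ≤ r)
/-- `ℓ = 3`, `p ≡ 1 mod 3`: no `G ≡ 1 mod 3`. -/
def s16_stmt_F3a : Prop := s16_stmt_F (fun p ℓ r => ℓ = 3 ∧ p % 3 = 1 ∧ 1 ≤ r)
/-- `ℓ = 3`, `p ≡ 2 mod 3`: no `G ≡ 1 mod 9`. -/
def s16_stmt_F3b : Prop := s16_stmt_F (fun p ℓ r => ℓ = 3 ∧ p % 3 = 2 ∧ 2 ≤ r)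
/-- `ℓ ≥ 5`, `ℓ ≠ p`: no `G ≡ 1 mod ℓ`. -/
def s16_stmt_F5 : Prop := s16_stmt_F (fun p ℓ r => 5 ≤ ℓ ∧ ℓ ≠ p ∧ 1 ≤ r)
/-- `ℓ = p ≥ 5`: no `G ≡ 1 mod p`. -/
def s16_stmt_Fp : Prop := s16_stmt_F (fun p ℓ r => ℓ = p ∧ 1 ≤ r)

end
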