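import Mathlib
import Fermat.Agent.S21.AlgBoundAux3

/-!
# S16 / lower bound, part (2b): the induced cocycle with arbitrary coefficients

Same construction as `Fermat.Agent.S21.alg_cc` (which has coefficients `ℂ`), for an arbitrary
abelian group `A`:  `s16c_cc Γ g χ v x = χ (s (g x)⁻¹ g s x) + v (g x) - v x`.
-/

set_option autoImplicit false
set_option linter.unusedSectionVars false

namespace Fermat.Agent.S16

open Fermat.Agent.S21

section Cocycle

variable {G : Type*} [Group G] (Γ : Subgroup G) {A : Type*} [AddCommGroup A]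

/-- the combined cocycle `c_χ g + (g - 1) v`. -/
noncomputable def s16c_cc (g : G) (χ : Additive Γ →+ A) (v : G ⧸ Γ → A) (x : G ⧸ Γ) : A :=
  χ (Additive.ofMul (alg_gam Γ g x)) + v (g • x) - v x

theorem s16c_cc_apply (g : G) (χ : Additive Γ →+ A) (v : G ⧸ Γ → A) (x : G ⧸ Γ) :
    s16c_cc Γ g χ v x = χ (Additive.ofMul (alg_gam Γ g x)) + v (g • x) - v x := rfl

theorem s16c_cc_mul (g h : G) (χ : Additive Γ →+ A) (v : G ⧸ Γ → A) (x : G ⧸ Γ) :
    s16c_cc Γ (g * h) χ v x = s16c_cc Γ g χ v (h • x) + s16c_cc Γ h χ v x := by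
  simp only [s16c_cc_apply, alg_gam_mul, ofMul_mul, map_add, mul_smul]
  abel

theorem s16c_cc_one (χ : Additive Γ →+ A) (v : G ⧸ Γ → A) (x : G ⧸ Γ) :
    s16c_cc Γ 1 χ v x = 0 := by
  have h := s16c_cc_mul Γ 1 1 χ v x
  rw [one_mul, one_smul] at h
  have h2 : s16c_cc Γ 1 χ v x + 0 = s16c_cc Γ 1 χ v x + s16c_cc Γ 1 χ v x := by
    rw [add_zero]; exact h
  exact (add_left_cancel h2).symm

theorem s16c_cc_add (g : G) (χ χ' : Additive Γ →+ A) (v v' : G ⧸ Γ → A) (x : G ⧸ Γ) :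
    s16c_cc Γ g (χ + χ') (v + v') x = s16c_cc Γ g χ v x + s16c_cc Γ g χ' v' x := by
  simp only [s16c_cc_apply, AddMonoidHom.add_apply, Pi.add_apply]
  abel

theorem s16c_cc_sub (g : G) (χ χ' : Additive Γ →+ A) (v v' : G ⧸ Γ → A) (x : G ⧸ Γ) :
    s16c_cc Γ g (χ - χ') (v - v') x = s16c_cc Γ g χ v x - s16c_cc Γ g χ' v' x := by
  simp only [s16c_cc_apply, AddMonoidHom.sub_apply, Pi.sub_apply]
  abel

/-- a cocycle vanishing on a generating set vanishes. -/
theorem s16c_cc_eq_zero_of_gen (s : Set G) (hs : Subgroup.closure s = ⊤)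
    (χ : Additive Γ →+ A) (v : G ⧸ Γ → A) (h0 : ∀ g ∈ s, ∀ x, s16c_cc Γ g χ v x = 0) (g : G) :
    ∀ x, s16c_cc Γ g χ v x = 0 := by
  have hg : g ∈ Subgroup.closure s := by rw [hs]; exact Subgroup.mem_top g
  induction hg using Subgroup.closure_induction with
  | mem g hg => exact h0 g hg
  | one => intro x; exact s16c_cc_one Γ χ v x
  | mul a b _ _ ha hb =>
    intro x
    rw [s16c_cc_mul, ha, hb, add_zero]
  | inv a _ ha =>
    intro x
    have h := s16c_cc_mul Γ a a⁻¹ χ v x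
    rw [mul_inv_cancel, s16c_cc_one, ha, zero_add] at h
    exact h.symm

/-- the kernel: if the combined cocycle vanishes identically then `χ = 0` and `v` is constant. -/
theorem s16c_cc_ker (χ : Additive Γ →+ A) (v : G ⧸ Γ → A)
    (h : ∀ g x, s16c_cc Γ g χ v x = 0) :
    χ = 0 ∧ ∀ x, v x = v ((1 : G) : G ⧸ Γ) := by
  set x₀ : G ⧸ Γ := ((1 : G) : G ⧸ Γ) with hx₀
  have hs₀ : (Quotient.out x₀ : G) ∈ Γ := by
    have h1 : ((Quotient.out x₀ : G) : G ⧸ Γ) = ((1 : G) : G ⧸ Γ) := QuotientGroup.out_eq' x₀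
    have h2 := QuotientGroup.eq.mp h1.symm
    simpa using h2
  have hfix : ∀ γ : G, γ ∈ Γ → γ • x₀ = x₀ := by
    intro γ hγ
    rw [hx₀, MulAction.Quotient.smul_mk, smul_eq_mul, mul_one]
    exact (QuotientGroup.eq.mpr (by simpa using Γ.inv_mem hγ))
  have hχ : χ = 0 := by
    refine AddMonoidHom.ext fun a => ?_
    obtain ⟨γ, rfl⟩ : ∃ γ : Γ, Additive.ofMul γ = a := ⟨Additive.toMul a, rfl⟩
    set g : G := Quotient.out x₀ * (γ : G) * (Quotient.out x₀)⁻¹ with hg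
    have hgΓ : g ∈ Γ := Γ.mul_mem (Γ.mul_mem hs₀ γ.2) (Γ.inv_mem hs₀)
    have hgx : g • x₀ = x₀ := hfix g hgΓ
    have hgam : alg_gam Γ g x₀ = γ := by
      apply Subtype.ext
      rw [alg_gam_coe_of_fixed Γ g x₀ hgx, hg]
      group
    have := h g x₀
    rw [s16c_cc_apply, hgx, hgam, add_sub_cancel_right] at this
    simpa using this
  refine ⟨hχ, fun x => ?_⟩
  obtain ⟨g, hg⟩ := MulAction.exists_smul_eq G x₀ x
  have := h g x₀
  rw [s16c_cc_apply, hχ, hg] at this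
  simp only [AddMonoidHom.zero_apply, zero_add] at this
  exact sub_eq_zero.mp this

/-- a central element `z ∈ Γ` on which `χ` vanishes: it acts trivially and the cocycle
vanishes on it. -/
theorem s16c_cc_central (z : G) (hz : z ∈ Γ) (hcomm : ∀ g : G, g * z = z * g)
    (χ : Additive Γ →+ A) (hχ : χ (Additive.ofMul (⟨z, hz⟩ : Γ)) = 0)
    (v : G ⧸ Γ → A) (x : G ⧸ Γ) :
    z • x = x ∧ s16c_cc Γ z χ v x = 0 := by
  have hzx : z • x = x := by
    obtain ⟨a, rfl⟩ := QuotientGroup.mk_surjective x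
    rw [MulAction.Quotient.smul_mk, smul_eq_mul]
    refine QuotientGroup.eq.mpr ?_
    rw [← hcomm a]
    have : (a * z)⁻¹ * a = z⁻¹ := by group
    rw [this]
    exact Γ.inv_mem hz
  refine ⟨hzx, ?_⟩
  have hgam : alg_gam Γ z x = ⟨z, hz⟩ := by
    apply Subtype.ext
    rw [alg_gam_coe_of_fixed Γ z x hzx, mul_assoc, ← hcomm (Quotient.out x), ← mul_assoc,
      inv_mul_cancel, one_mul]
  rw [s16c_cc_apply, hzx, hgam, hχ, zero_add, sub_self]

end Cocycle

end Fermat.Agent.S16
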