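import Mathlib

/-!
# S16 / lower bound, part (2a): orbit counting without division

For a permutation `σ` of a finite linearly ordered set `X` with `σ² = 1` (resp. `σ³ = 1`) the
group of functions `a : X → A` with `a x + a (σ x) = 0` and `a = 0` on the fixed points
(resp. `a x + a (σ x) + a (σ² x) = 0`, `a = 0` on the fixed points) injects into the functions on
a set of orbit representatives.  No division by `2` or `3` in `A` is needed.
-/

set_option autoImplicit false

namespace Fermat.Agent.S16

section Two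

variable {X : Type*} [Fintype X] [LinearOrder X] (σ : X → X)

/-- representatives of the two-element orbits: the smaller element. -/
def s16c_repTwo : Finset X := Finset.univ.filter fun x => x < σ x

theorem s16c_mem_repTwo (x : X) : x ∈ s16c_repTwo σ ↔ x < σ x := by
  simp [s16c_repTwo]

theorem s16c_card_two_aux (hσ : ∀ x, σ (σ x) = x) :
    2 * (s16c_repTwo σ).card + (Finset.univ.filter fun x => σ x = x).card = Fintype.card X := by
  classical
  have h1 : (Finset.univ.filter fun x => σ x < x).card = (s16c_repTwo σ).card := by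
    refine Finset.card_bij (fun x _ => σ x) ?_ ?_ ?_
    · intro x hx
      rw [Finset.mem_filter] at hx
      rw [s16c_mem_repTwo, hσ]
      exact hx.2
    · intro x _ y _ hxy
      have := congrArg σ hxy
      rwa [hσ, hσ] at this
    · intro y hy
      rw [s16c_mem_repTwo] at hy
      refine ⟨σ y, ?_, hσ y⟩
      rw [Finset.mem_filter, hσ]
      exact ⟨Finset.mem_univ _, hy⟩
  have h2 : (Finset.univ : Finset X) = s16c_repTwo σ ∪ (Finset.univ.filter fun x => σ x < x)
      ∪ (Finset.univ.filter fun x => σ x = x) := by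
    ext x
    simp only [Finset.mem_univ, Finset.mem_union, Finset.mem_filter, true_and, s16c_mem_repTwo,
      true_iff]
    rcases lt_trichotomy x (σ x) with h | h | h
    · exact Or.inl (Or.inl h)
    · exact Or.inr h.symm
    · exact Or.inl (Or.inr h)
  have hd1 : Disjoint (s16c_repTwo σ) (Finset.univ.filter fun x => σ x < x) := by
    rw [Finset.disjoint_left]
    intro x hx hx'
    rw [s16c_mem_repTwo] at hx
    rw [Finset.mem_filter] at hx'
    exact absurd hx (not_lt.mpr hx'.2.le)
  have hd2 : Disjoint (s16c_repTwo σ ∪ (Finset.univ.filter fun x => σ x < x))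
      (Finset.univ.filter fun x => σ x = x) := by
    rw [Finset.disjoint_left]
    intro x hx hx'
    rw [Finset.mem_filter] at hx'
    rw [Finset.mem_union, s16c_mem_repTwo, Finset.mem_filter] at hx
    rcases hx with hx | hx
    · rw [hx'.2] at hx; exact lt_irrefl _ hx
    · have := hx.2; rw [hx'.2] at this; exact lt_irrefl _ this
  have h3 := congrArg Finset.card h2
  rw [Finset.card_union_of_disjoint hd2, Finset.card_union_of_disjoint hd1, h1,
    Finset.card_univ] at h3
  omega

theorem s16c_card_two (hσ : ∀ x, σ (σ x) = x) :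
    2 * (s16c_repTwo σ).card + Nat.card {x : X // σ x = x} = Nat.card X := by
  classical
  have h := s16c_card_two_aux σ hσ
  rw [Nat.card_eq_fintype_card, Nat.card_eq_fintype_card,
    Fintype.card_of_subtype (Finset.univ.filter fun x => σ x = x) (by simp)]
  exact h

variable {A : Type*} [AddCommGroup A]

omit [Fintype X] [LinearOrder X] in
/-- `a x + a (σ x) = 0` and `a = 0` on fixed points. -/
def s16c_ZTwo (A : Type*) [AddCommGroup A] : AddSubgroup (X → A) where
  carrier := {a | (∀ x, a x + a (σ x) = 0) ∧ ∀ x, σ x = x → a x = 0}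
  zero_mem' := ⟨fun _ => by simp, fun _ _ => rfl⟩
  add_mem' := by
    rintro a b ⟨ha, ha'⟩ ⟨hb, hb'⟩
    refine ⟨fun x => ?_, fun x hx => ?_⟩
    · have h1 := ha x
      have h2 := hb x
      simp only [Pi.add_apply]
      rw [add_add_add_comm, h1, h2, add_zero]
    · simp only [Pi.add_apply]
      rw [ha' x hx, hb' x hx, add_zero]
  neg_mem' := by
    rintro a ⟨ha, ha'⟩
    refine ⟨fun x => ?_, fun x hx => ?_⟩
    · simp only [Pi.neg_apply]
      rw [← neg_add, ha x, neg_zero]
    · simp only [Pi.neg_apply]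
      rw [ha' x hx, neg_zero]

omit [Fintype X] [LinearOrder X] in
theorem s16c_mem_ZTwo (a : X → A) :
    a ∈ s16c_ZTwo σ A ↔ (∀ x, a x + a (σ x) = 0) ∧ ∀ x, σ x = x → a x = 0 := Iff.rfl

/-- an element of `Z₂` vanishing on the representatives vanishes. -/
theorem s16c_ZTwo_eq_zero (hσ : ∀ x, σ (σ x) = x) (a : X → A) (ha : a ∈ s16c_ZTwo σ A)
    (h0 : ∀ x ∈ s16c_repTwo σ, a x = 0) : a = 0 := by
  funext y
  rcases lt_trichotomy y (σ y) with h | h | h
  · exact h0 y ((s16c_mem_repTwo σ y).mpr h)
  · exact ha.2 y h.symm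
  · have h1 : a (σ y) = 0 := h0 (σ y) ((s16c_mem_repTwo σ _).mpr (by rw [hσ]; exact h))
    have h2 := ha.1 y
    rw [h1, add_zero] at h2
    exact h2

theorem s16c_card_ZTwo_le [Finite A] (hσ : ∀ x, σ (σ x) = x) :
    Nat.card (s16c_ZTwo σ A) ≤ Nat.card A ^ (s16c_repTwo σ).card := by
  classical
  have hinj : Function.Injective
      (fun a : s16c_ZTwo σ A => fun x : s16c_repTwo σ => (a : X → A) x) := by
    intro a b hab
    have hsub : ((a - b : s16c_ZTwo σ A) : X → A) = 0 := by
      refine s16c_ZTwo_eq_zero σ hσ _ (a - b).2 fun x hx => ?_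
      have := congrFun hab ⟨x, hx⟩
      simp only at this
      simp [this]
    have : a - b = 0 := Subtype.ext hsub
    exact sub_eq_zero.mp this
  have h1 := Nat.card_le_card_of_injective _ hinj
  rw [Nat.card_fun] at h1
  simpa using h1

end Two

section Three

variable {X : Type*} [Fintype X] [LinearOrder X] (υ : X → X)

/-- representatives of the three-element orbits: the smallest element. -/
def s16c_repThree : Finset X := Finset.univ.filter fun x => x < υ x ∧ x < υ (υ x)

theorem s16c_mem_repThree (x : X) : x ∈ s16c_repThree υ ↔ x < υ x ∧ x < υ (υ x) := by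
  simp [s16c_repThree]

omit [Fintype X] [LinearOrder X] in
theorem s16c_fixed_of_sq_fixed (hυ : ∀ x, υ (υ (υ x)) = x) (x : X) (h : υ (υ x) = x) :
    υ x = x := by
  have := hυ x
  rw [h] at this
  exact this

omit [Fintype X] [LinearOrder X] in
theorem s16c_fixed_of_eq (hυ : ∀ x, υ (υ (υ x)) = x) (x : X) (h : υ x = υ (υ x)) :
    υ x = x := by
  have h1 := congrArg υ h
  rw [hυ] at h1
  -- h1 : υ (υ x) = x
  exact s16c_fixed_of_sq_fixed υ hυ x h1

/-- for a non-fixed point exactly one of `x`, `υ x`, `υ² x` is the minimum of the orbit. -/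
theorem s16c_three_cases (hυ : ∀ x, υ (υ (υ x)) = x) (x : X) :
    υ x = x ∨ x ∈ s16c_repThree υ ∨ υ x ∈ s16c_repThree υ ∨ υ (υ x) ∈ s16c_repThree υ := by
  by_cases hfix : υ x = x
  · exact Or.inl hfix
  right
  have h01 : x ≠ υ x := fun h => hfix h.symm
  have h02 : x ≠ υ (υ x) := fun h => hfix (s16c_fixed_of_sq_fixed υ hυ x h.symm)
  have h12 : υ x ≠ υ (υ x) := fun h => hfix (s16c_fixed_of_eq υ hυ x h)
  simp only [s16c_mem_repThree, hυ]
  rcases lt_or_gt_of_ne h01 with a | a <;> rcases lt_or_gt_of_ne h02 with b | b <;>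
    rcases lt_or_gt_of_ne h12 with c | c
  · exact Or.inl ⟨a, b⟩
  · exact Or.inl ⟨a, b⟩
  · exact Or.inr (Or.inr ⟨b, lt_trans b a⟩)
  · exact Or.inr (Or.inr ⟨b, c⟩)
  · exact Or.inr (Or.inl ⟨c, a⟩)
  · exact Or.inr (Or.inl ⟨lt_trans a b, a⟩)
  · exact Or.inr (Or.inl ⟨c, a⟩)
  · exact Or.inr (Or.inr ⟨b, c⟩)

theorem s16c_card_three_aux (hυ : ∀ x, υ (υ (υ x)) = x) :
    3 * (s16c_repThree υ).card + (Finset.univ.filter fun x => υ x = x).card
      = Fintype.card X := by
  classical
  set R := s16c_repThree υ with hR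
  set R1 : Finset X := Finset.univ.filter fun x => υ (υ x) ∈ R with hR1
  set R2 : Finset X := Finset.univ.filter fun x => υ x ∈ R with hR2
  set F : Finset X := Finset.univ.filter fun x => υ x = x with hF
  have hinj : Function.Injective υ := by
    intro x y hxy
    have := congrArg (fun z => υ (υ z)) hxy
    simpa [hυ] using this
  have c1 : R1.card = R.card := by
    refine Finset.card_bij (fun x _ => υ (υ x)) ?_ ?_ ?_
    · intro x hx
      rw [hR1, Finset.mem_filter] at hx
      exact hx.2
    · intro x _ y _ hxy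
      exact hinj (hinj hxy)
    · intro y hy
      refine ⟨υ y, ?_, hυ y⟩
      rw [hR1, Finset.mem_filter, hυ]
      exact ⟨Finset.mem_univ _, hy⟩
  have c2 : R2.card = R.card := by
    refine Finset.card_bij (fun x _ => υ x) ?_ ?_ ?_
    · intro x hx
      rw [hR2, Finset.mem_filter] at hx
      exact hx.2
    · intro x _ y _ hxy
      exact hinj hxy
    · intro y hy
      refine ⟨υ (υ y), ?_, hυ y⟩
      rw [hR2, Finset.mem_filter, hυ]
      exact ⟨Finset.mem_univ _, hy⟩
  -- membership descriptions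
  have mR : ∀ x, x ∈ R ↔ x < υ x ∧ x < υ (υ x) := fun x => s16c_mem_repThree υ x
  have mR1 : ∀ x, x ∈ R1 ↔ υ (υ x) < x ∧ υ (υ x) < υ x := by
    intro x
    rw [hR1, Finset.mem_filter, mR, hυ]
    simp
  have mR2 : ∀ x, x ∈ R2 ↔ υ x < υ (υ x) ∧ υ x < x := by
    intro x
    rw [hR2, Finset.mem_filter, mR, hυ]
    simp
  have mF : ∀ x, x ∈ F ↔ υ x = x := by
    intro x
    rw [hF, Finset.mem_filter]
    simp
  have hcover : (Finset.univ : Finset X) = ((R ∪ R1) ∪ R2) ∪ F := by
    ext x
    simp only [Finset.mem_univ, Finset.mem_union, true_iff]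
    rcases s16c_three_cases υ hυ x with h | h | h | h
    · exact Or.inr ((mF x).mpr h)
    · exact Or.inl (Or.inl (Or.inl h))
    · exact Or.inl (Or.inr (by rw [hR2, Finset.mem_filter]; exact ⟨Finset.mem_univ _, h⟩))
    · exact Or.inl (Or.inl (Or.inr (by rw [hR1, Finset.mem_filter]; exact ⟨Finset.mem_univ _, h⟩)))
  have d1 : Disjoint R R1 := by
    rw [Finset.disjoint_left]
    intro x hx hx'
    rw [mR] at hx
    rw [mR1] at hx'
    exact lt_asymm hx.2 hx'.1
  have d2 : Disjoint (R ∪ R1) R2 := by
    rw [Finset.disjoint_left]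
    intro x hx hx'
    rw [mR2] at hx'
    rw [Finset.mem_union, mR, mR1] at hx
    rcases hx with hx | hx
    · exact lt_asymm hx.1 hx'.2
    · exact lt_asymm hx.2 hx'.1
  have d3 : Disjoint ((R ∪ R1) ∪ R2) F := by
    rw [Finset.disjoint_left]
    intro x hx hx'
    rw [mF] at hx'
    rw [Finset.mem_union, Finset.mem_union, mR, mR1, mR2] at hx
    rcases hx with (hx | hx) | hx
    · have := hx.1; rw [hx'] at this; exact lt_irrefl _ this
    · have := hx.1; rw [hx', hx'] at this; exact lt_irrefl _ this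
    · have := hx.2; rw [hx'] at this; exact lt_irrefl _ this
  have h3 := congrArg Finset.card hcover
  rw [Finset.card_union_of_disjoint d3, Finset.card_union_of_disjoint d2,
    Finset.card_union_of_disjoint d1, c1, c2, Finset.card_univ] at h3
  omega

theorem s16c_card_three (hυ : ∀ x, υ (υ (υ x)) = x) :
    3 * (s16c_repThree υ).card + Nat.card {x : X // υ x = x} = Nat.card X := by
  classical
  have h := s16c_card_three_aux υ hυ
  rw [Nat.card_eq_fintype_card, Nat.card_eq_fintype_card,
    Fintype.card_of_subtype (Finset.univ.filter fun x => υ x = x) (by simp)]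
  exact h

variable {A : Type*} [AddCommGroup A]

omit [Fintype X] [LinearOrder X] in
/-- `b x + b (υ x) + b (υ² x) = 0` and `b = 0` on fixed points. -/
def s16c_ZThree (A : Type*) [AddCommGroup A] : AddSubgroup (X → A) where
  carrier := {b | (∀ x, b x + b (υ x) + b (υ (υ x)) = 0) ∧ ∀ x, υ x = x → b x = 0}
  zero_mem' := ⟨fun _ => by simp, fun _ _ => rfl⟩
  add_mem' := by
    rintro a b ⟨ha, ha'⟩ ⟨hb, hb'⟩
    refine ⟨fun x => ?_, fun x hx => ?_⟩
    · have h1 := ha x
      have h2 := hb x
      simp only [Pi.add_apply]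
      have : a x + b x + (a (υ x) + b (υ x)) + (a (υ (υ x)) + b (υ (υ x)))
          = (a x + a (υ x) + a (υ (υ x))) + (b x + b (υ x) + b (υ (υ x))) := by abel
      rw [this, h1, h2, add_zero]
    · simp only [Pi.add_apply]
      rw [ha' x hx, hb' x hx, add_zero]
  neg_mem' := by
    rintro a ⟨ha, ha'⟩
    refine ⟨fun x => ?_, fun x hx => ?_⟩
    · simp only [Pi.neg_apply]
      rw [← neg_add, ← neg_add, ha x, neg_zero]
    · simp only [Pi.neg_apply]
      rw [ha' x hx, neg_zero]

omit [Fintype X] [LinearOrder X] in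
theorem s16c_mem_ZThree (b : X → A) :
    b ∈ s16c_ZThree υ A ↔
      (∀ x, b x + b (υ x) + b (υ (υ x)) = 0) ∧ ∀ x, υ x = x → b x = 0 := Iff.rfl

theorem s16c_ZThree_eq_zero (hυ : ∀ x, υ (υ (υ x)) = x) (b : X → A) (hb : b ∈ s16c_ZThree υ A)
    (h0 : ∀ x ∈ s16c_repThree υ, b x = 0 ∧ b (υ x) = 0) : b = 0 := by
  funext y
  rcases s16c_three_cases υ hυ y with h | h | h | h
  · exact hb.2 y h
  · exact (h0 y h).1
  · -- `υ y` is the minimum: `y = υ² (υ y)`
    have h1 := h0 (υ y) h
    have h2 := hb.1 (υ y)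
    rw [h1.1, h1.2, hυ, zero_add, zero_add] at h2
    exact h2
  · -- `υ² y` is the minimum: `y = υ (υ² y)`
    have h1 := (h0 (υ (υ y)) h).2
    rw [hυ] at h1
    exact h1

theorem s16c_card_ZThree_le [Finite A] (hυ : ∀ x, υ (υ (υ x)) = x) :
    Nat.card (s16c_ZThree υ A) ≤ Nat.card A ^ (2 * (s16c_repThree υ).card) := by
  classical
  have hinj : Function.Injective
      (fun b : s16c_ZThree υ A => fun x : s16c_repThree υ =>
        (((b : X → A) x, (b : X → A) (υ x)) : A × A)) := by
    intro a b hab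
    have hsub : ((a - b : s16c_ZThree υ A) : X → A) = 0 := by
      refine s16c_ZThree_eq_zero υ hυ _ (a - b).2 fun x hx => ?_
      have := congrFun hab ⟨x, hx⟩
      simp only [Prod.mk.injEq] at this
      simp [this.1, this.2]
    have : a - b = 0 := Subtype.ext hsub
    exact sub_eq_zero.mp this
  have h1 := Nat.card_le_card_of_injective _ hinj
  rw [Nat.card_fun, Nat.card_prod] at h1
  have h2 : (Nat.card A * Nat.card A) ^ Nat.card (s16c_repThree υ)
      = Nat.card A ^ (2 * (s16c_repThree υ).card) := by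
    rw [← pow_two, ← pow_mul]
    simp
  rw [h2] at h1
  exact h1

end Three

end Fermat.Agent.S16
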