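import Mathlib
import Fermat.Agent.S21.AlgBoundAux4
import Fermat.Agent.S16.COrbit
import Fermat.Agent.S16.CCore

/-!
# S16 / lower bound, part (2c): the counting bound for homomorphisms `Γ → A`

`Γ ≤ SL(2, ℤ)` of finite index with `-1, T ∈ Γ`, `S ∉ Γ`; `A` a finite abelian group.
`s16c_H Γ A` = additive characters `Γ → A` killing the elements of trace `±2` and the elements
`γ` with `γ ^ 12 = 1`.  Then

  `#H * #A ^ #X ≤ #A ^ (a + 2 b)`,  `X = SL(2, ℤ) ⧸ Γ`,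

where `a` (resp. `b`) is the number of two-element `S`-orbits (resp. three-element `ST`-orbits)
on `X`.
-/

set_option autoImplicit false
set_option linter.unusedSectionVars false

open Matrix.SpecialLinearGroup ModularGroup
open scoped MatrixGroups

namespace Fermat.Agent.S16

open Fermat.Agent.S21

section Bound

variable (Γ : Subgroup SL(2, ℤ)) (A : Type*) [AddCommGroup A]

/-- characters killing parabolic and (12-)torsion elements. -/
def s16c_H : AddSubgroup (Additive Γ →+ A) where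
  carrier := {χ | ∀ γ : Γ, (((γ : SL(2, ℤ)) : Matrix (Fin 2) (Fin 2) ℤ).trace ^ 2 = 4
      ∨ (γ : SL(2, ℤ)) ^ 12 = 1) → χ (Additive.ofMul γ) = 0}
  zero_mem' := fun _ _ => rfl
  add_mem' := by
    intro a b ha hb γ hγ
    rw [AddMonoidHom.add_apply, ha γ hγ, hb γ hγ, add_zero]
  neg_mem' := by
    intro a ha γ hγ
    rw [AddMonoidHom.neg_apply, ha γ hγ, neg_zero]

variable {Γ A}

theorem s16c_mem_H (χ : Additive Γ →+ A) :
    χ ∈ s16c_H Γ A ↔ ∀ γ : Γ, (((γ : SL(2, ℤ)) : Matrix (Fin 2) (Fin 2) ℤ).trace ^ 2 = 4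
      ∨ (γ : SL(2, ℤ)) ^ 12 = 1) → χ (Additive.ofMul γ) = 0 := Iff.rfl

theorem s16c_H_neg_one (hneg : (-1 : SL(2, ℤ)) ∈ Γ) (χ : Additive Γ →+ A)
    (hχ : χ ∈ s16c_H Γ A) : χ (Additive.ofMul (⟨-1, hneg⟩ : Γ)) = 0 := by
  refine hχ _ (Or.inr ?_)
  show (-1 : SL(2, ℤ)) ^ 12 = 1
  have h : ((-1 : SL(2, ℤ)) ^ 2) = 1 := by
    rw [pow_two, alg_neg_one_sq]
  have : (12 : ℕ) = 2 * 6 := rfl
  rw [this, pow_mul, h, one_pow]

theorem s16c_cc_neg_one (hneg : (-1 : SL(2, ℤ)) ∈ Γ) (χ : Additive Γ →+ A)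
    (hχ : χ ∈ s16c_H Γ A) (v : SL(2, ℤ) ⧸ Γ → A) (x : SL(2, ℤ) ⧸ Γ) :
    s16c_cc Γ (-1) χ v x = 0 :=
  (s16c_cc_central Γ (-1) hneg alg_neg_one_comm χ (s16c_H_neg_one hneg χ hχ) v x).2

theorem s16c_S_pow_four : (S : SL(2, ℤ)) ^ 4 = 1 := by decide

theorem s16c_U_pow_six : ((S * T : SL(2, ℤ))) ^ 6 = 1 := by decide

theorem s16c_conj_pow (a g : SL(2, ℤ)) (n : ℕ) : (a⁻¹ * g * a) ^ n = a⁻¹ * g ^ n * a := by
  induction n with
  | zero => simp
  | succ k ih => rw [pow_succ, ih, pow_succ]; group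

/-- the cocycle at `S` satisfies the two conditions of `Z₂`. -/
theorem s16c_cc_S_mem (hneg : (-1 : SL(2, ℤ)) ∈ Γ) (χ : Additive Γ →+ A)
    (hχ : χ ∈ s16c_H Γ A) (v : SL(2, ℤ) ⧸ Γ → A) :
    (fun x => s16c_cc Γ S χ v x) ∈ s16c_ZTwo (fun x : SL(2, ℤ) ⧸ Γ => S • x) A := by
  refine ⟨fun x => ?_, fun x hx => ?_⟩
  · have h := s16c_cc_mul Γ S S χ v x
    rw [alg_S_mul_S, s16c_cc_neg_one hneg χ hχ v x] at h
    rw [add_comm]
    exact h.symm
  · simp only at hx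
    show s16c_cc Γ S χ v x = 0
    rw [s16c_cc_apply, hx, add_sub_cancel_right]
    refine hχ _ (Or.inr ?_)
    rw [alg_gam_coe_of_fixed Γ S x hx, s16c_conj_pow]
    have : (12 : ℕ) = 4 * 3 := rfl
    rw [this, pow_mul, s16c_S_pow_four, one_pow, mul_one, inv_mul_cancel]

/-- the cocycle at `U = S T` satisfies the two conditions of `Z₃`. -/
theorem s16c_cc_U_mem (hneg : (-1 : SL(2, ℤ)) ∈ Γ) (χ : Additive Γ →+ A)
    (hχ : χ ∈ s16c_H Γ A) (v : SL(2, ℤ) ⧸ Γ → A) :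
    (fun x => s16c_cc Γ (S * T) χ v x) ∈
      s16c_ZThree (fun x : SL(2, ℤ) ⧸ Γ => (S * T) • x) A := by
  refine ⟨fun x => ?_, fun x hx => ?_⟩
  · have h := s16c_cc_mul Γ (S * T) ((S * T) * (S * T)) χ v x
    rw [alg_U_cube, s16c_cc_neg_one hneg χ hχ v x, s16c_cc_mul Γ (S * T) (S * T) χ v x,
      mul_smul] at h
    have h2 : s16c_cc Γ (S * T) χ v x + s16c_cc Γ (S * T) χ v ((S * T) • x)
        + s16c_cc Γ (S * T) χ v ((S * T) • (S * T) • x)
        = s16c_cc Γ (S * T) χ v ((S * T) • (S * T) • x)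
          + (s16c_cc Γ (S * T) χ v ((S * T) • x) + s16c_cc Γ (S * T) χ v x) := by abel
    rw [h2]
    exact h.symm
  · simp only at hx
    show s16c_cc Γ (S * T) χ v x = 0
    rw [s16c_cc_apply, hx, add_sub_cancel_right]
    refine hχ _ (Or.inr ?_)
    rw [alg_gam_coe_of_fixed Γ (S * T) x hx, s16c_conj_pow]
    have : (12 : ℕ) = 6 * 2 := rfl
    rw [this, pow_mul, s16c_U_pow_six, one_pow, mul_one, inv_mul_cancel]

/-- the base coset. -/
def s16c_base (Γ : Subgroup SL(2, ℤ)) : SL(2, ℤ) ⧸ Γ := ((1 : SL(2, ℤ)) : SL(2, ℤ) ⧸ Γ)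

theorem s16c_smul_base {g : SL(2, ℤ)} (hg : g ∈ Γ) : g • s16c_base Γ = s16c_base Γ := by
  rw [s16c_base, MulAction.Quotient.smul_mk, smul_eq_mul, mul_one]
  exact (QuotientGroup.eq.mpr (by simpa using Γ.inv_mem hg))

theorem s16c_smul_base_ne {g : SL(2, ℤ)} (hg : g ∉ Γ) : g • s16c_base Γ ≠ s16c_base Γ := by
  intro h
  rw [s16c_base, MulAction.Quotient.smul_mk, smul_eq_mul, mul_one] at h
  have := QuotientGroup.eq.mp h
  rw [mul_one] at this
  exact hg (by simpa using Γ.inv_mem this)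

/-- the cocycle at `T` vanishes at the base coset. -/
theorem s16c_cc_T_base (hT : T ∈ Γ) (χ : Additive Γ →+ A)
    (hχ : χ ∈ s16c_H Γ A) (v : SL(2, ℤ) ⧸ Γ → A) :
    s16c_cc Γ T χ v (s16c_base Γ) = 0 := by
  have hx : T • s16c_base Γ = s16c_base Γ := s16c_smul_base hT
  rw [s16c_cc_apply, hx, add_sub_cancel_right]
  refine hχ _ (Or.inl ?_)
  rw [alg_gam_coe_of_fixed Γ T _ hx]
  have := alg_trace_conj_T_pow (Quotient.out (s16c_base Γ)) 1
  rw [pow_one] at this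
  rw [this]
  norm_num

theorem s16c_cc_U_base (hT : T ∈ Γ) (χ : Additive Γ →+ A)
    (hχ : χ ∈ s16c_H Γ A) (v : SL(2, ℤ) ⧸ Γ → A) :
    s16c_cc Γ (S * T) χ v (s16c_base Γ) = s16c_cc Γ S χ v (s16c_base Γ) := by
  rw [s16c_cc_mul, s16c_cc_T_base hT χ hχ v, add_zero, s16c_smul_base hT]

/-- the auxiliary element `r (δ_{x₀} - δ_{S x₀})` of `Z₂`. -/
noncomputable def s16c_bump (Γ : Subgroup SL(2, ℤ)) (r : A) : SL(2, ℤ) ⧸ Γ → A := by
  classical
  exact fun x => if x = s16c_base Γ then r else if x = S • s16c_base Γ then -r else 0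

theorem s16c_bump_base (r : A) : s16c_bump Γ r (s16c_base Γ) = r := by
  classical
  simp [s16c_bump]

theorem s16c_bump_mem (hneg : (-1 : SL(2, ℤ)) ∈ Γ) (hS : S ∉ Γ) (r : A) :
    s16c_bump Γ r ∈ s16c_ZTwo (fun x : SL(2, ℤ) ⧸ Γ => S • x) A := by
  classical
  have hne : S • s16c_base Γ ≠ s16c_base Γ := s16c_smul_base_ne hS
  have hSS : ∀ x : SL(2, ℤ) ⧸ Γ, S • S • x = x := alg_S_S_smul Γ hneg
  refine ⟨fun x => ?_, fun x hx => ?_⟩
  · simp only [s16c_bump]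
    by_cases h1 : x = s16c_base Γ
    · subst h1
      simp [hne]
    · by_cases h2 : x = S • s16c_base Γ
      · subst h2
        simp [hSS, hne]
      · have h3 : S • x ≠ s16c_base Γ := by
          intro h
          apply h2
          rw [← h, hSS]
        have h4 : S • x ≠ S • s16c_base Γ := by
          intro h
          apply h1
          have := congrArg (fun y => S • y) h
          simpa [hSS] using this
        simp [h1, h2, h3, h4]
  · simp only at hx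
    simp only [s16c_bump]
    have h1 : x ≠ s16c_base Γ := by
      rintro rfl
      exact hne hx
    have h2 : x ≠ S • s16c_base Γ := by
      rintro rfl
      rw [hSS] at hx
      exact hne hx.symm
    simp [h1, h2]

variable (Γ A)

/-- **The counting bound.** -/
theorem s16c_bound [Finite A] [Fintype (SL(2, ℤ) ⧸ Γ)] [LinearOrder (SL(2, ℤ) ⧸ Γ)]
    (hneg : (-1 : SL(2, ℤ)) ∈ Γ) (hT : T ∈ Γ) (hS : S ∉ Γ) :
    Finite (s16c_H Γ A) ∧
    Nat.card (s16c_H Γ A) * Nat.card A ^ Nat.card (SL(2, ℤ) ⧸ Γ)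
      ≤ Nat.card A ^ ((s16c_repTwo (fun x : SL(2, ℤ) ⧸ Γ => S • x)).card
          + 2 * (s16c_repThree (fun x : SL(2, ℤ) ⧸ Γ => (S * T) • x)).card) := by
  classical
  set σ : (SL(2, ℤ) ⧸ Γ) → (SL(2, ℤ) ⧸ Γ) := fun x => S • x with hσdef
  set υ : (SL(2, ℤ) ⧸ Γ) → (SL(2, ℤ) ⧸ Γ) := fun x => (S * T) • x with hυdef
  have hσ : ∀ x, σ (σ x) = x := alg_S_S_smul Γ hneg
  have hυ : ∀ x, υ (υ (υ x)) = x := alg_U_U_U_smul Γ hneg
  have hApos : 0 < Nat.card A := Nat.card_pos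
  -- the big map
  let Ψ : ((s16c_H Γ A × ((SL(2, ℤ) ⧸ Γ) → A)) × A) → A × (s16c_ZTwo σ A × s16c_ZThree υ A) :=
    fun q => (q.1.2 (s16c_base Γ),
      (⟨(fun x => s16c_cc Γ S (q.1.1 : Additive Γ →+ A) q.1.2 x) + s16c_bump Γ q.2,
          (s16c_ZTwo σ A).add_mem (s16c_cc_S_mem hneg _ q.1.1.2 _) (s16c_bump_mem hneg hS _)⟩,
        ⟨fun x => s16c_cc Γ (S * T) (q.1.1 : Additive Γ →+ A) q.1.2 x,
          s16c_cc_U_mem hneg _ q.1.1.2 _⟩))
  have hΨ : Function.Injective Ψ := by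
    rintro ⟨⟨χ, v⟩, r⟩ ⟨⟨χ', v'⟩, r'⟩ h
    have h1 : v (s16c_base Γ) = v' (s16c_base Γ) := congrArg Prod.fst h
    have h2 : ((fun x => s16c_cc Γ S (χ : Additive Γ →+ A) v x) + s16c_bump Γ r : (SL(2, ℤ) ⧸ Γ) → A)
        = (fun x => s16c_cc Γ S (χ' : Additive Γ →+ A) v' x) + s16c_bump Γ r' :=
      congrArg (fun z => ((z.2.1 : s16c_ZTwo σ A) : (SL(2, ℤ) ⧸ Γ) → A)) h
    have h3 : (fun x => s16c_cc Γ (S * T) (χ : Additive Γ →+ A) v x)
        = fun x => s16c_cc Γ (S * T) (χ' : Additive Γ →+ A) v' x :=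
      congrArg (fun z => ((z.2.2 : s16c_ZThree υ A) : (SL(2, ℤ) ⧸ Γ) → A)) h
    -- `r = r'`
    have h4 : s16c_cc Γ S (χ : Additive Γ →+ A) v (s16c_base Γ)
        = s16c_cc Γ S (χ' : Additive Γ →+ A) v' (s16c_base Γ) := by
      rw [← s16c_cc_U_base hT _ χ.2 v, ← s16c_cc_U_base hT _ χ'.2 v']
      exact congrFun h3 _
    have h5 := congrFun h2 (s16c_base Γ)
    simp only [Pi.add_apply, s16c_bump_base, h4] at h5
    have hr : r = r' := add_left_cancel h5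
    subst hr
    have h6 : ∀ x, s16c_cc Γ S (χ : Additive Γ →+ A) v x
        = s16c_cc Γ S (χ' : Additive Γ →+ A) v' x := by
      intro x
      have := congrFun h2 x
      simp only [Pi.add_apply] at this
      exact add_right_cancel this
    -- the difference
    have hS0 : ∀ x, s16c_cc Γ S ((χ : Additive Γ →+ A) - (χ' : Additive Γ →+ A)) (v - v') x = 0 := by
      intro x
      rw [s16c_cc_sub, h6 x, sub_self]
    have hU0 : ∀ x, s16c_cc Γ (S * T) ((χ : Additive Γ →+ A) - (χ' : Additive Γ →+ A)) (v - v') x = 0 := by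
      intro x
      rw [s16c_cc_sub, congrFun h3 x, sub_self]
    have hall := s16c_cc_eq_zero_of_gen Γ {S, T} _root_.SpecialLinearGroup.SL2Z_generators
      ((χ : Additive Γ →+ A) - (χ' : Additive Γ →+ A)) (v - v') (by
        intro g hg
        rcases hg with rfl | hg
        · exact hS0
        · rw [Set.mem_singleton_iff] at hg
          subst hg
          intro x
          have h := s16c_cc_mul Γ S T ((χ : Additive Γ →+ A) - (χ' : Additive Γ →+ A)) (v - v') x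
          rw [hU0, hS0, zero_add] at h
          exact h.symm)
    obtain ⟨hχ, hv⟩ := s16c_cc_ker Γ ((χ : Additive Γ →+ A) - (χ' : Additive Γ →+ A)) (v - v') hall
    have hχ' : χ = χ' := Subtype.ext (sub_eq_zero.mp hχ)
    have hv' : v = v' := by
      funext x
      have := hv x
      simp only [Pi.sub_apply] at this
      have h0 : v (((1 : SL(2, ℤ)) : SL(2, ℤ) ⧸ Γ)) - v' (((1 : SL(2, ℤ)) : SL(2, ℤ) ⧸ Γ)) = 0 :=
        sub_eq_zero.mpr h1
      rw [h0] at this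
      exact sub_eq_zero.mp this
    rw [hχ', hv']
  have hfin0 : Finite ((s16c_H Γ A × ((SL(2, ℤ) ⧸ Γ) → A)) × A) := Finite.of_injective Ψ hΨ
  have hfinH : Finite (s16c_H Γ A) := by
    have : Nonempty (((SL(2, ℤ) ⧸ Γ) → A) × A) := ⟨(fun _ => 0, 0)⟩
    obtain ⟨w⟩ := this
    exact Finite.of_injective (fun χ : s16c_H Γ A => ((χ, w.1), w.2))
      (fun a b hab => by simpa using congrArg (fun z => z.1.1) hab)
  refine ⟨hfinH, ?_⟩
  have hcard := Nat.card_le_card_of_injective Ψ hΨ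
  rw [Nat.card_prod, Nat.card_prod, Nat.card_prod, Nat.card_prod, Nat.card_fun] at hcard
  have hZ2 := s16c_card_ZTwo_le (A := A) σ hσ
  have hZ3 := s16c_card_ZThree_le (A := A) υ hυ
  have h7 : Nat.card (s16c_H Γ A) * Nat.card A ^ Nat.card (SL(2, ℤ) ⧸ Γ) * Nat.card A
      ≤ Nat.card A * (Nat.card A ^ (s16c_repTwo σ).card
          * Nat.card A ^ (2 * (s16c_repThree υ).card)) :=
    hcard.trans (Nat.mul_le_mul_left _ (Nat.mul_le_mul hZ2 hZ3))
  rw [← pow_add, mul_comm (Nat.card A) (Nat.card A ^ _)] at h7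
  exact Nat.le_of_mul_le_mul_right h7 hApos

end Bound

end Fermat.Agent.S16
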