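import Mathlib
import Fermat.Prelude.Def_ModularCurve_GenusNumerics
import Fermat.Agent.S20.CosetFix
import Fermat.Agent.S20.CosetIndex
import Fermat.Agent.S16.CBound

/-!
# S16 / lower bound, part (2d): the counting bound for `Γ₀(p)`

For a prime `p`, `n ≠ 0` and `m` with `2 g ≤ m` (`g = genusFormula p`):
`#H(Γ₀(p), ℤ/n) ≤ n ^ m`.
-/

set_option autoImplicit false
set_option linter.unusedSectionVars false

open Matrix.SpecialLinearGroup ModularGroup CongruenceSubgroup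
open scoped MatrixGroups

namespace Fermat.Agent.S16

open Fermat.Agent.S21

theorem s16c_neg_one_mem_Gamma0 (N : ℕ) : (-1 : SL(2, ℤ)) ∈ Gamma0 N := by
  rw [Gamma0_mem]
  simp

theorem s16c_T_mem_Gamma0 (N : ℕ) : (T : SL(2, ℤ)) ∈ Gamma0 N := by
  rw [Gamma0_mem]
  simp [ModularGroup.T]

theorem s16c_S_not_mem_Gamma0 {N : ℕ} (hN : 1 < N) : (S : SL(2, ℤ)) ∉ Gamma0 N := by
  rw [Gamma0_mem]
  simp only [ModularGroup.S, Matrix.SpecialLinearGroup.coe_mk, Matrix.of_apply,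
    Matrix.cons_val', Matrix.cons_val_zero, Matrix.cons_val_one,
    Int.cast_one]
  have _i : Fact (1 < N) := ⟨hN⟩
  exact one_ne_zero

theorem s16c_cuspCount_prime {p : ℕ} (hp : p.Prime) : ModularCurve.cuspCount p = 2 := by
  rw [ModularCurve.cuspCount, Nat.Prime.sum_divisors hp]
  simp [Nat.div_self hp.pos]

/-- **The counting bound for `Γ₀(p)`.** -/
theorem s16c_card_H_le {p : ℕ} (hp : p.Prime) (n : ℕ) [NeZero n] (m : ℕ)
    (hm : 2 * ModularCurve.genusFormula p ≤ (m : ℚ)) :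
    Finite (s16c_H (Gamma0 p) (ZMod n)) ∧ Nat.card (s16c_H (Gamma0 p) (ZMod n)) ≤ n ^ m := by
  classical
  have _i1 : NeZero p := ⟨hp.ne_zero⟩
  have _i2 : Finite (SL(2, ℤ) ⧸ Gamma0 p) := Nat.finite_of_card_ne_zero (by
    rw [Fermat.Agent.S20.coset_card p]
    rw [ModularCurve.dedekindPsi]
    have : p ∈ (p.divisors.filter fun d => Squarefree d) := by
      simp [hp.ne_zero, hp.squarefree]
    have h1 := Finset.single_le_sum (f := fun d => p / d) (fun i _ => Nat.zero_le _) this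
    simp only [Nat.div_self hp.pos] at h1
    omega)
  let _i3 : Fintype (SL(2, ℤ) ⧸ Gamma0 p) := Fintype.ofFinite _
  let _i4 : LinearOrder (SL(2, ℤ) ⧸ Gamma0 p) :=
    LinearOrder.lift' (Fintype.equivFin (SL(2, ℤ) ⧸ Gamma0 p)) (Equiv.injective _)
  obtain ⟨hfin, hb⟩ := s16c_bound (Gamma0 p) (ZMod n) (s16c_neg_one_mem_Gamma0 p)
    (s16c_T_mem_Gamma0 p) (s16c_S_not_mem_Gamma0 hp.one_lt)
  refine ⟨hfin, ?_⟩
  have hσ : ∀ x : SL(2, ℤ) ⧸ Gamma0 p, S • S • x = x :=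
    alg_S_S_smul (Gamma0 p) (s16c_neg_one_mem_Gamma0 p)
  have hυ : ∀ x : SL(2, ℤ) ⧸ Gamma0 p, (S * T) • (S * T) • (S * T) • x = x :=
    alg_U_U_U_smul (Gamma0 p) (s16c_neg_one_mem_Gamma0 p)
  have h2 := s16c_card_two (fun x : SL(2, ℤ) ⧸ Gamma0 p => S • x) hσ
  have h3 := s16c_card_three (fun x : SL(2, ℤ) ⧸ Gamma0 p => (S * T) • x) hυ
  have e2 : Nat.card {x : SL(2, ℤ) ⧸ Gamma0 p // S • x = x} = ModularCurve.nuTwo p := by
    rw [← Fermat.Agent.S20.coset_card_fixedBy_S p]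
    rfl
  have e3 : Nat.card {x : SL(2, ℤ) ⧸ Gamma0 p // (S * T) • x = x} = ModularCurve.nuThree p := by
    rw [← Fermat.Agent.S20.coset_card_fixedBy_ST p]
    rfl
  have eμ : Nat.card (SL(2, ℤ) ⧸ Gamma0 p) = ModularCurve.dedekindPsi p :=
    Fermat.Agent.S20.coset_card p
  rw [e2, eμ] at h2
  rw [e3, eμ] at h3
  rw [Fermat.Agent.S20.coset_card p, Nat.card_zmod] at hb
  set a := (s16c_repTwo (fun x : SL(2, ℤ) ⧸ Gamma0 p => S • x)).card with ha
  set b := (s16c_repThree (fun x : SL(2, ℤ) ⧸ Gamma0 p => (S * T) • x)).card with hb'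
  set μ := ModularCurve.dedekindPsi p with hμ
  -- numerics: `a + 2 b ≤ m + μ`
  have hnum : a + 2 * b ≤ m + μ := by
    rw [ModularCurve.genusFormula, s16c_cuspCount_prime hp] at hm
    have h2' : (2 * (a : ℚ) + (ModularCurve.nuTwo p : ℚ)) = (μ : ℚ) := by exact_mod_cast h2
    have h3' : (3 * (b : ℚ) + (ModularCurve.nuThree p : ℚ)) = (μ : ℚ) := by exact_mod_cast h3
    have : ((a : ℚ) + 2 * (b : ℚ)) ≤ (m : ℚ) + (μ : ℚ) := by
      push_cast at hm
      linarith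
    exact_mod_cast this
  have hnpos : 0 < n := Nat.pos_of_ne_zero (NeZero.ne n)
  have h4 : Nat.card (s16c_H (Gamma0 p) (ZMod n)) * n ^ μ ≤ n ^ m * n ^ μ := by
    rw [← pow_add]
    exact hb.trans (Nat.pow_le_pow_right hnpos hnum)
  exact Nat.le_of_mul_le_mul_right h4 (pow_pos hnpos μ)

end Fermat.Agent.S16
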