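import Mathlib
import Fermat.Agent.S16.Defs
import Fermat.Agent.S16.CGamma0
import Fermat.Agent.S20.Assembly
import Fermat.Agent.S23.PerBasic
import Fermat.Agent.S23.PerReal
import Fermat.Agent.S23.PerRank
import Fermat.Agent.S23.PerIndep
import Fermat.Agent.S23.Bridge

/-!
# S16 / lower bound, part (3): characters in `H` factor through the period lattice

`perLattice N ⊂ V*` is free of rank `m ≥ 2 g` (`per_im_injective` + S20), `perFun : Γ₀(N) → perLattice N`
is additive with generating image and kills parabolic and torsion elements.  Hence every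
`v : Fin m → ℤ/n` gives a character `χ_v ∈ H(Γ₀(p), ℤ/n)`, `v ↦ χ_v` is injective, and the counting
bound `#H ≤ n ^ m` (`s16c_card_H_le`) makes it bijective: every `χ ∈ H` factors through `perFun`.
-/

set_option autoImplicit false

open CongruenceSubgroup ModularCurve CuspForm
open scoped MatrixGroups

namespace Fermat.Agent.S16

open Fermat.Agent.S23

/-- the period map as an additive map into the period lattice. -/
noncomputable def s16lb4_E (N : ℕ) [NeZero N] : Additive (Gamma0 N) →+ perLattice N where
  toFun γ := ⟨perFun N (Additive.toMul γ), perFun_mem N _⟩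
  map_zero' := Subtype.ext (perFun_one N)
  map_add' γ δ := Subtype.ext (perFun_mul N (Additive.toMul γ) (Additive.toMul δ))

theorem s16lb4_E_coe (N : ℕ) [NeZero N] (γ : Gamma0 N) :
    ((s16lb4_E N (Additive.ofMul γ) : perLattice N) :
      Module.Dual ℂ (CuspForm (Gamma0 N) 2)) = perFun N γ := rfl

/-- the values of the period map span the period lattice. -/
theorem s16lb4_E_span (N : ℕ) [NeZero N] :
    Submodule.span ℤ (Set.range fun γ : Gamma0 N => s16lb4_E N (Additive.ofMul γ)) = ⊤ := by
  apply Submodule.map_injective_of_injective (perLattice N).injective_subtype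
  rw [Submodule.map_span, Submodule.map_top, Submodule.range_subtype]
  have himg : ((perLattice N).subtype ''
      Set.range fun γ : Gamma0 N => s16lb4_E N (Additive.ofMul γ)) = Set.range (perFun N) := by
    ext x
    constructor
    · rintro ⟨_, ⟨γ, rfl⟩, rfl⟩
      exact ⟨γ, rfl⟩
    · rintro ⟨γ, rfl⟩
      exact ⟨_, ⟨γ, rfl⟩, rfl⟩
  rw [himg]
  rfl

theorem s16lb4_perFun_pow (N : ℕ) [NeZero N] (γ : Gamma0 N) (k : ℕ) :
    perFun N (γ ^ k) = k • perFun N γ := by
  induction k with
  | zero => rw [pow_zero, perFun_one, zero_smul]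
  | succ k ih => rw [pow_succ, perFun_mul, ih, succ_nsmul]

/-- period functionals of torsion elements vanish. -/
theorem s16lb4_perFun_torsion (N : ℕ) [NeZero N] (γ : Gamma0 N)
    (hγ : (γ : SL(2, ℤ)) ^ 12 = 1) : perFun N γ = 0 := by
  have h1 : γ ^ 12 = 1 := Subtype.ext (by simpa using hγ)
  have h2 : (12 : ℕ) • perFun N γ = 0 := by
    rw [← s16lb4_perFun_pow, h1, perFun_one]
  apply LinearMap.ext
  intro f
  have h3 := congrArg (fun φ : Module.Dual ℂ (CuspForm (Gamma0 N) 2) => φ f) h2
  simp only [LinearMap.smul_apply, LinearMap.zero_apply, nsmul_eq_mul] at h3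
  rcases mul_eq_zero.mp h3 with h | h
  · norm_num at h
  · simpa using h

/-- the rank of the period lattice is at least `2 g`. -/
theorem s16lb4_rank_ge (N : ℕ) [NeZero N] {m : ℕ}
    (φ : Fin m → Module.Dual ℂ (CuspForm (Gamma0 N) 2))
    (hspan : Submodule.span ℤ (Set.range φ) = perLattice N) :
    2 * genusFormula N ≤ (m : ℚ) := by
  have hfd := per_finiteDimensional N
  have : FiniteDimensional ℝ (CuspForm (Gamma0 N) 2) :=
    FiniteDimensional.complexToReal _
  have hfr : Module.finrank ℝ (CuspForm (Gamma0 N) 2)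
      = 2 * Module.finrank ℂ (CuspForm (Gamma0 N) 2) := finrank_real_of_complex _
  have hρinj : Function.Injective (piRho φ) := by
    rw [injective_iff_map_eq_zero]
    intro f hf
    apply per_im_injective N f
    intro ψ hψ
    rw [← hspan] at hψ
    induction hψ using Submodule.span_induction with
    | mem x hx =>
      obtain ⟨a, rfl⟩ := hx
      rw [← piRho_apply, hf]
      rfl
    | zero => simp
    | add x y _ _ hx hy =>
      rw [LinearMap.add_apply, Complex.add_im, hx, hy, add_zero]
    | smul c x _ hx =>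
      rw [LinearMap.smul_apply, ← Int.cast_smul_eq_zsmul ℂ, smul_eq_mul]
      have : ((c : ℤ) : ℂ) = ((c : ℝ) : ℂ) := by push_cast; rfl
      rw [this, Complex.im_ofReal_mul, hx, mul_zero]
  have hle : Module.finrank ℝ (CuspForm (Gamma0 N) 2) ≤ Module.finrank ℝ (Fin m → ℝ) :=
    LinearMap.finrank_le_finrank_of_injective hρinj
  have hpi : Module.finrank ℝ (Fin m → ℝ) = m := by simp
  rw [hpi, hfr] at hle
  have hdim := Fermat.Agent.S20.s20_assembly N
  rw [← hdim]
  exact_mod_cast hle

/-- **(3)** every character in `H(Γ₀(p), ℤ/n)` factors through the period lattice. -/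
theorem s16lb4_factor {p : ℕ} [Fact p.Prime] (n : ℕ) [NeZero n]
    (χ : Additive (Gamma0 p) →+ ZMod n) (hχ : χ ∈ s16c_H (Gamma0 p) (ZMod n)) :
    ∃ ψ : perLattice p →ₗ[ℤ] ZMod n,
      ∀ γ : Gamma0 p, χ (Additive.ofMul γ) = ψ (s16lb4_E p (Additive.ofMul γ)) := by
  classical
  have hp : p.Prime := Fact.out
  have hfin : Module.Finite ℤ (perLattice p) := Module.Finite.iff_fg.mpr (perLattice_fg p)
  obtain ⟨m, b⟩ : Σ n, Module.Basis (Fin n) ℤ (perLattice p) :=
    Module.basisOfFiniteTypeTorsionFree'
  -- rank bound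
  have hspan : Submodule.span ℤ (Set.range fun i =>
      ((b i : perLattice p) : Module.Dual ℂ (CuspForm (Gamma0 p) 2))) = perLattice p := by
    have h2 := b.span_eq
    have h3 := congrArg (Submodule.map (perLattice p).subtype) h2
    rw [Submodule.map_span, Submodule.map_top, Submodule.range_subtype] at h3
    have h4 : (Set.range fun i => ((b i : perLattice p) :
        Module.Dual ℂ (CuspForm (Gamma0 p) 2)))
        = (perLattice p).subtype '' Set.range b := by
      ext x
      simp [Set.mem_range]
    rw [h4]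
    exact h3
  have hm : 2 * genusFormula p ≤ (m : ℚ) := s16lb4_rank_ge p _ hspan
  obtain ⟨hHfin, hHcard⟩ := s16c_card_H_le hp n m hm
  -- the map `v ↦ χ_v`
  let Θ : (Fin m → ZMod n) → s16c_H (Gamma0 p) (ZMod n) := fun v =>
    ⟨(b.constr ℤ v).toAddMonoidHom.comp (s16lb4_E p), by
      rw [s16c_mem_H]
      intro γ hγ
      have h0 : s16lb4_E p (Additive.ofMul γ) = 0 := by
        apply Subtype.ext
        rw [s16lb4_E_coe]
        rcases hγ with hγ | hγ
        · exact pk_perFun_parabolic p γ hγ
        · exact s16lb4_perFun_torsion p γ hγ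
      show (b.constr ℤ v) (s16lb4_E p (Additive.ofMul γ)) = 0
      rw [h0, map_zero]⟩
  have hΘ : Function.Injective Θ := by
    intro v v' hvv'
    have h1 : b.constr ℤ v = b.constr ℤ v' := by
      refine LinearMap.ext_on_range (s16lb4_E_span p) fun γ => ?_
      have := congrArg (fun χ : s16c_H (Gamma0 p) (ZMod n) =>
        (χ : Additive (Gamma0 p) →+ ZMod n) (Additive.ofMul γ)) hvv'
      exact this
    exact (b.constr ℤ).injective h1
  have hcard : Nat.card (s16c_H (Gamma0 p) (ZMod n)) ≤ Nat.card (Fin m → ZMod n) := by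
    rw [Nat.card_fun, Nat.card_zmod, Nat.card_fin]
    exact hHcard
  have hbij := hΘ.bijective_of_nat_card_le hcard
  obtain ⟨v, hv⟩ := hbij.2 ⟨χ, hχ⟩
  refine ⟨b.constr ℤ v, fun γ => ?_⟩
  have := congrArg (fun χ : s16c_H (Gamma0 p) (ZMod n) =>
    (χ : Additive (Gamma0 p) →+ ZMod n) (Additive.ofMul γ)) hv
  exact this.symm

end Fermat.Agent.S16
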