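import Mathlib
import Fermat.Agent.S16.Defs
import Fermat.Agent.S16.LBFactor

/-!
# S16 / lower bound, part (5): conclusion

Interface `s16lb_stmt_CHI` (parts (1) + (4)): a surjective character
`χ : Γ₀(p) → ℤ/n` (`n = eisensteinNumerator p`) in `H(Γ₀(p), ℤ/n)` with the Eisenstein
eigen-property under the coset transfer of the Hecke operators on period functionals.

`s16lb4_main : s16lb_stmt_CHI → s16_stmt_LB`: by part (3) (`s16lb4_factor`) `χ = ψ ∘ perFun` with
`ψ : perLattice p → ℤ/n` additive; the eigen-property gives `ψ (φ ∘ t) = ε(t) ψ φ` for the Hecke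
generators, hence (induction over `MvPolynomial`) `ψ (φ ∘ ev Q) = ε(Q) ψ φ` for all `Q`; if
`ev Q = 0` then `ε(Q) χ γ = 0` for all `γ`, and `χ` is onto `ℤ/n`.
-/

set_option autoImplicit false

open CongruenceSubgroup ModularCurve CuspForm
open scoped MatrixGroups

namespace Fermat.Agent.S16

open Fermat.Agent.S23

/-- **Interface for (1) + (4)**: the Shimura character `χ = ψ ∘ d` with its Eisenstein
eigen-property under coset transfer. -/
def s16lb_stmt_CHI : Prop :=
  ∀ (p : ℕ) [Fact p.Prime],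
    ∃ χ : Additive (Gamma0 p) →+ ZMod (eisensteinNumerator p),
      χ ∈ s16c_H (Gamma0 p) (ZMod (eisensteinNumerator p)) ∧
      Function.Surjective χ ∧
      (∀ (ℓ : ℕ) (hℓ : ℓ.Prime) (hℓp : ¬ ℓ ∣ p) (γ : Gamma0 p),
        ∃ (ι : Type) (_ : Fintype ι) (γ' : ι → Gamma0 p),
          (perFun p γ) ∘ₗ (heckeTLin (2 : ℤ) hℓ hℓp) = ∑ x, perFun p (γ' x) ∧
          ∑ x, χ (Additive.ofMul (γ' x))
            = ((1 + ℓ : ℕ) : ZMod (eisensteinNumerator p)) * χ (Additive.ofMul γ)) ∧
      (∀ (γ : Gamma0 p),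
        ∃ (ι : Type) (_ : Fintype ι) (γ' : ι → Gamma0 p),
          (perFun p γ) ∘ₗ (heckeULin (2 : ℤ) (dvd_refl p)) = ∑ x, perFun p (γ' x) ∧
          ∑ x, χ (Additive.ofMul (γ' x)) = χ (Additive.ofMul γ))

theorem s16lb4_numerator_pos (p : ℕ) [Fact p.Prime] : 0 < eisensteinNumerator p := by
  have hp : p.Prime := Fact.out
  have h1 : 0 < p - 1 := by have := hp.two_le; omega
  rw [eisensteinNumerator]
  exact Nat.div_pos (Nat.le_of_dvd h1 (Nat.gcd_dvd_left _ _)) (Nat.gcd_pos_of_pos_left _ h1)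

/-- right composition with a Hecke operator, as an endomorphism of the period lattice. -/
noncomputable def s16lb4_comp (N : ℕ) [NeZero N] (t : hecke N) :
    perLattice N →ₗ[ℤ] perLattice N where
  toFun φ := ⟨(φ : Module.Dual ℂ (CuspForm (Gamma0 N) 2)) ∘ₗ
      (t : Module.End ℂ (CuspForm (Gamma0 N) 2)), perLattice_stable N t t.2 φ φ.2⟩
  map_add' φ ψ := Subtype.ext (by
    apply LinearMap.ext
    intro f
    rfl)
  map_smul' a φ := Subtype.ext (by
    apply LinearMap.ext
    intro f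
    rfl)

theorem s16lb4_comp_coe (N : ℕ) [NeZero N] (t : hecke N) (φ : perLattice N) :
    ((s16lb4_comp N t φ : perLattice N) : Module.Dual ℂ (CuspForm (Gamma0 N) 2))
      = (φ : Module.Dual ℂ (CuspForm (Gamma0 N) 2)) ∘ₗ
        (t : Module.End ℂ (CuspForm (Gamma0 N) 2)) := rfl

theorem s16lb4_comp_zero (N : ℕ) [NeZero N] (φ : perLattice N) :
    s16lb4_comp N 0 φ = 0 := by
  apply Subtype.ext
  rw [s16lb4_comp_coe]
  apply LinearMap.ext
  intro f
  simp

theorem s16lb4_comp_add (N : ℕ) [NeZero N] (s t : hecke N) (φ : perLattice N) :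
    s16lb4_comp N (s + t) φ = s16lb4_comp N s φ + s16lb4_comp N t φ := by
  apply Subtype.ext
  rw [Submodule.coe_add, s16lb4_comp_coe, s16lb4_comp_coe, s16lb4_comp_coe]
  apply LinearMap.ext
  intro f
  simp

theorem s16lb4_comp_mul (N : ℕ) [NeZero N] (s t : hecke N) (φ : perLattice N) :
    s16lb4_comp N (s * t) φ = s16lb4_comp N t (s16lb4_comp N s φ) := by
  apply Subtype.ext
  rw [s16lb4_comp_coe, s16lb4_comp_coe, s16lb4_comp_coe]
  apply LinearMap.ext
  intro f
  rfl

theorem s16lb4_comp_algebraMap (N : ℕ) [NeZero N] (a : ℤ) (φ : perLattice N) :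
    s16lb4_comp N (algebraMap ℤ (hecke N) a) φ = a • φ := by
  apply Subtype.ext
  rw [s16lb4_comp_coe]
  apply LinearMap.ext
  intro f
  simp

theorem s16lb4_heckeULin_eq {p : ℕ} [NeZero p] (q : ℕ) (hq : q ∣ p) (hqp : q = p) :
    heckeULin (N := p) (2 : ℤ) hq = heckeULin (2 : ℤ) (dvd_refl p) := by
  subst hqp
  rfl

/-- **(5)** the lower bound from the character interface. -/
theorem s16lb4_main (hCHI : s16lb_stmt_CHI) : s16_stmt_LB := by
  intro p _ t ht
  have hp : p.Prime := Fact.out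
  obtain ⟨χ, hχH, hχsurj, hT, hU⟩ := hCHI p
  have _inz : NeZero (eisensteinNumerator p) := ⟨(s16lb4_numerator_pos p).ne'⟩
  obtain ⟨ψ, hψ⟩ := s16lb4_factor (eisensteinNumerator p) χ hχH
  -- the eigen-property on the generators
  have hgen : ∀ (ℓ : Nat.Primes) (μ : perLattice p),
      ψ (s16lb4_comp p (heckeFormsGen p 2 ℓ) μ) = (eisensteinSystem p ℓ) • ψ μ := by
    intro ℓ
    have hlin : ψ ∘ₗ s16lb4_comp p (heckeFormsGen p 2 ℓ) = (eisensteinSystem p ℓ) • ψ := by
      refine LinearMap.ext_on_range (s16lb4_E_span p) fun γ => ?_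
      rw [LinearMap.comp_apply, LinearMap.smul_apply, ← hψ γ]
      by_cases hℓ : (ℓ : ℕ) ∣ p
      · -- `U_p`
        have hℓp : (ℓ : ℕ) = p := (Nat.prime_dvd_prime_iff_eq ℓ.2 hp).mp hℓ
        obtain ⟨ι, _, γ', h1, h2⟩ := hU γ
        have h3 : s16lb4_comp p (heckeFormsGen p 2 ℓ) (s16lb4_E p (Additive.ofMul γ))
            = ∑ x, s16lb4_E p (Additive.ofMul (γ' x)) := by
          apply Subtype.ext
          rw [s16lb4_comp_coe, s16lb4_E_coe, heckeFormsGen_of_dvd hℓ, heckeAlgebra.coe_U,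
            s16lb4_heckeULin_eq _ hℓ hℓp, h1, AddSubmonoidClass.coe_finsetSum]
          rfl
        rw [h3, map_sum, eisensteinSystem_of_dvd hℓ, one_smul, ← h2]
        exact Finset.sum_congr rfl fun x _ => (hψ (γ' x)).symm
      · -- `T_ℓ`
        obtain ⟨ι, _, γ', h1, h2⟩ := hT ℓ ℓ.2 hℓ γ
        have h3 : s16lb4_comp p (heckeFormsGen p 2 ℓ) (s16lb4_E p (Additive.ofMul γ))
            = ∑ x, s16lb4_E p (Additive.ofMul (γ' x)) := by
          apply Subtype.ext
          rw [s16lb4_comp_coe, s16lb4_E_coe, heckeFormsGen_of_not_dvd hℓ, heckeAlgebra.coe_T,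
            h1, AddSubmonoidClass.coe_finsetSum]
          rfl
        rw [h3, map_sum, eisensteinSystem_of_not_dvd hℓ]
        have h4 : ∑ x, ψ (s16lb4_E p (Additive.ofMul (γ' x)))
            = ∑ x, χ (Additive.ofMul (γ' x)) :=
          Finset.sum_congr rfl fun x _ => (hψ (γ' x)).symm
        rw [h4, h2]
        rw [← Int.cast_smul_eq_zsmul (ZMod (eisensteinNumerator p)), smul_eq_mul]
        push_cast
        ring
    intro μ
    have := congrArg (fun L : perLattice p →ₗ[ℤ] ZMod (eisensteinNumerator p) => L μ) hlin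
    exact this
  -- induction over the polynomial
  have hall : ∀ (Q : HeckeAlg) (φ : perLattice p),
      ψ (s16lb4_comp p (heckeEvalForms p 2 Q) φ) = (s16_eps p Q) • ψ φ := by
    intro Q
    induction Q using MvPolynomial.induction_on with
    | C a =>
      intro φ
      rw [heckeEvalForms_C, s16lb4_comp_algebraMap, map_smul]
      congr 1
      simp [s16_eps]
    | add Q Q' hQ hQ' =>
      intro φ
      rw [map_add, s16lb4_comp_add, map_add, hQ, hQ', map_add, add_smul]
    | mul_X Q ℓ hQ =>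
      intro φ
      have h1 : heckeEvalForms p 2 (Q * MvPolynomial.X ℓ)
          = heckeEvalForms p 2 Q * heckeFormsGen p 2 ℓ := by
        rw [map_mul]
        congr 1
        exact heckeEvalForms_heckeGen p 2 ℓ
      have h2 : s16_eps p (Q * MvPolynomial.X ℓ) = s16_eps p Q * eisensteinSystem p ℓ := by
        rw [map_mul]
        congr 1
        simp [s16_eps]
      rw [h1, s16lb4_comp_mul, hgen, hQ, h2, smul_smul, mul_comm]
  -- conclusion
  have h0 : ∀ φ : perLattice p, (s16_eps p t) • ψ φ = 0 := by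
    intro φ
    rw [← hall t φ, ht, s16lb4_comp_zero, map_zero]
  obtain ⟨γ, hγ⟩ := hχsurj 1
  have h1 := h0 (s16lb4_E p γ)
  have h2 : ψ (s16lb4_E p γ) = 1 := by
    rw [← hγ]
    exact (hψ (Additive.toMul γ)).symm
  rw [h2, zsmul_one] at h1
  exact (ZMod.intCast_zmod_eq_zero_iff_dvd _ _).mp h1

end Fermat.Agent.S16
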