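import Mathlib
import Fermat.Prelude.Def_ModularCurve_ModularUnit
import Fermat.Agent.S16.CBound

/-!
# S16 / lower bound, part (1): the Shimura character `χ = ψ ∘ d : Γ₀(p) → ℤ/n`

`d γ = γ₁₁ mod p`, `ψ : (ℤ/p)ˣ → ℤ/n` the discrete logarithm modulo
`n = (p - 1) / gcd (p - 1, 12)`.
-/

set_option autoImplicit false
set_option linter.unusedSectionVars false

open Matrix.SpecialLinearGroup ModularGroup CongruenceSubgroup
open scoped MatrixGroups

namespace Fermat.Agent.S16

section Char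

variable (p : ℕ) [Fact p.Prime]

/-- the lower right entry modulo `p`, as a unit. -/
noncomputable def s16l_d : Gamma0 p →* (ZMod p)ˣ := (Gamma0Map p).toHomUnits

theorem s16l_d_coe (γ : Gamma0 p) :
    ((s16l_d p γ : (ZMod p)ˣ) : ZMod p) = (((γ : SL(2, ℤ)) 1 1 : ℤ) : ZMod p) := rfl

theorem s16l_card_units : Nat.card (ZMod p)ˣ = p - 1 := by
  rw [Nat.card_eq_fintype_card, ZMod.card_units]

theorem s16l_num_dvd : ModularCurve.eisensteinNumerator p ∣ Nat.card (ZMod p)ˣ := by
  rw [s16l_card_units]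
  exact ModularCurve.eisensteinNumerator_dvd p

/-- the discrete logarithm `(ℤ/p)ˣ → ℤ/(p-1)`. -/
noncomputable def s16l_log : Additive (ZMod p)ˣ ≃+ ZMod (Nat.card (ZMod p)ˣ) :=
  (zmodAddCyclicAddEquiv (G := Additive (ZMod p)ˣ) inferInstance).symm.trans
    (ZMod.ringEquivCongr (by simp)).toAddEquiv

/-- `ψ : (ℤ/p)ˣ → ℤ/n`. -/
noncomputable def s16l_psi : Additive (ZMod p)ˣ →+ ZMod (ModularCurve.eisensteinNumerator p) :=
  (ZMod.castHom (s16l_num_dvd p) (ZMod (ModularCurve.eisensteinNumerator p))).toAddMonoidHom.comp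
    (s16l_log p).toAddMonoidHom

theorem s16l_psi_surjective : Function.Surjective (s16l_psi p) := by
  intro y
  obtain ⟨x, hx⟩ := ZMod.castHom_surjective (s16l_num_dvd p) y
  refine ⟨(s16l_log p).symm x, ?_⟩
  simp only [s16l_psi, AddMonoidHom.coe_comp, Function.comp_apply, AddEquiv.coe_toAddMonoidHom,
    AddEquiv.apply_symm_apply]
  exact hx

/-- `u ^ 12 = 1` implies `ψ u = 0`. -/
theorem s16l_psi_eq_zero (u : (ZMod p)ˣ) (hu : u ^ 12 = 1) :
    s16l_psi p (Additive.ofMul u) = 0 := by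
  set N := Nat.card (ZMod p)ˣ with hN
  set n := ModularCurve.eisensteinNumerator p with hn
  have hNp : N = p - 1 := s16l_card_units p
  have hNpos : 0 < N := by
    rw [hNp]
    have := (Fact.out : p.Prime).two_le
    omega
  have _i : NeZero N := ⟨hNpos.ne'⟩
  set x : ZMod N := s16l_log p (Additive.ofMul u) with hx
  have h12 : (12 : ℕ) • x = 0 := by
    rw [hx, ← map_nsmul, ← ofMul_pow, hu, ofMul_one, map_zero]
  have hdvd : N ∣ 12 * x.val := by
    rw [← ZMod.natCast_eq_zero_iff]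
    push_cast
    rw [ZMod.natCast_zmod_val]
    rw [nsmul_eq_mul] at h12
    exact_mod_cast h12
  -- `n ∣ x.val`
  have hg : 0 < Nat.gcd (p - 1) 12 := Nat.gcd_pos_of_pos_right _ (by norm_num)
  have hn_def : n = (p - 1) / Nat.gcd (p - 1) 12 := rfl
  have hnmul : n * Nat.gcd (p - 1) 12 = p - 1 := by
    rw [hn_def]
    exact Nat.div_mul_cancel (Nat.gcd_dvd_left _ _)
  obtain ⟨t, ht⟩ : Nat.gcd (p - 1) 12 ∣ 12 := Nat.gcd_dvd_right _ _
  have hcop : Nat.Coprime n t := by
    have h1 := Nat.coprime_div_gcd_div_gcd hg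
    have h2 : 12 / Nat.gcd (p - 1) 12 = t := Nat.div_eq_of_eq_mul_right hg ht
    rw [← hn_def] at h1
    convert h1 using 1
    exact h2.symm
  have hdvd2 : n ∣ x.val := by
    have hdvd' : n * Nat.gcd (p - 1) 12 ∣ 12 * x.val := by
      rw [hnmul, ← hNp]
      exact hdvd
    have h3 : n * Nat.gcd (p - 1) 12 ∣ Nat.gcd (p - 1) 12 * (t * x.val) := by
      have : 12 * x.val = Nat.gcd (p - 1) 12 * (t * x.val) := by
        conv_lhs => rw [ht]
        ring
      rw [← this]
      exact hdvd'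
    rw [mul_comm n] at h3
    have h4 : n ∣ t * x.val := Nat.dvd_of_mul_dvd_mul_left hg h3
    exact hcop.dvd_of_dvd_mul_left h4
  show (ZMod.castHom (s16l_num_dvd p) (ZMod n)) x = 0
  rw [ZMod.castHom_apply, ← ZMod.natCast_val, ZMod.natCast_eq_zero_iff]
  exact hdvd2

/-- the Shimura character. -/
noncomputable def s16l_chi : Additive (Gamma0 p) →+ ZMod (ModularCurve.eisensteinNumerator p) :=
  (s16l_psi p).comp (MonoidHom.toAdditive (s16l_d p))

theorem s16l_chi_apply (γ : Gamma0 p) :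
    s16l_chi p (Additive.ofMul γ) = s16l_psi p (Additive.ofMul (s16l_d p γ)) := rfl

/-- the lower right entry of an element of trace `±2` squares to one modulo `p`. -/
theorem s16l_d_sq_of_trace (γ : Gamma0 p)
    (h : ((γ : SL(2, ℤ)) : Matrix (Fin 2) (Fin 2) ℤ).trace ^ 2 = 4) : s16l_d p γ ^ 2 = 1 := by
  apply Units.ext
  rw [Units.val_pow_eq_pow_val, s16l_d_coe, Units.val_one]
  have hdet := Matrix.SpecialLinearGroup.det_coe (γ : SL(2, ℤ))
  rw [Matrix.det_fin_two] at hdet
  rw [Matrix.trace_fin_two] at h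
  have hc : ((((γ : SL(2, ℤ)) 1 0 : ℤ)) : ZMod p) = 0 := Gamma0_mem.mp γ.2
  set a : ZMod p := (((γ : SL(2, ℤ)) 0 0 : ℤ) : ZMod p) with ha
  set d : ZMod p := (((γ : SL(2, ℤ)) 1 1 : ℤ) : ZMod p) with hd
  have h1 : a * d = 1 := by
    have := congrArg (fun z : ℤ => (z : ZMod p)) hdet
    simp only [Int.cast_sub, Int.cast_mul, Int.cast_one] at this
    rw [hc, mul_zero, sub_zero] at this
    exact this
  have h2 : (a + d) ^ 2 = 4 := by
    have := congrArg (fun z : ℤ => (z : ZMod p)) h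
    simp only [Int.cast_pow, Int.cast_add] at this
    rw [this]
    norm_num
  have h3 : (d - a) ^ 2 = 0 := by
    have : (d - a) ^ 2 = (a + d) ^ 2 - 4 * (a * d) := by ring
    rw [this, h2, h1]
    ring
  have h4 : d = a := by
    have := pow_eq_zero_iff (two_ne_zero) |>.mp h3
    exact sub_eq_zero.mp this
  rw [pow_two]
  nth_rewrite 1 [h4]
  exact h1

theorem s16l_chi_mem : s16l_chi p ∈ s16c_H (Gamma0 p) (ZMod (ModularCurve.eisensteinNumerator p)) := by
  intro γ hγ
  rw [s16l_chi_apply]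
  apply s16l_psi_eq_zero
  rcases hγ with h | h
  · have := s16l_d_sq_of_trace p γ h
    have h12 : (12 : ℕ) = 2 * 6 := rfl
    rw [h12, pow_mul, this, one_pow]
  · have h1 : γ ^ 12 = 1 := Subtype.ext (by simpa using h)
    rw [← map_pow, h1, map_one]

/-- every unit is the lower right entry of some element of `Γ₀(p)`. -/
theorem s16l_d_surjective : Function.Surjective (s16l_d p) := by
  intro u
  have hp : p.Prime := Fact.out
  have hcop : Nat.Coprime (u : ZMod p).val p := ZMod.val_coe_unit_coprime u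
  have hI : IsCoprime (((u : ZMod p).val : ℤ)) (p : ℤ) := Nat.isCoprime_iff_coprime.mpr hcop
  obtain ⟨a, b, hab⟩ := hI
  let M : Matrix (Fin 2) (Fin 2) ℤ := !![a, -b; (p : ℤ), ((u : ZMod p).val : ℤ)]
  have hdet : M.det = 1 := by
    rw [Matrix.det_fin_two_of]
    linear_combination hab
  let g : SL(2, ℤ) := ⟨M, hdet⟩
  have hg : g ∈ Gamma0 p := by
    rw [Gamma0_mem]
    show (((M 1 0 : ℤ)) : ZMod p) = 0
    simp [M]
  refine ⟨⟨g, hg⟩, ?_⟩
  apply Units.ext
  rw [s16l_d_coe]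
  show (((M 1 1 : ℤ)) : ZMod p) = _
  simp [M]

theorem s16l_chi_surjective : Function.Surjective (s16l_chi p) := by
  intro y
  obtain ⟨u, hu⟩ := s16l_psi_surjective p y
  obtain ⟨γ, hγ⟩ := s16l_d_surjective p (Additive.toMul u)
  refine ⟨Additive.ofMul γ, ?_⟩
  rw [s16l_chi_apply, hγ]
  exact hu

end Char

end Fermat.Agent.S16
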