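import Mathlib
import Fermat.Agent.S20.Assembly
import Fermat.Agent.S23.PerBasic
import Fermat.Agent.S23.PerRank
import Fermat.Agent.S23.PerReal
import Fermat.Agent.S23.PerIndep
import Fermat.Agent.S16.CGamma0
import Fermat.Agent.S16.LChar

/-!
# S16 / lower bound, part (3): the Shimura character factors through the period lattice

`s16l_factor`: there is an additive map `Ξ : perLattice p → ℤ/n` with `Ξ (perFun γ) = χ γ`.
Proof: the characters `γ ↦ ∑ vₐ · coordₐ (perFun γ)` (`v ∈ (ℤ/n)^m`, `m = rank`) form a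
subgroup of `s16c_H` with `n ^ m` elements, `m ≥ 2 g`, and `#s16c_H ≤ n ^ m` by the counting
bound.
-/

set_option autoImplicit false
set_option linter.unusedSectionVars false

open Matrix.SpecialLinearGroup ModularGroup CongruenceSubgroup
open scoped MatrixGroups

namespace Fermat.Agent.S16

open Fermat.Agent.S23

section Factor

variable (N : ℕ) [NeZero N]

/-- the period map as an additive homomorphism into the period lattice. -/
noncomputable def s16l_per : Additive (Gamma0 N) →+ ↥(perLattice N) where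
  toFun γ := ⟨perFun N (Additive.toMul γ), perFun_mem N _⟩
  map_zero' := Subtype.ext (perFun_one N)
  map_add' γ δ := Subtype.ext (perFun_mul N (Additive.toMul γ) (Additive.toMul δ))

theorem s16l_per_coe (γ : Gamma0 N) :
    ((s16l_per N (Additive.ofMul γ) : perLattice N) :
      Module.Dual ℂ (CuspForm (Gamma0 N) 2)) = perFun N γ := rfl

theorem s16l_per_surjective : Function.Surjective (s16l_per N) := by
  rintro ⟨ψ, hψ⟩
  have key : ∀ ψ ∈ perLattice N, ∃ γ : Additive (Gamma0 N),
      ((s16l_per N γ : perLattice N) : Module.Dual ℂ (CuspForm (Gamma0 N) 2)) = ψ := by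
    intro ψ hψ
    refine Submodule.span_induction (p := fun ψ _ => ∃ γ : Additive (Gamma0 N),
      ((s16l_per N γ : perLattice N) : Module.Dual ℂ (CuspForm (Gamma0 N) 2)) = ψ)
      ?_ ?_ ?_ ?_ hψ
    · rintro _ ⟨γ, rfl⟩
      exact ⟨Additive.ofMul γ, rfl⟩
    · exact ⟨0, by rw [map_zero]; rfl⟩
    · rintro x y _ _ ⟨a, ha⟩ ⟨b, hb⟩
      exact ⟨a + b, by rw [map_add, Submodule.coe_add, ha, hb]⟩
    · rintro c x _ ⟨a, ha⟩
      exact ⟨c • a, by rw [map_zsmul, Submodule.coe_smul, ha]⟩
  obtain ⟨γ, hγ⟩ := key ψ hψ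
  exact ⟨γ, Subtype.ext hγ⟩

theorem s16l_per_eq_zero_of_trace (γ : Gamma0 N)
    (h : ((γ : SL(2, ℤ)) : Matrix (Fin 2) (Fin 2) ℤ).trace ^ 2 = 4) :
    s16l_per N (Additive.ofMul γ) = 0 :=
  Subtype.ext (pk_perFun_parabolic N γ h)

theorem s16l_per_eq_zero_of_pow (γ : Gamma0 N) (k : ℕ) (hk : k ≠ 0) (h : γ ^ k = 1) :
    s16l_per N (Additive.ofMul γ) = 0 := by
  have h1 : k • s16l_per N (Additive.ofMul γ) = 0 := by
    rw [← map_nsmul, ← ofMul_pow, h, ofMul_one, map_zero]
  have h2 : k • ((s16l_per N (Additive.ofMul γ) : perLattice N) :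
      Module.Dual ℂ (CuspForm (Gamma0 N) 2)) = 0 := by
    have := congrArg (fun z : perLattice N => (z : Module.Dual ℂ (CuspForm (Gamma0 N) 2))) h1
    simpa using this
  apply Subtype.ext
  rw [Submodule.coe_zero]
  have h3 : ((k : ℂ)) • ((s16l_per N (Additive.ofMul γ) : perLattice N) :
      Module.Dual ℂ (CuspForm (Gamma0 N) 2)) = 0 := by
    rw [Nat.cast_smul_eq_nsmul]
    exact h2
  rcases smul_eq_zero.mp h3 with h4 | h4
  · exact absurd (by exact_mod_cast h4) hk
  · exact h4

/-- the rank of the period lattice is at least `2 g`. -/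
theorem s16l_rank_ge {m : ℕ} (φ : Fin m → Module.Dual ℂ (CuspForm (Gamma0 N) 2))
    (hspan : Submodule.span ℤ (Set.range φ) = perLattice N) :
    2 * ModularCurve.genusFormula N ≤ (m : ℚ) := by
  have hfd := per_finiteDimensional N
  have : FiniteDimensional ℝ (CuspForm (Gamma0 N) 2) := FiniteDimensional.complexToReal _
  have hfr : Module.finrank ℝ (CuspForm (Gamma0 N) 2)
      = 2 * Module.finrank ℂ (CuspForm (Gamma0 N) 2) := finrank_real_of_complex _
  have hρinj : Function.Injective (piRho φ) := by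
    rw [injective_iff_map_eq_zero]
    intro f hf
    apply per_im_injective N f
    intro ψ hψ
    rw [← hspan] at hψ
    induction hψ using Submodule.span_induction with
    | mem x hx =>
      obtain ⟨a, rfl⟩ := hx
      rw [← piRho_apply, hf]
      rfl
    | zero => simp
    | add x y _ _ hx hy =>
      rw [LinearMap.add_apply, Complex.add_im, hx, hy, add_zero]
    | smul c x _ hx =>
      rw [LinearMap.smul_apply, ← Int.cast_smul_eq_zsmul ℂ, smul_eq_mul]
      have : ((c : ℤ) : ℂ) = ((c : ℝ) : ℂ) := by push_cast; rfl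
      rw [this, Complex.im_ofReal_mul, hx, mul_zero]
  have hle : Module.finrank ℝ (CuspForm (Gamma0 N) 2) ≤ Module.finrank ℝ (Fin m → ℝ) :=
    LinearMap.finrank_le_finrank_of_injective hρinj
  have hpi : Module.finrank ℝ (Fin m → ℝ) = m := by simp
  rw [hpi, hfr] at hle
  rw [← Fermat.Agent.S20.s20_assembly N]
  exact_mod_cast hle

end Factor

section Main

variable (p : ℕ) [Fact p.Prime]

/-- **The Shimura character factors through the period lattice.** -/
theorem s16l_factor :
    ∃ Ξ : ↥(perLattice p) →+ ZMod (ModularCurve.eisensteinNumerator p),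
      ∀ γ : Gamma0 p, Ξ (s16l_per p (Additive.ofMul γ)) = s16l_chi p (Additive.ofMul γ) := by
  classical
  have hp : p.Prime := Fact.out
  set n := ModularCurve.eisensteinNumerator p with hn
  have hnpos : 0 < n := by
    rw [hn, ModularCurve.eisensteinNumerator]
    apply Nat.div_pos
    · exact Nat.le_of_dvd (by have := hp.two_le; omega) (Nat.gcd_dvd_left _ _)
    · exact Nat.gcd_pos_of_pos_right _ (by norm_num)
  have _i : NeZero n := ⟨hnpos.ne'⟩
  obtain ⟨m, φ, hφ, hspan⟩ := perLattice_exists_basis p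
  have hm := s16l_rank_ge p φ hspan
  obtain ⟨hfin, hcard⟩ := s16c_card_H_le hp n m hm
  -- a basis of the lattice
  have hmem : ∀ a, φ a ∈ perLattice p := by
    intro a
    rw [← hspan]
    exact Submodule.subset_span ⟨a, rfl⟩
  have hli : LinearIndependent ℤ (fun a => (⟨φ a, hmem a⟩ : perLattice p)) := by
    apply LinearIndependent.of_comp (perLattice p).subtype
    exact hφ
  have hsp : ⊤ ≤ Submodule.span ℤ (Set.range fun a => (⟨φ a, hmem a⟩ : perLattice p)) := by
    intro x _
    have hx : (x : Module.Dual ℂ (CuspForm (Gamma0 p) 2)) ∈ Submodule.span ℤ (Set.range φ) := by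
      rw [hspan]
      exact x.2
    have : Submodule.span ℤ (Set.range φ)
        = Submodule.map (perLattice p).subtype
          (Submodule.span ℤ (Set.range fun a => (⟨φ a, hmem a⟩ : perLattice p))) := by
      rw [Submodule.map_span]
      congr 1
      ext y
      simp [Set.mem_range]
    rw [this] at hx
    obtain ⟨y, hy, hyx⟩ := hx
    have : y = x := Subtype.ext hyx
    rw [← this]
    exact hy
  let B : Module.Basis (Fin m) ℤ (perLattice p) := Module.Basis.mk hli hsp
  have hB : ∀ a, B a = ⟨φ a, hmem a⟩ := fun a => by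
    simp [B]
  -- the characters `χ_v`
  let X : (Fin m → ZMod n) → (Additive (Gamma0 p) →+ ZMod n) := fun v =>
    (B.constr ℤ v).toAddMonoidHom.comp (s16l_per p)
  have hXmem : ∀ v, X v ∈ s16c_H (Gamma0 p) (ZMod n) := by
    intro v γ hγ
    show (B.constr ℤ v) (s16l_per p (Additive.ofMul γ)) = 0
    rcases hγ with h | h
    · rw [s16l_per_eq_zero_of_trace p γ h, map_zero]
    · have h1 : γ ^ 12 = 1 := Subtype.ext (by simpa using h)
      rw [s16l_per_eq_zero_of_pow p γ 12 (by norm_num) h1, map_zero]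
  have hXinj : Function.Injective
      (fun v => (⟨X v, hXmem v⟩ : s16c_H (Gamma0 p) (ZMod n))) := by
    intro v w hvw
    funext a
    obtain ⟨γ, hγ⟩ := s16l_per_surjective p (B a)
    have h1 : X v γ = X w γ := by
      have := congrArg (fun z : s16c_H (Gamma0 p) (ZMod n) => (z : Additive (Gamma0 p) →+ ZMod n) γ) hvw
      exact this
    have h2 : ∀ u : Fin m → ZMod n, X u γ = u a := by
      intro u
      show (B.constr ℤ u) (s16l_per p γ) = u a
      rw [hγ, Module.Basis.constr_basis]
    rw [← h2 v, ← h2 w, h1]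
  have hcard2 : Nat.card (s16c_H (Gamma0 p) (ZMod n)) ≤ Nat.card (Fin m → ZMod n) := by
    rw [Nat.card_fun, Nat.card_zmod, Nat.card_fin]
    exact hcard
  have hbij := Function.Injective.bijective_of_nat_card_le hXinj hcard2
  obtain ⟨v, hv⟩ := hbij.2 ⟨s16l_chi p, s16l_chi_mem p⟩
  refine ⟨(B.constr ℤ v).toAddMonoidHom, fun γ => ?_⟩
  have := congrArg (fun z : s16c_H (Gamma0 p) (ZMod n) =>
    (z : Additive (Gamma0 p) →+ ZMod n) (Additive.ofMul γ)) hv
  exact this

end Main

end Fermat.Agent.S16
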