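import Mathlib
import Fermat.Agent.S23.Bridge
import Fermat.Agent.S16.LPer

/-!
# S16 / lower bound, part (4): the coset transfer formula with explicit elements

For `γ ∈ Γ₀(N)` and a prime `ℓ ∤ N`: `perFun γ ∘ T_ℓ = ∑_x perFun (γ'_x)` where
`heckeRep ℓ x * γ = γ'_x * heckeRep ℓ (σ x)`; similarly for `U_q`, `q ∣ N`.
Then the Shimura character satisfies `∑_x χ (γ'_x) = (1 + ℓ) χ γ` resp. `= χ γ`.
-/

set_option autoImplicit false
set_option linter.unusedSectionVars false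

open Matrix.SpecialLinearGroup ModularGroup CongruenceSubgroup UpperHalfPlane ModularForm
open scoped MatrixGroups Manifold ModularForm
open P2MW.S_ModularForm_heckeT_slash_eq_self_of_mem_Gamma0.ModularForm.HeckeSlashInvariance

namespace Fermat.Agent.S16

open Fermat.Agent.S22 Fermat.Agent.S23

section PerSide

variable (N : ℕ) [NeZero N]

theorem s16l_actVec_zero (a b c d : ℤ) (v : Fin (0 + 1) → ℂ) :
    actVec 0 a b c d v 0 = v 0 := by
  simp [actVec, actMat]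

/-- the period functional in terms of the S22 period vector. -/
theorem s16l_perFun_eq (γ : Gamma0 N) (f : CuspForm (Gamma0 N) 2) :
    2 * (Real.pi : ℂ) * Complex.I * perFun N γ f = periodVec N 0 f γ 0 := by
  rw [← bridge_periodLin, periodLin_apply]

theorem s16l_two_pi_I_ne_zero : (2 * (Real.pi : ℂ) * Complex.I) ≠ 0 :=
  Fermat.Agent.S21.per_two_pi_I_ne_zero

/-- transfer for `T_ℓ`, with the defining relation of the `γ'_x` kept. -/
theorem s16l_transfer_T {ℓ : ℕ} [NeZero ℓ] (hℓ : ℓ.Prime) (hℓN : ¬ ℓ ∣ N) (γ : Gamma0 N) :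
    ∃ (σ : Equiv.Perm (OnePoint (ZMod ℓ))) (γ' : OnePoint (ZMod ℓ) → Gamma0 N),
      (∀ x, heckeRep ℓ x * Matrix.SpecialLinearGroup.mapGL ℝ (γ : SL(2, ℤ))
        = Matrix.SpecialLinearGroup.mapGL ℝ ((γ' x : Gamma0 N) : SL(2, ℤ)) * heckeRep ℓ (σ x)) ∧
      ∀ f : CuspForm (Gamma0 N) 2,
        perFun N γ (CuspForm.heckeTLin 2 hℓ hℓN f) = ∑ x, perFun N (γ' x) f := by
  have _i1 : Fact ℓ.Prime := ⟨hℓ⟩
  have hcN : (N : ℤ) ∣ (γ : SL(2, ℤ)) 1 0 :=
    (ZMod.intCast_zmod_eq_zero_iff_dvd _ _).mp (CongruenceSubgroup.Gamma0_mem.mp γ.2)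
  have hex : ∀ x : OnePoint (ZMod ℓ), ∃ g' : Gamma0 N,
      heckeRep ℓ x * Matrix.SpecialLinearGroup.mapGL ℝ (γ : SL(2, ℤ))
        = Matrix.SpecialLinearGroup.mapGL ℝ ((g' : Gamma0 N) : SL(2, ℤ))
          * heckeRep ℓ (redMatrix ℓ (γ : SL(2, ℤ)) • x) := by
    intro x
    obtain ⟨g', hg', hmul⟩ := heckeRep_mul hℓN (γ : SL(2, ℤ)) hcN x
    exact ⟨⟨g', CongruenceSubgroup.Gamma0_mem.mpr
      ((ZMod.intCast_zmod_eq_zero_iff_dvd _ _).mpr hg')⟩, hmul⟩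
  choose γ' hγ' using hex
  set σ : Equiv.Perm (OnePoint (ZMod ℓ)) := MulAction.toPerm (redMatrix ℓ (γ : SL(2, ℤ))) with hσ
  refine ⟨σ, γ', hγ', fun f => ?_⟩
  have key := periodVec_of_hecke_sum N 0 (heckeRep ℓ) (repA ℓ) (repB ℓ) (repD ℓ)
    ((ℓ : ℂ) ^ (0 + 1))
    (fun x c z => polyEval_slash_heckeRep 0 hℓ.ne_zero x c z)
    σ γ γ' hγ' f (CuspForm.heckeTLin (((0 : ℕ) : ℤ) + 2) hℓ hℓN f)
    (by rw [eichler_heckeT, heckeT_eq_sum_onePoint])
  have h0 := congrFun key 0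
  rw [Finset.sum_apply] at h0
  simp only [s16l_actVec_zero] at h0
  have h1 : 2 * (Real.pi : ℂ) * Complex.I * perFun N γ (CuspForm.heckeTLin 2 hℓ hℓN f)
      = 2 * (Real.pi : ℂ) * Complex.I * ∑ x, perFun N (γ' x) f := by
    rw [s16l_perFun_eq, Finset.mul_sum]
    simp only [s16l_perFun_eq]
    exact h0
  exact mul_left_cancel₀ s16l_two_pi_I_ne_zero h1

/-- transfer for `U_q`, `q ∣ N`. -/
theorem s16l_transfer_U {q : ℕ} [NeZero q] (hqN : q ∣ N) (γ : Gamma0 N) :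
    ∃ (σ : Equiv.Perm (ZMod q)) (γ' : ZMod q → Gamma0 N),
      (∀ x, ModularForm.heckeMatrix q x.val * Matrix.SpecialLinearGroup.mapGL ℝ (γ : SL(2, ℤ))
        = Matrix.SpecialLinearGroup.mapGL ℝ ((γ' x : Gamma0 N) : SL(2, ℤ))
          * ModularForm.heckeMatrix q (σ x).val) ∧
      ∀ f : CuspForm (Gamma0 N) 2,
        perFun N γ (CuspForm.heckeULin 2 hqN f) = ∑ x, perFun N (γ' x) f := by
  have hq : q ≠ 0 := ne_zero_of_dvd_level N hqN
  have hcN : (N : ℤ) ∣ (γ : SL(2, ℤ)) 1 0 :=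
    (ZMod.intCast_zmod_eq_zero_iff_dvd _ _).mp (CongruenceSubgroup.Gamma0_mem.mp γ.2)
  have hc : (q : ℤ) ∣ (γ : SL(2, ℤ)) 1 0 := (Int.natCast_dvd_natCast.mpr hqN).trans hcN
  have hc0 : (((γ : SL(2, ℤ)) 1 0 : ℤ) : ZMod q) = 0 :=
    (ZMod.intCast_zmod_eq_zero_iff_dvd _ _).mpr hc
  have hex : ∀ x : ZMod q, ∃ g' : Gamma0 N,
      ModularForm.heckeMatrix q x.val * Matrix.SpecialLinearGroup.mapGL ℝ (γ : SL(2, ℤ))
        = Matrix.SpecialLinearGroup.mapGL ℝ ((g' : Gamma0 N) : SL(2, ℤ))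
          * ModularForm.heckeMatrix q ((affinePerm (γ : SL(2, ℤ)) hc0) x).val := by
    intro x
    obtain ⟨g', hg', hmul⟩ := heckeMatrix_mul_of_dvd (γ : SL(2, ℤ)) hc x
    refine ⟨⟨g', ?_⟩, hmul⟩
    rw [CongruenceSubgroup.Gamma0_mem, hg']
    push_cast
    rw [CongruenceSubgroup.Gamma0_mem.mp γ.2, mul_zero]
  choose γ' hγ' using hex
  set σ := affinePerm (γ : SL(2, ℤ)) hc0 with hσ
  refine ⟨σ, γ', hγ', fun f => ?_⟩
  have key := periodVec_of_hecke_sum N 0 (fun x : ZMod q => ModularForm.heckeMatrix q x.val)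
    (fun _ => 1) (fun x => (x.val : ℤ)) (fun _ => (q : ℤ)) ((q : ℂ) ^ (0 + 1))
    (fun x c z => by
      have := polyEval_slash_heckeMatrix 0 hq x.val c z
      simpa using this)
    σ γ γ' hγ' f (CuspForm.heckeULin (((0 : ℕ) : ℤ) + 2) hqN f)
    (by rw [eichler_heckeU, heckeU_eq_sum_zmod])
  have h0 := congrFun key 0
  rw [Finset.sum_apply] at h0
  simp only [s16l_actVec_zero] at h0
  have h1 : 2 * (Real.pi : ℂ) * Complex.I * perFun N γ (CuspForm.heckeULin 2 hqN f)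
      = 2 * (Real.pi : ℂ) * Complex.I * ∑ x, perFun N (γ' x) f := by
    rw [s16l_perFun_eq, Finset.mul_sum]
    simp only [s16l_perFun_eq]
    exact h0
  exact mul_left_cancel₀ s16l_two_pi_I_ne_zero h1

end PerSide

end Fermat.Agent.S16
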