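import Mathlib
import Fermat.Agent.S16.LTransfer

/-!
# S16 / lower bound, part (4b): the Shimura character is an Eisenstein eigenclass

`∑_x χ (γ'_x) = (1 + ℓ) χ γ` for the transfer elements of `T_ℓ` (`ℓ ≠ p`) and
`∑_x χ (γ'_x) = χ γ` for those of `U_p`.
-/

set_option autoImplicit false
set_option linter.unusedSectionVars false

open Matrix.SpecialLinearGroup ModularGroup CongruenceSubgroup UpperHalfPlane ModularForm
open scoped MatrixGroups Manifold ModularForm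
open P2MW.S_ModularForm_heckeT_slash_eq_self_of_mem_Gamma0.ModularForm.HeckeSlashInvariance

namespace Fermat.Agent.S16

open Fermat.Agent.S22 Fermat.Agent.S23

section Entries

/-- the lower right entry of `heckeRep ℓ x` as a natural number. -/
def s16l_natD (ℓ : ℕ) (x : OnePoint (ZMod ℓ)) : ℕ := x.elim 1 (fun _ => ℓ)

/-- the upper right entry of `heckeRep ℓ x` as a natural number. -/
def s16l_natB (ℓ : ℕ) (x : OnePoint (ZMod ℓ)) : ℕ := x.elim 0 (fun j => j.val)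

/-- the upper left entry of `heckeRep ℓ x` as a natural number. -/
def s16l_natA (ℓ : ℕ) (x : OnePoint (ZMod ℓ)) : ℕ := x.elim ℓ (fun _ => 1)

theorem s16l_val_heckeRep {ℓ : ℕ} (hℓ : ℓ ≠ 0) (x : OnePoint (ZMod ℓ)) :
    ((heckeRep ℓ x : GL (Fin 2) ℝ) : Matrix (Fin 2) (Fin 2) ℝ)
      = !![(s16l_natA ℓ x : ℝ), (s16l_natB ℓ x : ℝ); 0, (s16l_natD ℓ x : ℝ)] := by
  induction x using OnePoint.rec with
  | infty =>
    rw [heckeRep_infty, val_heckeDiagMatrix hℓ]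
    simp [s16l_natA, s16l_natB, s16l_natD]
  | coe j =>
    rw [heckeRep_coe, val_heckeMatrix hℓ]
    simp [s16l_natA, s16l_natB, s16l_natD]

/-- entry comparison in `α_x γ = γ' α_y`. -/
theorem s16l_entries {ℓ : ℕ} (hℓ : ℓ ≠ 0) (x y : OnePoint (ZMod ℓ)) (g g' : SL(2, ℤ))
    (h : heckeRep ℓ x * Matrix.SpecialLinearGroup.mapGL ℝ g
      = Matrix.SpecialLinearGroup.mapGL ℝ g' * heckeRep ℓ y) :
    (s16l_natD ℓ x : ℤ) * g 1 0 = g' 1 0 * (s16l_natA ℓ y : ℤ) ∧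
    (s16l_natD ℓ x : ℤ) * g 1 1 = g' 1 0 * (s16l_natB ℓ y : ℤ) + g' 1 1 * (s16l_natD ℓ y : ℤ) := by
  have hM := congrArg (fun M : GL (Fin 2) ℝ => (M : Matrix (Fin 2) (Fin 2) ℝ)) h
  simp only [Matrix.GeneralLinearGroup.coe_mul, s16l_val_heckeRep hℓ,
    Matrix.SpecialLinearGroup.mapGL_coe_matrix] at hM
  have h10 := congrFun (congrFun hM 1) 0
  have h11 := congrFun (congrFun hM 1) 1
  simp [Matrix.mul_apply, Fin.sum_univ_two] at h10 h11
  constructor
  · exact_mod_cast h10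
  · exact_mod_cast h11

theorem s16l_entries_U {q : ℕ} (hq : q ≠ 0) (j j' : ℕ) (g g' : SL(2, ℤ))
    (h : ModularForm.heckeMatrix q j * Matrix.SpecialLinearGroup.mapGL ℝ g
      = Matrix.SpecialLinearGroup.mapGL ℝ g' * ModularForm.heckeMatrix q j') :
    (q : ℤ) * g 1 0 = g' 1 0 ∧
    (q : ℤ) * g 1 1 = g' 1 0 * (j' : ℤ) + g' 1 1 * (q : ℤ) := by
  have hM := congrArg (fun M : GL (Fin 2) ℝ => (M : Matrix (Fin 2) (Fin 2) ℝ)) h
  simp only [Matrix.GeneralLinearGroup.coe_mul, val_heckeMatrix hq,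
    Matrix.SpecialLinearGroup.mapGL_coe_matrix] at hM
  have h10 := congrFun (congrFun hM 1) 0
  have h11 := congrFun (congrFun hM 1) 1
  simp [Matrix.mul_apply, Fin.sum_univ_two] at h10 h11
  constructor
  · exact_mod_cast h10
  · exact_mod_cast h11

end Entries

section ChiSide

variable (p : ℕ) [Fact p.Prime]

theorem s16l_natD_coprime {ℓ : ℕ} (hℓ : ℓ.Prime) (hℓp : ¬ ℓ ∣ p) (x : OnePoint (ZMod ℓ)) :
    Nat.Coprime (s16l_natD ℓ x) p := by
  have hp : p.Prime := Fact.out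
  induction x using OnePoint.rec with
  | infty => simp [s16l_natD]
  | coe j =>
    show Nat.Coprime ℓ p
    exact (Nat.coprime_primes hℓ hp).mpr (fun h => hℓp (h ▸ dvd_refl _))

/-- the unit `D(x) mod p`. -/
noncomputable def s16l_uD {ℓ : ℕ} (hℓ : ℓ.Prime) (hℓp : ¬ ℓ ∣ p) (x : OnePoint (ZMod ℓ)) :
    (ZMod p)ˣ :=
  ZMod.unitOfCoprime (s16l_natD ℓ x) (s16l_natD_coprime p hℓ hℓp x)

/-- the key relation in `(ℤ/p)ˣ`. -/
theorem s16l_d_transfer {ℓ : ℕ} (hℓ : ℓ.Prime) (hℓp : ¬ ℓ ∣ p) (x y : OnePoint (ZMod ℓ))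
    (γ γ' : Gamma0 p)
    (h : heckeRep ℓ x * Matrix.SpecialLinearGroup.mapGL ℝ (γ : SL(2, ℤ))
      = Matrix.SpecialLinearGroup.mapGL ℝ (γ' : SL(2, ℤ)) * heckeRep ℓ y) :
    s16l_uD p hℓ hℓp x * s16l_d p γ = s16l_d p γ' * s16l_uD p hℓ hℓp y := by
  obtain ⟨-, h11⟩ := s16l_entries hℓ.ne_zero x y (γ : SL(2, ℤ)) (γ' : SL(2, ℤ)) h
  apply Units.ext
  rw [Units.val_mul, Units.val_mul, s16l_d_coe, s16l_d_coe]
  simp only [s16l_uD, ZMod.coe_unitOfCoprime]
  have hc : ((((γ' : SL(2, ℤ)) 1 0 : ℤ)) : ZMod p) = 0 := Gamma0_mem.mp γ'.2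
  have := congrArg (fun z : ℤ => (z : ZMod p)) h11
  simp only [Int.cast_mul, Int.cast_add, Int.cast_natCast] at this
  rw [hc, zero_mul, zero_add] at this
  exact this

theorem s16l_d_transfer_U (j j' : ℕ) (γ γ' : Gamma0 p)
    (h : ModularForm.heckeMatrix p j * Matrix.SpecialLinearGroup.mapGL ℝ (γ : SL(2, ℤ))
      = Matrix.SpecialLinearGroup.mapGL ℝ (γ' : SL(2, ℤ)) * ModularForm.heckeMatrix p j') :
    s16l_d p γ = s16l_d p γ' := by
  have hp : p.Prime := Fact.out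
  obtain ⟨h10, h11⟩ := s16l_entries_U hp.ne_zero j j' (γ : SL(2, ℤ)) (γ' : SL(2, ℤ)) h
  apply Units.ext
  rw [s16l_d_coe, s16l_d_coe]
  have hp0 : (p : ℤ) ≠ 0 := by exact_mod_cast hp.ne_zero
  have h2 : (γ : SL(2, ℤ)) 1 1 = (γ : SL(2, ℤ)) 1 0 * (j' : ℤ) + (γ' : SL(2, ℤ)) 1 1 := by
    apply mul_left_cancel₀ hp0
    rw [h11, ← h10]
    ring
  have hc : ((((γ : SL(2, ℤ)) 1 0 : ℤ)) : ZMod p) = 0 := Gamma0_mem.mp γ.2
  have := congrArg (fun z : ℤ => (z : ZMod p)) h2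
  simp only [Int.cast_mul, Int.cast_add, Int.cast_natCast] at this
  rw [hc, zero_mul, zero_add] at this
  exact this

/-- Eisenstein eigen-property of the Shimura character for `T_ℓ`. -/
theorem s16l_chi_sum_T {ℓ : ℕ} [NeZero ℓ] (hℓ : ℓ.Prime) (hℓp : ¬ ℓ ∣ p)
    (σ : Equiv.Perm (OnePoint (ZMod ℓ))) (γ : Gamma0 p) (γ' : OnePoint (ZMod ℓ) → Gamma0 p)
    (h : ∀ x, heckeRep ℓ x * Matrix.SpecialLinearGroup.mapGL ℝ (γ : SL(2, ℤ))
      = Matrix.SpecialLinearGroup.mapGL ℝ ((γ' x : Gamma0 p) : SL(2, ℤ)) * heckeRep ℓ (σ x)) :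
    ∑ x, s16l_chi p (Additive.ofMul (γ' x))
      = ((1 + ℓ : ℕ) : ZMod (ModularCurve.eisensteinNumerator p))
          * s16l_chi p (Additive.ofMul γ) := by
  have key : ∀ x, s16l_chi p (Additive.ofMul (γ' x))
      = s16l_psi p (Additive.ofMul (s16l_uD p hℓ hℓp x))
        - s16l_psi p (Additive.ofMul (s16l_uD p hℓ hℓp (σ x)))
        + s16l_chi p (Additive.ofMul γ) := by
    intro x
    have h1 := s16l_d_transfer p hℓ hℓp x (σ x) γ (γ' x) (h x)
    have h2 := congrArg (fun u : (ZMod p)ˣ => s16l_psi p (Additive.ofMul u)) h1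
    simp only [ofMul_mul, map_add] at h2
    rw [s16l_chi_apply, s16l_chi_apply]
    linear_combination -h2
  simp only [key]
  rw [Finset.sum_add_distrib, Finset.sum_sub_distrib,
    Equiv.sum_comp σ (fun x => s16l_psi p (Additive.ofMul (s16l_uD p hℓ hℓp x))), sub_self,
    zero_add, Finset.sum_const, Finset.card_univ]
  have hcard : Fintype.card (OnePoint (ZMod ℓ)) = 1 + ℓ := by
    show Fintype.card (Option (ZMod ℓ)) = 1 + ℓ
    rw [Fintype.card_option, ZMod.card, add_comm]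
  rw [hcard, nsmul_eq_mul]

/-- Eisenstein eigen-property of the Shimura character for `U_p`. -/
theorem s16l_chi_sum_U
    (σ : Equiv.Perm (ZMod p)) (γ : Gamma0 p) (γ' : ZMod p → Gamma0 p)
    (h : ∀ x, ModularForm.heckeMatrix p x.val * Matrix.SpecialLinearGroup.mapGL ℝ (γ : SL(2, ℤ))
      = Matrix.SpecialLinearGroup.mapGL ℝ ((γ' x : Gamma0 p) : SL(2, ℤ))
        * ModularForm.heckeMatrix p (σ x).val) :
    ∑ x, s16l_chi p (Additive.ofMul (γ' x)) = s16l_chi p (Additive.ofMul γ) := by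
  have hp : p.Prime := Fact.out
  have key : ∀ x, s16l_chi p (Additive.ofMul (γ' x)) = s16l_chi p (Additive.ofMul γ) := by
    intro x
    rw [s16l_chi_apply, s16l_chi_apply, s16l_d_transfer_U p x.val (σ x).val γ (γ' x) (h x)]
  simp only [key]
  rw [Finset.sum_const, Finset.card_univ, ZMod.card, nsmul_eq_mul]
  have h1 : ((p : ℕ) : ZMod (ModularCurve.eisensteinNumerator p)) = 1 := by
    have hdvd := ModularCurve.eisensteinNumerator_dvd p
    have h0 : (((p - 1 : ℕ)) : ZMod (ModularCurve.eisensteinNumerator p)) = 0 :=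
      (ZMod.natCast_eq_zero_iff _ _).mpr hdvd
    have hgen : ∀ m : ℕ, m = (p - 1) + 1 →
        ((m : ℕ) : ZMod (ModularCurve.eisensteinNumerator p)) = 1 := by
      intro m hm
      rw [hm, Nat.cast_add, h0, zero_add, Nat.cast_one]
    exact hgen p (by have := hp.two_le; omega)
  rw [h1, one_mul]

end ChiSide

end Fermat.Agent.S16
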