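import Mathlib
import Fermat.Agent.S16.LEigen
import Fermat.Agent.S16.LBMain

/-!
# S16 / lower bound: the character interface and the final statement

`s16lb_chi : s16lb_stmt_CHI` (parts (1) + (4): the Shimura character `χ = ψ ∘ d` is a surjective
element of `H(Γ₀(p), ℤ/n)` which is an Eisenstein eigenclass for the coset transfer), and
`s16lb_main : s16_stmt_LB`.
-/

set_option autoImplicit false

open CongruenceSubgroup ModularCurve CuspForm
open scoped MatrixGroups

namespace Fermat.Agent.S16

open Fermat.Agent.S23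

theorem s16lb_chi : s16lb_stmt_CHI := by
  intro p _
  have hp : p.Prime := Fact.out
  refine ⟨s16l_chi p, s16l_chi_mem p, s16l_chi_surjective p, ?_, ?_⟩
  · intro ℓ hℓ hℓp γ
    have : NeZero ℓ := ⟨hℓ.ne_zero⟩
    obtain ⟨σ, γ', h1, h2⟩ := s16l_transfer_T (N := p) hℓ hℓp γ
    refine ⟨OnePoint (ZMod ℓ), inferInstance, γ', ?_, ?_⟩
    · apply LinearMap.ext
      intro f
      rw [LinearMap.comp_apply, LinearMap.sum_apply]
      exact h2 f
    · exact s16l_chi_sum_T p hℓ hℓp σ γ γ' h1
  · intro γ
    obtain ⟨σ, γ', h1, h2⟩ := s16l_transfer_U (N := p) (q := p) (dvd_refl p) γ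
    refine ⟨ZMod p, inferInstance, γ', ?_, ?_⟩
    · apply LinearMap.ext
      intro f
      rw [LinearMap.comp_apply, LinearMap.sum_apply]
      exact h2 f
    · exact s16l_chi_sum_U p σ γ γ' h1

end Fermat.Agent.S16

/-- **S16, lower bound**: every Hecke relation on `S_2(Γ₀(p))` has Eisenstein value divisible by
the Eisenstein numerator. -/
theorem s16lb_main : s16_stmt_LB :=
  Fermat.Agent.S16.s16lb4_main Fermat.Agent.S16.s16lb_chi

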