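import Fermat.Agent.S16.R1Main
import Fermat.Agent.S16.TRDefs

/-!
# S16 / F2c (node R1): final statement on top of the (TR) interface

`s16r1_main : s16tr_stmt → s16_stmt_F2c`.
-/

set_option autoImplicit false
set_option linter.style.haveILetI false

namespace Fermat.Agent.S16R1

/-- the interface statement (TR) gives the shape used in `R1Main`. -/
theorem s16r1_TR1_of_stmt (hTR : s16tr_stmt) : s16r1_TR1 := by
  intro p _ G
  haveI : NeZero p := ⟨(Fact.out : p.Prime).ne_zero⟩
  exact hTR p G

/-- **F2c**: for `p ≡ 7 mod 8` there is no `G ∈ M₂(Γ₀(p))` with `G ≡ 1 mod 8`. -/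
theorem s16r1_main (hTR : s16tr_stmt) : s16_stmt_F2c :=
  s16r1_main_of (s16r1_TR1_of_stmt hTR)

end Fermat.Agent.S16R1
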