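import Fermat.Agent.S28.CAQExp2
import Fermat.Agent.S28.CAInv
import Fermat.Agent.S28.CAPoly
import Fermat.Agent.S28.CAFormal
import Fermat.Agent.S28.CATri

/-!
# S16 / (GEN): integrality over `ℤ[j]` of `Γ₀(p)`-invariant functions with integral expansions
at both cusps  (OWNER: helper8; off-main)

`s16g_main`: let `φ : ℍ → ℂ` be holomorphic and `Γ₀(p)`-invariant (`p` prime), with expansion
`x ∈ ℤ⸨q⸩` at infinity and such that `τ ↦ φ(-1/τ)` has expansion `x0 ∈ ℤ⸨s⸩`, `s = q^{1/p}`.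
Then `x` is a root of a monic polynomial with coefficients in `ℤ[j]`.

The `p + 1` conjugates are `φ` and `τ ↦ φ(S T^b τ)`, `b ∈ ℤ/p`; they are permuted by `S` and `T`.
-/

set_option autoImplicit false
set_option linter.style.haveILetI false

namespace Fermat.Agent.S16

open UpperHalfPlane Polynomial CongruenceSubgroup
open scoped MatrixGroups ModularForm Manifold
open Fermat.Agent.S24 Fermat.Agent.S28 ModularCurve

local notation "𝕢" => Function.Periodic.qParam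

/-! ### Coset representatives of `Γ₀(p) \ SL₂(ℤ)` -/

/-- the representatives `1`, `S T^b`. -/
noncomputable def s16g_rep (p : ℕ) : Option (ZMod p) → SL(2, ℤ)
  | none => 1
  | some x => ModularGroup.S * ModularGroup.T ^ ((x.val : ℕ) : ℤ)

theorem s16g_mem_Gamma0_iff (p : ℕ) (γ : SL(2, ℤ)) :
    γ ∈ Gamma0 p ↔ (p : ℤ) ∣ (γ : Matrix (Fin 2) (Fin 2) ℤ) 1 0 := by
  rw [Gamma0_mem, ZMod.intCast_zmod_eq_zero_iff_dvd]

theorem s16g_T_zpow_coe (n : ℤ) :
    ((ModularGroup.T ^ n : SL(2, ℤ)) : Matrix (Fin 2) (Fin 2) ℤ) = !![1, n; 0, 1] :=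
  ModularGroup.coe_T_zpow n

theorem s16g_S_coe : ((ModularGroup.S : SL(2, ℤ)) : Matrix (Fin 2) (Fin 2) ℤ) = !![0, -1; 1, 0] :=
  ModularGroup.coe_S

/-- `S T^a (S T^b)⁻¹ = S T^(a-b) S⁻¹` has lower left entry `-(a - b)`. -/
theorem s16g_STS_mem (p : ℕ) (a b : ℤ) (h : (p : ℤ) ∣ a - b) :
    ModularGroup.S * ModularGroup.T ^ a * (ModularGroup.S * ModularGroup.T ^ b)⁻¹ ∈ Gamma0 p := by
  have e : ModularGroup.S * ModularGroup.T ^ a * (ModularGroup.S * ModularGroup.T ^ b)⁻¹ =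
      ModularGroup.S * ModularGroup.T ^ (a - b) * ModularGroup.S⁻¹ := by
    rw [mul_inv_rev, zpow_sub]
    group
  rw [e, s16g_mem_Gamma0_iff]
  have h1 : ((ModularGroup.S * ModularGroup.T ^ (a - b) * ModularGroup.S⁻¹ : SL(2, ℤ)) :
      Matrix (Fin 2) (Fin 2) ℤ) 1 0 = -(a - b) := by
    rw [Matrix.SpecialLinearGroup.coe_mul, Matrix.SpecialLinearGroup.coe_mul,
      Matrix.SpecialLinearGroup.coe_inv, s16g_T_zpow_coe, s16g_S_coe]
    simp [Matrix.mul_apply, Fin.sum_univ_two, Matrix.adjugate_fin_two]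
  rw [h1]
  exact (dvd_neg).mpr h

theorem s16g_rep_T (p : ℕ) [NeZero p] (i : Option (ZMod p)) :
    s16g_rep p i * ModularGroup.T *
      (s16g_rep p ((Equiv.optionCongr (Equiv.addRight (1 : ZMod p))) i))⁻¹ ∈ Gamma0 p := by
  cases i with
  | none =>
    show (1 : SL(2, ℤ)) * ModularGroup.T * (1 : SL(2, ℤ))⁻¹ ∈ Gamma0 p
    rw [one_mul, inv_one, mul_one, s16g_mem_Gamma0_iff, ModularGroup.coe_T]
    simp
  | some x =>
    show ModularGroup.S * ModularGroup.T ^ ((x.val : ℕ) : ℤ) * ModularGroup.T *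
      (ModularGroup.S * ModularGroup.T ^ (((x + 1).val : ℕ) : ℤ))⁻¹ ∈ Gamma0 p
    have e : ModularGroup.S * ModularGroup.T ^ ((x.val : ℕ) : ℤ) * ModularGroup.T =
        ModularGroup.S * ModularGroup.T ^ (((x.val : ℕ) : ℤ) + 1) := by
      rw [zpow_add_one, mul_assoc]
    rw [e]
    apply s16g_STS_mem
    rw [← ZMod.intCast_zmod_eq_zero_iff_dvd]
    push_cast
    rw [ZMod.natCast_zmod_val, ZMod.natCast_zmod_val, sub_self]

theorem s16g_rep_S (p : ℕ) [NeZero p] (hp : p.Prime) (i : Option (ZMod p)) :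
    s16g_rep p i * ModularGroup.S * (s16g_rep p (s28ca_sS p i))⁻¹ ∈ Gamma0 p := by
  haveI := Fact.mk hp
  cases i with
  | none =>
    have h1 : s28ca_sS p (none : Option (ZMod p)) = some 0 := rfl
    rw [h1]
    show (1 : SL(2, ℤ)) * ModularGroup.S *
      (ModularGroup.S * ModularGroup.T ^ ((((0 : ZMod p)).val : ℕ) : ℤ))⁻¹ ∈ Gamma0 p
    rw [ZMod.val_zero]
    simp only [Nat.cast_zero, zpow_zero, mul_one, one_mul, mul_inv_cancel]
    exact Subgroup.one_mem _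
  | some x =>
    by_cases hx : x = 0
    · subst hx
      have h1 : s28ca_sS p (some (0 : ZMod p)) = none := by simp [s28ca_sS]
      rw [h1]
      show ModularGroup.S * ModularGroup.T ^ ((((0 : ZMod p)).val : ℕ) : ℤ) * ModularGroup.S *
        (1 : SL(2, ℤ))⁻¹ ∈ Gamma0 p
      rw [ZMod.val_zero, s16g_mem_Gamma0_iff]
      simp only [Nat.cast_zero, zpow_zero, mul_one, inv_one]
      rw [Matrix.SpecialLinearGroup.coe_mul, s16g_S_coe]
      simp [Matrix.mul_apply, Fin.sum_univ_two]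
    · have h1 : s28ca_sS p (some x) = some (-x⁻¹) := by simp [s28ca_sS, hx]
      rw [h1]
      show ModularGroup.S * ModularGroup.T ^ ((x.val : ℕ) : ℤ) * ModularGroup.S *
        (ModularGroup.S * ModularGroup.T ^ (((-x⁻¹).val : ℕ) : ℤ))⁻¹ ∈ Gamma0 p
      rw [s16g_mem_Gamma0_iff]
      have h2 : ((ModularGroup.S * ModularGroup.T ^ ((x.val : ℕ) : ℤ) * ModularGroup.S *
          (ModularGroup.S * ModularGroup.T ^ (((-x⁻¹).val : ℕ) : ℤ))⁻¹ : SL(2, ℤ)) :
          Matrix (Fin 2) (Fin 2) ℤ) 1 0 =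
          ((x.val : ℕ) : ℤ) * (((-x⁻¹).val : ℕ) : ℤ) + 1 := by
        rw [Matrix.SpecialLinearGroup.coe_mul, Matrix.SpecialLinearGroup.coe_mul,
          Matrix.SpecialLinearGroup.coe_mul, Matrix.SpecialLinearGroup.coe_inv,
          Matrix.SpecialLinearGroup.coe_mul, s16g_T_zpow_coe, s16g_T_zpow_coe, s16g_S_coe]
        simp [Matrix.mul_apply, Fin.sum_univ_two, Matrix.adjugate_fin_two]
      rw [h2, ← ZMod.intCast_zmod_eq_zero_iff_dvd]
      push_cast
      rw [ZMod.natCast_zmod_val, ZMod.natCast_zmod_val, mul_neg, mul_inv_cancel₀ hx]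
      ring

/-! ### The conjugates -/

/-- the `p + 1` conjugates of `φ`. -/
noncomputable def s16g_conj (p : ℕ) (φ : ℍ → ℂ) (i : Option (ZMod p)) (τ : ℍ) : ℂ :=
  φ (s16g_rep p i • τ)

theorem s16g_conj_smul (p : ℕ) (φ : ℍ → ℂ)
    (inv : ∀ γ ∈ Gamma0 p, ∀ τ : ℍ, φ (γ • τ) = φ τ) (i j : Option (ZMod p)) (δ : SL(2, ℤ))
    (h : s16g_rep p i * δ * (s16g_rep p j)⁻¹ ∈ Gamma0 p) (τ : ℍ) :
    s16g_conj p φ i (δ • τ) = s16g_conj p φ j τ := by
  unfold s16g_conj
  have e : s16g_rep p i • δ • τ =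
      (s16g_rep p i * δ * (s16g_rep p j)⁻¹) • (s16g_rep p j • τ) := by
    rw [← mul_smul, ← mul_smul]
    congr 1
    group
  rw [e, inv _ h]

/-- the polynomial `∏ i, (X - φ_i(τ))`. -/
noncomputable def s16g_poly (p : ℕ) [NeZero p] (φ : ℍ → ℂ) (τ : ℍ) : Polynomial ℂ :=
  ∏ i : Option (ZMod p), (X - C (s16g_conj p φ i τ))

theorem s16g_poly_T (p : ℕ) [NeZero p] (φ : ℍ → ℂ)
    (inv : ∀ γ ∈ Gamma0 p, ∀ τ : ℍ, φ (γ • τ) = φ τ) (τ : ℍ) :
    s16g_poly p φ (ModularGroup.T • τ) = s16g_poly p φ τ := by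
  unfold s16g_poly
  simp_rw [fun i => s16g_conj_smul p φ inv i _ ModularGroup.T (s16g_rep_T p i) τ]
  exact Equiv.prod_comp (Equiv.optionCongr (Equiv.addRight (1 : ZMod p)))
    (fun i => X - C (s16g_conj p φ i τ))

theorem s16g_poly_S (p : ℕ) [NeZero p] (hp : p.Prime) (φ : ℍ → ℂ)
    (inv : ∀ γ ∈ Gamma0 p, ∀ τ : ℍ, φ (γ • τ) = φ τ) (τ : ℍ) :
    s16g_poly p φ (ModularGroup.S • τ) = s16g_poly p φ τ := by
  unfold s16g_poly
  simp_rw [fun i => s16g_conj_smul p φ inv i _ ModularGroup.S (s16g_rep_S p hp i) τ]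
  exact Equiv.prod_comp ((s28ca_sS_involutive p hp).toPerm _)
    (fun i => X - C (s16g_conj p φ i τ))

/-- the polynomial `∏ (X - φ_i(τ))` is `SL₂(ℤ)`-invariant. -/
theorem s16g_poly_inv (p : ℕ) [NeZero p] (hp : p.Prime) (φ : ℍ → ℂ)
    (inv : ∀ γ ∈ Gamma0 p, ∀ τ : ℍ, φ (γ • τ) = φ τ) (γ : SL(2, ℤ)) (τ : ℍ) :
    s16g_poly p φ (γ • τ) = s16g_poly p φ τ := by
  have hγ : γ ∈ Subgroup.closure ({ModularGroup.S, ModularGroup.T} : Set SL(2, ℤ)) := by
    rw [SpecialLinearGroup.SL2Z_generators]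
    exact Subgroup.mem_top γ
  revert τ
  induction hγ using Subgroup.closure_induction with
  | mem x hx =>
    intro τ
    rcases hx with rfl | hx
    · exact s16g_poly_S p hp φ inv τ
    · rw [Set.mem_singleton_iff] at hx
      subst hx
      exact s16g_poly_T p φ inv τ
  | one => intro τ; rw [one_smul]
  | mul x y _ _ hx hy =>
    intro τ
    rw [mul_smul, hx, hy]
  | inv x _ hx =>
    intro τ
    have := hx (x⁻¹ • τ)
    rw [smul_inv_smul] at this
    exact this.symm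

/-! ### Holomorphy -/

theorem s16g_mdiff_comp_smul (φ : ℍ → ℂ) (hol : MDiff φ) (γ : SL(2, ℤ)) :
    MDiff (fun τ : ℍ => φ (γ • τ)) := by
  have h : MDiff (fun τ : ℍ => ((γ : GL (Fin 2) ℝ)) • τ) :=
    UpperHalfPlane.mdifferentiable_smul (g := (γ : GL (Fin 2) ℝ)) (by simp)
  exact hol.comp h

theorem s16g_conj_mdiff (p : ℕ) (φ : ℍ → ℂ) (hol : MDiff φ) (i : Option (ZMod p)) :
    MDiff (s16g_conj p φ i) :=
  s16g_mdiff_comp_smul φ hol (s16g_rep p i)

theorem s16g_coeff_mdiff (p : ℕ) [NeZero p] (φ : ℍ → ℂ) (hol : MDiff φ) (k : ℕ) :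
    MDiff (fun τ => (s16g_poly p φ τ).coeff k) := by
  unfold s16g_poly
  exact s28ca_mdiff_coeff_prod Finset.univ (s16g_conj p φ)
    (fun i _ => s16g_conj_mdiff p φ hol i) k

/-! ### Expansions of the conjugates -/

theorem s16g_qParam_T_zpow (p : ℕ) [NeZero p] (b : ℕ) (τ : ℍ) :
    𝕢 (p : ℝ) ((ModularGroup.T ^ ((b : ℕ) : ℤ) • τ : ℍ) : ℂ) =
      (((s28ca_zeta p) ^ b : ℂˣ) : ℂ) * 𝕢 (p : ℝ) τ := by
  have hp : (p : ℂ) ≠ 0 := by exact_mod_cast NeZero.ne p
  have hc : ((ModularGroup.T ^ ((b : ℕ) : ℤ) • τ : ℍ) : ℂ) = (τ : ℂ) + (b : ℂ) := by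
    rw [UpperHalfPlane.modular_T_zpow_smul, UpperHalfPlane.coe_vadd]
    push_cast
    ring
  rw [hc, Units.val_pow_eq_pow_val, s28ca_zeta_coe, ← Complex.exp_nat_mul]
  simp only [Function.Periodic.qParam]
  rw [← Complex.exp_add]
  congr 1
  push_cast
  field_simp
  ring

/-- the expansions (in `s = q^{1/p}`) of the `p + 1` conjugates. -/
noncomputable def s16g_A (p : ℕ) [NeZero p] (x x0 : LaurentSeries ℤ) :
    Option (ZMod p) → LaurentSeries ℂ
  | none => qExpand ℂ p (coeffMap (Int.castRingHom ℂ) x)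
  | some b => s28_scale ((s28ca_zeta p) ^ (b.val : ℕ)) (coeffMap (Int.castRingHom ℂ) x0)

theorem s16g_conj_hasQExp (p : ℕ) [NeZero p] (φ : ℍ → ℂ) (x x0 : LaurentSeries ℤ)
    (h : s28ca_HasQExp 1 φ (coeffMap (Int.castRingHom ℂ) x))
    (h0 : s28ca_HasQExp p (fun τ => φ (ModularGroup.S • τ)) (coeffMap (Int.castRingHom ℂ) x0))
    (i : Option (ZMod p)) :
    s28ca_HasQExp p (s16g_conj p φ i) (s16g_A p x x0 i) := by
  cases i with
  | none =>
    have h2 := s28ca_hasQExp_level p p (one_mul p).symm h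
    refine s28ca_hasQExp_congr h2 (fun τ => ?_)
    show φ τ = φ ((1 : SL(2, ℤ)) • τ)
    rw [one_smul]
  | some b =>
    have h1 := s28ca_hasQExp_comp_scale (N := p) (N' := p) ((s28ca_zeta p) ^ (b.val : ℕ))
      (s28ca_zeta_pow_norm p b.val) (fun τ => ModularGroup.T ^ ((b.val : ℕ) : ℤ) • τ)
      (fun τ => s16g_qParam_T_zpow p b.val τ) h0
    refine s28ca_hasQExp_congr h1 (fun τ => ?_)
    show φ (ModularGroup.S • ModularGroup.T ^ ((b.val : ℕ) : ℤ) • τ) =
      φ ((ModularGroup.S * ModularGroup.T ^ ((b.val : ℕ) : ℤ)) • τ)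
    rw [mul_smul]

/-! ### The bridge -/

theorem s16g_bridge (p : ℕ) [NeZero p] (hp : p.Prime) (φ : ℍ → ℂ) (hol : MDiff φ)
    (inv : ∀ γ ∈ Gamma0 p, ∀ τ : ℍ, φ (γ • τ) = φ τ) (x x0 : LaurentSeries ℤ)
    (h : s28ca_HasQExp 1 φ (coeffMap (Int.castRingHom ℂ) x))
    (h0 : s28ca_HasQExp p (fun τ => φ (ModularGroup.S • τ)) (coeffMap (Int.castRingHom ℂ) x0))
    (k : ℕ) :
    ∃ P : Polynomial ℂ,
      qExpand ℂ p (Polynomial.eval₂ (HahnSeries.C : ℂ →+* LaurentSeries ℂ) (jqModC ℂ) P) =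
        (∏ i : Option (ZMod p), (X - C (s16g_A p x x0 i))).coeff k := by
  have hexp : s28ca_HasQExp p (fun τ => (s16g_poly p φ τ).coeff k)
      ((∏ i : Option (ZMod p), (X - C (s16g_A p x x0 i))).coeff k) :=
    s28ca_hasQExp_polyCoeff Finset.univ (s16g_conj p φ) (s16g_A p x x0)
      (fun i _ => s16g_conj_hasQExp p φ x x0 h h0 i) k
  obtain ⟨m, hb⟩ := s28ca_hasQExp_bdd hexp
  obtain ⟨P, -, hP⟩ := s28ca_exists_polyC (fun τ => (s16g_poly p φ τ).coeff k)
    (s16g_coeff_mdiff p φ hol k) (fun γ τ => by rw [s16g_poly_inv p hp φ inv γ τ]) m hb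
  refine ⟨P, ?_⟩
  have h1 : s28ca_HasQExp p (fun τ => (s16g_poly p φ τ).coeff k)
      (qExpand ℂ p (Polynomial.eval₂ (HahnSeries.C : ℂ →+* LaurentSeries ℂ) (jqModC ℂ) P)) :=
    s28ca_hasQExp_congr
      (s28ca_hasQExp_level p p (one_mul p).symm (s28ca_hasQExp_eval P s28ca_hasQExp_jf))
      (fun τ => (hP τ).symm)
  exact s28ca_hasQExp_unique h1 hexp

/-! ### The formal part -/

/-- the norm polynomial `(X - x) · charpoly (mult. by x0)` over `ℤ⸨q⸩`. -/
noncomputable def s16g_Psi (p : ℕ) [NeZero p] (x x0 : LaurentSeries ℤ) :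
    Polynomial (LaurentSeries ℤ) :=
  (X - C x) * (s28caf_M p x0).charpoly

theorem s16g_Psi_monic (p : ℕ) [NeZero p] (x x0 : LaurentSeries ℤ) : (s16g_Psi p x x0).Monic :=
  (monic_X_sub_C x).mul (Matrix.charpoly_monic _)

theorem s16g_Psi_natDegree (p : ℕ) [NeZero p] (x x0 : LaurentSeries ℤ) :
    (s16g_Psi p x x0).natDegree = p + 1 := by
  unfold s16g_Psi
  rw [(monic_X_sub_C x).natDegree_mul (Matrix.charpoly_monic _), natDegree_X_sub_C,
    Matrix.charpoly_natDegree_eq_dim, Fintype.card_fin, add_comm]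

theorem s16g_prod_zmod (p : ℕ) [NeZero p] {M : Type*} [CommMonoid M] (f : ℕ → M) :
    ∏ b : ZMod p, f b.val = ∏ b : Fin p, f (b : ℕ) := by
  refine Finset.prod_nbij' (fun b => ⟨b.val, ZMod.val_lt b⟩) (fun n => ((n : ℕ) : ZMod p))
    ?_ ?_ ?_ ?_ ?_
  · intro b _
    exact Finset.mem_univ _
  · intro n _
    exact Finset.mem_univ _
  · intro b _
    exact ZMod.natCast_zmod_val b
  · intro n _
    apply Fin.ext
    exact ZMod.val_natCast_of_lt n.isLt
  · intro b _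
    rfl

theorem s16g_prod_A (p : ℕ) [NeZero p] (x x0 : LaurentSeries ℤ) :
    ∏ i : Option (ZMod p), (X - C (s16g_A p x x0 i)) =
      (s16g_Psi p x x0).map ((qExpand ℂ p).comp (coeffMap (Int.castRingHom ℂ))) := by
  classical
  rw [Fintype.prod_option, s16g_Psi, Polynomial.map_mul, Polynomial.map_sub, Polynomial.map_X,
    Polynomial.map_C]
  congr 1
  rw [← Matrix.charpoly_map]
  have h1 : (s28caf_M p x0).map ⇑((qExpand ℂ p).comp (coeffMap (Int.castRingHom ℂ))) =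
      (s28caf_M p (coeffMap (Int.castRingHom ℂ) x0)).map ⇑(qExpand ℂ p) := by
    apply Matrix.ext
    intro i j
    simp only [Matrix.map_apply, s28caf_M, Matrix.of_apply, RingHom.comp_apply]
    rw [s28caf_coeffMap_entry]
  rw [h1, s28caf_charpoly_eq_prod p (s28ca_zeta p) (s28ca_zeta_prim p)]
  exact s16g_prod_zmod p
    (fun b => X - C (s28_scale ((s28ca_zeta p) ^ b) (coeffMap (Int.castRingHom ℂ) x0)))

/-- **formal part**: if the coefficients of `∏ (Y - A_i)` are polynomials in `j(s^p)`, then the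
norm polynomial has coefficients in `ℤ[j]`. -/
theorem s16g_formal (p : ℕ) [NeZero p] (x x0 : LaurentSeries ℤ)
    (h : ∀ k : ℕ, ∃ P : Polynomial ℂ,
      qExpand ℂ p (Polynomial.eval₂ (HahnSeries.C : ℂ →+* LaurentSeries ℂ) (jqModC ℂ) P) =
        (∏ i : Option (ZMod p), (X - C (s16g_A p x x0 i))).coeff k) :
    ∃ U : Polynomial (Polynomial ℤ), U.Monic ∧ U.natDegree = p + 1 ∧
      U.map (s28_evalAt (jqModC ℤ)) = s16g_Psi p x x0 := by
  have hm := s16g_Psi_monic p x x0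
  have hdeg := s16g_Psi_natDegree p x x0
  have hQ : ∀ k : ℕ, ∃ Q : Polynomial ℤ,
      s28_evalAt (jqModC ℤ) Q = (s16g_Psi p x x0).coeff k := by
    intro k
    obtain ⟨P, hP⟩ := h k
    rw [s16g_prod_A, Polynomial.coeff_map, RingHom.comp_apply] at hP
    have h1 := qExpand_injective (R := ℂ) p hP
    obtain ⟨Q, -, hQ⟩ := s28ca_tri P ((s16g_Psi p x x0).coeff k) h1
    exact ⟨Q, hQ⟩
  choose Q hQ using hQ
  set V : Polynomial (Polynomial ℤ) :=
    ∑ k ∈ Finset.range (p + 1), C (Q k) * X ^ k with hV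
  have hVdeg : V.degree < ((p + 1 : ℕ) : WithBot ℕ) := by
    rw [hV]
    refine lt_of_le_of_lt (Polynomial.degree_sum_le _ _) ?_
    rw [Finset.sup_lt_iff (WithBot.bot_lt_coe _)]
    intro k hk
    refine lt_of_le_of_lt (Polynomial.degree_C_mul_X_pow_le _ _) ?_
    exact_mod_cast Finset.mem_range.mp hk
  have hUm : (X ^ (p + 1) + V).Monic := Polynomial.monic_X_pow_add hVdeg
  refine ⟨X ^ (p + 1) + V, hUm, ?_, ?_⟩
  · have h1 : (X ^ (p + 1) + V : Polynomial (Polynomial ℤ)).degree = ((p + 1 : ℕ) : WithBot ℕ) := by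
      rw [Polynomial.degree_add_eq_left_of_degree_lt]
      · exact Polynomial.degree_X_pow _
      · rw [Polynomial.degree_X_pow]
        exact hVdeg
    exact Polynomial.natDegree_eq_of_degree_eq_some h1
  · rw [Polynomial.map_add, Polynomial.map_pow, Polynomial.map_X, hV, Polynomial.map_sum]
    conv_rhs => rw [hm.as_sum, hdeg]
    congr 1
    refine Finset.sum_congr rfl fun k _ => ?_
    rw [Polynomial.map_mul, Polynomial.map_C, Polynomial.map_pow, Polynomial.map_X, hQ]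

/-! ### Main theorems -/

/-- **(GEN+)**: the norm polynomial of a `Γ₀(p)`-invariant holomorphic function with integral
expansions at both cusps has coefficients in `ℤ[j]`. -/
theorem s16g_main_plus (p : ℕ) [NeZero p] (hp : p.Prime) (φ : ℍ → ℂ) (hol : MDiff φ)
    (inv : ∀ γ ∈ Gamma0 p, ∀ τ : ℍ, φ (γ • τ) = φ τ) (x x0 : LaurentSeries ℤ)
    (h : s28ca_HasQExp 1 φ (coeffMap (Int.castRingHom ℂ) x))
    (h0 : s28ca_HasQExp p (fun τ => φ (ModularGroup.S • τ))
      (coeffMap (Int.castRingHom ℂ) x0)) :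
    ∃ U : Polynomial (Polynomial ℤ), U.Monic ∧ U.natDegree = p + 1 ∧
      U.map (s28_evalAt (jqModC ℤ)) = (X - C x) * (s28caf_M p x0).charpoly :=
  s16g_formal p x x0 (s16g_bridge p hp φ hol inv x x0 h h0)

/-- **(GEN)**: a `Γ₀(p)`-invariant holomorphic function with integral expansions at both cusps
is integral over `ℤ[j]`. -/
theorem s16g_main (p : ℕ) [NeZero p] (hp : p.Prime) (φ : ℍ → ℂ) (hol : MDiff φ)
    (inv : ∀ γ ∈ Gamma0 p, ∀ τ : ℍ, φ (γ • τ) = φ τ) (x x0 : LaurentSeries ℤ)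
    (h : s28ca_HasQExp 1 φ (coeffMap (Int.castRingHom ℂ) x))
    (h0 : s28ca_HasQExp p (fun τ => φ (ModularGroup.S • τ))
      (coeffMap (Int.castRingHom ℂ) x0)) :
    ∃ U : Polynomial (Polynomial ℤ), U.Monic ∧ (U.map (s28_evalAt (jqModC ℤ))).eval x = 0 := by
  obtain ⟨U, hU, -, hmap⟩ := s16g_main_plus p hp φ hol inv x x0 h h0
  refine ⟨U, hU, ?_⟩
  rw [hmap, eval_mul, eval_sub, eval_X, eval_C, sub_self, zero_mul]

/-! ### Reduction to an arbitrary coefficient ring -/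

theorem s16g_evalAt_comp {k : Type*} [CommRing k] :
    (coeffMap (Int.castRingHom k)).comp (s28_evalAt (jqModC ℤ)) = s28_evalAt (jqModC k) := by
  apply Polynomial.ringHom_ext
  · intro a
    simp only [RingHom.comp_apply, s28_evalAt, Polynomial.coe_eval₂RingHom, Polynomial.eval₂_C]
    rw [eq_intCast, eq_intCast, map_intCast]
  · simp only [RingHom.comp_apply, s28_evalAt, Polynomial.coe_eval₂RingHom, Polynomial.eval₂_X]
    exact coeffMap_jqModC _

theorem s16g_coeffMap_M {R S : Type*} [CommRing R] [CommRing S] (f : R →+* S) (p : ℕ)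
    [NeZero p] (x : LaurentSeries R) :
    (s28caf_M p x).map ⇑(coeffMap f) = s28caf_M p (coeffMap f x) := by
  apply Matrix.ext
  intro i j
  simp only [Matrix.map_apply, s28caf_M, Matrix.of_apply]
  rw [s28caf_coeffMap_entry]

/-- **(GEN+)** over an arbitrary commutative ring `k`. -/
theorem s16g_main_map (p : ℕ) [NeZero p] (hp : p.Prime) (φ : ℍ → ℂ) (hol : MDiff φ)
    (inv : ∀ γ ∈ Gamma0 p, ∀ τ : ℍ, φ (γ • τ) = φ τ) (x x0 : LaurentSeries ℤ)
    (h : s28ca_HasQExp 1 φ (coeffMap (Int.castRingHom ℂ) x))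
    (h0 : s28ca_HasQExp p (fun τ => φ (ModularGroup.S • τ))
      (coeffMap (Int.castRingHom ℂ) x0))
    (k : Type*) [CommRing k] :
    ∃ U : Polynomial (Polynomial ℤ), U.Monic ∧ U.natDegree = p + 1 ∧
      U.map (s28_evalAt (jqModC k)) =
        (X - C (coeffMap (Int.castRingHom k) x)) *
          (s28caf_M p (coeffMap (Int.castRingHom k) x0)).charpoly := by
  classical
  obtain ⟨U, hU, hdeg, hmap⟩ := s16g_main_plus p hp φ hol inv x x0 h h0
  refine ⟨U, hU, hdeg, ?_⟩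
  have h1 := congrArg (Polynomial.map (coeffMap (Int.castRingHom k))) hmap
  rw [Polynomial.map_map, s16g_evalAt_comp, Polynomial.map_mul, Polynomial.map_sub,
    Polynomial.map_X, Polynomial.map_C, ← Matrix.charpoly_map, s16g_coeffMap_M] at h1
  exact h1

/-- if `x0 = y(s^p)` is a series in `q = s^p`, multiplication by `x0` is scalar. -/
theorem s16g_M_qExpand {R : Type*} [CommRing R] (p : ℕ) [NeZero p] (y : LaurentSeries R) :
    s28caf_M p (qExpand R p y) = Matrix.diagonal (fun _ : Fin p => y) := by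
  apply Matrix.ext
  intro i j
  simp only [s28caf_M, Matrix.of_apply]
  by_cases hij : i = j
  · subst hij
    rw [Matrix.diagonal_apply_eq]
    ext n
    rw [s28caf_entry_coeff]
    have e : (p : ℤ) * n + ((i : ℕ) : ℤ) - ((i : ℕ) : ℤ) = (p : ℤ) * n := by ring
    rw [e, qExpand_coeff_mul]
  · rw [Matrix.diagonal_apply_ne _ hij]
    ext n
    rw [s28caf_entry_coeff, HahnSeries.coeff_zero]
    apply qExpand_coeff_of_not_dvd
    intro hdvd
    apply hij
    apply Fin.ext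
    have hi : ((i : ℕ) : ℤ) < (p : ℤ) := by exact_mod_cast i.isLt
    have hj : ((j : ℕ) : ℤ) < (p : ℤ) := by exact_mod_cast j.isLt
    have hi0 : (0 : ℤ) ≤ ((i : ℕ) : ℤ) := Int.natCast_nonneg _
    have hj0 : (0 : ℤ) ≤ ((j : ℕ) : ℤ) := Int.natCast_nonneg _
    have h2 : (p : ℤ) ∣ ((i : ℕ) : ℤ) - ((j : ℕ) : ℤ) := by
      have h3 : ((i : ℕ) : ℤ) - ((j : ℕ) : ℤ) =
          ((p : ℤ) * n + ((i : ℕ) : ℤ) - ((j : ℕ) : ℤ)) - (p : ℤ) * n := by ring
      rw [h3]
      exact dvd_sub hdvd (dvd_mul_right _ _)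
    have h4 : ((i : ℕ) : ℤ) - ((j : ℕ) : ℤ) = 0 := by
      apply Int.eq_zero_of_abs_lt_dvd h2
      rw [abs_lt]
      constructor <;> linarith
    have h5 : ((i : ℕ) : ℤ) = ((j : ℕ) : ℤ) := by linarith
    exact_mod_cast h5

theorem s16g_charpoly_qExpand {R : Type*} [CommRing R] (p : ℕ) [NeZero p]
    (y : LaurentSeries R) :
    (s28caf_M p (qExpand R p y)).charpoly = (X - C y) ^ p := by
  classical
  rw [s16g_M_qExpand, Matrix.charpoly_diagonal, Finset.prod_const, Finset.card_univ,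
    Fintype.card_fin]

end Fermat.Agent.S16
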