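import Mathlib
import Fermat.Agent.S16.Gen

/-!
# S16 / (TR0): the explicit trace to level one

For a prime `p`, a weight `k` and `F ∈ M_k(Γ₀(p))` the function
`τ ↦ ∑ i, (F ∣[k] r_i) τ` (`r_i` = the coset representatives `1`, `S T^b` of `Γ₀(p) \ SL₂(ℤ)`,
`s16g_rep`) is a modular form of weight `k` and level one (`s16t0_trace`).
It is Mathlib's `ModularForm.trace`; the only work is the enumeration of the cosets.
-/

set_option autoImplicit false

namespace Fermat.Agent.S16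

open UpperHalfPlane CongruenceSubgroup
open scoped MatrixGroups ModularForm Manifold

/-! ### The representatives are a system of representatives -/

theorem s16t0_ST_entry (n : ℤ) :
    ((ModularGroup.S * ModularGroup.T ^ n : SL(2, ℤ)) : Matrix (Fin 2) (Fin 2) ℤ) 1 0 = 1 := by
  rw [Matrix.SpecialLinearGroup.coe_mul, s16g_T_zpow_coe, s16g_S_coe]
  simp [Matrix.mul_apply, Fin.sum_univ_two]

theorem s16t0_ST_not_mem (p : ℕ) (hp : p.Prime) (n : ℤ) :
    ModularGroup.S * ModularGroup.T ^ n ∉ Gamma0 p := by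
  rw [s16g_mem_Gamma0_iff, s16t0_ST_entry]
  intro h
  have h1 : (p : ℤ) ≤ 1 := Int.le_of_dvd one_pos h
  have h2 := hp.two_le
  omega

theorem s16t0_STS_entry (a b : ℤ) :
    ((ModularGroup.S * ModularGroup.T ^ a * (ModularGroup.S * ModularGroup.T ^ b)⁻¹ : SL(2, ℤ)) :
      Matrix (Fin 2) (Fin 2) ℤ) 1 0 = -(a - b) := by
  have e : ModularGroup.S * ModularGroup.T ^ a * (ModularGroup.S * ModularGroup.T ^ b)⁻¹ =
      ModularGroup.S * ModularGroup.T ^ (a - b) * ModularGroup.S⁻¹ := by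
    rw [mul_inv_rev, zpow_sub]
    group
  rw [e, Matrix.SpecialLinearGroup.coe_mul, Matrix.SpecialLinearGroup.coe_mul,
    Matrix.SpecialLinearGroup.coe_inv, s16g_T_zpow_coe, s16g_S_coe]
  simp [Matrix.mul_apply, Fin.sum_univ_two, Matrix.adjugate_fin_two]

/-- distinct representatives lie in distinct cosets. -/
theorem s16t0_rep_inj (p : ℕ) [NeZero p] (hp : p.Prime) (i j : Option (ZMod p))
    (h : s16g_rep p i * (s16g_rep p j)⁻¹ ∈ Gamma0 p) : i = j := by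
  cases i with
  | none =>
    cases j with
    | none => rfl
    | some b =>
      exfalso
      have h1 : (s16g_rep p (some b))⁻¹ ∈ Gamma0 p := by simpa [s16g_rep] using h
      have h2 := (Gamma0 p).inv_mem h1
      rw [inv_inv] at h2
      exact s16t0_ST_not_mem p hp _ h2
  | some a =>
    cases j with
    | none =>
      exfalso
      have h1 : s16g_rep p (some a) ∈ Gamma0 p := by simpa [s16g_rep] using h
      exact s16t0_ST_not_mem p hp _ h1
    | some b =>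
      have h1 : ModularGroup.S * ModularGroup.T ^ ((a.val : ℕ) : ℤ) *
          (ModularGroup.S * ModularGroup.T ^ ((b.val : ℕ) : ℤ))⁻¹ ∈ Gamma0 p := h
      rw [s16g_mem_Gamma0_iff, s16t0_STS_entry, dvd_neg,
        ← ZMod.intCast_zmod_eq_zero_iff_dvd] at h1
      push_cast at h1
      rw [ZMod.natCast_zmod_val, ZMod.natCast_zmod_val, sub_eq_zero] at h1
      rw [h1]

/-- every element of `SL₂(ℤ)` lies in one of the cosets. -/
theorem s16t0_rep_surj (p : ℕ) [NeZero p] (hp : p.Prime) (g : SL(2, ℤ)) :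
    ∃ i : Option (ZMod p), s16g_rep p i * g ∈ Gamma0 p := by
  have _ip := Fact.mk hp
  by_cases hc : (p : ℤ) ∣ (g : Matrix (Fin 2) (Fin 2) ℤ) 1 0
  · refine ⟨none, ?_⟩
    show (1 : SL(2, ℤ)) * g ∈ Gamma0 p
    rw [one_mul, s16g_mem_Gamma0_iff]
    exact hc
  · have hc' : (((g : Matrix (Fin 2) (Fin 2) ℤ) 1 0 : ℤ) : ZMod p) ≠ 0 := by
      rwa [Ne, ZMod.intCast_zmod_eq_zero_iff_dvd]
    refine ⟨some (-(((g : Matrix (Fin 2) (Fin 2) ℤ) 0 0 : ℤ) : ZMod p) *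
      ((((g : Matrix (Fin 2) (Fin 2) ℤ) 1 0 : ℤ) : ZMod p))⁻¹), ?_⟩
    show ModularGroup.S * ModularGroup.T ^ (((_ : ZMod p).val : ℕ) : ℤ) * g ∈ Gamma0 p
    rw [s16g_mem_Gamma0_iff]
    have h2 : ∀ n : ℤ, ((ModularGroup.S * ModularGroup.T ^ n * g : SL(2, ℤ)) :
        Matrix (Fin 2) (Fin 2) ℤ) 1 0 =
        (g : Matrix (Fin 2) (Fin 2) ℤ) 0 0 + n * (g : Matrix (Fin 2) (Fin 2) ℤ) 1 0 := by
      intro n
      rw [Matrix.SpecialLinearGroup.coe_mul, Matrix.SpecialLinearGroup.coe_mul,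
        s16g_T_zpow_coe, s16g_S_coe]
      simp [Matrix.mul_apply, Fin.sum_univ_two]
    rw [h2, ← ZMod.intCast_zmod_eq_zero_iff_dvd]
    push_cast
    rw [ZMod.natCast_zmod_val]
    field_simp
    ring

/-! ### The quotient `𝒮ℒ ⧸ Γ₀(p)` -/

/-- the element `(r_i)⁻¹` of `𝒮ℒ`. -/
noncomputable def s16t0_h (p : ℕ) (i : Option (ZMod p)) :
    (𝒮ℒ : Subgroup (GL (Fin 2) ℝ)) :=
  ⟨(Matrix.SpecialLinearGroup.mapGL ℝ : SL(2, ℤ) →* GL (Fin 2) ℝ) (s16g_rep p i)⁻¹, ⟨_, rfl⟩⟩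

theorem s16t0_mem_iff (p : ℕ) (g : SL(2, ℤ)) :
    (Matrix.SpecialLinearGroup.mapGL ℝ : SL(2, ℤ) →* GL (Fin 2) ℝ) g ∈ ((Gamma0 p : Subgroup SL(2, ℤ)) :
      Subgroup (GL (Fin 2) ℝ)) ↔ g ∈ Gamma0 p := by
  constructor
  · rintro ⟨γ, hγ, h⟩
    have := Matrix.SpecialLinearGroup.mapGL_injective (R := ℤ) (S := ℝ) (n := Fin 2) h
    rw [← this]
    exact hγ
  · intro h
    exact ⟨g, h, rfl⟩

/-- the enumeration of the cosets. -/
noncomputable def s16t0_e (p : ℕ) (i : Option (ZMod p)) :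
    (𝒮ℒ : Subgroup (GL (Fin 2) ℝ)) ⧸
      (((Gamma0 p : Subgroup SL(2, ℤ)) : Subgroup (GL (Fin 2) ℝ)).subgroupOf
        𝒮ℒ) :=
  QuotientGroup.mk (s16t0_h p i)

theorem s16t0_e_bijective (p : ℕ) [NeZero p] (hp : p.Prime) :
    Function.Bijective (s16t0_e p) := by
  constructor
  · intro i j hij
    unfold s16t0_e at hij
    rw [QuotientGroup.eq, Subgroup.mem_subgroupOf] at hij
    apply s16t0_rep_inj p hp i j
    rw [← s16t0_mem_iff]
    have e : (((s16t0_h p i)⁻¹ * s16t0_h p j : ((Matrix.SpecialLinearGroup.mapGL ℝ).range :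
        Subgroup (GL (Fin 2) ℝ))) : GL (Fin 2) ℝ) =
        (Matrix.SpecialLinearGroup.mapGL ℝ : SL(2, ℤ) →* GL (Fin 2) ℝ) (s16g_rep p i * (s16g_rep p j)⁻¹) := by
      simp [s16t0_h]
    rw [← e]
    exact hij
  · intro q
    induction q using QuotientGroup.induction_on with
    | H h =>
      obtain ⟨h, g, rfl⟩ := h
      obtain ⟨i, hi⟩ := s16t0_rep_surj p hp g
      refine ⟨i, ?_⟩
      unfold s16t0_e
      rw [QuotientGroup.eq, Subgroup.mem_subgroupOf]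
      have e : (((s16t0_h p i)⁻¹ * (⟨(Matrix.SpecialLinearGroup.mapGL ℝ : SL(2, ℤ) →* GL (Fin 2) ℝ) g, ⟨g, rfl⟩⟩ :
          (𝒮ℒ : Subgroup (GL (Fin 2) ℝ))) :
          (𝒮ℒ : Subgroup (GL (Fin 2) ℝ))) :
          GL (Fin 2) ℝ) =
          (Matrix.SpecialLinearGroup.mapGL ℝ : SL(2, ℤ) →* GL (Fin 2) ℝ) (s16g_rep p i * g) := by
        simp [s16t0_h]
      rw [e, s16t0_mem_iff]
      exact hi

/-! ### The trace -/

/-- **(TR0)** the trace to level one with explicit coset representatives. -/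
theorem s16t0_trace (p : ℕ) [Fact p.Prime] (k : ℤ)
    (F : ModularForm (Gamma0 p) k) :
    ∃ T : ModularForm 𝒮ℒ k, ∀ τ : ℍ, T τ = ∑ i : Option (ZMod p), ((F : ℍ → ℂ) ∣[k] (s16g_rep p i)) τ := by
  have hp : p.Prime := Fact.out
  refine ⟨ModularForm.trace 𝒮ℒ F, fun τ => ?_⟩
  rw [ModularForm.coe_trace, Finset.sum_apply]
  have hb := s16t0_e_bijective p hp
  let _ift : Fintype ((𝒮ℒ : Subgroup (GL (Fin 2) ℝ)) ⧸
      (((Gamma0 p : Subgroup SL(2, ℤ)) : Subgroup (GL (Fin 2) ℝ)).subgroupOf 𝒮ℒ)) :=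
    Fintype.ofFinite _
  have key := Function.Bijective.sum_comp hb
    (fun q => SlashInvariantForm.quotientFunc F q τ)
  refine key.symm.trans ?_
  refine Finset.sum_congr rfl fun i _ => ?_
  show SlashInvariantForm.quotientFunc F (QuotientGroup.mk (s16t0_h p i)) τ = _
  have h1 := SlashInvariantForm.quotientFunc_mk (ℋ := 𝒮ℒ) F (s16t0_h p i)
  have h2 : (QuotientGroup.mk (s16t0_h p i) :
      (𝒮ℒ : Subgroup (GL (Fin 2) ℝ)) ⧸
      (((Gamma0 p : Subgroup SL(2, ℤ)) : Subgroup (GL (Fin 2) ℝ)).subgroupOf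
        𝒮ℒ)) = ⟦s16t0_h p i⟧ := rfl
  rw [h2, h1]
  have h3 : ((s16t0_h p i : ((Matrix.SpecialLinearGroup.mapGL ℝ).range :
      Subgroup (GL (Fin 2) ℝ))) : GL (Fin 2) ℝ)⁻¹ =
      (Matrix.SpecialLinearGroup.mapGL ℝ : SL(2, ℤ) →* GL (Fin 2) ℝ) (s16g_rep p i) := by
    simp [s16t0_h]
  rw [h3]
  rfl

/-- the trace of a weight-2 form vanishes. -/
theorem s16t0_trace_two (p : ℕ) [Fact p.Prime] (G : ModularForm (Gamma0 p) 2) (τ : ℍ) :
    ∑ i : Option (ZMod p), ((G : ℍ → ℂ) ∣[(2 : ℤ)] (s16g_rep p i)) τ = 0 := by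
  obtain ⟨T, hT⟩ := s16t0_trace p 2 G
  have h0 : T = 0 := by
    have hr := ModularForm.levelOne_weight_two_rank_zero
    rw [rank_zero_iff_forall_zero] at hr
    exact hr T
  rw [← hT τ, h0]
  rfl

end Fermat.Agent.S16
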