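import Fermat.Agent.S16.TRFricke
import Fermat.Agent.S16.TR0

/-!
# S16 / TR (B): the function-level core

`s16tr_core : s16tr_stmt_core` : for `G ∈ M_2(Γ₀(p))`,
`G ∣ S = -((U_p G) ∣ [1, 0; 0, p])`.
-/

set_option autoImplicit false

open UpperHalfPlane ModularForm CongruenceSubgroup Matrix.SpecialLinearGroup
open scoped MatrixGroups ModularForm
open Fermat.Agent.S16

/-- in weight 2 scalar matrices act trivially. -/
lemma s16tr_slash_scalar (u : ℝˣ) (f : ℍ → ℂ) :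
    f ∣[(2 : ℤ)] (Matrix.GeneralLinearGroup.scalar (Fin 2) u) = f := by
  ext τ
  have hdet : ((Matrix.GeneralLinearGroup.scalar (Fin 2) u).det : ℝ) = (u : ℝ) ^ 2 := by
    simp [Matrix.GeneralLinearGroup.scalar, pow_two]
  have hσ : σ (Matrix.GeneralLinearGroup.scalar (Fin 2) u) = .refl ℝ ℂ := by
    rw [σ, if_pos]
    rw [hdet]
    have : (u : ℝ) ≠ 0 := u.ne_zero
    positivity
  rw [ModularForm.slash_apply, glScalar_smul, denom_scalar, hσ, hdet]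
  have hu : ((u : ℝ) : ℂ) ≠ 0 := by exact_mod_cast u.ne_zero
  simp only [ContinuousAlgEquiv.refl_apply, abs_pow, sq_abs]
  push_cast
  rw [zpow_one, zpow_neg, mul_assoc]
  have h2 : ((u : ℝ) : ℂ) ^ 2 * (((u : ℝ) : ℂ) ^ (2 : ℤ))⁻¹ = 1 := by
    rw [zpow_ofNat]
    exact mul_inv_cancel₀ (pow_ne_zero 2 hu)
  rw [h2, mul_one]

lemma s16tr_W_mul_ST (p : ℕ) [NeZero p] (n : ℕ) :
    s16tr_W p * mapGL ℝ (ModularGroup.S * ModularGroup.T ^ (n : ℤ)) =
      Matrix.GeneralLinearGroup.scalar (Fin 2) (-1) * ModularForm.heckeMatrix p n := by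
  apply Matrix.GeneralLinearGroup.ext
  intro i j
  have hS : ((ModularGroup.S * ModularGroup.T ^ (n : ℤ) : SL(2, ℤ)) :
      Matrix (Fin 2) (Fin 2) ℤ) = !![0, -1; 1, (n : ℤ)] := by
    rw [Matrix.SpecialLinearGroup.coe_mul, ModularGroup.coe_S, ModularGroup.coe_T_zpow]
    ext a b
    fin_cases a <;> fin_cases b <;> simp [Matrix.mul_apply, Fin.sum_univ_two]
  have hW := s16tr_W_coe p
  have hH := ModularForm.val_heckeMatrix (NeZero.ne p) n
  have e1 : ((s16tr_W p * mapGL ℝ (ModularGroup.S * ModularGroup.T ^ (n : ℤ)) : GL (Fin 2) ℝ) :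
      Matrix (Fin 2) (Fin 2) ℝ) = !![(0 : ℝ), -1; (p : ℝ), 0] *
        (!![0, -1; 1, (n : ℤ)] : Matrix (Fin 2) (Fin 2) ℤ).map (Int.cast : ℤ → ℝ) := by
    rw [Units.val_mul, hW, ← hS]
    rfl
  have e2 : ((Matrix.GeneralLinearGroup.scalar (Fin 2) (-1) * ModularForm.heckeMatrix p n :
      GL (Fin 2) ℝ) : Matrix (Fin 2) (Fin 2) ℝ) =
        ((-1 : ℝ) • (1 : Matrix (Fin 2) (Fin 2) ℝ)) * !![(1 : ℝ), (n : ℝ); 0, (p : ℝ)] := by
    rw [Units.val_mul, hH]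
    congr 1
    ext a b
    simp [Matrix.GeneralLinearGroup.scalar]
  show ((s16tr_W p * mapGL ℝ (ModularGroup.S * ModularGroup.T ^ (n : ℤ)) : GL (Fin 2) ℝ) :
      Matrix (Fin 2) (Fin 2) ℝ) i j = ((Matrix.GeneralLinearGroup.scalar (Fin 2) (-1) *
        ModularForm.heckeMatrix p n : GL (Fin 2) ℝ) : Matrix (Fin 2) (Fin 2) ℝ) i j
  rw [e1, e2]
  fin_cases i <;> fin_cases j <;> simp [Matrix.mul_apply, Fin.sum_univ_two]


lemma s16tr_W_mul_h0 (p : ℕ) [NeZero p] :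
    s16tr_W p * ModularForm.heckeMatrix p 0 =
      Matrix.GeneralLinearGroup.scalar (Fin 2)
        (Units.mk0 (p : ℝ) (Nat.cast_ne_zero.mpr (NeZero.ne p))) * mapGL ℝ ModularGroup.S := by
  apply Matrix.GeneralLinearGroup.ext
  intro i j
  have hW := s16tr_W_coe p
  have hH := ModularForm.val_heckeMatrix (NeZero.ne p) 0
  have e1 : ((s16tr_W p * ModularForm.heckeMatrix p 0 : GL (Fin 2) ℝ) :
      Matrix (Fin 2) (Fin 2) ℝ) = !![(0 : ℝ), -1; (p : ℝ), 0] *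
        !![(1 : ℝ), ((0 : ℕ) : ℝ); 0, (p : ℝ)] := by
    rw [Units.val_mul, hW, hH]
  have e2 : ((Matrix.GeneralLinearGroup.scalar (Fin 2)
        (Units.mk0 (p : ℝ) (Nat.cast_ne_zero.mpr (NeZero.ne p))) * mapGL ℝ ModularGroup.S :
      GL (Fin 2) ℝ) : Matrix (Fin 2) (Fin 2) ℝ) =
        ((p : ℝ) • (1 : Matrix (Fin 2) (Fin 2) ℝ)) *
          (!![0, -1; 1, 0] : Matrix (Fin 2) (Fin 2) ℤ).map (Int.cast : ℤ → ℝ) := by
    rw [Units.val_mul, ← ModularGroup.coe_S]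
    congr 1
    ext a b
    fin_cases a <;> fin_cases b <;>
      simp [Matrix.GeneralLinearGroup.scalar, Matrix.natCast_apply, Matrix.one_apply]
  show ((s16tr_W p * ModularForm.heckeMatrix p 0 : GL (Fin 2) ℝ) :
      Matrix (Fin 2) (Fin 2) ℝ) i j = ((Matrix.GeneralLinearGroup.scalar (Fin 2)
        (Units.mk0 (p : ℝ) (Nat.cast_ne_zero.mpr (NeZero.ne p))) * mapGL ℝ ModularGroup.S :
      GL (Fin 2) ℝ) : Matrix (Fin 2) (Fin 2) ℝ) i j
  rw [e1, e2]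
  fin_cases i <;> fin_cases j <;> simp [Matrix.mul_apply, Fin.sum_univ_two]

/-- `(G ∣ W) ∣ S T^n = G ∣ [1, n; 0, p]`. -/
lemma s16tr_fricke_slash_ST (p : ℕ) [NeZero p]
    (G : ModularForm (CongruenceSubgroup.Gamma0 p) 2) (n : ℕ) :
    (⇑(s16tr_frickeForm p G) : ℍ → ℂ) ∣[(2 : ℤ)]
      (ModularGroup.S * ModularGroup.T ^ (n : ℤ) : SL(2, ℤ)) =
        (⇑G : ℍ → ℂ) ∣[(2 : ℤ)] ModularForm.heckeMatrix p n := by
  rw [ModularForm.SL_slash, s16tr_frickeForm_coe, ← SlashAction.slash_mul]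
  show (⇑G : ℍ → ℂ) ∣[(2 : ℤ)]
    (s16tr_W p * mapGL ℝ (ModularGroup.S * ModularGroup.T ^ (n : ℤ))) = _
  rw [s16tr_W_mul_ST, SlashAction.slash_mul, s16tr_slash_scalar]

/-- **`G ∣ W = - U_p G`** on `M_2(Γ₀(p))`. -/
theorem s16tr_fricke_eq (p : ℕ) [Fact p.Prime] [NeZero p]
    (G : ModularForm (CongruenceSubgroup.Gamma0 p) 2) :
    (⇑(s16tr_frickeForm p G) : ℍ → ℂ) = -(ModularForm.heckeU 2 p ⇑G) := by
  ext τ
  have h0 := s16t0_trace_two p (s16tr_frickeForm p G) τ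
  rw [Fintype.sum_option] at h0
  simp only [s16g_rep] at h0
  rw [SlashAction.slash_one] at h0
  have hsum : ∑ b : ZMod p, ((⇑(s16tr_frickeForm p G) : ℍ → ℂ) ∣[(2 : ℤ)]
      (ModularGroup.S * ModularGroup.T ^ ((b.val : ℕ) : ℤ) : SL(2, ℤ))) τ =
        (ModularForm.heckeU 2 p ⇑G) τ := by
    rw [ModularForm.heckeU, Finset.sum_apply]
    simp_rw [s16tr_fricke_slash_ST]
    refine Finset.sum_bij (fun b _ => b.val) ?_ ?_ ?_ ?_
    · intro b _
      exact Finset.mem_range.mpr (ZMod.val_lt b)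
    · intro a _ b _ hab
      exact ZMod.val_injective p hab
    · intro j hj
      refine ⟨(j : ZMod p), Finset.mem_univ _, ?_⟩
      exact ZMod.val_cast_of_lt (Finset.mem_range.mp hj)
    · intro b _
      rfl
  rw [hsum] at h0
  rw [Pi.neg_apply]
  linear_combination h0

theorem s16tr_core : s16tr_stmt_core := by
  intro p _ _ G
  rw [← SlashAction.neg_slash, ← s16tr_fricke_eq, s16tr_frickeForm_coe, ← SlashAction.slash_mul,
    s16tr_W_mul_h0, SlashAction.slash_mul, s16tr_slash_scalar]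
  rfl

lemma s16tr_W_mul_W (p : ℕ) [NeZero p] :
    s16tr_W p * s16tr_W p =
      Matrix.GeneralLinearGroup.scalar (Fin 2)
        (Units.mk0 (-(p : ℝ)) (neg_ne_zero.mpr (Nat.cast_ne_zero.mpr (NeZero.ne p)))) := by
  apply Matrix.GeneralLinearGroup.ext
  intro i j
  have hW := s16tr_W_coe p
  have e1 : ((s16tr_W p * s16tr_W p : GL (Fin 2) ℝ) :
      Matrix (Fin 2) (Fin 2) ℝ) = !![(0 : ℝ), -1; (p : ℝ), 0] * !![(0 : ℝ), -1; (p : ℝ), 0] := by
    rw [Units.val_mul, hW]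
  have e2 : ((Matrix.GeneralLinearGroup.scalar (Fin 2)
        (Units.mk0 (-(p : ℝ)) (neg_ne_zero.mpr (Nat.cast_ne_zero.mpr (NeZero.ne p)))) :
      GL (Fin 2) ℝ) : Matrix (Fin 2) (Fin 2) ℝ) =
        ((-(p : ℝ)) • (1 : Matrix (Fin 2) (Fin 2) ℝ)) := by
    ext a b
    fin_cases a <;> fin_cases b <;>
      simp [Matrix.GeneralLinearGroup.scalar, Matrix.natCast_apply, Matrix.one_apply]
  show ((s16tr_W p * s16tr_W p : GL (Fin 2) ℝ) :
      Matrix (Fin 2) (Fin 2) ℝ) i j = ((Matrix.GeneralLinearGroup.scalar (Fin 2)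
        (Units.mk0 (-(p : ℝ)) (neg_ne_zero.mpr (Nat.cast_ne_zero.mpr (NeZero.ne p)))) :
      GL (Fin 2) ℝ) : Matrix (Fin 2) (Fin 2) ℝ) i j
  rw [e1, e2]
  fin_cases i <;> fin_cases j <;> simp [Matrix.mul_apply, Fin.sum_univ_two]

/-- `(G ∣ W) ∣ W = G`. -/
theorem s16tr_fricke_fricke (p : ℕ) [NeZero p]
    (G : ModularForm (CongruenceSubgroup.Gamma0 p) 2) :
    (⇑(s16tr_frickeForm p (s16tr_frickeForm p G)) : ℍ → ℂ) = ⇑G := by
  rw [s16tr_frickeForm_coe, s16tr_frickeForm_coe, ← SlashAction.slash_mul, s16tr_W_mul_W,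
    s16tr_slash_scalar]

/-- **`U_p (U_p G) = G`** on `M_2(Γ₀(p))`. -/
theorem s16tr_heckeU_heckeU (p : ℕ) [Fact p.Prime] [NeZero p]
    (G : ModularForm (CongruenceSubgroup.Gamma0 p) 2) :
    ModularForm.heckeU 2 p (ModularForm.heckeU 2 p ⇑G) = ⇑G := by
  have h1 := s16tr_fricke_eq p (s16tr_frickeForm p G)
  rw [s16tr_fricke_fricke, s16tr_fricke_eq p G, ModularForm.heckeU_neg, neg_neg] at h1
  exact h1.symm
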