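import Fermat.Agent.S16.TR
import Fermat.Agent.S16.TRCore

/-!
# S16 / TR : final statements

* `s16tr_main : s16tr_stmt`     : the expansion of `G ∣[2] S` in `s = q^(1/p)`;
* `s16tr_UU   : s16tr_stmt_UU`  : `a_{p² n}(G) = a_n(G)` (`U_p² = 1` on `M_2(Γ₀(p))`).
-/

set_option autoImplicit false

open UpperHalfPlane CongruenceSubgroup
open scoped MatrixGroups ModularForm

/-- **(TR)** -/
theorem s16tr_main : s16tr_stmt := s16tr_of_core s16tr_core

/-- `U_p (U_p G) = G` as modular forms. -/
theorem s16tr_heckeULin_heckeULin (p : ℕ) [Fact p.Prime] [NeZero p]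
    (G : ModularForm (CongruenceSubgroup.Gamma0 p) 2) :
    ModularForm.heckeULin 2 (dvd_refl p) (ModularForm.heckeULin 2 (dvd_refl p) G) = G := by
  apply DFunLike.coe_injective
  rw [ModularForm.coe_heckeULin_apply, ModularForm.coe_heckeULin_apply]
  exact s16tr_heckeU_heckeU p G

/-- **(TR')** -/
theorem s16tr_UU : s16tr_stmt_UU := by
  intro p _ _ G n
  rw [← s16tr_coeff_heckeU p G (p * n),
    ← s16tr_coeff_heckeU p (ModularForm.heckeULin 2 (dvd_refl p) G) n,
    s16tr_heckeULin_heckeULin]
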