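import Fermat.Agent.S16.GenUse
import Fermat.Agent.S16.TRDefs
import Fermat.Prelude.Def_ModularForm_HeckeOperatorForms
import Fermat.Prelude.Thm_ModularFormClass_qCoeff_heckeU
import Fermat.Prelude.Sol.S_ModularForm_heckeT_slash_eq_self_of_mem_Gamma0

/-!
# S16 / (TR), consumer side  (helper9; off-main)

Everything here takes `hTR : s16tr_stmt` (the expansion of `G ∣[2] S` in `s = q^(1/p)`) as a
hypothesis.

* `s16tu_eq_of_hasQExp` : two functions with the same `s`-expansion are equal;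
* `s16tu_S_eq`          : `(G ∣ S)(τ) = -p⁻¹ (U_p G)(τ / p)`;
* `s16tu_UU`            : `s16tr_stmt → s16tr_stmt_UU` (`U_p² = 1`);
* cusp form versions.
-/

set_option autoImplicit false
set_option linter.style.haveILetI false

namespace Fermat.Agent.S16

open UpperHalfPlane Polynomial CongruenceSubgroup ModularForm Matrix.SpecialLinearGroup
open scoped MatrixGroups ModularForm Manifold
open Fermat.Agent.S20 Fermat.Agent.S24 Fermat.Agent.S28 ModularCurve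
open P2MW.S_ModularForm_heckeT_slash_eq_self_of_mem_Gamma0.ModularForm.HeckeSlashInvariance

local notation "𝕢" => Function.Periodic.qParam

/-- two functions with the same expansion are equal. -/
theorem s16tu_eq_of_hasQExp {N : ℕ} [NeZero N] {g g' : ℍ → ℂ} {A : LaurentSeries ℂ}
    (h₁ : s28ca_HasQExp N g A) (h₂ : s28ca_HasQExp N g' A) : g = g' := by
  obtain ⟨m₁, H₁, hH₁, hg₁, hT₁⟩ := h₁
  obtain ⟨m₂, H₂, hH₂, hg₂, hT₂⟩ := h₂
  obtain ⟨hd₁, hs₁⟩ := s28ca_qfT_pow_mul hH₁ m₂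
  obtain ⟨hd₂, hs₂⟩ := s28ca_qfT_pow_mul hH₂ m₁
  have hq : qfT (fun w => w ^ m₂ * H₁ w) = qfT (fun w => w ^ m₁ * H₂ w) := by
    apply HahnSeries.ofPowerSeries_injective (Γ := ℤ) (R := ℂ)
    rw [hs₁, hs₂, hT₁, hT₂]
    ring
  funext τ
  have hs : ‖𝕢 (N : ℝ) τ‖ < 1 := s28ca_norm_qParam_lt_one N τ
  have hs0 : 𝕢 (N : ℝ) (τ : ℂ) ≠ 0 := Function.Periodic.qParam_ne_zero _
  have e₁ := s28ca_hasSum_qfT hd₁ hs
  have e₂ := s28ca_hasSum_qfT hd₂ hs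
  rw [hq] at e₁
  have e := e₁.unique e₂
  rw [← hg₁, ← hg₂] at e
  have h1 : 𝕢 (N : ℝ) (τ : ℂ) ^ m₂ * 𝕢 (N : ℝ) (τ : ℂ) ^ m₁ ≠ 0 :=
    mul_ne_zero (pow_ne_zero _ hs0) (pow_ne_zero _ hs0)
  have h2 : g τ * (𝕢 (N : ℝ) (τ : ℂ) ^ m₂ * 𝕢 (N : ℝ) (τ : ℂ) ^ m₁)
      = g' τ * (𝕢 (N : ℝ) (τ : ℂ) ^ m₂ * 𝕢 (N : ℝ) (τ : ℂ) ^ m₁) := by
    linear_combination e
  exact mul_right_cancel₀ h1 h2

/-- `U_p G` as a modular form. -/
noncomputable def s16tu_U (p : ℕ) [NeZero p] (G : ModularForm (Gamma0 p) 2) :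
    ModularForm (Gamma0 p) 2 :=
  ModularForm.heckeULin 2 (dvd_refl p) G

theorem s16tu_U_coe (p : ℕ) [NeZero p] (G : ModularForm (Gamma0 p) 2) :
    (⇑(s16tu_U p G) : ℍ → ℂ) = ModularForm.heckeU 2 p ⇑G := rfl

theorem s16tu_one_mem (N : ℕ) :
    (1 : ℝ) ∈ (Gamma0 N : Subgroup (GL (Fin 2) ℝ)).strictPeriods := by
  simp [CongruenceSubgroup.strictPeriods_Gamma0]

theorem s16tu_U_coeff (p : ℕ) [NeZero p] (G : ModularForm (Gamma0 p) 2) (n : ℕ) :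
    (qExpansion 1 (s16tu_U p G)).coeff n = (qExpansion 1 G).coeff (p * n) := by
  have h := ModularFormClass.qCoeff_heckeU (k := 2) G (s16tu_one_mem p) (NeZero.ne p) n
  rw [ModularForm.coeffHeckeU_apply, mul_comm] at h
  exact h

theorem s16tu_qParam_h0 (p : ℕ) [NeZero p] (τ : ℍ) :
    𝕢 ((1 : ℕ) : ℝ) ((heckeMatrix p 0 • τ : ℍ) : ℂ) = 𝕢 (p : ℝ) (τ : ℂ) := by
  simp only [Function.Periodic.qParam, coe_heckeMatrix_smul (NeZero.ne p)]
  congr 1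
  push_cast
  ring

/-- the expansion of `τ ↦ F (τ / p)`. -/
theorem s16tu_hasQExp_h0 (p : ℕ) [NeZero p] {g : ℍ → ℂ} {A : LaurentSeries ℂ}
    (h : s28ca_HasQExp 1 g A) :
    s28ca_HasQExp p (fun τ => g (heckeMatrix p 0 • τ)) A := by
  have := s28ca_hasQExp_comp_scale (N := 1) (N' := p) 1 (by simp) (fun τ => heckeMatrix p 0 • τ)
    (fun τ => by rw [s16tu_qParam_h0]; simp) h
  rwa [s28ca_scale_one] at this

theorem s16tu_series_eq (p : ℕ) [NeZero p] (G : ModularForm (Gamma0 p) 2) :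
    HahnSeries.ofPowerSeries ℤ ℂ (s16tr_series p G)
      = HahnSeries.C (-(p : ℂ)⁻¹) * HahnSeries.ofPowerSeries ℤ ℂ (qExpansion 1 (s16tu_U p G)) := by
  rw [← HahnSeries.ofPowerSeries_C, ← map_mul]
  congr 1
  ext n
  rw [s16tr_series, PowerSeries.coeff_mk, PowerSeries.coeff_C_mul, s16tu_U_coeff]

/-- **TR1 as an identity of functions**: `(G ∣ S)(τ) = -p⁻¹ (U_p G)(τ / p)`. -/
theorem s16tu_S_eq (hTR : s16tr_stmt) (p : ℕ) [Fact p.Prime] [NeZero p]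
    (G : ModularForm (Gamma0 p) 2) (τ : ℍ) :
    ((⇑G) ∣[(2 : ℤ)] ModularGroup.S) τ = -(p : ℂ)⁻¹ * s16tu_U p G (heckeMatrix p 0 • τ) := by
  have h1 := hTR p G
  have h2 : s28ca_HasQExp p (fun τ => -(p : ℂ)⁻¹ * s16tu_U p G (heckeMatrix p 0 • τ))
      (HahnSeries.ofPowerSeries ℤ ℂ (s16tr_series p G)) := by
    rw [s16tu_series_eq]
    exact s28ca_hasQExp_mul (s28ca_hasQExp_const p _)
      (s16tu_hasQExp_h0 p (s16g_hasQExp_of_modularForm p (s16tu_U p G)))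
  exact congrFun (s16tu_eq_of_hasQExp h1 h2) τ

/-- `G ∣ S = -(U_p G) ∣ h₀`, `h₀ = heckeMatrix p 0`. -/
theorem s16tu_S_slash (hTR : s16tr_stmt) (p : ℕ) [Fact p.Prime] [NeZero p]
    (G : ModularForm (Gamma0 p) 2) :
    (⇑G) ∣[(2 : ℤ)] ModularGroup.S = -((⇑(s16tu_U p G)) ∣[(2 : ℤ)] heckeMatrix p 0) := by
  funext τ
  rw [s16tu_S_eq hTR, Pi.neg_apply, slash_heckeMatrix_apply 2 (NeZero.ne p)]
  ring

theorem s16tu_mat (p : ℕ) [NeZero p] :
    heckeMatrix p 0 * mapGL ℝ ModularGroup.S = mapGL ℝ ModularGroup.S * heckeDiagMatrix p := by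
  have hp : p ≠ 0 := NeZero.ne p
  ext i j
  fin_cases i <;> fin_cases j <;>
    simp [hp, Matrix.mul_apply, Fin.sum_univ_two, ModularGroup.coe_S]

theorem s16tu_h0_d (p : ℕ) [NeZero p] (F : ℍ → ℂ) :
    (F ∣[(2 : ℤ)] heckeMatrix p 0) ∣[(2 : ℤ)] heckeDiagMatrix p = F := by
  have hp : p ≠ 0 := NeZero.ne p
  have hp' : (p : ℂ) ≠ 0 := by exact_mod_cast hp
  funext τ
  rw [slash_heckeDiagMatrix_apply 2 hp, slash_heckeMatrix_apply 2 hp]
  have e : heckeMatrix p 0 • (heckeDiagMatrix p • τ) = τ := by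
    apply UpperHalfPlane.ext
    rw [coe_heckeMatrix_smul hp, coe_heckeDiagMatrix_smul hp]
    push_cast
    field_simp
    ring
  rw [e]
  have h21 : ((p : ℂ) ^ ((2 : ℤ) - 1)) = (p : ℂ) := by
    have : (2 : ℤ) - 1 = 1 := by norm_num
    rw [this, zpow_one]
  rw [h21, ← mul_assoc, mul_inv_cancel₀ hp', one_mul]

theorem s16tu_SS_mem (N : ℕ) : ModularGroup.S * ModularGroup.S ∈ Gamma0 N := by
  rw [Gamma0_mem]
  have h : ((ModularGroup.S * ModularGroup.S : SL(2, ℤ)) : Matrix (Fin 2) (Fin 2) ℤ) 1 0 = 0 := by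
    rw [Matrix.SpecialLinearGroup.coe_mul, ModularGroup.coe_S]
    simp [Matrix.mul_apply, Fin.sum_univ_two]
  rw [h]
  simp

/-- **`U_p² = 1`** as an identity of functions. -/
theorem s16tu_UU_fun (hTR : s16tr_stmt) (p : ℕ) [Fact p.Prime] [NeZero p]
    (G : ModularForm (Gamma0 p) 2) :
    (⇑G : ℍ → ℂ) = ⇑(s16tu_U p (s16tu_U p G)) := by
  have h1 := s16tu_S_slash hTR p G
  have h2 := s16tu_S_slash hTR p (s16tu_U p G)
  have h3 : ((⇑G) ∣[(2 : ℤ)] ModularGroup.S) ∣[(2 : ℤ)] ModularGroup.S = ⇑G := by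
    rw [← SlashAction.slash_mul]
    exact basic_inv G _ (s16tu_SS_mem p)
  rw [← h3, h1, ModularForm.SL_slash, SlashAction.neg_slash, ← SlashAction.slash_mul]
  have hx : heckeMatrix p 0 * ((ModularGroup.S : SL(2, ℤ)) : GL (Fin 2) ℝ)
      = ((ModularGroup.S : SL(2, ℤ)) : GL (Fin 2) ℝ) * heckeDiagMatrix p := s16tu_mat p
  rw [hx, SlashAction.slash_mul, ← ModularForm.SL_slash, h2, SlashAction.neg_slash, neg_neg,
    s16tu_h0_d]

/-- **TR2.** -/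
theorem s16tu_UU (hTR : s16tr_stmt) : s16tr_stmt_UU := by
  intro p _ _ G n
  have h := s16tu_UU_fun hTR p G
  have h1 : (qExpansion 1 (⇑G : ℍ → ℂ)).coeff n
      = (qExpansion 1 (⇑(s16tu_U p (s16tu_U p G)) : ℍ → ℂ)).coeff n := by
    rw [← h]
  rw [h1, s16tu_U_coeff, s16tu_U_coeff]

/-- TR2 in `qCoeff` form, all `n`. -/
theorem s16tu_UU_qCoeff (hTR : s16tr_stmt) (p : ℕ) [Fact p.Prime]
    (G : ModularForm (Gamma0 p) 2) (n : ℕ) :
    ModularFormClass.qCoeff G (p * p * n) = ModularFormClass.qCoeff G n := by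
  haveI : NeZero p := ⟨(Fact.out : p.Prime).ne_zero⟩
  have h := s16tu_UU hTR p G n
  rw [ModularFormClass.qCoeff, ModularFormClass.qCoeff, mul_assoc]
  exact h

/-! ### cusp forms -/

/-- TR1 for cusp forms. -/
theorem s16tu_TR1_cusp (hTR : s16tr_stmt) (p : ℕ) [Fact p.Prime]
    (f : CuspForm (Gamma0 p) 2) :
    s28ca_HasQExp p (fun τ => ((⇑f) ∣[(2 : ℤ)] ModularGroup.S) τ)
      (HahnSeries.ofPowerSeries ℤ ℂ
        (PowerSeries.mk fun n => -(p : ℂ)⁻¹ * (qExpansion 1 f).coeff (p * n))) := by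
  haveI : NeZero p := ⟨(Fact.out : p.Prime).ne_zero⟩
  exact hTR p (CuspForm.toModularFormₗ f)

/-- TR2 for cusp forms, all `n`. -/
theorem s16tu_UU_cusp (hTR : s16tr_stmt) (p : ℕ) [Fact p.Prime]
    (f : CuspForm (Gamma0 p) 2) (n : ℕ) :
    ModularFormClass.qCoeff f (p * p * n) = ModularFormClass.qCoeff f n :=
  s16tu_UU_qCoeff hTR p (CuspForm.toModularFormₗ f) n

/-- TR2 for cusp forms in the shape of `s16w4a_stmt_TR2`: `a_{p²}(f) = a_1(f)`. -/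
theorem s16tu_TR2_cusp (hTR : s16tr_stmt) :
    ∀ (p : ℕ) [Fact p.Prime] (f : CuspForm (CongruenceSubgroup.Gamma0 p) 2),
      ModularFormClass.qCoeff f (p * p) = ModularFormClass.qCoeff f 1 := by
  intro p _ f
  have h := s16tu_UU_cusp hTR p f 1
  rwa [mul_one] at h

/-- the function identity `(f ∣ S)(τ) = -p⁻¹ (U_p f)(τ / p)` for cusp forms. -/
theorem s16tu_S_eq_cusp (hTR : s16tr_stmt) (p : ℕ) [Fact p.Prime]
    (f : CuspForm (Gamma0 p) 2) (τ : ℍ) :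
    ((⇑f) ∣[(2 : ℤ)] ModularGroup.S) τ
      = -(p : ℂ)⁻¹ * ModularForm.heckeU 2 p (⇑f) (heckeMatrix p 0 • τ) := by
  haveI : NeZero p := ⟨(Fact.out : p.Prime).ne_zero⟩
  exact s16tu_S_eq hTR p (CuspForm.toModularFormₗ f) τ

end Fermat.Agent.S16
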