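import Fermat.Agent.S16.Defs
import Fermat.Agent.S16.OneMod

/-!
# S16 / W4: the arithmetic conclusion

`s16w4a_main : s16w4a_stmt_ID → s16w4a_stmt_TR2 → s16_stmt_W4`.

`ID` is `p` times the `q^1`-coefficient of the level-one trace of `G f` (a cusp form of weight `4`
and level `1`, hence `0`), for `G ∈ M_2(Γ0(p))` with `a_0(G) = 1` and `f ∈ S_2(Γ0(p))`:
`p a_1(f) + a_{p^2}(f) + ∑_{1 ≤ i < p} a_{p i}(G) a_{p (p - i)}(f) = 0`.
`TR2` is `U_p^2 = 1` on cusp forms: `a_{p^2}(f) = a_1(f)`.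
If `G ≡ 1 mod ℓ^r` and `a_1(f)` is an integer prime to `ℓ`, this gives `ℓ^r ∣ p + 1`.
-/

set_option autoImplicit false

open ModularFormClass

/-- the analytic identity (trace of `G f` to level one). -/
def s16w4a_stmt_ID : Prop :=
  ∀ (p : ℕ) [Fact p.Prime] (G : ModularForm (CongruenceSubgroup.Gamma0 p) 2)
    (f : CuspForm (CongruenceSubgroup.Gamma0 p) 2), qCoeff G 0 = 1 →
    (p : ℂ) * qCoeff f 1 + qCoeff f (p * p)
      + ∑ i ∈ Finset.Ico 1 p, qCoeff G (p * i) * qCoeff f (p * (p - i)) = 0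

/-- `U_p^2 = 1` on cusp forms, first coefficient. -/
def s16w4a_stmt_TR2 : Prop :=
  ∀ (p : ℕ) [Fact p.Prime] (f : CuspForm (CongruenceSubgroup.Gamma0 p) 2),
    qCoeff f (p * p) = qCoeff f 1

/-- glue: `TR2` in the shape "for modular forms, all `n`" gives `s16w4a_stmt_TR2`. -/
theorem s16w4a_TR2_of_modularForm
    (h : ∀ (p : ℕ) [Fact p.Prime] (G : ModularForm (CongruenceSubgroup.Gamma0 p) 2) (n : ℕ),
      qCoeff G (p * p * n) = qCoeff G n) : s16w4a_stmt_TR2 := by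
  intro p _ f
  have := h p (ModularFormClass.modularForm f) 1
  rw [mul_one] at this
  exact this

theorem s16w4a_main : s16w4a_stmt_ID → s16w4a_stmt_TR2 → s16_stmt_W4 := by
  intro hID hTR2 p _ ℓ _ r _ hunit hG
  have hp : p.Prime := Fact.out
  have hℓ : ℓ.Prime := Fact.out
  obtain ⟨f, hfint, a, ha1, hℓa⟩ := hunit
  obtain ⟨G, hG⟩ := hG
  obtain ⟨N0, w, hN0pos, hN0, -, hw⟩ := s16om_normalise p ℓ r G hG
  choose b hb using hfint
  have hid := hID p G f hG.1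
  rw [hTR2 p f, ha1] at hid
  -- the integer identity
  have hZ : (N0 : ℤ) * ((p : ℤ) + 1) * a
      + (ℓ : ℤ) ^ r * ∑ i ∈ Finset.Ico 1 p, w (p * i) * b (p * (p - i)) = 0 := by
    have hC : (((N0 : ℤ) * ((p : ℤ) + 1) * a
        + (ℓ : ℤ) ^ r * ∑ i ∈ Finset.Ico 1 p, w (p * i) * b (p * (p - i)) : ℤ) : ℂ) = 0 := by
      push_cast
      have hsum : ((ℓ : ℂ) ^ r) * ∑ i ∈ Finset.Ico 1 p, (w (p * i) : ℂ) * (b (p * (p - i)) : ℂ)
          = (N0 : ℂ) * ∑ i ∈ Finset.Ico 1 p, qCoeff G (p * i) * qCoeff f (p * (p - i)) := by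
        rw [Finset.mul_sum, Finset.mul_sum]
        refine Finset.sum_congr rfl fun i hi => ?_
        have hi1 : 1 ≤ i := (Finset.mem_Ico.mp hi).1
        have hpi : p * i ≠ 0 := Nat.mul_ne_zero hp.ne_zero (by omega)
        have h1 := hw (p * i)
        rw [if_neg hpi, zero_add] at h1
        rw [hb (p * (p - i)), ← mul_assoc, ← h1]
        ring
      rw [hsum]
      linear_combination (N0 : ℂ) * hid
    exact_mod_cast hC
  have hdvd : ((ℓ ^ r : ℕ) : ℤ) ∣ (N0 : ℤ) * ((p : ℤ) + 1) * a := by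
    refine ⟨-∑ i ∈ Finset.Ico 1 p, w (p * i) * b (p * (p - i)), ?_⟩
    push_cast
    linear_combination hZ
  have hnat : ℓ ^ r ∣ N0 * (p + 1) * a.natAbs := by
    have := Int.natCast_dvd.mp hdvd
    rwa [Int.natAbs_mul, Int.natAbs_mul, Int.natAbs_natCast,
      show ((p : ℤ) + 1) = ((p + 1 : ℕ) : ℤ) by push_cast; ring, Int.natAbs_natCast] at this
  have hℓa' : ¬ ℓ ∣ a.natAbs := fun h => hℓa (Int.natCast_dvd.mpr h)
  have hc1 : Nat.Coprime (ℓ ^ r) N0 :=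
    Nat.Coprime.pow_left r ((Nat.Prime.coprime_iff_not_dvd hℓ).mpr hN0)
  have hc2 : Nat.Coprime (ℓ ^ r) a.natAbs :=
    Nat.Coprime.pow_left r ((Nat.Prime.coprime_iff_not_dvd hℓ).mpr hℓa')
  have h1 : ℓ ^ r ∣ N0 * (p + 1) := hc2.dvd_of_dvd_mul_right hnat
  exact hc1.dvd_of_dvd_mul_left h1
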