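import Fermat.Agent.S16.Gen
import Fermat.Agent.S22.Period

/-!
# S16 / (GEN), consumer side  (OWNER: helper8; off-main)

* `s16g_hasQExp_of_modularForm`: a modular form on `Γ₀(p)` has the expansion `qExpansion 1 f`;
* `s16g_isIntegral_of_root`, `s16g_isIntegral`: integrality over `k[j]` (as
  `Algebra.adjoin k {jqModC k}`) of the reduction of the expansion at infinity.
-/

set_option autoImplicit false

namespace Fermat.Agent.S16

open UpperHalfPlane Polynomial CongruenceSubgroup
open scoped MatrixGroups ModularForm Manifold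
open Fermat.Agent.S24 Fermat.Agent.S28 ModularCurve

local notation "𝕢" => Function.Periodic.qParam

/-- a function with a holomorphic cusp function has the expansion `qExpansion 1`. -/
theorem s16g_hasQExp_of_cuspFunction (f : ℍ → ℂ)
    (hd : DifferentiableOn ℂ (cuspFunction 1 f) (Metric.ball 0 1))
    (he : ∀ τ : ℍ, cuspFunction 1 f (𝕢 1 τ) = f τ) :
    s28ca_HasQExp 1 f (HahnSeries.ofPowerSeries ℤ ℂ (qExpansion 1 f)) := by
  refine ⟨0, cuspFunction 1 f, hd, fun τ => ?_, ?_⟩
  · rw [pow_zero, mul_one]
    have := he τ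
    simpa using this.symm
  · rw [← qf_qExpansion_eq]
    simp

/-- a modular form on `Γ₀(N)` has the expansion `qExpansion 1 f` at infinity. -/
theorem s16g_hasQExp_of_modularForm (N : ℕ) {k : ℤ} (f : ModularForm (Gamma0 N) k) :
    s28ca_HasQExp 1 f (HahnSeries.ofPowerSeries ℤ ℂ (qExpansion 1 f)) := by
  apply s16g_hasQExp_of_cuspFunction
  · intro q hq
    have hq' : ‖q‖ < 1 := by simpa using hq
    exact (ModularFormClass.differentiableAt_cuspFunction f one_pos
      (Fermat.Agent.S22.one_mem_strictPeriods_Gamma0 N) hq').differentiableWithinAt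
  · intro τ
    exact SlashInvariantFormClass.eq_cuspFunction (h := 1) f τ
      (Fermat.Agent.S22.one_mem_strictPeriods_Gamma0 N) one_ne_zero

/-- a level-one modular form has the expansion `qExpansion 1 f` at infinity. -/
theorem s16g_hasQExp_of_levelOne {k : ℤ} (f : ModularForm 𝒮ℒ k) :
    s28ca_HasQExp 1 f (HahnSeries.ofPowerSeries ℤ ℂ (qExpansion 1 f)) := by
  apply s16g_hasQExp_of_cuspFunction
  · intro q hq
    have hq' : ‖q‖ < 1 := by simpa using hq
    exact (ModularFormClass.differentiableAt_cuspFunction f one_pos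
      one_mem_strictPeriods_SL hq').differentiableWithinAt
  · intro τ
    exact SlashInvariantFormClass.eq_cuspFunction (h := 1) f τ
      one_mem_strictPeriods_SL one_ne_zero

/-! ### Integrality over `k[j]` -/

/-- a root of a monic polynomial with coefficients in `ℤ[j]` is integral over `k[j]`. -/
theorem s16g_isIntegral_of_root {k : Type*} [Field k] (U : Polynomial (Polynomial ℤ))
    (hU : U.Monic) (y : LaurentSeries k)
    (h : (U.map (s28_evalAt (jqModC k))).eval y = 0) :
    IsIntegral (Algebra.adjoin k {jqModC k}) y := by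
  set B := Algebra.adjoin k ({jqModC k} : Set (LaurentSeries k)) with hB
  let J : B := ⟨jqModC k, Algebra.subset_adjoin (Set.mem_singleton _)⟩
  let g : Polynomial ℤ →+* B := Polynomial.eval₂RingHom (Int.castRingHom B) J
  have hg : (algebraMap B (LaurentSeries k)).comp g = s28_evalAt (jqModC k) := by
    apply Polynomial.ringHom_ext
    · intro a
      simp only [RingHom.comp_apply, g, s28_evalAt, Polynomial.coe_eval₂RingHom,
        Polynomial.eval₂_C]
      rw [eq_intCast, eq_intCast, map_intCast]
    · simp only [RingHom.comp_apply, g, s28_evalAt, Polynomial.coe_eval₂RingHom,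
        Polynomial.eval₂_X]
      rfl
  refine ⟨U.map g, hU.map g, ?_⟩
  rw [Polynomial.eval₂_map, hg, ← Polynomial.eval_map]
  exact h

/-- **(GEN), integrality form**: the reduction (to any field `k`) of the expansion at infinity
of a `Γ₀(p)`-invariant holomorphic function with integral expansions at both cusps is integral
over `k[j]`. -/
theorem s16g_isIntegral (p : ℕ) [NeZero p] (hp : p.Prime) (φ : ℍ → ℂ) (hol : MDiff φ)
    (inv : ∀ γ ∈ Gamma0 p, ∀ τ : ℍ, φ (γ • τ) = φ τ) (x x0 : LaurentSeries ℤ)
    (h : s28ca_HasQExp 1 φ (coeffMap (Int.castRingHom ℂ) x))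
    (h0 : s28ca_HasQExp p (fun τ => φ (ModularGroup.S • τ))
      (coeffMap (Int.castRingHom ℂ) x0))
    (k : Type*) [Field k] :
    IsIntegral (Algebra.adjoin k {jqModC k}) (coeffMap (Int.castRingHom k) x) := by
  obtain ⟨U, hU, -, hmap⟩ := s16g_main_map p hp φ hol inv x x0 h h0 k
  refine s16g_isIntegral_of_root U hU _ ?_
  rw [hmap, eval_mul, eval_sub, eval_X, eval_C, sub_self, zero_mul]

end Fermat.Agent.S16
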