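import Mathlib
import Fermat.Agent.S16.TR0
import Fermat.Agent.S16.GenUse
import Fermat.Agent.S16.TRDefs

/-!
# S16 / (W4): the analytic identity

For `G ∈ M_2(Γ₀(p))` with `a_0(G) = 1` and a cusp form `f ∈ S_2(Γ₀(p))`:
`p a_1(f) + a_{p²}(f) + ∑_{0 < i < p} a_{pi}(G) a_{p(p-i)}(f) = 0`.

Proof: the trace `Tr(G f) = G f + ∑_b ((G∣S)(f∣S))(τ + b)` is a modular form of weight 4 and
level one (`s16t0_trace`) with vanishing constant term, hence `0`; the displayed identity is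
`p` times its `q¹`-coefficient, computed from the expansions of `G∣S`, `f∣S` (`s16tr_stmt`).
-/

set_option autoImplicit false

namespace Fermat.Agent.S16

open UpperHalfPlane CongruenceSubgroup ModularFormClass
open scoped MatrixGroups ModularForm Manifold
open Fermat.Agent.S28 ModularCurve

/-- the analytic identity of W4. -/
def s16w4_stmt_ID : Prop :=
  ∀ (p : ℕ) [Fact p.Prime] (G : ModularForm (CongruenceSubgroup.Gamma0 p) 2)
    (f : CuspForm (CongruenceSubgroup.Gamma0 p) 2), ModularFormClass.qCoeff G 0 = 1 →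
    (p : ℂ) * ModularFormClass.qCoeff f 1 + ModularFormClass.qCoeff f (p * p)
      + ∑ i ∈ Finset.Ico 1 p,
          ModularFormClass.qCoeff G (p * i) * ModularFormClass.qCoeff f (p * (p - i)) = 0

/-! ### slash by a translation -/

theorem s16w4_denom_T (n : ℤ) (z : ℍ) :
    UpperHalfPlane.denom ((ModularGroup.T ^ n : SL(2, ℤ)) : GL (Fin 2) ℝ) z = 1 := by
  have h := ModularGroup.coe_T_zpow n
  have h10 : ((ModularGroup.T ^ n : SL(2, ℤ)) : Matrix (Fin 2) (Fin 2) ℤ) 1 0 = 0 := by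
    rw [h]; rfl
  have h11 : ((ModularGroup.T ^ n : SL(2, ℤ)) : Matrix (Fin 2) (Fin 2) ℤ) 1 1 = 1 := by
    rw [h]; rfl
  rw [ModularGroup.denom_apply, h10, h11]
  simp

theorem s16w4_slash_T (k : ℤ) (g : ℍ → ℂ) (n : ℤ) (τ : ℍ) :
    (g ∣[k] (ModularGroup.T ^ n : SL(2, ℤ))) τ = g ((ModularGroup.T ^ n : SL(2, ℤ)) • τ) := by
  rw [ModularForm.SL_slash_apply, s16w4_denom_T, one_zpow, mul_one]

/-! ### expansions of the conjugates of a product -/

theorem s16w4_hasQExp_none (p : ℕ) [Fact p.Prime] (G H : ModularForm (Gamma0 p) 2) :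
    s28ca_HasQExp p (fun τ => (((G.mul H : ModularForm (Gamma0 p) (2 + 2)) : ℍ → ℂ)
        ∣[(2 : ℤ) + 2] (s16g_rep p none)) τ)
      (qExpand ℂ p (HahnSeries.ofPowerSeries ℤ ℂ (qExpansion 1 G) *
        HahnSeries.ofPowerSeries ℤ ℂ (qExpansion 1 H))) := by
  have hG := s16g_hasQExp_of_modularForm p G
  have hH := s16g_hasQExp_of_modularForm p H
  have h1 := s28ca_hasQExp_level p p (one_mul p).symm (s28ca_hasQExp_mul hG hH)
  refine s28ca_hasQExp_congr h1 (fun τ => ?_)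
  show G τ * H τ = (((G.mul H : ModularForm (Gamma0 p) (2 + 2)) : ℍ → ℂ)
    ∣[(2 : ℤ) + 2] (1 : SL(2, ℤ))) τ
  rw [SlashAction.slash_one, ModularForm.coe_mul]
  rfl

theorem s16w4_hasQExp_some (hTR : s16tr_stmt) (p : ℕ) [Fact p.Prime]
    (G H : ModularForm (Gamma0 p) 2) (b : ZMod p) :
    s28ca_HasQExp p (fun τ => (((G.mul H : ModularForm (Gamma0 p) (2 + 2)) : ℍ → ℂ)
        ∣[(2 : ℤ) + 2] (s16g_rep p (some b))) τ)
      (s28_scale ((s28ca_zeta p) ^ (b.val : ℕ))
        (HahnSeries.ofPowerSeries ℤ ℂ (s16tr_series p G) *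
          HahnSeries.ofPowerSeries ℤ ℂ (s16tr_series p H))) := by
  have hGH := s28ca_hasQExp_mul (hTR p G) (hTR p H)
  have h1 := s28ca_hasQExp_comp_scale (N := p) (N' := p) ((s28ca_zeta p) ^ (b.val : ℕ))
    (s28ca_zeta_pow_norm p b.val) (fun τ => ModularGroup.T ^ ((b.val : ℕ) : ℤ) • τ)
    (fun τ => s16g_qParam_T_zpow p b.val τ) hGH
  refine s28ca_hasQExp_congr h1 (fun τ => ?_)
  show ((G : ℍ → ℂ) ∣[(2 : ℤ)] ModularGroup.S) (ModularGroup.T ^ ((b.val : ℕ) : ℤ) • τ) *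
      ((H : ℍ → ℂ) ∣[(2 : ℤ)] ModularGroup.S) (ModularGroup.T ^ ((b.val : ℕ) : ℤ) • τ) =
    (((G.mul H : ModularForm (Gamma0 p) (2 + 2)) : ℍ → ℂ)
      ∣[(2 : ℤ) + 2] (ModularGroup.S * ModularGroup.T ^ ((b.val : ℕ) : ℤ))) τ
  rw [SlashAction.slash_mul, s16w4_slash_T, ModularForm.coe_mul, ModularForm.mul_slash_SL2]
  rfl

theorem s16w4_hasQExp_sum (hTR : s16tr_stmt) (p : ℕ) [Fact p.Prime]
    (G H : ModularForm (Gamma0 p) 2) :
    s28ca_HasQExp p (fun τ => ∑ i : Option (ZMod p),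
        (((G.mul H : ModularForm (Gamma0 p) (2 + 2)) : ℍ → ℂ) ∣[(2 : ℤ) + 2] (s16g_rep p i)) τ)
      (qExpand ℂ p (HahnSeries.ofPowerSeries ℤ ℂ (qExpansion 1 G) *
          HahnSeries.ofPowerSeries ℤ ℂ (qExpansion 1 H)) +
        ∑ b : ZMod p, s28_scale ((s28ca_zeta p) ^ (b.val : ℕ))
          (HahnSeries.ofPowerSeries ℤ ℂ (s16tr_series p G) *
            HahnSeries.ofPowerSeries ℤ ℂ (s16tr_series p H))) := by
  have h1 := s28ca_hasQExp_add (s16w4_hasQExp_none p G H)
    (s28ca_hasQExp_sum Finset.univ _ _ (fun b _ => s16w4_hasQExp_some hTR p G H b))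
  refine s28ca_hasQExp_congr h1 (fun τ => ?_)
  rw [Fintype.sum_option]

/-! ### coefficients -/

theorem s16w4_zeta_pow (p : ℕ) [NeZero p] : (s28ca_zeta p) ^ p = 1 := by
  apply Units.ext
  rw [Units.val_pow_eq_pow_val, Units.val_one]
  exact (s28ca_zeta_prim p).pow_eq_one

theorem s16w4_scale_coeff (p : ℕ) [NeZero p] (b : ℕ) (Y : LaurentSeries ℂ) (m : ℤ) :
    (s28_scale ((s28ca_zeta p) ^ b) Y).coeff ((p : ℤ) * m) = Y.coeff ((p : ℤ) * m) := by
  rw [s28_scale_coeff]
  have h : ((s28ca_zeta p) ^ b) ^ ((p : ℤ) * m) = 1 := by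
    rw [← zpow_natCast, ← zpow_mul, mul_comm (b : ℤ), mul_assoc, zpow_mul, zpow_natCast,
      s16w4_zeta_pow, one_zpow]
  rw [h, Units.val_one, one_mul]

/-- the coefficients of the trace of a product, in terms of the two expansions. -/
theorem s16w4_coeff (hTR : s16tr_stmt) (p : ℕ) [Fact p.Prime]
    (G H : ModularForm (Gamma0 p) 2) (T : ModularForm 𝒮ℒ ((2 : ℤ) + 2))
    (hT : ∀ τ : ℍ, T τ = ∑ i : Option (ZMod p),
      (((G.mul H : ModularForm (Gamma0 p) (2 + 2)) : ℍ → ℂ) ∣[(2 : ℤ) + 2] (s16g_rep p i)) τ)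
    (m : ℕ) :
    (qExpansion 1 T).coeff m =
      (qExpansion 1 G * qExpansion 1 H).coeff m +
        (p : ℂ) * (s16tr_series p G * s16tr_series p H).coeff (p * m) := by
  have hT1 := s16g_hasQExp_of_levelOne T
  have hTp := s28ca_hasQExp_level p p (one_mul p).symm hT1
  have hsum := s28ca_hasQExp_congr (s16w4_hasQExp_sum hTR p G H) (fun τ => (hT τ).symm)
  have key := s28ca_hasQExp_unique hTp hsum
  have c := congrArg (fun Y : LaurentSeries ℂ => Y.coeff ((p : ℤ) * (m : ℤ))) key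
  simp only [HahnSeries.coeff_add, qExpand_coeff_mul, HahnSeries.coeff_sum,
    s16w4_scale_coeff, Finset.sum_const, Finset.card_univ, ZMod.card, nsmul_eq_mul] at c
  rw [← map_mul, ← map_mul, HahnSeries.ofPowerSeries_apply_coeff,
    HahnSeries.ofPowerSeries_apply_coeff] at c
  have e : ((p : ℤ) * (m : ℤ)) = (((p * m : ℕ)) : ℤ) := by push_cast; ring
  rw [e, HahnSeries.ofPowerSeries_apply_coeff] at c
  exact c

/-! ### the identity -/

theorem s16w4_series_coeff (p : ℕ) [NeZero p] (G : ModularForm (Gamma0 p) 2) (n : ℕ) :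
    (s16tr_series p G).coeff n = -(p : ℂ)⁻¹ * ModularFormClass.qCoeff G (p * n) := by
  rw [s16tr_series, PowerSeries.coeff_mk]
  rfl

/-- the identity for two modular forms, the second one vanishing at infinity. -/
theorem s16w4_id_modular (hTR : s16tr_stmt) (p : ℕ) [Fact p.Prime]
    (G H : ModularForm (Gamma0 p) 2) (hG : ModularFormClass.qCoeff G 0 = 1)
    (hH : ModularFormClass.qCoeff H 0 = 0) :
    (p : ℂ) * ModularFormClass.qCoeff H 1 + ModularFormClass.qCoeff H (p * p)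
      + ∑ i ∈ Finset.Ico 1 p,
          ModularFormClass.qCoeff G (p * i) * ModularFormClass.qCoeff H (p * (p - i)) = 0 := by
  have hp : p.Prime := Fact.out
  have hp0 : (p : ℂ) ≠ 0 := by exact_mod_cast hp.ne_zero
  obtain ⟨T, hT⟩ := s16t0_trace p ((2 : ℤ) + 2) (G.mul H)
  have hc := s16w4_coeff hTR p G H T hT
  have hG0 : (qExpansion 1 G).coeff 0 = 1 := hG
  have hH0 : (qExpansion 1 H).coeff 0 = 0 := hH
  -- the constant term vanishes
  have h0 : (qExpansion 1 T).coeff 0 = 0 := by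
    rw [hc 0, PowerSeries.coeff_mul, PowerSeries.coeff_mul, mul_zero]
    simp only [Finset.Nat.antidiagonal_zero, Finset.sum_singleton]
    rw [hH0, s16w4_series_coeff, s16w4_series_coeff, mul_zero]
    simp only [mul_zero]
    rw [hH]
    simp
  -- hence `T = 0`
  have hT0 : T = 0 := by
    apply ModularForm.levelOne_eq_zero_of_lt_order_qExpansion 1 one_pos T
    have h1 : ((1 : ℕ) : ℕ∞) ≤ (qExpansion ((1 : ℕ) : ℝ) T).order := by
      apply PowerSeries.nat_le_order
      intro i hi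
      have hi0 : i = 0 := by omega
      subst hi0
      rw [Nat.cast_one]
      exact h0
    have h2 : ((2 : ℤ) + 2).toNat / 12 = 0 := by decide
    rw [h2, mul_zero]
    exact lt_of_lt_of_le (by norm_num) h1
  -- the `q¹`-coefficient
  have h1 := hc 1
  rw [hT0] at h1
  have hz : (qExpansion 1 ((0 : ModularForm 𝒮ℒ ((2 : ℤ) + 2)) : ℍ → ℂ)).coeff 1 = 0 := by
    have : ((0 : ModularForm 𝒮ℒ ((2 : ℤ) + 2)) : ℍ → ℂ) = 0 := rfl
    rw [this, qExpansion_zero]
    simp
  rw [hz, PowerSeries.coeff_mul, PowerSeries.coeff_mul, mul_one,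
    Finset.Nat.sum_antidiagonal_eq_sum_range_succ
      (fun i j => (s16tr_series p G).coeff i * (s16tr_series p H).coeff j),
    Finset.Nat.sum_antidiagonal_eq_sum_range_succ
      (fun i j => (qExpansion 1 G).coeff i * (qExpansion 1 H).coeff j)] at h1
  have ha : ∑ k ∈ Finset.range (Nat.succ 1),
      (qExpansion 1 G).coeff k * (qExpansion 1 H).coeff (1 - k) =
      ModularFormClass.qCoeff H 1 := by
    rw [Finset.sum_range_succ, Finset.sum_range_one]
    simp only [Nat.sub_zero, Nat.sub_self]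
    rw [hG0, hH0, one_mul, mul_zero, add_zero]
    rfl
  rw [ha] at h1
  -- split the sum over `range (p + 1)` into `0`, `Ico 1 p`, `p`
  have hs : ∑ k ∈ Finset.range p.succ,
      (s16tr_series p G).coeff k * (s16tr_series p H).coeff (p - k) =
      ((p : ℂ)⁻¹) ^ 2 * (ModularFormClass.qCoeff H (p * p) + ∑ i ∈ Finset.Ico 1 p,
          ModularFormClass.qCoeff G (p * i) * ModularFormClass.qCoeff H (p * (p - i))) := by
    rw [Finset.sum_range_succ, Finset.range_eq_Ico,
      Finset.sum_eq_sum_Ico_succ_bot hp.pos]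
    simp only [s16w4_series_coeff, Nat.sub_zero, Nat.sub_self, mul_zero, zero_add]
    rw [hG, hH]
    simp only [mul_zero, add_zero, mul_add, Finset.mul_sum]
    congr 1
    · ring
    · refine Finset.sum_congr rfl fun i _ => ?_
      ring
  rw [hs] at h1
  have h2 : (p : ℂ) * (ModularFormClass.qCoeff H 1 + (p : ℂ) * ((p : ℂ)⁻¹ ^ 2 *
      (ModularFormClass.qCoeff H (p * p) + ∑ i ∈ Finset.Ico 1 p,
        ModularFormClass.qCoeff G (p * i) * ModularFormClass.qCoeff H (p * (p - i))))) = 0 := by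
    rw [← h1, mul_zero]
  have h3 : (p : ℂ) * ((p : ℂ) * ((p : ℂ)⁻¹ ^ 2)) = 1 := by
    field_simp
  calc (p : ℂ) * ModularFormClass.qCoeff H 1 + ModularFormClass.qCoeff H (p * p)
        + ∑ i ∈ Finset.Ico 1 p,
          ModularFormClass.qCoeff G (p * i) * ModularFormClass.qCoeff H (p * (p - i))
      = (p : ℂ) * ModularFormClass.qCoeff H 1 + ((p : ℂ) * ((p : ℂ) * ((p : ℂ)⁻¹ ^ 2))) *
        (ModularFormClass.qCoeff H (p * p) + ∑ i ∈ Finset.Ico 1 p,
          ModularFormClass.qCoeff G (p * i) * ModularFormClass.qCoeff H (p * (p - i))) := by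
        rw [h3]; ring
    _ = 0 := by rw [← h2]; ring

/-- **(W4ID)** the analytic identity of W4. -/
theorem s16w4_id (hTR : s16tr_stmt) : s16w4_stmt_ID := by
  intro p _ G f hG
  have hΓ : (1 : ℝ) ∈ ((Gamma0 p : Subgroup SL(2, ℤ)) : Subgroup (GL (Fin 2) ℝ)).strictPeriods := by
    simp [CongruenceSubgroup.strictPeriods_Gamma0]
  have hf0 : ModularFormClass.qCoeff (CuspForm.toModularFormₗ f : ModularForm (Gamma0 p) 2) 0
      = 0 := CuspFormClass.qExpansion_coeff_zero f one_pos hΓ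
  exact s16w4_id_modular hTR p G (CuspForm.toModularFormₗ f) hG hf0

end Fermat.Agent.S16
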