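import Fermat.Agent.S16.Top
import Fermat.Agent.S16.LBChi
import Fermat.Agent.S16.Dual
import Fermat.Agent.S16.CongMain
import Fermat.Agent.S16.FofW4
import Fermat.Agent.S16.W4Arith
import Fermat.Agent.S16.W4ID
import Fermat.Agent.S16.TRUse
import Fermat.Agent.S16.TRMain
import Fermat.Agent.S16.R1Final
import Fermat.Agent.S16.F3Final
import Fermat.Agent.S16.F5Main

/-!
# S16: final assembly

`s16_main` is the statement S16 (the index of the Eisenstein ideal in the Hecke algebra of
weight 2 and prime level `p` is `(p - 1) / gcd (p - 1, 12)`), assembled from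

* the lower bound `s16lb_main` (Shimura character + counting of parabolic classes),
* the duality step `s16du_main`,
* the congruence bound `s16_stmt_CONG`, via the Eisenstein series (`s16ei_cong_of_F`), the trace to
  level one (`s16tr_main`), the weight-4 trace identity (`s16w4_id`, `s16w4a_main`) and the three
  integrality arguments `s16r1_main` (`ℓ = 2`), `s16f3_final` (`ℓ = 3`), `s16f5_main` (`ℓ ≥ 5`).
-/

set_option autoImplicit false
open ModularCurve CuspForm
open Fermat.Agent.S16 Fermat.Agent.S16R1

noncomputable section

/-- The weight-4 trace identity statement. -/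
theorem s16_W4 : s16_stmt_W4 :=
  s16w4a_main (fun p _ G f h => s16w4_id s16tr_main p G f h)
    (fun p _ f => s16tu_TR2_cusp s16tr_main p f)

/-- The congruence bound. -/
theorem s16_CONG : s16_stmt_CONG :=
  s16ei_cong_of_F (s16w_F2a_of_W4 s16_W4) (s16w_F2b_of_W4 s16_W4) (s16r1_main s16tr_main)
    (s16w_F3a_of_W4 s16_W4) (s16f3_final s16tr_main) (s16f5_main s16tr_main)
    (s16w_Fp_of_W4 s16_W4)

/-- The statement S16. -/
theorem s16_main (p : ℕ) [Fact p.Prime] :
    Nat.card (↥(heckeLatticeAlgebra p ∅) ⧸
        Ideal.map ((latticeRestrictHom p ∅).toRingHom.comp (heckeEvalForms p 2))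
          (eisensteinIdeal p)) =
      eisensteinNumerator p :=
  s16_top s16lb_main s16du_main s16_CONG p

end
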