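import Fermat.Agent.S16.Defs
import Fermat.Agent.S23

/-!
# S16: algebraic assembly

`S16 ⟸ s16_stmt_LB + s16_stmt_UB`: the quotient `𝕋 / I𝕋` is `ℤ / J` where
`J = {ε(t) : t acts as 0 on S_2(Γ0(p))}`.
-/

set_option autoImplicit false
open ModularCurve CuspForm

noncomputable section

/-- Every element of the Hecke algebra (away from `∅`) is a polynomial in the generators. -/
theorem s16a_heckeEvalForms_surjective (N : ℕ) [NeZero N] (k : ℤ) :
    Function.Surjective (heckeEvalForms N k) := by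
  classical
  set φ : HeckeAlg →ₐ[ℤ] Module.End ℂ (CuspForm (CongruenceSubgroup.Gamma0 N) k) :=
    (heckeAlgebra N k ∅).val.comp (MvPolynomial.aeval (heckeFormsGen N k)) with hφ
  have hgen : heckeGenerators N k ∅ ⊆ (φ.range : Set _) := by
    rintro T (⟨ℓ, hℓ, hℓN, -, rfl⟩ | ⟨q, hqN, hq, -, rfl⟩)
    · refine ⟨heckeGen (⟨ℓ, hℓ⟩ : Nat.Primes), ?_⟩
      have h := heckeEvalForms_heckeGen_of_not_dvd (N := N) (k := k)
        (ℓ := (⟨ℓ, hℓ⟩ : Nat.Primes)) hℓN
      exact congrArg Subtype.val h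
    · refine ⟨heckeGen (⟨q, hq⟩ : Nat.Primes), ?_⟩
      have h := heckeEvalForms_heckeGen_of_dvd (N := N) (k := k)
        (q := (⟨q, hq⟩ : Nat.Primes)) hqN
      exact congrArg Subtype.val h
  have hle : heckeAlgebra N k ∅ ≤ φ.range := Algebra.adjoin_le hgen
  rintro ⟨x, hx⟩
  obtain ⟨t, ht⟩ := hle hx
  exact ⟨t, Subtype.ext ht⟩

/-- The structure map `HeckeAlg → 𝕋` of the statement. -/
def s16a_iota (p : ℕ) [NeZero p] : HeckeAlg →+* ↥(heckeLatticeAlgebra p ∅) :=
  (latticeRestrictHom p ∅).toRingHom.comp (heckeEvalForms p 2)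

theorem s16a_iota_surjective (p : ℕ) [NeZero p] : Function.Surjective (s16a_iota p) :=
  (latticeRestrictHom_surjective p ∅).comp (s16a_heckeEvalForms_surjective p 2)

theorem s16a_iota_eq_zero_iff (p : ℕ) [NeZero p] (t : HeckeAlg) :
    s16a_iota p t = 0 ↔ heckeEvalForms p 2 t = 0 := by
  have hint : CuspForm.HasIntegralStructure p 2 := Fermat.Agent.S23.result p
  have hinj := (latticeRestrictHom_bijective p ∅ hint).1
  constructor
  · intro h
    apply hinj
    rw [map_zero]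
    exact h
  · intro h
    show (latticeRestrictHom p ∅) (heckeEvalForms p 2 t) = 0
    rw [h, map_zero]

theorem s16a_mem_eisensteinIdeal_iff (p : ℕ) (t : HeckeAlg) :
    t ∈ eisensteinIdeal p ↔ s16_eps p t = 0 := by
  rw [eisensteinIdeal, mem_eigenIdeal_iff]
  rfl

theorem s16a_eps_C (p : ℕ) (c : ℤ) : s16_eps p (MvPolynomial.C c) = c := by
  show MvPolynomial.aeval (R := ℤ) (eisensteinSystem p) (MvPolynomial.C c) = c
  rw [MvPolynomial.aeval_C]
  rfl

theorem s16a_iota_C (p : ℕ) [NeZero p] (c : ℤ) :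
    s16a_iota p (MvPolynomial.C c) = (c : ↥(heckeLatticeAlgebra p ∅)) := by
  have : (MvPolynomial.C c : HeckeAlg) = ((c : ℤ) : HeckeAlg) := by
    rw [← MvPolynomial.algebraMap_eq, eq_intCast]
  rw [this, map_intCast]

/-- Abstract form: a surjection `ι : A → T` of commutative rings, an ideal `I = ker ε` of `A`
with `ε : A → ℤ` split by `c : ℤ → A`; if `{ε t : ι t = 0} = nℤ` then `T / ι(I)T` has `n`
elements. -/
theorem s16a_card_abstract {A T : Type*} [CommRing A] [CommRing T] (ι : A →+* T)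
    (hsurj : Function.Surjective ι) (ε : A →+* ℤ) (n : ℕ)
    (hLB : ∀ t : A, ι t = 0 → (n : ℤ) ∣ ε t)
    (hUB : ∃ t : A, ι t = 0 ∧ ε t = (n : ℤ)) :
    Nat.card (T ⧸ Ideal.map ι (RingHom.ker ε)) = n := by
  classical
  set 𝔞 : Ideal T := Ideal.map ι (RingHom.ker ε) with h𝔞
  have hεc : ∀ c : ℤ, ε (c : A) = c := fun c => by simp
  have hιc : ∀ c : ℤ, ι (c : A) = (c : T) := fun c => by simp
  set ψ : ℤ →+* (T ⧸ 𝔞) := (Ideal.Quotient.mk 𝔞).comp (Int.castRingHom T) with hψ
  have hψ_apply : ∀ c : ℤ, ψ c = Ideal.Quotient.mk 𝔞 (c : T) := fun c => rfl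
  have hψsurj : Function.Surjective ψ := by
    intro y
    obtain ⟨x, rfl⟩ := Ideal.Quotient.mk_surjective y
    obtain ⟨t, rfl⟩ := hsurj x
    refine ⟨ε t, ?_⟩
    rw [hψ_apply, eq_comm, Ideal.Quotient.eq]
    have hmem : t - ((ε t : ℤ) : A) ∈ RingHom.ker ε := by
      rw [RingHom.mem_ker, map_sub, hεc, sub_self]
    have := Ideal.mem_map_of_mem ι hmem
    rwa [map_sub, hιc] at this
  have hker : RingHom.ker ψ = Ideal.span {(n : ℤ)} := by
    apply le_antisymm
    · intro c hc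
      rw [RingHom.mem_ker, hψ_apply, Ideal.Quotient.eq_zero_iff_mem] at hc
      obtain ⟨u, hu, huc⟩ := (Ideal.mem_map_iff_of_surjective ι hsurj).1 hc
      rw [RingHom.mem_ker] at hu
      have h0 : ι ((c : A) - u) = 0 := by rw [map_sub, hιc, huc, sub_self]
      have h1 : ε ((c : A) - u) = c := by rw [map_sub, hεc, hu, sub_zero]
      have h2 := hLB _ h0
      rw [h1] at h2
      exact Ideal.mem_span_singleton.2 h2
    · rw [Ideal.span_le, Set.singleton_subset_iff, SetLike.mem_coe, RingHom.mem_ker, hψ_apply,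
        Ideal.Quotient.eq_zero_iff_mem]
      obtain ⟨t, ht0, htn⟩ := hUB
      have hmem : (((n : ℤ) : A)) - t ∈ RingHom.ker ε := by
        rw [RingHom.mem_ker, map_sub, hεc, htn, sub_self]
      have := Ideal.mem_map_of_mem ι hmem
      rwa [map_sub, hιc, ht0, sub_zero] at this
  have e1 : (ℤ ⧸ RingHom.ker ψ) ≃+* (T ⧸ 𝔞) := RingHom.quotientKerEquivOfSurjective hψsurj
  have e2 : (ℤ ⧸ Ideal.span {(n : ℤ)}) ≃+* ZMod n := Int.quotientSpanNatEquivZMod n
  have c1 : Nat.card (T ⧸ 𝔞) = Nat.card (ℤ ⧸ RingHom.ker ψ) := (Nat.card_congr e1.toEquiv).symm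
  rw [c1, hker, Nat.card_congr e2.toEquiv, Nat.card_zmod]

theorem s16a_eisensteinIdeal_eq (p : ℕ) : eisensteinIdeal p = RingHom.ker (s16_eps p) := rfl

set_option maxHeartbeats 1000000 in
theorem s16_alg (hLB : s16_stmt_LB) (hUB : s16_stmt_UB) (p : ℕ) [Fact p.Prime] :
    Nat.card (↥(heckeLatticeAlgebra p ∅) ⧸
        Ideal.map ((latticeRestrictHom p ∅).toRingHom.comp (heckeEvalForms p 2))
          (eisensteinIdeal p)) =
      eisensteinNumerator p := by
  have h := s16a_card_abstract (s16a_iota p) (s16a_iota_surjective p) (s16_eps p)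
    (eisensteinNumerator p)
    (fun t ht => hLB p t ((s16a_iota_eq_zero_iff p t).1 ht))
    (by
      obtain ⟨t, ht0, htn⟩ := hUB p
      exact ⟨t, (s16a_iota_eq_zero_iff p t).2 ht0, htn⟩)
  exact h

end
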