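import Fermat.Agent.S16.Defs
import Fermat.Agent.S07.Helpers
import Fermat.Prelude.Thm_CongruenceSubgroup_one_mem_strictPeriods_Gamma0

/-!
# S16 / bridge: `CONG` from `EIS` and the forbidden congruences  (helper6)

Let `f` be a cusp form of weight 2 and level `Γ₀(p)` with integral `q`-expansion congruent to the
Eisenstein series `E = (p-1)/24 + ∑ σ'_p(m) q^m` modulo `ℓ^k` (away from the constant term).
If `ℓ^k ∤ n = (p-1)/gcd(p-1,12)` then `G = 24/(p-1) (E - f)` is a modular form with constant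
term `1`, all of whose higher coefficients are divisible by `ℓ^r`, where `r` is the exponent of
the relevant forbidden congruence; this is excluded by `F2a, ..., Fp`.  For `p ∈ {2, 3}` there
are no cusp forms (Sturm bound), and `σ'_p(1) = 1` gives `ℓ^k ∣ 1`.

Main result: `s16ei_cong`.
-/

set_option autoImplicit false

open UpperHalfPlane ModularForm ModularCurve CuspForm
open scoped MatrixGroups

noncomputable section

/-! ### Valuations -/

/-- If `ℓ^a ∤ n` and `ℓ^b ∤ g` then `ℓ^(a+b-1) ∤ n g`. -/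
lemma s16ei_not_dvd_mul (ℓ : ℕ) [Fact ℓ.Prime] (a b n g : ℕ) (hn : n ≠ 0) (hg : g ≠ 0)
    (ha : ¬ ℓ ^ a ∣ n) (hb : ¬ ℓ ^ b ∣ g) : ¬ ℓ ^ (a + b - 1) ∣ n * g := by
  rw [padicValNat_dvd_iff_le hn] at ha
  rw [padicValNat_dvd_iff_le hg] at hb
  rw [padicValNat_dvd_iff_le (Nat.mul_ne_zero hn hg), padicValNat.mul hn hg]
  omega

/-- Valuation of a quotient `A / B`. -/
lemma s16ei_val (ℓ : ℕ) [Fact ℓ.Prime] (x : ℚ) (A : ℤ) (B : ℕ) (hB : B ≠ 0)
    (hx : x * B = A) (e r j : ℕ) (hdiv : (ℓ : ℤ) ^ e ∣ A) (hj : ¬ ℓ ^ j ∣ B)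
    (hrj : r + j ≤ e + 1) : x = 0 ∨ (r : ℤ) ≤ padicValRat ℓ x := by
  have hBq : (B : ℚ) ≠ 0 := by exact_mod_cast hB
  by_cases hA : A = 0
  · left
    rw [hA, Int.cast_zero] at hx
    rcases mul_eq_zero.mp hx with h | h
    · exact h
    · exact absurd h hBq
  · right
    have hAq : (A : ℚ) ≠ 0 := by exact_mod_cast hA
    have hxe : x = (A : ℚ) / (B : ℚ) := by
      rw [← hx]
      field_simp
    rw [hxe, padicValRat.div hAq hBq, padicValRat.of_int, padicValRat.of_nat]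
    have h1 : e ≤ padicValInt ℓ A := by
      rcases (padicValInt_dvd_iff e A).mp hdiv with h | h
      · exact absurd h hA
      · exact h
    rw [padicValNat_dvd_iff_le hB] at hj
    have h1' : (e : ℤ) ≤ (padicValInt ℓ A : ℤ) := by exact_mod_cast h1
    have h2' : ((padicValNat ℓ B : ℕ) : ℤ) + 1 ≤ (j : ℤ) := by exact_mod_cast (not_le.mp hj)
    have h3' : (r : ℤ) + j ≤ e + 1 := by exact_mod_cast hrj
    linarith


/-! ### `q`-expansions -/

/-- `q`-coefficients of `c • (E - f)`. -/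
lemma s16ei_qCoeff_comb (p : ℕ) [NeZero p] (c : ℂ)
    (E : ModularForm (CongruenceSubgroup.Gamma0 p) 2)
    (f : CuspForm (CongruenceSubgroup.Gamma0 p) 2) (m : ℕ) :
    ModularFormClass.qCoeff (c • (E - CuspForm.toModularFormₗ f) :
      ModularForm (CongruenceSubgroup.Gamma0 p) 2) m
      = c * (ModularFormClass.qCoeff E m - ModularFormClass.qCoeff f m) := by
  have hΓ := CongruenceSubgroup.one_mem_strictPeriods_Gamma0 p
  have h1 : ((c • (E - CuspForm.toModularFormₗ f) :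
      ModularForm (CongruenceSubgroup.Gamma0 p) 2) : ℍ → ℂ)
      = c • ((E - CuspForm.toModularFormₗ f :
      ModularForm (CongruenceSubgroup.Gamma0 p) 2) : ℍ → ℂ) := rfl
  have h2 : ((E - CuspForm.toModularFormₗ f :
      ModularForm (CongruenceSubgroup.Gamma0 p) 2) : ℍ → ℂ)
      = (E : ℍ → ℂ) - (f : ℍ → ℂ) := rfl
  unfold ModularFormClass.qCoeff
  rw [h1, ModularForm.qExpansion_smul one_pos hΓ c
    (E - CuspForm.toModularFormₗ f : ModularForm (CongruenceSubgroup.Gamma0 p) 2), h2,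
    ModularForm.qExpansion_sub one_pos hΓ E f]
  simp


/-! ### The construction -/

/-- The core of the bridge: from a cusp form congruent to the Eisenstein series modulo `ℓ^k`,
with `ℓ^k ∤ n`, a modular form `G ≡ 1 mod ℓ^r`. -/
lemma s16ei_core (p : ℕ) [Fact p.Prime] (hp5 : 5 ≤ p) (ℓ : ℕ) [Fact ℓ.Prime] (k t r j₀ : ℕ)
    (ht : ℓ ^ t ∣ 24) (hg : ¬ ℓ ^ j₀ ∣ Nat.gcd (p - 1) 12) (hrj : r + j₀ ≤ t + 2)
    (hk : ¬ ℓ ^ k ∣ eisensteinNumerator p)
    (E : ModularForm (CongruenceSubgroup.Gamma0 p) 2)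
    (hE0 : ModularFormClass.qCoeff E 0 = ((p : ℂ) - 1) / 24)
    (hEm : ∀ m : ℕ, 1 ≤ m → ModularFormClass.qCoeff E m = (s16_sigmaP p m : ℂ))
    (f : CuspForm (CongruenceSubgroup.Gamma0 p) 2) (hf : s16_IsEisCong p (ℓ ^ k) f) :
    ∃ G : ModularForm (CongruenceSubgroup.Gamma0 p) 2, s16_IsOneMod p ℓ r G := by
  have hpne : NeZero p := ⟨(Fact.out : p.Prime).ne_zero⟩
  have hp1 : p - 1 ≠ 0 := by omega
  have hp1C : ((p : ℂ) - 1) ≠ 0 := by
    have : ((p - 1 : ℕ) : ℂ) ≠ 0 := by exact_mod_cast hp1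
    rwa [Nat.cast_sub (by omega : 1 ≤ p), Nat.cast_one] at this
  have hcast : ((p - 1 : ℕ) : ℂ) = (p : ℂ) - 1 := by
    rw [Nat.cast_sub (by omega : 1 ≤ p), Nat.cast_one]
  have hcastQ : ((p - 1 : ℕ) : ℚ) = (p : ℚ) - 1 := by
    rw [Nat.cast_sub (by omega : 1 ≤ p), Nat.cast_one]
  have hp1Q : ((p : ℚ) - 1) ≠ 0 := by
    rw [← hcastQ]
    exact_mod_cast hp1
  -- `p - 1 = n g`
  have hgne : Nat.gcd (p - 1) 12 ≠ 0 := by
    intro h
    rw [Nat.gcd_eq_zero_iff] at h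
    omega
  have hng : eisensteinNumerator p * Nat.gcd (p - 1) 12 = p - 1 :=
    Nat.div_mul_cancel (Nat.gcd_dvd_left _ _)
  have hnne : eisensteinNumerator p ≠ 0 := by
    intro h
    rw [h, zero_mul] at hng
    exact hp1 hng.symm
  have hj₀ : 1 ≤ j₀ := by
    rcases Nat.eq_zero_or_pos j₀ with h | h
    · exfalso
      apply hg
      rw [h, pow_zero]
      exact one_dvd _
    · exact h
  have hk1 : 1 ≤ k := by
    rcases Nat.eq_zero_or_pos k with h | h
    · exfalso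
      apply hk
      rw [h, pow_zero]
      exact one_dvd _
    · exact h
  have hB : ¬ ℓ ^ (k + j₀ - 1) ∣ p - 1 := by
    rw [← hng]
    exact s16ei_not_dvd_mul ℓ k j₀ _ _ hnne hgne hk hg
  have hf0 : ModularFormClass.qCoeff f 0 = 0 :=
    Fermat.Agent.S07.cuspForm_Gamma0_coeff_zero p f
  refine ⟨((24 : ℂ) / ((p : ℂ) - 1)) • (E - CuspForm.toModularFormₗ f), ?_, ?_, ?_⟩
  · rw [s16ei_qCoeff_comb, hE0, hf0, sub_zero]
    field_simp
  · intro m hm
    obtain ⟨a, ha, hdiv⟩ := hf m hm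
    refine ⟨(24 : ℚ) * ((s16_sigmaP p m : ℚ) - (a : ℚ)) / ((p : ℚ) - 1), ?_, ?_⟩
    · rw [s16ei_qCoeff_comb, hEm m hm, ha]
      push_cast
      field_simp
    · refine s16ei_val ℓ _ (24 * (s16_sigmaP p m - a)) (p - 1) hp1 ?_ (t + k) r (k + j₀ - 1)
        ?_ hB (by omega)
      · rw [hcastQ]
        push_cast
        field_simp
      · rw [pow_add]
        refine mul_dvd_mul ?_ ?_
        · exact_mod_cast (Int.natCast_dvd_natCast.mpr ht)
        · have h := (dvd_neg (a := ((ℓ ^ k : ℕ) : ℤ))).mpr hdiv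
          rw [neg_sub] at h
          exact_mod_cast h
  · refine ⟨p - 1, Nat.pos_of_ne_zero hp1, fun m => ?_⟩
    rcases Nat.eq_zero_or_pos m with h0 | hm
    · refine ⟨(p : ℤ) - 1, ?_⟩
      rw [h0, s16ei_qCoeff_comb, hE0, hf0, hcast, sub_zero]
      push_cast
      field_simp
    · obtain ⟨a, ha, -⟩ := hf m hm
      refine ⟨24 * (s16_sigmaP p m - a), ?_⟩
      rw [s16ei_qCoeff_comb, hEm m hm, ha, hcast]
      push_cast
      field_simp


/-! ### Small levels -/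

/-- The point of `ℙ¹(𝔽_p)` attached to the first column of a matrix. -/
def s16ei_col (p : ℕ) (g : SL(2, ℤ)) : Option (ZMod p) :=
  if ((g 1 0 : ℤ) : ZMod p) = 0 then none
  else some (((g 0 0 : ℤ) : ZMod p) * (((g 1 0 : ℤ) : ZMod p))⁻¹)

lemma s16ei_col_eq_imp (p : ℕ) [Fact p.Prime] (g₁ g₂ : SL(2, ℤ))
    (h : s16ei_col p g₁ = s16ei_col p g₂) : g₁⁻¹ * g₂ ∈ CongruenceSubgroup.Gamma0 p := by
  rw [CongruenceSubgroup.Gamma0_mem]
  have e : (g₁⁻¹ * g₂) 1 0 = - g₁ 1 0 * g₂ 0 0 + g₁ 0 0 * g₂ 1 0 := by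
    simp [Matrix.SpecialLinearGroup.coe_inv, Matrix.adjugate_fin_two, Matrix.mul_apply,
      Fin.sum_univ_two]
  rw [e]
  push_cast
  unfold s16ei_col at h
  by_cases h1 : ((g₁ 1 0 : ℤ) : ZMod p) = 0
  · by_cases h2 : ((g₂ 1 0 : ℤ) : ZMod p) = 0
    · rw [h1, h2]
      ring
    · rw [if_pos h1, if_neg h2] at h
      exact absurd h (by simp)
  · by_cases h2 : ((g₂ 1 0 : ℤ) : ZMod p) = 0
    · rw [if_neg h1, if_pos h2] at h
      exact absurd h (by simp)
    · rw [if_neg h1, if_neg h2, Option.some.injEq] at h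
      have h3 : ((g₁ 0 0 : ℤ) : ZMod p) * ((g₂ 1 0 : ℤ) : ZMod p)
          = ((g₂ 0 0 : ℤ) : ZMod p) * ((g₁ 1 0 : ℤ) : ZMod p) := by
        field_simp at h
        rw [h, mul_comm]
      linear_combination h3

theorem s16ei_index_le (p : ℕ) [Fact p.Prime] : (CongruenceSubgroup.Gamma0 p).index ≤ p + 1 := by
  classical
  have : NeZero p := ⟨(Fact.out : p.Prime).ne_zero⟩
  rw [Subgroup.index_eq_card]
  let φ : SL(2, ℤ) ⧸ CongruenceSubgroup.Gamma0 p → Option (ZMod p) :=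
    fun q => s16ei_col p q.out
  have hφ : Function.Injective φ := by
    intro q₁ q₂ h
    have := s16ei_col_eq_imp p _ _ h
    rw [← QuotientGroup.eq] at this
    simpa using this
  have := Nat.card_le_card_of_injective φ hφ
  simpa [Nat.card_eq_fintype_card] using this

/-- `S₂(Γ₀(p)) = 0` for `p ∈ {2, 3}`. -/
theorem s16ei_small (p : ℕ) [Fact p.Prime] (hp : p < 5)
    (f : CuspForm (CongruenceSubgroup.Gamma0 p) 2) : f = 0 := by
  have : NeZero p := ⟨(Fact.out : p.Prime).ne_zero⟩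
  refine Fermat.Agent.S07.cuspForm_Gamma0_eq_zero_of_small p ?_ f
  have h := s16ei_index_le p
  have h2 : ((2 : ℤ) * ((CongruenceSubgroup.Gamma0 p).index : ℤ)).toNat
      = 2 * (CongruenceSubgroup.Gamma0 p).index := by
    have : ((2 : ℤ) * ((CongruenceSubgroup.Gamma0 p).index : ℤ))
        = ((2 * (CongruenceSubgroup.Gamma0 p).index : ℕ) : ℤ) := by push_cast; ring
    rw [this, Int.toNat_natCast]
  rw [h2]
  omega


/-! ### The bridge -/

lemma s16ei_sigmaP_one (p : ℕ) (hp : 2 ≤ p) : s16_sigmaP p 1 = 1 := by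
  have h : ¬ p ∣ 1 := by
    intro h
    have := Nat.le_of_dvd one_pos h
    omega
  simp [s16_sigmaP, Nat.divisors_one, Finset.filter_singleton, h]

lemma s16ei_qCoeff_zero (p : ℕ) (m : ℕ) :
    ModularFormClass.qCoeff ((0 : CuspForm (CongruenceSubgroup.Gamma0 p) 2) : ℍ → ℂ) m = 0 := by
  have hcoe : ((0 : CuspForm (CongruenceSubgroup.Gamma0 p) 2) : ℍ → ℂ) = 0 := rfl
  rw [ModularFormClass.qCoeff, hcoe, qExpansion_zero]
  simp

/-- The cusp form congruent to the Eisenstein series modulo `ℓ^k`, `k ≥ 1`, has integral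
`q`-expansion and first coefficient prime to `ℓ`. -/
lemma s16ei_hasUnitCusp (p : ℕ) [Fact p.Prime] (ℓ k : ℕ) (hℓ : ℓ.Prime) (hk : 1 ≤ k)
    (f : CuspForm (CongruenceSubgroup.Gamma0 p) 2) (hf : s16_IsEisCong p (ℓ ^ k) f) :
    s16_HasUnitCusp p ℓ := by
  have hp : p.Prime := Fact.out
  have hpne : NeZero p := ⟨hp.ne_zero⟩
  refine ⟨f, fun m => ?_, ?_⟩
  · rcases Nat.eq_zero_or_pos m with h0 | hm
    · refine ⟨0, ?_⟩
      rw [h0, Int.cast_zero]
      exact Fermat.Agent.S07.cuspForm_Gamma0_coeff_zero p f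
    · obtain ⟨a, ha, -⟩ := hf m hm
      exact ⟨a, ha⟩
  · obtain ⟨a, ha, hdiv⟩ := hf 1 le_rfl
    refine ⟨a, ha, fun hℓa => ?_⟩
    rw [s16ei_sigmaP_one p hp.two_le] at hdiv
    have h1 : (ℓ : ℤ) ∣ ((ℓ ^ k : ℕ) : ℤ) := by
      rw [Nat.cast_pow]
      exact dvd_pow_self _ (by omega)
    have h2 : (ℓ : ℤ) ∣ a - 1 := h1.trans hdiv
    have h3 : (ℓ : ℤ) ∣ 1 := by
      have := dvd_sub hℓa h2
      rwa [sub_sub_cancel] at this
    have h4 : ℓ ∣ 1 := by exact_mod_cast h3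
    exact hℓ.one_lt.ne' (Nat.dvd_one.mp h4)

/-- **Bridge**: `CONG` from `EIS` and the forbidden congruences. -/
theorem s16ei_cong (hEIS : s16_stmt_EIS) (hF2a : s16_stmt_F2a) (hF2b : s16_stmt_F2b)
    (hF2c : s16_stmt_F2c) (hF3a : s16_stmt_F3a) (hF3b : s16_stmt_F3b) (hF5 : s16_stmt_F5)
    (hFp : s16_stmt_Fp) : s16_stmt_CONG := by
  intro p _ ℓ k hℓ hex
  obtain ⟨f, hf⟩ := hex
  have hp : p.Prime := Fact.out
  have hℓF : Fact ℓ.Prime := ⟨hℓ⟩
  by_cases hp5 : 5 ≤ p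
  · by_contra hk
    obtain ⟨E, hE0, hEm⟩ := hEIS p
    have hk1 : 1 ≤ k := by
      rcases Nat.eq_zero_or_pos k with h | h
      · exfalso
        apply hk
        rw [h, pow_zero]
        exact one_dvd _
      · exact h
    have hU : s16_HasUnitCusp p ℓ := s16ei_hasUnitCusp p ℓ k hℓ hk1 f hf
    have hp2 : p % 2 = 1 := (hp.eq_two_or_odd).resolve_left (by omega)
    have hp3 : p % 3 ≠ 0 := by
      intro h
      have h3 : 3 ∣ p := Nat.dvd_of_mod_eq_zero h
      have := (Nat.prime_dvd_prime_iff_eq Nat.prime_three hp).mp h3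
      omega
    have hg12 : Nat.gcd (p - 1) 12 ∣ 12 := Nat.gcd_dvd_right _ _
    have hgp : Nat.gcd (p - 1) 12 ∣ p - 1 := Nat.gcd_dvd_left _ _
    by_cases h2 : ℓ = 2
    · subst h2
      by_cases hp4 : p % 4 = 1
      · have hg : ¬ 2 ^ 3 ∣ Nat.gcd (p - 1) 12 := fun h => by
          have h8 : 8 ∣ 12 := by simpa using h.trans hg12
          omega
        obtain ⟨G, hG⟩ := s16ei_core p hp5 2 k 3 2 3 (by norm_num) hg (by norm_num) hk E hE0 hEm
          f hf
        exact hF2a p 2 2 hp5 ⟨rfl, hp4, le_refl _⟩ hU ⟨G, hG⟩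
      · have hg : ¬ 2 ^ 2 ∣ Nat.gcd (p - 1) 12 := fun h => by
          have h4 : 4 ∣ p - 1 := by simpa using h.trans hgp
          omega
        obtain ⟨G, hG⟩ := s16ei_core p hp5 2 k 3 3 2 (by norm_num) hg (by norm_num) hk E hE0 hEm
          f hf
        by_cases hp8 : p % 8 = 3
        · exact hF2b p 2 3 hp5 ⟨rfl, hp8, le_refl _⟩ hU ⟨G, hG⟩
        · exact hF2c p 2 3 hp5 ⟨rfl, by omega, le_refl _⟩ hU ⟨G, hG⟩
    · by_cases h3 : ℓ = 3
      · subst h3
        by_cases hp3' : p % 3 = 1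
        · have hg : ¬ 3 ^ 2 ∣ Nat.gcd (p - 1) 12 := fun h => by
            have h9 : 9 ∣ 12 := by simpa using h.trans hg12
            omega
          obtain ⟨G, hG⟩ := s16ei_core p hp5 3 k 1 1 2 (by norm_num) hg (by norm_num) hk E hE0
            hEm f hf
          exact hF3a p 3 1 hp5 ⟨rfl, hp3', le_refl _⟩ hU ⟨G, hG⟩
        · have hg : ¬ 3 ^ 1 ∣ Nat.gcd (p - 1) 12 := fun h => by
            have h3 : 3 ∣ p - 1 := by simpa using h.trans hgp
            omega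
          obtain ⟨G, hG⟩ := s16ei_core p hp5 3 k 1 2 1 (by norm_num) hg (by norm_num) hk E hE0
            hEm f hf
          exact hF3b p 3 2 hp5 ⟨rfl, by omega, le_refl _⟩ hU ⟨G, hG⟩
      · have hℓ12 : ¬ ℓ ∣ 12 := by
          intro h
          have h12 : (12 : ℕ) = 2 * 2 * 3 := by norm_num
          rw [h12] at h
          rcases (Nat.Prime.dvd_mul hℓ).mp h with h | h
          · rcases (Nat.Prime.dvd_mul hℓ).mp h with h | h
            · exact h2 ((Nat.prime_dvd_prime_iff_eq hℓ Nat.prime_two).mp h)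
            · exact h2 ((Nat.prime_dvd_prime_iff_eq hℓ Nat.prime_two).mp h)
          · exact h3 ((Nat.prime_dvd_prime_iff_eq hℓ Nat.prime_three).mp h)
        have hg : ¬ ℓ ^ 1 ∣ Nat.gcd (p - 1) 12 := fun h => by
          rw [pow_one] at h
          exact hℓ12 (h.trans hg12)
        obtain ⟨G, hG⟩ := s16ei_core p hp5 ℓ k 0 1 1 (by simp) hg (by norm_num) hk E hE0 hEm f hf
        by_cases hℓp : ℓ = p
        · exact hFp p ℓ 1 hp5 ⟨hℓp, le_refl _⟩ hU ⟨G, hG⟩
        · have h5 : 5 ≤ ℓ := by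
            have h2' := hℓ.two_le
            by_contra hlt
            have h4 : ℓ = 4 := by omega
            rw [h4] at hℓ
            exact absurd hℓ (by norm_num)
          exact hF5 p ℓ 1 hp5 ⟨h5, hℓp, le_refl _⟩ hU ⟨G, hG⟩
  · have hf0 : f = 0 := s16ei_small p (by omega) f
    obtain ⟨a, ha, hdiv⟩ := hf 1 le_rfl
    rw [hf0, s16ei_qCoeff_zero] at ha
    have ha0 : a = 0 := by exact_mod_cast ha.symm
    rw [ha0, s16ei_sigmaP_one p hp.two_le, zero_sub] at hdiv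
    have h1 : ((ℓ ^ k : ℕ) : ℤ) ∣ 1 := (dvd_neg).mp hdiv
    have h2 : ℓ ^ k ∣ 1 := by exact_mod_cast h1
    exact h2.trans (one_dvd _)


end
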