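import Fermat.Agent.S16.Defs
import Fermat.Agent.S20.Basic
import Fermat.Agent.S24.LevelRaise

/-!
# S16 / EIS: the Eisenstein series of weight 2 and level `Γ₀(p)`  (helper6)

`E(z) = (p E₂(p z) - E₂(z)) / 24`, where `E₂` is the (quasi-modular) weight-2 Eisenstein series of
level one.  The non-modular terms of `E₂` cancel; `E` is a modular form of weight 2 on `Γ₀(p)`
with `q`-expansion `(p - 1)/24 + ∑ σ'_p(m) q^m`.

This file: the function, holomorphy, the transformation behaviour under all of `SL₂(ℤ)`.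
-/

set_option autoImplicit false

open UpperHalfPlane ModularForm EisensteinSeries
open Fermat.Agent.S20 Fermat.Agent.S24
open scoped MatrixGroups ModularForm Manifold Real

noncomputable section

/-- `p E₂(p z) - E₂(z)`. -/
def s16ei_phi (p : ℕ) [NeZero p] (z : ℍ) : ℂ :=
  (p : ℂ) * E2 (dmul p z) - E2 z

/-- The point `(z + j) / p`. -/
def s16ei_pt (p : ℕ) [NeZero p] (j : ℤ) (z : ℍ) : ℍ :=
  ⟨((z : ℂ) + j) / p, by
    have hp : (0 : ℝ) < p := by exact_mod_cast Nat.pos_of_ne_zero (NeZero.ne p)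
    have h : (((z : ℂ) + j) / p).im = z.im / p := by
      rw [Complex.div_natCast_im]
      simp
    rw [h]
    exact div_pos z.im_pos hp⟩

lemma s16ei_coe_pt (p : ℕ) [NeZero p] (j : ℤ) (z : ℍ) :
    (s16ei_pt p j z : ℂ) = ((z : ℂ) + j) / p := rfl

lemma s16ei_im_pt (p : ℕ) [NeZero p] (j : ℤ) (z : ℍ) :
    (s16ei_pt p j z).im = z.im / p := by
  show (((z : ℂ) + j) / p).im = z.im / p
  rw [Complex.div_natCast_im]
  simp

lemma s16ei_im_dmul (p : ℕ) [NeZero p] (z : ℍ) : (dmul p z).im = p * z.im := by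
  show ((p : ℂ) * z).im = p * z.im
  simp

lemma s16ei_zpow_neg_two (x : ℂ) : x ^ (-2 : ℤ) = (x ^ 2)⁻¹ := by
  rw [zpow_neg]
  norm_cast

/-- The transformation law of `E₂`, pointwise. -/
lemma s16ei_E2_smul (γ : SL(2, ℤ)) (z : ℍ) :
    E2 (γ • z) * (denom γ z ^ 2)⁻¹ =
      E2 z - (1 / (2 * riemannZeta 2)) * ((2 * π * Complex.I * (γ 1 0 : ℤ)) / denom γ z) := by
  have h := congrFun (E2_slash_action γ) z
  rw [ModularForm.SL_slash_apply, s16ei_zpow_neg_two] at h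
  rw [h]
  simp [D2]

/-- The key computation: if `γ' • w = p (γ • z)` then the slash of `p E₂(p z) - E₂(z)` by `γ`
is again of this shape. -/
lemma s16ei_key (p : ℕ) [NeZero p] (γ γ' : SL(2, ℤ)) (z w : ℍ) (s : ℂ) (hs : s ≠ 0)
    (h1 : γ' • w = dmul p (γ • z)) (h2 : denom γ z = s * denom γ' w)
    (h3 : ((γ 1 0 : ℤ) : ℂ) * s = p * ((γ' 1 0 : ℤ) : ℂ)) :
    (s16ei_phi p ∣[(2 : ℤ)] γ) z = (p : ℂ) / s ^ 2 * E2 w - E2 z := by
  rw [ModularForm.SL_slash_apply, s16ei_zpow_neg_two, s16ei_phi, sub_mul, s16ei_E2_smul γ z, ← h1]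
  have hd' : denom γ' w ≠ 0 := denom_ne_zero _ _
  have hd : denom γ z ≠ 0 := denom_ne_zero _ _
  have e1 : E2 (γ' • w) = (E2 w - (1 / (2 * riemannZeta 2)) *
      ((2 * π * Complex.I * (γ' 1 0 : ℤ)) / denom γ' w)) * denom γ' w ^ 2 := by
    rw [← s16ei_E2_smul γ' w, mul_assoc, inv_mul_cancel₀ (pow_ne_zero _ hd'), mul_one]
  have e3 : ((γ 1 0 : ℤ) : ℂ) = p * ((γ' 1 0 : ℤ) : ℂ) / s := by
    field_simp
    exact h3
  rw [e1, h2, e3]
  field_simp
  ring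

lemma s16ei_det (γ : SL(2, ℤ)) : γ 0 0 * γ 1 1 - γ 0 1 * γ 1 0 = 1 := by
  have := γ.2
  rw [Matrix.det_fin_two] at this
  exact this

lemma s16ei_coe_smul (γ : SL(2, ℤ)) (z : ℍ) :
    ((γ • z : ℍ) : ℂ) = (((γ 0 0 : ℤ) : ℂ) * z + ((γ 0 1 : ℤ) : ℂ)) /
      (((γ 1 0 : ℤ) : ℂ) * z + ((γ 1 1 : ℤ) : ℂ)) := by
  rw [coe_specialLinearGroup_apply]
  simp

lemma s16ei_denom (γ : SL(2, ℤ)) (z : ℍ) :
    denom γ z = ((γ 1 0 : ℤ) : ℂ) * z + ((γ 1 1 : ℤ) : ℂ) := by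
  rw [ModularGroup.denom_apply]

lemma s16ei_denom_ne (γ : SL(2, ℤ)) (z : ℍ) :
    ((γ 1 0 : ℤ) : ℂ) * z + ((γ 1 1 : ℤ) : ℂ) ≠ 0 := by
  rw [← s16ei_denom]
  exact denom_ne_zero _ _

/-- The matrix `[a, p b; c', d]` for `γ = [a, b; p c', d]`. -/
def s16ei_gamB (p : ℕ) (γ : SL(2, ℤ)) (c' : ℤ) (hc : γ 1 0 = p * c') : SL(2, ℤ) :=
  ⟨!![γ 0 0, p * γ 0 1; c', γ 1 1], by
    rw [Matrix.det_fin_two_of]
    have := s16ei_det γ
    rw [hc] at this
    linarith⟩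

/-- The matrix `[p a, b - a j; c, e]` for `γ = [a, b; c, d]`, `d - c j = p e`. -/
def s16ei_gamC (p : ℕ) (γ : SL(2, ℤ)) (j e : ℤ) (he : γ 1 1 - γ 1 0 * j = p * e) : SL(2, ℤ) :=
  ⟨!![p * γ 0 0, γ 0 1 - γ 0 0 * j; γ 1 0, e], by
    rw [Matrix.det_fin_two_of]
    have := s16ei_det γ
    linear_combination this - γ 0 0 * he⟩

/-- On `Γ₀(p)`: invariance. -/
lemma s16ei_slash_B (p : ℕ) [NeZero p] (γ : SL(2, ℤ)) (c' : ℤ) (hc : γ 1 0 = p * c') (z : ℍ) :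
    (s16ei_phi p ∣[(2 : ℤ)] γ) z = s16ei_phi p z := by
  have hp : (p : ℂ) ≠ 0 := by exact_mod_cast NeZero.ne p
  have hcC : ((γ 1 0 : ℤ) : ℂ) = p * c' := by exact_mod_cast congrArg (Int.cast : ℤ → ℂ) hc
  have hne := s16ei_denom_ne γ z
  have key := s16ei_key p γ (s16ei_gamB p γ c' hc) z (dmul p z) 1 one_ne_zero ?_ ?_ ?_
  · rw [key, s16ei_phi]
    simp
  · apply UpperHalfPlane.ext
    rw [s16ei_coe_smul, coe_dmul, coe_dmul, s16ei_coe_smul]
    simp only [s16ei_gamB, Matrix.SpecialLinearGroup.coe_mk, Matrix.of_apply, Matrix.cons_val',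
      Matrix.cons_val_zero, Matrix.cons_val_one, Matrix.empty_val', Matrix.cons_val_fin_one]
    rw [hcC] at hne ⊢
    push_cast
    have hne' : (c' : ℂ) * ((p : ℂ) * z) + ((γ 1 1 : ℤ) : ℂ) ≠ 0 := by
      rw [← mul_assoc, mul_comm (c' : ℂ)]
      exact hne
    field_simp
  · rw [s16ei_denom, s16ei_denom, coe_dmul, one_mul, hcC]
    simp only [s16ei_gamB, Matrix.SpecialLinearGroup.coe_mk, Matrix.of_apply, Matrix.cons_val',
      Matrix.cons_val_zero, Matrix.cons_val_one, Matrix.empty_val', Matrix.cons_val_fin_one]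
    ring
  · rw [mul_one, hcC]
    simp only [s16ei_gamB, Matrix.SpecialLinearGroup.coe_mk, Matrix.of_apply, Matrix.cons_val',
      Matrix.cons_val_zero, Matrix.cons_val_one, Matrix.empty_val', Matrix.cons_val_fin_one]

/-- Off `Γ₀(p)`: the other cusp. -/
lemma s16ei_slash_C (p : ℕ) [NeZero p] (γ : SL(2, ℤ)) (j e : ℤ)
    (he : γ 1 1 - γ 1 0 * j = p * e) (z : ℍ) :
    (s16ei_phi p ∣[(2 : ℤ)] γ) z = (p : ℂ)⁻¹ * E2 (s16ei_pt p j z) - E2 z := by
  have hp : (p : ℂ) ≠ 0 := by exact_mod_cast NeZero.ne p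
  have heC : ((γ 1 1 : ℤ) : ℂ) - ((γ 1 0 : ℤ) : ℂ) * j = p * e := by
    exact_mod_cast congrArg (Int.cast : ℤ → ℂ) he
  have hne := s16ei_denom_ne γ z
  have key := s16ei_key p γ (s16ei_gamC p γ j e he) z (s16ei_pt p j z) p hp ?_ ?_ ?_
  · rw [key]
    congr 2
    field_simp
  · apply UpperHalfPlane.ext
    rw [s16ei_coe_smul, coe_dmul, s16ei_coe_pt, s16ei_coe_smul]
    simp only [s16ei_gamC, Matrix.SpecialLinearGroup.coe_mk, Matrix.of_apply, Matrix.cons_val',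
      Matrix.cons_val_zero, Matrix.cons_val_one, Matrix.empty_val', Matrix.cons_val_fin_one]
    push_cast
    have hden : ((γ 1 0 : ℤ) : ℂ) * (((z : ℂ) + j) / p) + (e : ℂ)
        = (((γ 1 0 : ℤ) : ℂ) * z + ((γ 1 1 : ℤ) : ℂ)) / p := by
      field_simp
      linear_combination (-1 : ℂ) * heC
    rw [hden]
    field_simp
    ring
  · rw [s16ei_denom, s16ei_denom, s16ei_coe_pt]
    simp only [s16ei_gamC, Matrix.SpecialLinearGroup.coe_mk, Matrix.of_apply, Matrix.cons_val',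
      Matrix.cons_val_zero, Matrix.cons_val_one, Matrix.empty_val', Matrix.cons_val_fin_one]
    field_simp
    linear_combination heC
  · simp only [s16ei_gamC, Matrix.SpecialLinearGroup.coe_mk, Matrix.of_apply, Matrix.cons_val',
      Matrix.cons_val_zero, Matrix.cons_val_one, Matrix.empty_val', Matrix.cons_val_fin_one]
    ring

/-- Composition with an affine self-map of `ℍ` preserves holomorphy. -/
lemma s16ei_mdiff_comp_affine (F : ℍ → ℂ) (hF : MDiff F) (φ : ℍ → ℍ) (a c : ℂ)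
    (hφ : ∀ τ : ℍ, (φ τ : ℂ) = a * τ + c) : MDiff (fun τ => F (φ τ)) := by
  rw [UpperHalfPlane.mdifferentiable_iff] at hF ⊢
  have hmaps : Set.MapsTo (fun w : ℂ => a * w + c) {z : ℂ | 0 < z.im} {z : ℂ | 0 < z.im} := by
    intro w hw
    have h1 := hφ ⟨w, hw⟩
    have h2 : (a * w + c) = (φ ⟨w, hw⟩ : ℂ) := by rw [h1]
    show 0 < (a * w + c).im
    rw [h2]
    exact (φ ⟨w, hw⟩).im_pos
  have hdiff : DifferentiableOn ℂ (fun w : ℂ => a * w + c) {z : ℂ | 0 < z.im} := by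
    intro w _
    exact ((differentiableAt_id.const_mul a).add_const c).differentiableWithinAt
  refine (hF.comp hdiff hmaps).congr ?_
  intro w hw
  have hw' : 0 < w.im := hw
  show F (φ (ofComplex w)) = F (ofComplex (a * w + c))
  congr 1
  apply UpperHalfPlane.ext
  rw [hφ, ofComplex_apply_of_im_pos hw', ofComplex_apply_of_im_pos (hmaps hw)]

lemma s16ei_phi_mdiff (p : ℕ) [NeZero p] : MDiff (s16ei_phi p) := by
  have h1 : MDiff (fun z => E2 (dmul p z)) :=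
    s16ei_mdiff_comp_affine E2 E2_mdifferentiable (dmul p) p 0
      (fun τ => by rw [coe_dmul, add_zero])
  have h2 : MDiff (fun _ : ℍ => (p : ℂ)) := mdifferentiable_const
  exact (h2.mul h1).sub E2_mdifferentiable

lemma s16ei_bdd_comp (F : ℍ → ℂ) (hF : IsBoundedAtImInfty F) (φ : ℍ → ℍ) (t : ℝ) (ht : 0 < t)
    (hφ : ∀ z, (φ z).im = t * z.im) : IsBoundedAtImInfty (fun z => F (φ z)) := by
  rw [isBoundedAtImInfty_iff] at hF ⊢
  obtain ⟨M, A, h⟩ := hF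
  refine ⟨M, A / t, fun z hz => h _ ?_⟩
  rw [hφ]
  exact (div_le_iff₀' ht).mp hz

lemma s16ei_bdd_lin (t : ℂ) (F G : ℍ → ℂ) (hF : IsBoundedAtImInfty F)
    (hG : IsBoundedAtImInfty G) : IsBoundedAtImInfty (fun z => t * F z - G z) := by
  have h1 : IsBoundedAtImInfty (fun _ : ℍ => t) := Filter.const_boundedAtFilter _ _
  exact (h1.mul hF).sub hG

lemma s16ei_phi_bdd (p : ℕ) [Fact p.Prime] (γ : SL(2, ℤ)) :
    IsBoundedAtImInfty (s16ei_phi p ∣[(2 : ℤ)] γ) := by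
  have : NeZero p := ⟨(Fact.out : p.Prime).ne_zero⟩
  have hp0 : (0 : ℝ) < p := by exact_mod_cast (Fact.out : p.Prime).pos
  by_cases hc : (p : ℤ) ∣ γ 1 0
  · obtain ⟨c', hc'⟩ := hc
    have : s16ei_phi p ∣[(2 : ℤ)] γ = s16ei_phi p := funext (s16ei_slash_B p γ c' hc')
    rw [this]
    exact s16ei_bdd_lin p _ _ (s16ei_bdd_comp E2 isBoundedAtImInfty_E2 (dmul p) p hp0
      (s16ei_im_dmul p)) isBoundedAtImInfty_E2
  · have hcop : IsCoprime (p : ℤ) (γ 1 0) :=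
      ((Nat.prime_iff_prime_int.mp Fact.out).irreducible.coprime_iff_not_dvd).mpr hc
    obtain ⟨u, v, huv⟩ := hcop
    -- u * p + v * c = 1
    have he : γ 1 1 - γ 1 0 * (γ 1 1 * v) = p * (γ 1 1 * u) := by
      linear_combination (-(γ 1 1)) * huv
    have : s16ei_phi p ∣[(2 : ℤ)] γ = fun z => (p : ℂ)⁻¹ * E2 (s16ei_pt p (γ 1 1 * v) z) - E2 z :=
      funext (s16ei_slash_C p γ _ _ he)
    rw [this]
    refine s16ei_bdd_lin _ _ _ (s16ei_bdd_comp E2 isBoundedAtImInfty_E2 (s16ei_pt p _) (p : ℝ)⁻¹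
      (inv_pos.mpr hp0) (fun z => ?_)) isBoundedAtImInfty_E2
    rw [s16ei_im_pt]
    ring

/-- The modular form `p E₂(p z) - E₂(z)` of weight 2 and level `Γ₀(p)`. -/
theorem s16ei_exists_form (p : ℕ) [Fact p.Prime] :
    ∃ f : ModularForm (CongruenceSubgroup.Gamma0 p) 2, ∀ z : ℍ, f z = s16ei_phi p z := by
  have : NeZero p := ⟨(Fact.out : p.Prime).ne_zero⟩
  obtain ⟨f, hf⟩ := exists_modularForm_of_bounded (N := p) (k := 2) (s16ei_phi p)
    (s16ei_phi_mdiff p)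
    (fun γ hγ => by
      rw [CongruenceSubgroup.Gamma0_mem, ZMod.intCast_zmod_eq_zero_iff_dvd] at hγ
      obtain ⟨c', hc'⟩ := hγ
      exact funext (s16ei_slash_B p γ c' hc'))
    (s16ei_phi_bdd p)
  exact ⟨f, fun z => by rw [hf]⟩

end
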