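import Fermat.Agent.S28.ThetaAnalytic

/-!
# S16 / F3b: the second Rankin-Cohen bracket `[E₄, E₄]₂ = 4800 Δ`  (OWNER: helper2; off-main)

`4 E₄ · D²E₄ - 5 (D E₄)² = 960 Δ` pointwise on `ℍ` (`s16f3_bracket`) and for the `q`-expansions
(`s16f3_bracket_series`), where `D = (2πi)⁻¹ d/dz`, `θ = q d/dq`.
-/

set_option autoImplicit false

open UpperHalfPlane hiding I
open Real Complex Derivative Filter Function
open scoped Manifold MatrixGroups ModularForm Topology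
open EisensteinSeries ModularForm ModularFormClass SlashInvariantFormClass
open Fermat.Agent.S20 Fermat.Agent.S24 Fermat.Agent.S28

namespace Fermat.Agent.S16

noncomputable section

local notation "𝕢" => Periodic.qParam

/-- chain rule: if `F = H ∘ q` then `D F = q H'(q)`. -/
theorem s16f3_D_eq_qderiv (F : ℍ → ℂ) (H : ℂ → ℂ)
    (hH : ∀ q : ℂ, ‖q‖ < 1 → DifferentiableAt ℂ H q)
    (hF : ∀ z : ℍ, F z = H (𝕢 1 z)) (z : ℍ) :
    D F z = 𝕢 1 z * deriv H (𝕢 1 z) := by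
  have hq : ‖𝕢 1 (z : ℂ)‖ < 1 := Periodic.norm_qParam_lt_one one_pos z.im_pos
  have hHd := hH _ hq
  have hcomp : HasDerivAt (fun w : ℂ => H (𝕢 1 w))
      (deriv H (𝕢 1 z) * (2 * π * I * 𝕢 1 z)) z :=
    hHd.hasDerivAt.comp (z : ℂ) (rc_hasDerivAt_qParam z)
  have heq : (F ∘ ofComplex) =ᶠ[𝓝 (z : ℂ)] fun w : ℂ => H (𝕢 1 w) := by
    filter_upwards [isOpen_upperHalfPlaneSet.mem_nhds z.im_pos] with w hw
    simp only [comp_apply, ofComplex_apply_of_im_pos hw]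
    exact hF ⟨w, hw⟩
  have hderiv : deriv (F ∘ ofComplex) z = deriv H (𝕢 1 z) * (2 * π * I * 𝕢 1 z) :=
    (hcomp.congr_of_eventuallyEq heq).deriv
  have h2pi : (2 * π * I : ℂ) ≠ 0 := by simp [Real.pi_ne_zero, I_ne_zero]
  simp only [normalizedDerivOfComplex, hderiv]
  field_simp

/-- `q G'(q)` for the cusp function `G` of `E₄`. -/
def s16f3_H1 : ℂ → ℂ := (fun q : ℂ => q) * deriv (cuspFunction 1 E₄)

/-- `q (q G'(q))'`. -/
def s16f3_H2 : ℂ → ℂ := (fun q : ℂ => q) * deriv s16f3_H1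

theorem s16f3_G_analyticAt {q : ℂ} (hq : ‖q‖ < 1) : AnalyticAt ℂ (cuspFunction 1 E₄) q := by
  have hd : DifferentiableOn ℂ (cuspFunction 1 E₄) (Metric.ball 0 1) := fun w hw =>
    (ModularFormClass.differentiableAt_cuspFunction E₄ one_pos one_mem_strictPeriods_SL
      (by simpa using hw)).differentiableWithinAt
  exact hd.analyticAt (Metric.isOpen_ball.mem_nhds (by simpa using hq))

theorem s16f3_H1_analyticAt {q : ℂ} (hq : ‖q‖ < 1) : AnalyticAt ℂ s16f3_H1 q :=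
  analyticAt_id.mul (s16f3_G_analyticAt hq).deriv

theorem s16f3_H2_analyticAt {q : ℂ} (hq : ‖q‖ < 1) : AnalyticAt ℂ s16f3_H2 q :=
  analyticAt_id.mul (s16f3_H1_analyticAt hq).deriv

theorem s16f3_DE4 (z : ℍ) : D E₄ z = s16f3_H1 (𝕢 1 z) := rc_D_eq_qderiv E₄ z

theorem s16f3_DDE4 (z : ℍ) : D (D E₄) z = s16f3_H2 (𝕢 1 z) :=
  s16f3_D_eq_qderiv (D E₄) s16f3_H1 (fun _ hq => (s16f3_H1_analyticAt hq).differentiableAt)
    s16f3_DE4 z

theorem s16f3_tendsto_DD : Tendsto (fun z : ℍ => D (D E₄) z) atImInfty (𝓝 0) := by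
  have h0 : ‖(0 : ℂ)‖ < 1 := by simp
  have h1 := (s16f3_H2_analyticAt h0).continuousAt.tendsto.comp (qParam_tendsto_atImInfty one_pos)
  have h2 : s16f3_H2 0 = 0 := by simp [s16f3_H2]
  rw [h2] at h1
  refine h1.congr fun z => ?_
  exact (s16f3_DDE4 z).symm

/-- the correction term `X = (2πi)⁻¹ c / (c z + d)`. -/
def s16f3_X (γ : SL(2, ℤ)) (z : ℍ) : ℂ := (2 * π * I)⁻¹ * (γ 1 0 / denom γ z)

theorem s16f3_X_eq (γ : SL(2, ℤ)) :
    s16f3_X γ = fun z : ℍ => ((2 * π * I)⁻¹ * (γ 1 0 : ℂ)) * denom γ z ^ (-1 : ℤ) := by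
  funext z
  rw [s16f3_X, zpow_neg_one, div_eq_mul_inv]
  ring

theorem s16f3_X_mdiff (γ : SL(2, ℤ)) : MDiff (s16f3_X γ) := by
  rw [s16f3_X_eq]
  exact mdifferentiable_const.mul (mdifferentiable_denom_zpow _ _)

theorem s16f3_D_X (γ : SL(2, ℤ)) (z : ℍ) : D (s16f3_X γ) z = - (s16f3_X γ z) ^ 2 := by
  have hz := denom_ne_zero γ z
  have h_denom := hasDerivAt_denom_zpow (γ : GL (Fin 2) ℝ) (-1) z
  have hcomp : ((s16f3_X γ) ∘ ofComplex) =ᶠ[𝓝 ↑z]
      fun w ↦ ((2 * π * I)⁻¹ * (γ 1 0 : ℂ)) * (denom γ w) ^ (-1 : ℤ) := by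
    filter_upwards [isOpen_upperHalfPlaneSet.mem_nhds z.im_pos] with w hw
    rw [comp_apply, s16f3_X_eq, ofComplex_apply_of_im_pos hw]
  have h1 := ((h_denom.const_mul ((2 * π * I)⁻¹ * (γ 1 0 : ℂ))).congr_of_eventuallyEq hcomp).deriv
  simp only [normalizedDerivOfComplex, h1, s16f3_X]
  have h2pi : (2 * π * I : ℂ) ≠ 0 := by simp [Real.pi_ne_zero, I_ne_zero]
  have e : (denom (γ : GL (Fin 2) ℝ) z) ^ ((-1 : ℤ) - 1) = ((denom γ z) ^ 2)⁻¹ := by
    rw [show ((-1 : ℤ) - 1) = -2 by norm_num, zpow_neg]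
    norm_cast
  rw [e]
  simp
  field_simp

theorem s16f3_E4_mdiff : MDiff (E₄ : ℍ → ℂ) := ModularFormClass.holo E₄

theorem s16f3_DE4_mdiff : MDiff (D (E₄ : ℍ → ℂ)) :=
  normalizedDerivOfComplex_mdifferentiable s16f3_E4_mdiff

/-- `(D E₄)|₆ γ = D E₄ + 4 X E₄`. -/
theorem s16f3_DE4_slash (γ : SL(2, ℤ)) :
    (D E₄) ∣[(6 : ℤ)] γ = D E₄ + (fun z => 4 * s16f3_X γ z * E₄ z) := by
  have h := normalizedDerivOfComplex_SL_slash (k := 4) s16f3_E4_mdiff (γ := γ)
  rw [rc_E4_slash γ] at h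
  ext z
  have hz := congrFun h z
  simp only [Pi.sub_apply, Pi.add_apply] at hz ⊢
  have e : ((4 : ℤ) + 2) = 6 := by norm_num
  rw [e] at hz
  rw [s16f3_X]
  push_cast at hz
  linear_combination -hz

/-- `(D²E₄)|₈ γ = D²E₄ + 10 X D E₄ + 20 X² E₄`. -/
theorem s16f3_DDE4_slash (γ : SL(2, ℤ)) (z : ℍ) :
    ((D (D E₄)) ∣[(8 : ℤ)] γ) z =
      D (D E₄) z + 10 * s16f3_X γ z * D E₄ z + 20 * s16f3_X γ z ^ 2 * E₄ z := by
  have h := normalizedDerivOfComplex_SL_slash (k := 6) s16f3_DE4_mdiff (γ := γ)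
  have e : ((6 : ℤ) + 2) = 8 := by norm_num
  rw [e] at h
  have hz := congrFun h z
  simp only [Pi.sub_apply] at hz
  have h4X : MDiff (fun z : ℍ => 4 * s16f3_X γ z) :=
    mdifferentiable_const.mul (s16f3_X_mdiff γ)
  have hprod : MDiff (fun z : ℍ => 4 * s16f3_X γ z * E₄ z) := h4X.mul s16f3_E4_mdiff
  have h1 : D ((D E₄) ∣[(6 : ℤ)] γ) z =
      D (D E₄) z + (4 * (-(s16f3_X γ z) ^ 2) * E₄ z + 4 * s16f3_X γ z * D E₄ z) := by
    rw [s16f3_DE4_slash, normalizedDerivOfComplex_add _ _ s16f3_DE4_mdiff hprod]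
    simp only [Pi.add_apply]
    congr 1
    have h2 : (fun z : ℍ => 4 * s16f3_X γ z * E₄ z) =
        (fun z : ℍ => 4 * s16f3_X γ z) * (E₄ : ℍ → ℂ) := rfl
    rw [h2, normalizedDerivOfComplex_mul _ _ h4X s16f3_E4_mdiff]
    simp only [Pi.add_apply, Pi.mul_apply]
    have h3 : (fun z : ℍ => 4 * s16f3_X γ z) = (4 : ℂ) • s16f3_X γ := rfl
    rw [h3, normalizedDerivOfComplex_smul _ _ (s16f3_X_mdiff γ)]
    simp only [Pi.smul_apply, smul_eq_mul, s16f3_D_X]
  rw [h1] at hz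
  have h5 := congrFun (s16f3_DE4_slash γ) z
  simp only [Pi.add_apply] at h5
  rw [h5] at hz
  rw [s16f3_X] at hz ⊢
  push_cast at hz
  linear_combination -hz

/-- the second Rankin-Cohen bracket of `E₄` with itself (up to normalisation). -/
def s16f3_W (z : ℍ) : ℂ := 4 * E₄ z * D (D E₄) z - 5 * (D E₄ z * D E₄ z)

theorem s16f3_W_mdiff : MDiff s16f3_W :=
  ((mdifferentiable_const.mul s16f3_E4_mdiff).mul
    (normalizedDerivOfComplex_mdifferentiable s16f3_DE4_mdiff)).sub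
    (mdifferentiable_const.mul (s16f3_DE4_mdiff.mul s16f3_DE4_mdiff))

theorem s16f3_W_slash (γ : SL(2, ℤ)) : s16f3_W ∣[(12 : ℤ)] γ = s16f3_W := by
  ext z
  have e1 := congrFun (rc_E4_slash γ) z
  have e2 := congrFun (s16f3_DE4_slash γ) z
  have e3 := s16f3_DDE4_slash γ z
  simp only [Pi.add_apply, ModularForm.SL_slash_apply] at e1 e2 e3 ⊢
  have hd : denom γ z ≠ 0 := denom_ne_zero γ z
  have p1 : denom γ z ^ (-(12 : ℤ)) = denom γ z ^ (-(4 : ℤ)) * denom γ z ^ (-(8 : ℤ)) := by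
    rw [← zpow_add₀ hd]; norm_num
  have p2 : denom γ z ^ (-(12 : ℤ)) = denom γ z ^ (-(6 : ℤ)) * denom γ z ^ (-(6 : ℤ)) := by
    rw [← zpow_add₀ hd]; norm_num
  unfold s16f3_W
  have key : (4 * E₄ (γ • z) * D (D E₄) (γ • z) - 5 * (D E₄ (γ • z) * D E₄ (γ • z))) *
      denom γ z ^ (-(12 : ℤ)) =
      4 * (E₄ (γ • z) * denom γ z ^ (-(4 : ℤ))) * (D (D E₄) (γ • z) * denom γ z ^ (-(8 : ℤ))) -
      5 * ((D E₄ (γ • z) * denom γ z ^ (-(6 : ℤ))) *
        (D E₄ (γ • z) * denom γ z ^ (-(6 : ℤ)))) := by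
    have : (4 * E₄ (γ • z) * D (D E₄) (γ • z) - 5 * (D E₄ (γ • z) * D E₄ (γ • z))) *
        denom γ z ^ (-(12 : ℤ)) =
        4 * E₄ (γ • z) * D (D E₄) (γ • z) * denom γ z ^ (-(12 : ℤ)) -
        5 * (D E₄ (γ • z) * D E₄ (γ • z)) * denom γ z ^ (-(12 : ℤ)) := by ring
    rw [this]
    nth_rewrite 1 [p1]
    rw [p2]
    ring
  rw [key, e1, e2, e3]
  ring

theorem s16f3_W_isZeroAtImInfty : IsZeroAtImInfty s16f3_W := by
  have h1 := ((rc_E4_tendsto.const_mul 4).mul s16f3_tendsto_DD).sub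
    (((rc_tendsto_D E₄).mul (rc_tendsto_D E₄)).const_mul 5)
  have hval : (4 * 1 * 0 - 5 * (0 * 0) : ℂ) = 0 := by norm_num
  rw [hval] at h1
  exact h1

/-- the bracket as a cusp form of weight 12 and level one. -/
def s16f3_WForm : CuspForm 𝒮ℒ 12 where
  toFun := s16f3_W
  slash_action_eq' A hA := by
    obtain ⟨A, rfl⟩ := hA
    exact s16f3_W_slash A
  holo' := s16f3_W_mdiff
  zero_at_cusps' hc := by
    rw [Subgroup.IsArithmetic.isCusp_iff_isCusp_SL2Z] at hc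
    rw [OnePoint.isZeroAt_iff_forall_SL2Z hc]
    intro γ _
    rw [s16f3_W_slash]
    exact s16f3_W_isZeroAtImInfty

theorem s16f3_exists_c : ∃ c : ℂ, ∀ z : ℍ, s16f3_W z = c * ModularForm.discriminant z := by
  obtain ⟨c, hc⟩ := CuspForm.exists_smul_discriminant_of_weight_eq_twelve s16f3_WForm
  refine ⟨c, fun w => ?_⟩
  have := congrArg (fun F : CuspForm 𝒮ℒ 12 => F w) hc
  exact this.symm

/-- the bracket identity for the `q`-expansions, with an unknown constant. -/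
theorem s16f3_series_c : ∃ c : ℂ,
    4 * qExpansion 1 E₄ * s28cg_thetaP (s28cg_thetaP (qExpansion 1 E₄)) -
        5 * (s28cg_thetaP (qExpansion 1 E₄) * s28cg_thetaP (qExpansion 1 E₄)) =
      PowerSeries.C c * qExpansion 1 ModularForm.discriminant := by
  obtain ⟨c, hc⟩ := s16f3_exists_c
  refine ⟨c, ?_⟩
  have a4 := s28cg_analyticAt_cusp E₄
  have aΔ := s28cg_analyticAt_cusp_delta
  have h0 : ‖(0 : ℂ)‖ < 1 := by simp
  have aH1 : AnalyticAt ℂ s16f3_H1 0 := s16f3_H1_analyticAt h0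
  have aH2 : AnalyticAt ℂ s16f3_H2 0 := s16f3_H2_analyticAt h0
  have ac4 : AnalyticAt ℂ (fun _ : ℂ => (4 : ℂ)) 0 := analyticAt_const
  have ac5 : AnalyticAt ℂ (fun _ : ℂ => (5 : ℂ)) 0 := analyticAt_const
  have ac : AnalyticAt ℂ (fun _ : ℂ => c) 0 := analyticAt_const
  have key : qfT (((fun _ : ℂ => (4 : ℂ)) * cuspFunction 1 E₄) * s16f3_H2 -
      (fun _ : ℂ => (5 : ℂ)) * (s16f3_H1 * s16f3_H1)) =
      qfT ((fun _ : ℂ => c) * cuspFunction 1 ModularForm.discriminant) := by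
    refine s28cg_qfT_eq (((ac4.mul a4).mul aH2).sub (ac5.mul (aH1.mul aH1))) (ac.mul aΔ)
      fun z => ?_
    simp only [Pi.mul_apply, Pi.sub_apply]
    rw [s28cg_eq_cusp_delta, s28cg_eq_cusp, ← s16f3_DDE4 z, ← s16f3_DE4 z, ← hc z]
    rfl
  rw [qfT_sub ((ac4.mul a4).mul aH2) (ac5.mul (aH1.mul aH1)), qfT_mul (ac4.mul a4) aH2,
    qfT_mul ac5 (aH1.mul aH1), qfT_mul aH1 aH1, qfT_mul ac4 a4, qfT_mul ac aΔ,
    show s16f3_H2 = (fun q : ℂ => q) * deriv s16f3_H1 from rfl,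
    s28cg_qfT_id_mul_deriv aH1,
    show s16f3_H1 = (fun q : ℂ => q) * deriv (cuspFunction 1 E₄) from rfl,
    s28cg_qfT_id_mul_deriv a4, qfT_const, qfT_const, qfT_const,
    map_ofNat, map_ofNat] at key
  rw [qf_qExpansion_eq, qf_qExpansion_eq]
  exact key

theorem s16f3_map_thetaP {A B : Type*} [CommRing A] [CommRing B] (f : A →+* B)
    (x : PowerSeries A) :
    PowerSeries.map f (s28cg_thetaP x) = s28cg_thetaP (PowerSeries.map f x) := by
  ext n
  rw [PowerSeries.coeff_map, s28cg_thetaP_coeff, s28cg_thetaP_coeff, PowerSeries.coeff_map,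
    map_mul, map_natCast]

theorem s16f3_coeff_zero_thetaP {A : Type*} [CommRing A] (x : PowerSeries A) :
    PowerSeries.coeff 0 (s28cg_thetaP x) = 0 := by
  rw [s28cg_thetaP_coeff]
  simp

theorem s16f3_coeff_one_thetaP {A : Type*} [CommRing A] (x : PowerSeries A) :
    PowerSeries.coeff 1 (s28cg_thetaP x) = PowerSeries.coeff 1 x := by
  rw [s28cg_thetaP_coeff]
  simp

theorem s16f3_coeff_one_mul {A : Type*} [CommRing A] (x y : PowerSeries A) :
    PowerSeries.coeff 1 (x * y) =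
      PowerSeries.coeff 0 x * PowerSeries.coeff 1 y +
        PowerSeries.coeff 1 x * PowerSeries.coeff 0 y := by
  rw [PowerSeries.coeff_mul, Finset.Nat.sum_antidiagonal_eq_sum_range_succ_mk,
    Finset.sum_range_succ, Finset.sum_range_one]

/-- **Second Rankin-Cohen bracket**, for the `q`-expansions over `ℂ`. -/
theorem s16f3_bracket_series :
    4 * qExpansion 1 E₄ * s28cg_thetaP (s28cg_thetaP (qExpansion 1 E₄)) -
        5 * (s28cg_thetaP (qExpansion 1 E₄) * s28cg_thetaP (qExpansion 1 E₄)) =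
      960 * qExpansion 1 ModularForm.discriminant := by
  obtain ⟨c, hc⟩ := s16f3_series_c
  have h1 := congrArg (PowerSeries.coeff 1) hc
  have e0 : PowerSeries.coeff 0 (qExpansion 1 E₄) = 1 := by
    rw [qExpansion_E4, PowerSeries.coeff_map, ModularCurve.eisenstein4, PowerSeries.coeff_mk]
    simp
  have e1 : PowerSeries.coeff 1 (qExpansion 1 E₄) = 240 := by
    rw [qExpansion_E4, PowerSeries.coeff_map, ModularCurve.eisenstein4, PowerSeries.coeff_mk]
    simp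
  have d1 : PowerSeries.coeff 1 (qExpansion 1 ModularForm.discriminant) = 1 := by
    rw [Fermat.Agent.S24.qExpansion_discriminant,
      show (1 : ℕ) = 0 + 1 from rfl, PowerSeries.coeff_succ_X_mul, PowerSeries.coeff_map,
      PowerSeries.coeff_zero_eq_constantCoeff, ModularCurve.constantCoeff_dedekindEtaUnit]
    simp
  have hC4 : (4 : PowerSeries ℂ) = PowerSeries.C (4 : ℂ) := (map_ofNat _ 4).symm
  have hC5 : (5 : PowerSeries ℂ) = PowerSeries.C (5 : ℂ) := (map_ofNat _ 5).symm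
  rw [map_sub, hC4, hC5, mul_assoc, PowerSeries.coeff_C_mul, PowerSeries.coeff_C_mul,
    PowerSeries.coeff_C_mul, s16f3_coeff_one_mul, s16f3_coeff_one_mul,
    s16f3_coeff_zero_thetaP, s16f3_coeff_one_thetaP, s16f3_coeff_one_thetaP,
    s16f3_coeff_zero_thetaP, e0, e1, d1] at h1
  have hc960 : c = 960 := by linear_combination (-1 : ℂ) * h1
  rw [hc, hc960, map_ofNat]

/-- **Second Rankin-Cohen bracket**, for the integral `q`-expansions. -/
theorem s16f3_bracket_int :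
    4 * ModularCurve.eisenstein4 *
        s28cg_thetaP (s28cg_thetaP ModularCurve.eisenstein4) -
      5 * (s28cg_thetaP ModularCurve.eisenstein4 * s28cg_thetaP ModularCurve.eisenstein4) =
      960 * (PowerSeries.X * ModularCurve.dedekindEtaUnit) := by
  have h := s16f3_bracket_series
  rw [qExpansion_E4, Fermat.Agent.S24.qExpansion_discriminant] at h
  have hL : PowerSeries.map (Int.castRingHom ℂ) (4 * ModularCurve.eisenstein4 *
        s28cg_thetaP (s28cg_thetaP ModularCurve.eisenstein4) -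
      5 * (s28cg_thetaP ModularCurve.eisenstein4 * s28cg_thetaP ModularCurve.eisenstein4)) =
      PowerSeries.map (Int.castRingHom ℂ) (960 * (PowerSeries.X * ModularCurve.dedekindEtaUnit)) := by
    simp only [map_sub, map_mul, map_ofNat, s16f3_map_thetaP, PowerSeries.map_X]
    exact h
  ext n
  apply Int.cast_injective (α := ℂ)
  have h2 := congrArg (PowerSeries.coeff n) hL
  rw [PowerSeries.coeff_map, PowerSeries.coeff_map] at h2
  exact h2

end

end Fermat.Agent.S16
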