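import Fermat.Agent.S16.F3T3

/-!
# S16 / F3b: interface statement of the formal part  (OWNER of the statement: helper2;
producer: `s16f3_formal : s16f3_stmt_formal` in `F3Formal.lean`, helper3)

`G = 1 + 9 g / D` (`D` prime to `3`), `φ = c (E₄ - G²) E₄² / Δ` with `c = (p D)² / 3`:
the expansions of `φ` at `∞` (in `q`) and of `φ ∘ S` (in `s = q^{1/p}`, where
`G ∣ S = -p⁻¹ ∑ a_{pn} s^n`) have integral coefficients, and the first one reduces mod `3` to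
`ξ = -A j`.
-/

set_option autoImplicit false

namespace Fermat.Agent.S16

noncomputable section

open ModularCurve Fermat.Agent.S28

/-- the `q`-expansion of `E₄` as a Laurent series over `ℂ`. -/
def s16f3_E4 : LaurentSeries ℂ :=
  HahnSeries.ofPowerSeries ℤ ℂ (PowerSeries.map (Int.castRingHom ℂ) eisenstein4)

/-- the expansion of `c (E₄ - G²) E₄² / Δ` at level `N` (`N = 1`: at infinity, with `Gs` the
expansion of `G`; `N = p`: for `φ ∘ S`, with `Gs` the expansion of `G ∣ S`). -/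
def s16f3_Xser (N : ℕ) [NeZero N] (c : ℂ) (Gs : PowerSeries ℂ) : LaurentSeries ℂ :=
  HahnSeries.C c * (qExpand ℂ N s16f3_E4 - (HahnSeries.ofPowerSeries ℤ ℂ Gs) ^ 2) *
    (qExpand ℂ N s16f3_E4) ^ 2 * qExpand ℂ N (s28_DeltaInv ℂ)

/-- **the formal part of F3b.** -/
def s16f3_stmt_formal : Prop :=
  ∀ (p : ℕ) [NeZero p] (D : ℕ) (g : ℕ → ℤ) (Gs Gs0 : PowerSeries ℂ),
    ((p : ℕ) : ZMod 3) ≠ 0 → ((D : ℕ) : ZMod 3) ≠ 0 → g 0 = 0 →
    (∀ m : ℕ, (D : ℂ) * PowerSeries.coeff m Gs =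
      (if m = 0 then (D : ℂ) else 0) + 9 * (g m : ℂ)) →
    (∀ n : ℕ, PowerSeries.coeff n Gs0 = -(p : ℂ)⁻¹ * PowerSeries.coeff (p * n) Gs) →
    ∃ x x0 : LaurentSeries ℤ,
      coeffMap (Int.castRingHom ℂ) x = s16f3_Xser 1 (((p : ℂ) * (D : ℂ)) ^ 2 / 3) Gs ∧
      coeffMap (Int.castRingHom ℂ) x0 = s16f3_Xser p (((p : ℂ) * (D : ℂ)) ^ 2 / 3) Gs0 ∧
      coeffMap (Int.castRingHom (ZMod 3)) x = s16f3_xi

end

end Fermat.Agent.S16
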