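import Fermat.Agent.S16.F3FormalDefs
import Fermat.Agent.S28.CAQExp2

/-!
# S16 / F3b: the formal part, expansion at the cusp `0`  (OWNER: helper2; off-main)

`s16f3_formal_zero`: the expansion `c (E₄(s^p) - (G∣S)²) E₄(s^p)² / Δ(s^p)` of `φ ∘ S` in
`s = q^{1/p}` has integral coefficients (`c = (p D)² / 3`, `D G = D + 9 g`,
`G ∣ S = -p⁻¹ ∑ a_{pn} s^n`).
-/

set_option autoImplicit false

namespace Fermat.Agent.S16

noncomputable section

open ModularCurve Fermat.Agent.S28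

theorem s16f3_coeffMap_C {R S : Type*} [CommRing R] [CommRing S] (f : R →+* S) (z : R) :
    coeffMap f (HahnSeries.C z : LaurentSeries R) = HahnSeries.C (f z) := by
  ext n
  simp [HahnSeries.C_apply, HahnSeries.coeff_single]

/-- `E₄ = 1 + 240 A` at level `N`, over `ℂ`. -/
theorem s16f3_E4_level (N : ℕ) [NeZero N] :
    qExpand ℂ N s16f3_E4 = 1 + 240 * qExpand ℂ N (HahnSeries.ofPowerSeries ℤ ℂ
      (PowerSeries.map (Int.castRingHom ℂ) s16f3_A)) := by
  unfold s16f3_E4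
  rw [s16f3_eis_eq, map_add, map_one, map_mul, PowerSeries.map_C, map_add, map_one, map_mul,
    HahnSeries.ofPowerSeries_C, map_add, map_one, map_mul, qExpand_C]
  simp only [map_ofNat]

/-- `E₄(s^N)` has integral coefficients. -/
theorem s16f3_E4_level_int (N : ℕ) [NeZero N] :
    qExpand ℂ N s16f3_E4 = coeffMap (Int.castRingHom ℂ)
      (qExpand ℤ N (HahnSeries.ofPowerSeries ℤ ℤ eisenstein4)) := by
  unfold s16f3_E4
  rw [coeffMap_qExpand, s28cg_coeffMap_ofPowerSeries]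

theorem s16f3_formal_zero (p : ℕ) [NeZero p] (D : ℕ) (g : ℕ → ℤ) (Gs Gs0 : PowerSeries ℂ)
    (hp : ((p : ℕ) : ZMod 3) ≠ 0)
    (hcoef : ∀ m : ℕ, (D : ℂ) * PowerSeries.coeff m Gs =
      (if m = 0 then (D : ℂ) else 0) + 9 * (g m : ℂ))
    (hGs0 : ∀ n : ℕ, PowerSeries.coeff n Gs0 = -(p : ℂ)⁻¹ * PowerSeries.coeff (p * n) Gs) :
    ∃ x0 : LaurentSeries ℤ,
      coeffMap (Int.castRingHom ℂ) x0 = s16f3_Xser p (((p : ℂ) * (D : ℂ)) ^ 2 / 3) Gs0 := by
  have hp0 : (p : ℂ) ≠ 0 := by exact_mod_cast NeZero.ne p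
  -- `3 ∣ p² - 1`
  obtain ⟨k, hk⟩ : ∃ k : ℤ, (p : ℤ) ^ 2 - 1 = 3 * k := by
    have h1 : ((p : ℕ) : ZMod 3) * ((p : ℕ) : ZMod 3) = 1 := s16f3_sq_eq_one _ hp
    have h2 : (((p : ℤ) ^ 2 - 1 : ℤ) : ZMod 3) = 0 := by
      push_cast
      rw [pow_two, h1, sub_self]
    exact (ZMod.intCast_zmod_eq_zero_iff_dvd _ 3).mp h2
  -- the power series identity `p D Gs0 = -(D + 9 g')`
  have hps : PowerSeries.C ((p : ℂ) * (D : ℂ)) * Gs0 =
      -(PowerSeries.C (D : ℂ) + PowerSeries.C (9 : ℂ) *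
        PowerSeries.map (Int.castRingHom ℂ) (PowerSeries.mk fun n => g (p * n))) := by
    ext n
    rw [PowerSeries.coeff_C_mul, map_neg, map_add, PowerSeries.coeff_C_mul, PowerSeries.coeff_map,
      PowerSeries.coeff_mk, PowerSeries.coeff_C, hGs0 n]
    have h1 := hcoef (p * n)
    have h2 : (p * n = 0) ↔ (n = 0) := by
      constructor
      · intro h
        rcases Nat.mul_eq_zero.mp h with h | h
        · exact absurd h (NeZero.ne p)
        · exact h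
      · intro h
        rw [h, mul_zero]
    simp only [h2] at h1
    rw [eq_intCast]
    have h3 : (p : ℂ) * (D : ℂ) * (-(p : ℂ)⁻¹ * PowerSeries.coeff (p * n) Gs) =
        -((D : ℂ) * PowerSeries.coeff (p * n) Gs) := by
      field_simp
    rw [h3, h1]
  have hL := congrArg (HahnSeries.ofPowerSeries ℤ ℂ) hps
  simp only [map_mul, map_neg, map_add, HahnSeries.ofPowerSeries_C] at hL
  -- the witness
  refine ⟨(HahnSeries.C (k * (D : ℤ) ^ 2) +
      HahnSeries.C (80 * (p : ℤ) ^ 2 * (D : ℤ) ^ 2) *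
        qExpand ℤ p (HahnSeries.ofPowerSeries ℤ ℤ s16f3_A) -
      HahnSeries.C (6 * (D : ℤ)) *
        HahnSeries.ofPowerSeries ℤ ℤ (PowerSeries.mk fun n => g (p * n)) -
      HahnSeries.C (27 : ℤ) *
        HahnSeries.ofPowerSeries ℤ ℤ (PowerSeries.mk fun n => g (p * n)) ^ 2) *
      qExpand ℤ p (HahnSeries.ofPowerSeries ℤ ℤ eisenstein4) ^ 2 *
      qExpand ℤ p (s28_DeltaInv ℤ), ?_⟩
  unfold s16f3_Xser
  rw [map_mul, map_mul, map_pow, ← s16f3_E4_level_int, coeffMap_qExpand,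
    s28ca_coeffMap_DeltaInv]
  congr 2
  rw [s16f3_E4_level p]
  simp only [map_sub, map_add, map_mul, map_pow, coeffMap_qExpand,
    s28cg_coeffMap_ofPowerSeries, eq_intCast, map_ofNat, map_intCast,
    map_natCast]
  -- abbreviations
  set a : LaurentSeries ℂ := qExpand ℂ p (HahnSeries.ofPowerSeries ℤ ℂ
      (PowerSeries.map (Int.castRingHom ℂ) s16f3_A)) with ha
  set g' : LaurentSeries ℂ := HahnSeries.ofPowerSeries ℤ ℂ
      (PowerSeries.map (Int.castRingHom ℂ) (PowerSeries.mk fun n => g (p * n))) with hg'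
  set G0 : LaurentSeries ℂ := HahnSeries.ofPowerSeries ℤ ℂ Gs0 with hG0
  have e1 : (HahnSeries.C (((p : ℂ) * (D : ℂ)) ^ 2 / 3) : LaurentSeries ℂ) =
      (p : LaurentSeries ℂ) ^ 2 * (D : LaurentSeries ℂ) ^ 2 * HahnSeries.C (1 / 3 : ℂ) := by
    rw [← map_natCast (HahnSeries.C (Γ := ℤ) (R := ℂ)) p,
      ← map_natCast (HahnSeries.C (Γ := ℤ) (R := ℂ)) D, ← map_pow, ← map_pow, ← map_mul,
      ← map_mul]
    congr 1
    ring
  have h3 : (HahnSeries.C (1 / 3 : ℂ) : LaurentSeries ℂ) * 3 = 1 := by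
    rw [← map_ofNat (HahnSeries.C (Γ := ℤ) (R := ℂ)) 3, ← map_mul]
    have : (1 / 3 : ℂ) * 3 = 1 := by norm_num
    rw [this, map_one]
  have hk' : (3 : LaurentSeries ℂ) * (k : LaurentSeries ℂ) = (p : LaurentSeries ℂ) ^ 2 - 1 := by
    have := congrArg (Int.cast : ℤ → LaurentSeries ℂ) hk
    push_cast at this
    exact this.symm
  simp only [map_ofNat, map_natCast] at hL
  rw [e1]
  set P : LaurentSeries ℂ := (p : LaurentSeries ℂ) with hP
  set Dc : LaurentSeries ℂ := (D : LaurentSeries ℂ) with hDc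
  set t : LaurentSeries ℂ := HahnSeries.C (1 / 3 : ℂ) with ht
  set kc : LaurentSeries ℂ := (k : LaurentSeries ℂ) with hkc
  linear_combination (-(kc * Dc ^ 2 + 80 * P ^ 2 * Dc ^ 2 * a - 6 * Dc * g' - 27 * g' ^ 2)) * h3 +
    (t * Dc ^ 2) * hk' + (t * (P * Dc * G0 - Dc - 9 * g')) * hL

end

end Fermat.Agent.S16
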