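import Fermat.Agent.S16.Defs
import Fermat.Agent.S16.Gen
import Fermat.Agent.S16.GenUse
import Fermat.Agent.S16.TRDefs
import Fermat.Agent.S16.OneMod
import Fermat.Agent.S16.F3Alg
import Fermat.Agent.S16.F3FormalDefs
import Fermat.Agent.S20.Div
import Fermat.Agent.S24.JFun

/-!
# S16 / F3b: `p ≡ 2 mod 3`, no `G ≡ 1 mod 9`  (OWNER: helper2; off-main)

`s16f3_main : s16tr_stmt → s16f3_stmt_formal → s16_stmt_F3b`.

For a counterexample `G` put `φ = c (E₄ - G²) E₄² / Δ`, `c = (p D)² / 3`.  It is holomorphic and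
`Γ₀(p)`-invariant, its expansions at both cusps are integral (formal part), and at infinity it
reduces mod `3` to `ξ = -A j`, a root of the cubic `X³ - j² X - j²` (T3).  By (GEN+) the norm
polynomial of `φ` has coefficients in `ℤ[j]`; the algebraic core `s16f3_alg` gives the
contradiction.
-/

set_option autoImplicit false

open UpperHalfPlane CongruenceSubgroup Function ModularForm EisensteinSeries
open scoped MatrixGroups ModularForm Manifold
open Fermat.Agent.S20 Fermat.Agent.S24 Fermat.Agent.S28 ModularCurve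

namespace Fermat.Agent.S16

noncomputable section

/-- `φ = c (E₄ - g²) E₄² / Δ`. -/
def s16f3_phi (c : ℂ) (g : ℍ → ℂ) (τ : ℍ) : ℂ :=
  c * (E₄ τ - g τ ^ 2) * E₄ τ ^ 2 * (ModularForm.discriminant τ)⁻¹

theorem s16f3_slash_apply (g : ℍ → ℂ) (γ : SL(2, ℤ)) (τ : ℍ) :
    g (γ • τ) = (g ∣[(2 : ℤ)] γ) τ * denom γ τ ^ 2 := by
  have hd : denom γ τ ≠ 0 := denom_ne_zero _ τ
  rw [ModularForm.SL_slash_apply, mul_assoc, ← zpow_natCast, ← zpow_add₀ hd]
  simp

theorem s16f3_E4_smul (γ : SL(2, ℤ)) (τ : ℍ) : E₄ (γ • τ) = denom γ τ ^ 4 * E₄ τ := by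
  rw [div_levelOne_smul E₄ γ τ]
  rfl

theorem s16f3_delta_smul (γ : SL(2, ℤ)) (τ : ℍ) :
    ModularForm.discriminant (γ • τ) = denom γ τ ^ 12 * ModularForm.discriminant τ := by
  rw [jf_delta_smul]
  rfl

theorem s16f3_phi_smul (c : ℂ) (g : ℍ → ℂ) (γ : SL(2, ℤ)) (τ : ℍ) :
    s16f3_phi c g (γ • τ) = s16f3_phi c (g ∣[(2 : ℤ)] γ) τ := by
  have hd : denom γ τ ≠ 0 := denom_ne_zero _ τ
  have hΔ := ModularForm.discriminant_ne_zero τ
  unfold s16f3_phi
  rw [s16f3_slash_apply g γ τ, s16f3_E4_smul, s16f3_delta_smul]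
  field_simp

theorem s16f3_phi_mdiff (c : ℂ) (g : ℍ → ℂ) (hg : MDiff g) : MDiff (s16f3_phi c g) := by
  have h4 : MDiff (⇑E₄) := ModularFormClass.holo E₄
  have hnum : MDiff (fun τ : ℍ => (c * (E₄ τ - g τ ^ 2) * E₄ τ ^ 2 : ℂ)) :=
    ((mdifferentiable_const (c := c)).mul (h4.sub (hg.pow 2))).mul (h4.pow 2)
  have := div_mdifferentiable_divFun _ ModularForm.discriminant hnum jf_delta_mdiff
    (fun z hz => absurd hz (ModularForm.discriminant_ne_zero z))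
    (fun z hz => absurd hz (ModularForm.discriminant_ne_zero z))
  have e : divFun (fun τ : ℍ => (c * (E₄ τ - g τ ^ 2) * E₄ τ ^ 2 : ℂ))
      ModularForm.discriminant = s16f3_phi c g := by
    funext z
    simp only [divFun, if_neg (ModularForm.discriminant_ne_zero z), s16f3_phi]
    ring
  rwa [e] at this

/-- invariance of `φ` under `Γ₀(p)`. -/
theorem s16f3_phi_inv (p : ℕ) (c : ℂ) (G : ModularForm (Gamma0 p) 2) (γ : SL(2, ℤ))
    (hγ : γ ∈ Gamma0 p) (τ : ℍ) : s16f3_phi c G (γ • τ) = s16f3_phi c G τ := by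
  have h := SlashInvariantForm.slash_action_eqn G
    (Matrix.SpecialLinearGroup.mapGL ℝ γ) (Subgroup.mem_map_of_mem _ hγ)
  have h2 : (⇑G ∣[(2 : ℤ)] γ) = ⇑G := h
  rw [s16f3_phi_smul, h2]

/-! ### Expansions -/

theorem s16f3_hasQExp_E4 : s28ca_HasQExp 1 (⇑E₄) s16f3_E4 := by
  have h := s16g_hasQExp_of_levelOne E₄
  rw [qExpansion_E4] at h
  exact h

theorem s16f3_hasQExp_E4_level (N : ℕ) [NeZero N] :
    s28ca_HasQExp N (⇑E₄) (qExpand ℂ N s16f3_E4) :=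
  s28ca_hasQExp_level N N (one_mul N).symm s16f3_hasQExp_E4

theorem s16f3_hasQExp_deltaInv_level (N : ℕ) [NeZero N] :
    s28ca_HasQExp N (fun τ => (ModularForm.discriminant τ)⁻¹)
      (qExpand ℂ N (s28_DeltaInv ℂ)) :=
  s28ca_hasQExp_level N N (one_mul N).symm s28ca_hasQExp_deltaInv

/-- the expansion of `φ` at level `N` from the expansion of `g`. -/
theorem s16f3_phi_hasQExp (N : ℕ) [NeZero N] (c : ℂ) (g : ℍ → ℂ) (Gs : PowerSeries ℂ)
    (hg : s28ca_HasQExp N g (HahnSeries.ofPowerSeries ℤ ℂ Gs)) :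
    s28ca_HasQExp N (s16f3_phi c g) (s16f3_Xser N c Gs) := by
  have h4 := s16f3_hasQExp_E4_level N
  have hΔ := s16f3_hasQExp_deltaInv_level N
  have h1 := s28ca_hasQExp_mul (s28ca_hasQExp_mul (s28ca_hasQExp_mul (s28ca_hasQExp_const N c)
    (s28ca_hasQExp_sub h4 (s28ca_hasQExp_pow hg 2))) (s28ca_hasQExp_pow h4 2)) hΔ
  exact h1

/-! ### The main theorem -/

theorem s16f3_main (hTR : s16tr_stmt) (hF : s16f3_stmt_formal) : s16_stmt_F3b := by
  intro p _ ℓ _ r hp5 hP _ hG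
  obtain ⟨hℓ, hp3, hr⟩ := hP
  subst hℓ
  obtain ⟨G, hG⟩ := hG
  have hp : p.Prime := Fact.out
  obtain ⟨N0, w, hN0, hN0', hw0, hw⟩ := s16om_normalise p 3 r G hG
  -- `3 ∤ p`, `3 ∤ N0`
  have hp3' : ((p : ℕ) : ZMod 3) ≠ 0 := by
    rw [Ne, ZMod.natCast_eq_zero_iff]
    omega
  have hD3 : ((N0 : ℕ) : ZMod 3) ≠ 0 := by
    rw [Ne, ZMod.natCast_eq_zero_iff]
    exact hN0'
  obtain ⟨t, rfl⟩ : ∃ t, r = 2 + t := ⟨r - 2, by omega⟩
  have hcoef : ∀ m : ℕ, (N0 : ℂ) * PowerSeries.coeff m (qExpansion 1 G) =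
      (if m = 0 then (N0 : ℂ) else 0) + 9 * (((3 : ℤ) ^ t * w m : ℤ) : ℂ) := by
    intro m
    have := hw m
    rw [show ModularFormClass.qCoeff G m = PowerSeries.coeff m (qExpansion 1 G) from rfl] at this
    rw [this]
    push_cast
    ring
  have hcoef0 : ∀ n : ℕ, PowerSeries.coeff n (s16tr_series p G) =
      -(p : ℂ)⁻¹ * PowerSeries.coeff (p * n) (qExpansion 1 G) := by
    intro n
    rw [s16tr_series, PowerSeries.coeff_mk]
  obtain ⟨x, x0, hx, hx0, hxi⟩ := hF p N0 (fun m => (3 : ℤ) ^ t * w m) (qExpansion 1 G)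
    (s16tr_series p G) hp3' hD3 (by simp [hw0]) hcoef hcoef0
  set c : ℂ := ((p : ℂ) * (N0 : ℂ)) ^ 2 / 3 with hc
  have hinf : s28ca_HasQExp 1 (s16f3_phi c G) (coeffMap (Int.castRingHom ℂ) x) := by
    rw [hx]
    exact s16f3_phi_hasQExp 1 c G _ (s16g_hasQExp_of_modularForm p G)
  have hzero : s28ca_HasQExp p (fun τ => s16f3_phi c G (ModularGroup.S • τ))
      (coeffMap (Int.castRingHom ℂ) x0) := by
    rw [hx0]
    have h1 := s16f3_phi_hasQExp p c _ _ (hTR p G)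
    exact s28ca_hasQExp_congr h1 (fun τ => (s16f3_phi_smul c G ModularGroup.S τ).symm)
  obtain ⟨U, -, -, hmap⟩ := s16g_main_map p hp (s16f3_phi c G)
    (s16f3_phi_mdiff c G (ModularFormClass.holo G))
    (fun γ hγ τ => s16f3_phi_inv p c G γ hγ τ) x x0 hinf hzero (ZMod 3)
  refine s16f3_alg p hp3' _ _ ?_ U hmap
  rw [hxi]
  exact s16f3_T3

end

end Fermat.Agent.S16
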