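import Fermat.Agent.S16.F3Bracket
import Fermat.Agent.S28.NBOrder

/-!
# S16 / F3b: the congruence `Δ ≡ A - A³ mod 3`, `A = ∑ σ₃(n) qⁿ`  (OWNER: helper2; off-main)

From the second Rankin-Cohen bracket `Δ = θ²A + 240 A θ²A - 300 (θA)²` and the elementary
congruences `n² σ₃(n) ≡ σ₃(n) - σ₃(n/3) mod 3`.  Consequence (`s16f3_T3`): `ξ = -A j` is a root of
`X³ - j² X - j²` in `𝔽₃⸨q⸩`.
-/

set_option autoImplicit false

namespace Fermat.Agent.S16

noncomputable section

open ModularCurve Fermat.Agent.S28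

/-- `A = ∑_{n ≥ 1} σ₃(n) qⁿ`. -/
def s16f3_A : PowerSeries ℤ :=
  PowerSeries.mk fun n => if n = 0 then 0 else ∑ d ∈ n.divisors, (d : ℤ) ^ 3

theorem s16f3_coeff_A (n : ℕ) :
    PowerSeries.coeff n s16f3_A = if n = 0 then 0 else ∑ d ∈ n.divisors, (d : ℤ) ^ 3 := by
  rw [s16f3_A, PowerSeries.coeff_mk]

theorem s16f3_eis_eq : eisenstein4 = 1 + PowerSeries.C (240 : ℤ) * s16f3_A := by
  ext n
  rw [map_add, PowerSeries.coeff_C_mul, s16f3_coeff_A, eisenstein4, PowerSeries.coeff_mk,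
    PowerSeries.coeff_one]
  split_ifs <;> simp

theorem s16f3_thetaP_eis :
    s28cg_thetaP eisenstein4 = PowerSeries.C (240 : ℤ) * s28cg_thetaP s16f3_A := by
  ext n
  rw [PowerSeries.coeff_C_mul, s28cg_thetaP_coeff, s28cg_thetaP_coeff, s16f3_eis_eq, map_add,
    PowerSeries.coeff_C_mul, PowerSeries.coeff_one]
  split_ifs with h
  · subst h
    simp
  · ring

theorem s16f3_thetaP_C_mul {R : Type*} [CommRing R] (c : R) (x : PowerSeries R) :
    s28cg_thetaP (PowerSeries.C c * x) = PowerSeries.C c * s28cg_thetaP x := by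
  ext n
  rw [PowerSeries.coeff_C_mul, s28cg_thetaP_coeff, s28cg_thetaP_coeff, PowerSeries.coeff_C_mul]
  ring

/-- the exact identity `Δ = θ²A + 240 A θ²A - 300 (θA)²`. -/
theorem s16f3_delta_eq :
    PowerSeries.X * dedekindEtaUnit =
      (1 + PowerSeries.C (240 : ℤ) * s16f3_A) * s28cg_thetaP (s28cg_thetaP s16f3_A) -
        PowerSeries.C (300 : ℤ) * (s28cg_thetaP s16f3_A * s28cg_thetaP s16f3_A) := by
  have h := s16f3_bracket_int
  rw [s16f3_thetaP_eis, s16f3_thetaP_C_mul, s16f3_eis_eq] at h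
  have h960 : (960 : PowerSeries ℤ) ≠ 0 := by
    intro h0
    have := congrArg (PowerSeries.coeff 0) h0
    rw [show (960 : PowerSeries ℤ) = PowerSeries.C (960 : ℤ) from (map_ofNat _ 960).symm,
      PowerSeries.coeff_zero_C] at this
    simp at this
  apply mul_left_cancel₀ h960
  rw [← h]
  have e240 : (PowerSeries.C (240 : ℤ) : PowerSeries ℤ) = 240 := map_ofNat _ 240
  have e300 : (PowerSeries.C (300 : ℤ) : PowerSeries ℤ) = 300 := map_ofNat _ 300
  rw [e240, e300]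
  ring

/-! ### Reduction mod 3 -/

/-- `A mod 3`. -/
def s16f3_Abar : PowerSeries (ZMod 3) := PowerSeries.map (Int.castRingHom (ZMod 3)) s16f3_A

theorem s16f3_delta_mod3 :
    PowerSeries.X * PowerSeries.map (Int.castRingHom (ZMod 3)) dedekindEtaUnit =
      s28cg_thetaP (s28cg_thetaP s16f3_Abar) := by
  have h := congrArg (PowerSeries.map (Int.castRingHom (ZMod 3))) s16f3_delta_eq
  rw [map_mul, PowerSeries.map_X, map_sub, map_mul, map_add, map_one, map_mul, map_mul,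
    PowerSeries.map_C, PowerSeries.map_C, s16f3_map_thetaP, s16f3_map_thetaP] at h
  have e240 : (Int.castRingHom (ZMod 3)) 240 = 0 := by decide
  have e300 : (Int.castRingHom (ZMod 3)) 300 = 0 := by decide
  rw [e240, e300, map_zero, zero_mul, zero_mul, add_zero, one_mul, sub_zero] at h
  exact h

/-- Frobenius on `𝔽₃⟦q⟧`. -/
theorem s16f3_coeff_cube (x : PowerSeries (ZMod 3)) (n : ℕ) :
    PowerSeries.coeff n (x ^ 3) = if 3 ∣ n then PowerSeries.coeff (n / 3) x else 0 := by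
  have h1 : PowerSeries.coeff n (x ^ 3) =
      PowerSeries.coeff n ((PowerSeries.trunc (n + 1) x : PowerSeries (ZMod 3)) ^ 3) := by
    rw [← PowerSeries.coeff_coe_trunc_of_lt (Nat.lt_succ_self n) (f := x ^ 3),
      ← PowerSeries.trunc_trunc_pow, PowerSeries.coeff_coe_trunc_of_lt (Nat.lt_succ_self n)]
  rw [h1, ← Polynomial.coe_pow, Polynomial.coeff_coe, ← ZMod.expand_card,
    Polynomial.coeff_expand (by norm_num)]
  split_ifs with h
  · rw [PowerSeries.coeff_trunc, if_pos]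
    exact lt_of_le_of_lt (Nat.div_le_self n 3) (Nat.lt_succ_self n)
  · rfl

theorem s16f3_sq_eq_one (x : ZMod 3) (hx : x ≠ 0) : x * x = 1 := by
  revert x
  decide

/-- `σ₃(3 m) ≡ σ₃(m) mod 3`. -/
theorem s16f3_sigma_three_mul (m : ℕ) (hm : m ≠ 0) :
    ((∑ d ∈ (3 * m).divisors, (d : ℤ) ^ 3 : ℤ) : ZMod 3) =
      ((∑ d ∈ m.divisors, (d : ℤ) ^ 3 : ℤ) : ZMod 3) := by
  classical
  have h3m : 3 * m ≠ 0 := by omega
  rw [← Finset.sum_filter_add_sum_filter_not (3 * m).divisors (fun d => d ∣ m)]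
  have hf : (3 * m).divisors.filter (fun d => d ∣ m) = m.divisors := by
    ext d
    simp only [Finset.mem_filter, Nat.mem_divisors]
    constructor
    · rintro ⟨-, h⟩
      exact ⟨h, hm⟩
    · rintro ⟨h, -⟩
      exact ⟨⟨Dvd.dvd.mul_left h 3, h3m⟩, h⟩
  rw [hf]
  push_cast
  have hz : ∑ d ∈ (3 * m).divisors.filter (fun d => ¬ d ∣ m), ((d : ZMod 3)) ^ 3 = 0 := by
    apply Finset.sum_eq_zero
    intro d hd
    simp only [Finset.mem_filter, Nat.mem_divisors] at hd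
    have h3 : 3 ∣ d := by
      by_contra hnd
      have hcop : Nat.Coprime d 3 := by
        rw [Nat.coprime_comm]
        exact (Nat.Prime.coprime_iff_not_dvd Nat.prime_three).mpr hnd
      exact hd.2 (hcop.dvd_of_dvd_mul_left hd.1.1)
    have : (d : ZMod 3) = 0 := (ZMod.natCast_eq_zero_iff d 3).mpr h3
    rw [this]
    simp
  rw [hz, add_zero]

/-- the elementary congruence `n² σ₃(n) ≡ σ₃(n) - σ₃(n/3) mod 3`. -/
theorem s16f3_theta_sq_Abar :
    s28cg_thetaP (s28cg_thetaP s16f3_Abar) = s16f3_Abar - s16f3_Abar ^ 3 := by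
  ext n
  rw [s28cg_thetaP_coeff, s28cg_thetaP_coeff, map_sub, s16f3_coeff_cube]
  by_cases h3 : 3 ∣ n
  · rw [if_pos h3]
    have hn0 : (n : ZMod 3) = 0 := (ZMod.natCast_eq_zero_iff n 3).mpr h3
    rw [hn0, zero_mul]
    obtain ⟨m, rfl⟩ := h3
    rw [Nat.mul_div_cancel_left m (by norm_num), s16f3_Abar, PowerSeries.coeff_map,
      PowerSeries.coeff_map, s16f3_coeff_A, s16f3_coeff_A]
    by_cases hm : m = 0
    · subst hm
      simp
    · rw [if_neg hm, if_neg (by omega)]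
      have := s16f3_sigma_three_mul m hm
      simp only [eq_intCast]
      rw [this, sub_self]
  · rw [if_neg h3, sub_zero]
    have hn0 : (n : ZMod 3) ≠ 0 := fun h => h3 ((ZMod.natCast_eq_zero_iff n 3).mp h)
    rw [← mul_assoc, s16f3_sq_eq_one _ hn0, one_mul]

/-- **(T3)** `Δ ≡ A - A³ mod 3`. -/
theorem s16f3_T3_ps :
    PowerSeries.X * PowerSeries.map (Int.castRingHom (ZMod 3)) dedekindEtaUnit =
      s16f3_Abar - s16f3_Abar ^ 3 :=
  s16f3_delta_mod3.trans s16f3_theta_sq_Abar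

/-! ### The cubic equation in `𝔽₃⸨q⸩` -/

/-- `A mod 3` as a Laurent series. -/
def s16f3_a : LaurentSeries (ZMod 3) := HahnSeries.ofPowerSeries ℤ (ZMod 3) s16f3_Abar

/-- `ξ = -A j`. -/
def s16f3_xi : LaurentSeries (ZMod 3) := -(s16f3_a * jqModC (ZMod 3))

theorem s16f3_map_eis : PowerSeries.map (Int.castRingHom (ZMod 3)) eisenstein4 = 1 := by
  rw [s16f3_eis_eq, map_add, map_one, map_mul, PowerSeries.map_C]
  have e240 : (Int.castRingHom (ZMod 3)) 240 = 0 := by decide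
  rw [e240, map_zero, zero_mul, add_zero]

theorem s16f3_jq_eq : jqModC (ZMod 3) = s28_DeltaInv (ZMod 3) := by
  unfold jqModC s28_DeltaInv
  rw [jNum, map_mul, map_pow, s16f3_map_eis, one_pow, one_mul]

theorem s16f3_Delta_eq : s28_Delta (ZMod 3) = s16f3_a - s16f3_a ^ 3 := by
  unfold s28_Delta s16f3_a
  rw [← map_pow, ← map_sub, ← s16f3_T3_ps, map_mul, HahnSeries.ofPowerSeries_X]

/-- **(T3)**: `ξ = -A j` is a root of `X³ - j² X - j²` in `𝔽₃⸨q⸩`. -/
theorem s16f3_T3 :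
    s16f3_xi ^ 3 - jqModC (ZMod 3) ^ 2 * s16f3_xi - jqModC (ZMod 3) ^ 2 = 0 := by
  have hΔ := s16f3_Delta_eq
  have hJΔ : s28_Delta (ZMod 3) * jqModC (ZMod 3) = 1 := by
    rw [s16f3_jq_eq]
    exact s28nb_Delta_mul_inv (A := ZMod 3)
  unfold s16f3_xi
  linear_combination jqModC (ZMod 3) ^ 2 * hJΔ - jqModC (ZMod 3) ^ 3 * hΔ

end

end Fermat.Agent.S16
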