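import Fermat.Agent.S16.R1Series
import Fermat.Agent.S24.JFun

/-!
# S16 / F2c (node R1): the two weight-zero functions

For `g : ℍ → ℂ` ("weight `2`") and a constant `c`:
`P₃ = ((g² - c² E₄)/16)³ / Δ` and `P₂ = ((2 c g E₄² - g² E₆ - c² E₄ E₆)/64)⁶ / Δ⁵`.

* `s16r1_P3_smul`, `s16r1_P2_smul`: `P(γ τ) = P[g ∣[2] γ](τ)` for `γ ∈ SL₂(ℤ)`;
* `s16r1_P3_mdiff`, `s16r1_P2_mdiff`: holomorphy;
* `s16r1_P3_hasQExp`, `s16r1_P2_hasQExp`: integral expansions.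
-/

set_option autoImplicit false
set_option linter.style.haveILetI false

namespace Fermat.Agent.S16R1

open UpperHalfPlane CongruenceSubgroup Function ModularForm EisensteinSeries
open scoped MatrixGroups ModularForm Manifold
open Fermat.Agent.S20 Fermat.Agent.S24 Fermat.Agent.S28 ModularCurve

local notation "𝕢" => Function.Periodic.qParam

/-- `((g² - c² E₄)/16)³ / Δ`. -/
noncomputable def s16r1_P3 (c : ℂ) (g : ℍ → ℂ) (τ : ℍ) : ℂ :=
  ((g τ ^ 2 - c ^ 2 * E₄ τ) / 16) ^ 3 / ModularForm.discriminant τ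

/-- `((2 c g E₄² - g² E₆ - c² E₄ E₆)/64)⁶ / Δ⁵`. -/
noncomputable def s16r1_P2 (c : ℂ) (g : ℍ → ℂ) (τ : ℍ) : ℂ :=
  ((2 * c * g τ * E₄ τ ^ 2 - g τ ^ 2 * E₆ τ - c ^ 2 * (E₄ τ * E₆ τ)) / 64) ^ 6
    / ModularForm.discriminant τ ^ 5

theorem s16r1_slash_apply (g : ℍ → ℂ) (γ : SL(2, ℤ)) (τ : ℍ) :
    g (γ • τ) = (g ∣[(2 : ℤ)] γ) τ * denom γ τ ^ 2 := by
  have hd : denom γ τ ≠ 0 := denom_ne_zero _ τ
  rw [ModularForm.SL_slash_apply, mul_assoc, ← zpow_natCast, ← zpow_add₀ hd]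
  simp

theorem s16r1_E4_smul (γ : SL(2, ℤ)) (τ : ℍ) : E₄ (γ • τ) = denom γ τ ^ 4 * E₄ τ := by
  rw [div_levelOne_smul E₄ γ τ]
  rfl

theorem s16r1_E6_smul (γ : SL(2, ℤ)) (τ : ℍ) : E₆ (γ • τ) = denom γ τ ^ 6 * E₆ τ := by
  rw [div_levelOne_smul E₆ γ τ]
  rfl

theorem s16r1_delta_smul (γ : SL(2, ℤ)) (τ : ℍ) :
    ModularForm.discriminant (γ • τ) = denom γ τ ^ 12 * ModularForm.discriminant τ := by
  rw [jf_delta_smul]
  rfl

theorem s16r1_P3_smul (c : ℂ) (g : ℍ → ℂ) (γ : SL(2, ℤ)) (τ : ℍ) :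
    s16r1_P3 c g (γ • τ) = s16r1_P3 c (g ∣[(2 : ℤ)] γ) τ := by
  have hd : denom γ τ ≠ 0 := denom_ne_zero _ τ
  have hΔ := ModularForm.discriminant_ne_zero τ
  unfold s16r1_P3
  rw [s16r1_slash_apply g γ τ, s16r1_E4_smul, s16r1_delta_smul]
  field_simp

theorem s16r1_P2_smul (c : ℂ) (g : ℍ → ℂ) (γ : SL(2, ℤ)) (τ : ℍ) :
    s16r1_P2 c g (γ • τ) = s16r1_P2 c (g ∣[(2 : ℤ)] γ) τ := by
  have hd : denom γ τ ≠ 0 := denom_ne_zero _ τ
  have hΔ := ModularForm.discriminant_ne_zero τ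
  unfold s16r1_P2
  rw [s16r1_slash_apply g γ τ, s16r1_E4_smul, s16r1_E6_smul, s16r1_delta_smul]
  field_simp

theorem s16r1_P3_mdiff (c : ℂ) (g : ℍ → ℂ) (hg : MDiff g) : MDiff (s16r1_P3 c g) := by
  have h4 : MDiff (⇑E₄) := ModularFormClass.holo E₄
  have hnum : MDiff (fun τ : ℍ => (((g τ ^ 2 - c ^ 2 * E₄ τ) * (1 / 16)) ^ 3 : ℂ)) :=
    ((((hg.pow 2).sub ((mdifferentiable_const (c := c ^ 2)).mul h4)).mul
      (mdifferentiable_const (c := (1 / 16 : ℂ)))).pow 3)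
  have := div_mdifferentiable_divFun _ ModularForm.discriminant hnum jf_delta_mdiff
    (fun z hz => absurd hz (ModularForm.discriminant_ne_zero z))
    (fun z hz => absurd hz (ModularForm.discriminant_ne_zero z))
  have e : divFun (fun τ : ℍ => (((g τ ^ 2 - c ^ 2 * E₄ τ) * (1 / 16)) ^ 3 : ℂ))
      ModularForm.discriminant = s16r1_P3 c g := by
    funext z
    simp only [divFun, if_neg (ModularForm.discriminant_ne_zero z), s16r1_P3]
    ring
  rwa [e] at this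

theorem s16r1_P2_mdiff (c : ℂ) (g : ℍ → ℂ) (hg : MDiff g) : MDiff (s16r1_P2 c g) := by
  have h4 : MDiff (⇑E₄) := ModularFormClass.holo E₄
  have h6 : MDiff (⇑E₆) := ModularFormClass.holo E₆
  have hΔ5 : MDiff (fun τ : ℍ => (ModularForm.discriminant τ ^ 5 : ℂ)) := jf_delta_mdiff.pow 5
  have hnum : MDiff (fun τ : ℍ => (((2 * c * g τ * E₄ τ ^ 2 - g τ ^ 2 * E₆ τ -
      c ^ 2 * (E₄ τ * E₆ τ)) * (1 / 64)) ^ 6 : ℂ)) :=
    (((((((mdifferentiable_const (c := 2 * c)).mul hg).mul (h4.pow 2)).sub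
      ((hg.pow 2).mul h6)).sub ((mdifferentiable_const (c := c ^ 2)).mul (h4.mul h6))).mul
      (mdifferentiable_const (c := (1 / 64 : ℂ)))).pow 6)
  have hne : ∀ z : ℍ, ModularForm.discriminant z ^ 5 ≠ 0 :=
    fun z => pow_ne_zero 5 (ModularForm.discriminant_ne_zero z)
  have := div_mdifferentiable_divFun _ (fun τ => ModularForm.discriminant τ ^ 5) hnum hΔ5
    (fun z hz => absurd hz (hne z)) (fun z hz => absurd hz (hne z))
  have e : divFun (fun τ : ℍ => (((2 * c * g τ * E₄ τ ^ 2 - g τ ^ 2 * E₆ τ -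
      c ^ 2 * (E₄ τ * E₆ τ)) * (1 / 64)) ^ 6 : ℂ)) (fun τ => ModularForm.discriminant τ ^ 5) =
      s16r1_P2 c g := by
    funext z
    simp only [divFun, if_neg (hne z), s16r1_P2]
    ring
  rwa [e] at this

/-! ### expansions -/

theorem s16r1_C_intCast (n : ℤ) :
    (HahnSeries.C ((n : ℤ) : ℂ) : LaurentSeries ℂ) =
      coeffMap (Int.castRingHom ℂ) ((n : ℤ) : LaurentSeries ℤ) := by
  rw [map_intCast, map_intCast]

theorem s16r1_C_inv_ofNat (n : ℕ) [n.AtLeastTwo] :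
    (OfNat.ofNat n : LaurentSeries ℂ) * HahnSeries.C (1 / (OfNat.ofNat n : ℂ)) = 1 := by
  have e : (OfNat.ofNat n : LaurentSeries ℂ) = HahnSeries.C (OfNat.ofNat n : ℂ) :=
    (map_ofNat (HahnSeries.C (Γ := ℤ) (R := ℂ)) n).symm
  rw [e, ← map_mul]
  have : (OfNat.ofNat n : ℂ) * (1 / (OfNat.ofNat n : ℂ)) = 1 := by
    have h0 : (OfNat.ofNat n : ℂ) ≠ 0 := OfNat.ofNat_ne_zero n
    field_simp
  rw [this, map_one]

/-- `E₄` at level `N`. -/
theorem s16r1_hasQExp_E4_level (N : ℕ) [NeZero N] :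
    s28ca_HasQExp N (⇑E₄)
      (coeffMap (Int.castRingHom ℂ) (1 + 16 * qExpand ℤ N s16r1_aZ)) := by
  have h := s28ca_hasQExp_level N N (one_mul N).symm s16r1_hasQExp_E4
  rw [← ModularCurve.coeffMap_qExpand] at h
  simpa only [map_add, map_mul, map_one, map_ofNat] using h

/-- `E₆` at level `N`. -/
theorem s16r1_hasQExp_E6_level (N : ℕ) [NeZero N] :
    s28ca_HasQExp N (⇑E₆)
      (coeffMap (Int.castRingHom ℂ) (1 + 8 * qExpand ℤ N s16r1_bZ)) := by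
  have h := s28ca_hasQExp_level N N (one_mul N).symm s16r1_hasQExp_E6
  rw [← ModularCurve.coeffMap_qExpand] at h
  simpa only [map_add, map_mul, map_one, map_ofNat] using h

/-- `Δ⁻¹` at level `N`. -/
theorem s16r1_hasQExp_deltaInv_level (N : ℕ) [NeZero N] :
    s28ca_HasQExp N (fun τ => (ModularForm.discriminant τ)⁻¹)
      (coeffMap (Int.castRingHom ℂ) (qExpand ℤ N (s28_DeltaInv ℤ))) := by
  have h := s28ca_hasQExp_level N N (one_mul N).symm s28ca_hasQExp_deltaInv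
  rw [← s28ca_coeffMap_DeltaInv (Int.castRingHom ℂ), ← ModularCurve.coeffMap_qExpand] at h
  exact h

/-- the relation at level `N`. -/
theorem s16r1_rel_level (N : ℕ) [NeZero N] :
    1728 * qExpand ℤ N (s28_Delta ℤ) =
      (1 + 16 * qExpand ℤ N s16r1_aZ) ^ 3 - (1 + 8 * qExpand ℤ N s16r1_bZ) ^ 2 := by
  have h := congrArg (qExpand ℤ N) s16r1_rel
  simpa only [map_add, map_sub, map_mul, map_pow, map_one, map_ofNat] using h

theorem s16r1_rel4_level (N : ℕ) [NeZero N] :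
    3 * qExpand ℤ N s16r1_aZ - qExpand ℤ N s16r1_bZ =
      4 * (27 * qExpand ℤ N (s28_Delta ℤ) - 12 * qExpand ℤ N s16r1_aZ ^ 2
        - 64 * qExpand ℤ N s16r1_aZ ^ 3 + qExpand ℤ N s16r1_bZ ^ 2) := by
  have h := congrArg (qExpand ℤ N) s16r1_rel4
  simpa only [map_add, map_sub, map_mul, map_pow, map_one, map_ofNat] using h

/-- the integral expansion of `P₃`. -/
theorem s16r1_P3_hasQExp (N : ℕ) [NeZero N] (k : ℤ) (g : ℍ → ℂ) (hZ : LaurentSeries ℤ)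
    (hg : s28ca_HasQExp N g (coeffMap (Int.castRingHom ℂ) (-1 - 8 * hZ))) :
    s28ca_HasQExp N (s16r1_P3 ((8 * k - 1 : ℤ) : ℂ) g)
      (coeffMap (Int.castRingHom ℂ)
        (s16r1_t0 hZ (k : LaurentSeries ℤ) (qExpand ℤ N s16r1_aZ) ^ 3 *
          qExpand ℤ N (s28_DeltaInv ℤ))) := by
  set c : ℂ := ((8 * k - 1 : ℤ) : ℂ) with hc
  have h1 := s28ca_hasQExp_mul (s28ca_hasQExp_pow (s28ca_hasQExp_mul (s28ca_hasQExp_sub
    (s28ca_hasQExp_pow hg 2)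
    (s28ca_hasQExp_mul (s28ca_hasQExp_pow (s28ca_hasQExp_const N c) 2)
      (s16r1_hasQExp_E4_level N))) (s28ca_hasQExp_const N (1 / 16 : ℂ))) 3)
    (s16r1_hasQExp_deltaInv_level N)
  have h2 := s28ca_hasQExp_congr h1 (g' := s16r1_P3 c g) (fun τ => by
    unfold s16r1_P3
    ring)
  have key : (coeffMap (Int.castRingHom ℂ) (-1 - 8 * hZ) ^ 2 -
      HahnSeries.C c ^ 2 *
        coeffMap (Int.castRingHom ℂ) (1 + 16 * qExpand ℤ N s16r1_aZ)) *
      HahnSeries.C (1 / 16 : ℂ) =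
      coeffMap (Int.castRingHom ℂ)
        (s16r1_t0 hZ (k : LaurentSeries ℤ) (qExpand ℤ N s16r1_aZ)) := by
    have e1 : (HahnSeries.C c : LaurentSeries ℂ) =
        coeffMap (Int.castRingHom ℂ) (8 * (k : LaurentSeries ℤ) - 1) := by
      rw [hc, s16r1_C_intCast]
      congr 1
      push_cast
      ring
    rw [e1, ← map_pow, ← map_pow, ← map_mul, ← map_sub, s16r1_t0_eq, map_mul, map_ofNat]
    linear_combination (coeffMap (Int.castRingHom ℂ)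
        (s16r1_t0 hZ (k : LaurentSeries ℤ) (qExpand ℤ N s16r1_aZ))) * s16r1_C_inv_ofNat 16
  rw [key, ← map_pow, ← map_mul] at h2
  exact h2

/-- the integral expansion of `P₂`. -/
theorem s16r1_P2_hasQExp (N : ℕ) [NeZero N] (k : ℤ) (g : ℍ → ℂ) (hZ : LaurentSeries ℤ)
    (hg : s28ca_HasQExp N g (coeffMap (Int.castRingHom ℂ) (-1 - 8 * hZ))) :
    s28ca_HasQExp N (s16r1_P2 ((8 * k - 1 : ℤ) : ℂ) g)
      (coeffMap (Int.castRingHom ℂ)
        (s16r1_K0 hZ (k : LaurentSeries ℤ) (qExpand ℤ N s16r1_aZ) (qExpand ℤ N s16r1_bZ)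
            (qExpand ℤ N (s28_Delta ℤ)) ^ 6 *
          qExpand ℤ N (s28_DeltaInv ℤ) ^ 5)) := by
  set c : ℂ := ((8 * k - 1 : ℤ) : ℂ) with hc
  have hE4 := s16r1_hasQExp_E4_level N
  have hE6 := s16r1_hasQExp_E6_level N
  have hC := s28ca_hasQExp_const N c
  have h1 := s28ca_hasQExp_mul (s28ca_hasQExp_pow (s28ca_hasQExp_mul (s28ca_hasQExp_sub
    (s28ca_hasQExp_sub
      (s28ca_hasQExp_mul (s28ca_hasQExp_mul
        (s28ca_hasQExp_mul (s28ca_hasQExp_const N (2 : ℂ)) hC) hg) (s28ca_hasQExp_pow hE4 2))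
      (s28ca_hasQExp_mul (s28ca_hasQExp_pow hg 2) hE6))
    (s28ca_hasQExp_mul (s28ca_hasQExp_pow hC 2) (s28ca_hasQExp_mul hE4 hE6)))
    (s28ca_hasQExp_const N (1 / 64 : ℂ))) 6)
    (s28ca_hasQExp_pow (s16r1_hasQExp_deltaInv_level N) 5)
  have h2 := s28ca_hasQExp_congr h1 (g' := s16r1_P2 c g) (fun τ => by
    unfold s16r1_P2
    have hΔ := ModularForm.discriminant_ne_zero τ
    field_simp)
  have e2 : (HahnSeries.C (2 : ℂ) : LaurentSeries ℂ) = 2 :=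
    map_ofNat (HahnSeries.C (Γ := ℤ) (R := ℂ)) 2
  have key : (HahnSeries.C (2 : ℂ) * HahnSeries.C c *
        coeffMap (Int.castRingHom ℂ) (-1 - 8 * hZ) *
        coeffMap (Int.castRingHom ℂ) (1 + 16 * qExpand ℤ N s16r1_aZ) ^ 2 -
      coeffMap (Int.castRingHom ℂ) (-1 - 8 * hZ) ^ 2 *
        coeffMap (Int.castRingHom ℂ) (1 + 8 * qExpand ℤ N s16r1_bZ) -
      HahnSeries.C c ^ 2 *
        (coeffMap (Int.castRingHom ℂ) (1 + 16 * qExpand ℤ N s16r1_aZ) *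
          coeffMap (Int.castRingHom ℂ) (1 + 8 * qExpand ℤ N s16r1_bZ))) *
      HahnSeries.C (1 / 64 : ℂ) =
      coeffMap (Int.castRingHom ℂ)
        (s16r1_K0 hZ (k : LaurentSeries ℤ) (qExpand ℤ N s16r1_aZ) (qExpand ℤ N s16r1_bZ)
            (qExpand ℤ N (s28_Delta ℤ))) := by
    have e1 : (HahnSeries.C c : LaurentSeries ℂ) =
        coeffMap (Int.castRingHom ℂ) (8 * (k : LaurentSeries ℤ) - 1) := by
      rw [hc, s16r1_C_intCast]
      congr 1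
      push_cast
      ring
    have e3 : (2 : LaurentSeries ℂ) = coeffMap (Int.castRingHom ℂ) (2 : LaurentSeries ℤ) :=
      (map_ofNat (coeffMap (Int.castRingHom ℂ)) 2).symm
    rw [e2, e3, e1, ← map_pow, ← map_pow, ← map_pow, ← map_mul, ← map_mul, ← map_mul,
      ← map_mul, ← map_mul, ← map_mul, ← map_sub, ← map_sub,
      s16r1_K0_eq _ _ _ _ _ (s16r1_rel_level N), map_mul, map_ofNat]
    linear_combination (coeffMap (Int.castRingHom ℂ)
        (s16r1_K0 hZ (k : LaurentSeries ℤ) (qExpand ℤ N s16r1_aZ) (qExpand ℤ N s16r1_bZ)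
            (qExpand ℤ N (s28_Delta ℤ)))) * s16r1_C_inv_ofNat 64
  rw [key, ← map_pow, ← map_pow, ← map_mul] at h2
  exact h2

end Fermat.Agent.S16R1
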