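import Mathlib

/-!
# S16 / F2c (node R1): clearing denominators

If `a 0 = 1`, every `a m` (`m ≥ 1`) is a rational number of `2`-adic valuation `≥ 3` (or `0`)
and `D • a` is integral, then for an odd `N₀` the sequence `N₀ • a` is integral and
`≡ 1 mod 8`.
-/

set_option autoImplicit false

namespace Fermat.Agent.S16R1

theorem s16r1_odd_sq (c : ℕ) (hc : Odd c) : ∃ w : ℤ, ((c * c : ℕ) : ℤ) = 1 + 8 * w := by
  obtain ⟨j, rfl⟩ := hc
  obtain ⟨t, ht⟩ := Int.even_mul_succ_self (j : ℤ)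
  refine ⟨t, ?_⟩
  push_cast
  have : ((2 * (j : ℤ) + 1) * (2 * j + 1)) = 1 + 4 * ((j : ℤ) * (j + 1)) := by ring
  rw [this, ht]
  ring

theorem s16r1_val_core (e c : ℕ) (hc : Odd c) (x : ℚ) (z : ℤ)
    (hz : ((2 ^ e * c : ℕ) : ℚ) * x = z) (hx : x = 0 ∨ (3 : ℤ) ≤ padicValRat 2 x) :
    ∃ w : ℤ, (c : ℚ) * x = 8 * w := by
  rcases eq_or_ne x 0 with rfl | hx0
  · exact ⟨0, by simp⟩
  have hv : (3 : ℤ) ≤ padicValRat 2 x := by
    rcases hx with h | h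
    · exact absurd h hx0
    · exact h
  have hc0 : c ≠ 0 := by
    rintro rfl
    simp at hc
  have hD0 : ((2 ^ e * c : ℕ) : ℚ) ≠ 0 := by
    have : 2 ^ e * c ≠ 0 := mul_ne_zero (pow_ne_zero _ (by norm_num)) hc0
    exact_mod_cast this
  have hz0 : (z : ℚ) ≠ 0 := by
    rw [← hz]
    exact mul_ne_zero hD0 hx0
  have hzz : z ≠ 0 := by
    intro h
    rw [h] at hz0
    simp at hz0
  have hvD : padicValRat 2 ((2 ^ e * c : ℕ) : ℚ) = e := by
    rw [padicValRat.of_nat]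
    have h2c : ¬ 2 ∣ c := hc.not_two_dvd_nat
    rw [padicValNat.mul (pow_ne_zero _ (by norm_num)) hc0, padicValNat.prime_pow,
      padicValNat.eq_zero_of_not_dvd h2c, add_zero]
  have hvz : ((e + 3 : ℕ) : ℤ) ≤ padicValInt 2 z := by
    have h1 : padicValRat 2 (z : ℚ) = e + padicValRat 2 x := by
      rw [← hz, padicValRat.mul hD0 hx0, hvD]
    rw [padicValRat.of_int] at h1
    have h2 : ((padicValInt 2 z : ℕ) : ℤ) = e + padicValRat 2 x := h1
    push_cast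
    linarith
  have hdvd : ((2 : ℕ) : ℤ) ^ (e + 3) ∣ z := by
    rw [padicValInt_dvd_iff]
    right
    exact_mod_cast hvz
  obtain ⟨w, hw⟩ := hdvd
  refine ⟨w, ?_⟩
  have h2e : ((2 : ℚ) ^ e) ≠ 0 := pow_ne_zero _ (by norm_num)
  have h3 : (2 : ℚ) ^ e * ((c : ℚ) * x) = 2 ^ e * (8 * w) := by
    have : ((2 ^ e * c : ℕ) : ℚ) * x = (2 : ℚ) ^ e * ((c : ℚ) * x) := by
      push_cast
      ring
    rw [← this, hz, hw]
    push_cast
    ring
  exact mul_left_cancel₀ h2e h3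

/-- clearing denominators. -/
theorem s16r1_arith (a : ℕ → ℂ) (r : ℕ) (hr : 3 ≤ r) (h0 : a 0 = 1)
    (h1 : ∀ m : ℕ, 1 ≤ m → ∃ x : ℚ, a m = (x : ℂ) ∧ (x = 0 ∨ (r : ℤ) ≤ padicValRat 2 x))
    (hD : ∃ D : ℕ, 0 < D ∧ ∀ m : ℕ, ∃ z : ℤ, (D : ℂ) * a m = (z : ℂ)) :
    ∃ (N0 : ℕ) (w : ℕ → ℤ), Odd N0 ∧
      ∀ m : ℕ, (N0 : ℂ) * a m = (((if m = 0 then 1 else 0) + 8 * w m : ℤ) : ℂ) := by
  obtain ⟨D, hD0, hDz⟩ := hD
  obtain ⟨e, c, hc, rfl⟩ := Nat.exists_eq_two_pow_mul_odd hD0.ne'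
  have key : ∀ m : ℕ, ∃ w : ℤ,
      ((c * c : ℕ) : ℂ) * a m = (((if m = 0 then 1 else 0) + 8 * w : ℤ) : ℂ) := by
    intro m
    rcases Nat.eq_zero_or_pos m with rfl | hm
    · obtain ⟨w, hw⟩ := s16r1_odd_sq c hc
      refine ⟨w, ?_⟩
      rw [h0, mul_one, if_pos rfl, ← hw]
      push_cast
      ring
    · obtain ⟨x, hx, hxv⟩ := h1 m hm
      obtain ⟨z, hz⟩ := hDz m
      have hzq : ((2 ^ e * c : ℕ) : ℚ) * x = z := by
        have : (((2 ^ e * c : ℕ) : ℚ) * x : ℂ) = ((z : ℚ) : ℂ) := by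
          rw [hx] at hz
          push_cast at hz ⊢
          exact hz
        exact_mod_cast this
      have hxv' : x = 0 ∨ (3 : ℤ) ≤ padicValRat 2 x := by
        rcases hxv with h | h
        · exact Or.inl h
        · right
          have : (3 : ℤ) ≤ (r : ℤ) := by exact_mod_cast hr
          linarith
      obtain ⟨w, hw⟩ := s16r1_val_core e c hc x z hzq hxv'
      refine ⟨(c : ℤ) * w, ?_⟩
      rw [if_neg hm.ne', hx]
      have hq : ((c * c : ℕ) : ℚ) * x = ((0 + 8 * ((c : ℤ) * w) : ℤ) : ℚ) := by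
        push_cast
        linear_combination (c : ℚ) * hw
      have := congrArg (fun q : ℚ => (q : ℂ)) hq
      push_cast at this ⊢
      exact this
  choose w hw using key
  exact ⟨c * c, w, hc.mul hc, hw⟩

end Fermat.Agent.S16R1
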