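import Mathlib

/-!
# S16 / F2c (node R1): the formal identities

Pure commutative algebra.  `G = 1 + 8 H`, `E₄ = 1 + 16 a`, `E₆ = 1 + 8 b`,
`1728 Δ = E₄³ - E₆²`.  The companions
`t₄ = (G² - E₄)/16` (weight `4`) and `K = (2 G E₄² - G² E₆ - E₄ E₆)/64` (weight `10`)
are integral, and `K = Δ + t₄² + 2 Z`.  At the other cusp `G` is replaced by `G₀ / p` with
`G₀ = -1 - 8 h`, `p = 8 k - 1`, and `p² t₄`, `p² K` are again integral.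
-/

set_option autoImplicit false

namespace Fermat.Agent.S16R1

variable {R : Type*} [CommRing R]

/-- `t₄ = (G² - E₄)/16`. -/
def s16r1_t (H a : R) : R := H + 4 * H ^ 2 - a

/-- `K = (2 G E₄² - G² E₆ - E₄ E₆)/64`. -/
def s16r1_K (H a b D : R) : R :=
  27 * D - 4 * a ^ 2 - 64 * a ^ 3 + b ^ 2 + 8 * H * a + 64 * H * a ^ 2 - 2 * H * b - H ^ 2
    - 8 * H ^ 2 * b - 2 * a * b

/-- the correction term in `K = Δ + t₄² + 2 Z`. -/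
def s16r1_Z (H a b D : R) : R :=
  13 * D - 2 * a ^ 2 - 32 * a ^ 3 + 4 * H * a + 32 * H * a ^ 2 - H * b - H ^ 2
    - 4 * H ^ 2 * b - a * b - 8 * H ^ 4 - 4 * H ^ 3 + H * a + 4 * H ^ 2 * a
    + (a - 2 * (27 * D - 12 * a ^ 2 - 64 * a ^ 3 + b ^ 2)) * (a + b)

/-- `p² t₄` at the cusp `0`. -/
def s16r1_t0 (h k a : R) : R :=
  h + 4 * h ^ 2 - a - 4 * k ^ 2 - 64 * k ^ 2 * a + k + 16 * k * a

/-- `p² K` at the cusp `0`. -/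
def s16r1_K0 (h k a b D : R) : R :=
  -a + 27 * D - 12 * a ^ 2 - 64 * a ^ 3 + b ^ 2 - 2 * k * h
    + (1 + 8 * h - 8 * k - 64 * k * h) * a + 8 * (1 + 8 * h - 8 * k - 64 * k * h) * a ^ 2
    - h ^ 2 - 2 * h * b - 8 * h ^ 2 * b - 2 * a * b + 4 * k * a + 2 * k * b + 32 * k * a * b
    - k ^ 2 - 16 * k ^ 2 * a - 8 * k ^ 2 * b - 128 * k ^ 2 * a * b

theorem s16r1_t_eq (H a : R) :
    (1 + 8 * H) ^ 2 - (1 + 16 * a) = 16 * s16r1_t H a := by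
  unfold s16r1_t; ring

theorem s16r1_K_eq (H a b D : R) (hrel : 1728 * D = (1 + 16 * a) ^ 3 - (1 + 8 * b) ^ 2) :
    2 * (1 + 8 * H) * (1 + 16 * a) ^ 2 - (1 + 8 * H) ^ 2 * (1 + 8 * b)
      - (1 + 16 * a) * (1 + 8 * b) = 64 * s16r1_K H a b D := by
  unfold s16r1_K
  linear_combination (-1 : R) * hrel

theorem s16r1_K_eq_add (H a b D : R)
    (h4 : 3 * a - b = 4 * (27 * D - 12 * a ^ 2 - 64 * a ^ 3 + b ^ 2)) :
    s16r1_K H a b D = D + s16r1_t H a ^ 2 + 2 * s16r1_Z H a b D := by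
  unfold s16r1_K s16r1_t s16r1_Z
  linear_combination (-(a + b)) * h4

theorem s16r1_t0_eq (h k a : R) :
    (-1 - 8 * h) ^ 2 - (8 * k - 1) ^ 2 * (1 + 16 * a) = 16 * s16r1_t0 h k a := by
  unfold s16r1_t0; ring

theorem s16r1_K0_eq (h k a b D : R) (hrel : 1728 * D = (1 + 16 * a) ^ 3 - (1 + 8 * b) ^ 2) :
    2 * (8 * k - 1) * (-1 - 8 * h) * (1 + 16 * a) ^ 2 - (-1 - 8 * h) ^ 2 * (1 + 8 * b)
      - (8 * k - 1) ^ 2 * ((1 + 16 * a) * (1 + 8 * b)) = 64 * s16r1_K0 h k a b D := by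
  unfold s16r1_K0
  linear_combination (-1 : R) * hrel

/-- the correction term in `K₀ = Δ + t₀² + 2 Z₀`. -/
def s16r1_Z0 (h k a b D : R) : R :=
  -8 * h ^ 4 - 4 * h ^ 3 + 256 * h ^ 2 * k ^ 2 * a + 16 * h ^ 2 * k ^ 2 - 64 * h ^ 2 * k * a
    - 4 * h ^ 2 * k + 4 * h ^ 2 * a - 4 * h ^ 2 * b - h ^ 2 + 64 * h * k ^ 2 * a + 4 * h * k ^ 2
    - 256 * h * k * a ^ 2 - 48 * h * k * a - 2 * h * k + 32 * h * a ^ 2 + 5 * h * a - h * b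
    - 2048 * k ^ 4 * a ^ 2 - 256 * k ^ 4 * a - 8 * k ^ 4 + 1024 * k ^ 3 * a ^ 2 + 128 * k ^ 3 * a
    + 4 * k ^ 3 - 192 * k ^ 2 * a ^ 2 - 64 * k ^ 2 * a * b - 28 * k ^ 2 * a - 4 * k ^ 2 * b - k ^ 2
    - 16 * k * a ^ 2 + 16 * k * a * b - k * a + k * b + 128 * a ^ 4 + 128 * a ^ 3 * b - 8 * a ^ 3
    + 24 * a ^ 2 * b - a ^ 2 - 2 * a * b ^ 2 - 54 * a * D - 2 * b ^ 3 - 54 * b * D + 13 * D

theorem s16r1_K0_eq_add (h k a b D : R)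
    (h4 : 3 * a - b = 4 * (27 * D - 12 * a ^ 2 - 64 * a ^ 3 + b ^ 2)) :
    s16r1_K0 h k a b D = D + s16r1_t0 h k a ^ 2 + 2 * s16r1_Z0 h k a b D := by
  unfold s16r1_K0 s16r1_t0 s16r1_Z0
  linear_combination (-(a + b)) * h4

end Fermat.Agent.S16R1
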