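import Mathlib

/-!
# S16, upper bound at `ℓ = 2` (node R1): the ring-theoretic contradiction

`J` transcendental over a field `F`, `A` the integral closure of `F[J]` in a field `L`.
If `u + v = 1` and some powers of `u` and of `v` lie in `J • A`, we get a contradiction.
(For R1: `L = F((q))`, `J = j mod 2`, `u = x² J`, `v = w J`.)
-/

set_option autoImplicit false

namespace Fermat.Agent.S16R

open Polynomial

/-- `J` is not a unit of `F[J]` when `J` is transcendental. -/
theorem s16r_not_isUnit_gen {F L : Type*} [Field F] [Field L] [Algebra F L] (J : L)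
    (hJ : Transcendental F J) :
    ¬ IsUnit (⟨J, Algebra.subset_adjoin (Set.mem_singleton J)⟩ : Algebra.adjoin F {J}) := by
  intro hunit
  obtain ⟨b, hb⟩ := hunit.exists_right_inv
  have hbmem : (b : L) ∈ (Polynomial.aeval (R := F) J).range := by
    rw [← Algebra.adjoin_singleton_eq_range_aeval]
    exact b.2
  obtain ⟨p, hp⟩ := hbmem
  have h1 : J * (b : L) = 1 := by
    have := congrArg (Subtype.val) hb
    simpa using this
  have h2 : Polynomial.aeval J (X * p - 1 : F[X]) = Polynomial.aeval J (0 : F[X]) := by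
    have hp' : Polynomial.aeval J p = (b : L) := hp
    simp only [map_sub, map_mul, aeval_X, map_one, map_zero, hp', h1, sub_self]
  have h3 : (X * p - 1 : F[X]) = 0 := (transcendental_iff_injective.mp hJ) h2
  have h4 := congrArg (fun r : F[X] => r.coeff 0) h3
  simp at h4

/-- No inverse of `J` is integral over `F[J]`. -/
theorem s16r_no_integral_inv {F L : Type*} [Field F] [Field L] [Algebra F L] (J : L)
    (hJ : Transcendental F J) (c : L) (hc : IsIntegral (Algebra.adjoin F {J}) c)
    (hJc : c * J = 1) : False := by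
  set B := Algebra.adjoin F {J} with hB
  let JB : B := ⟨J, Algebra.subset_adjoin (Set.mem_singleton J)⟩
  have hJB : ¬ IsUnit JB := s16r_not_isUnit_gen J hJ
  have hne : Ideal.span {JB} ≠ ⊤ := fun h => hJB (Ideal.span_singleton_eq_top.mp h)
  obtain ⟨M, hM, hle⟩ := Ideal.exists_le_maximal _ hne
  let A := integralClosure B L
  have hinj : Function.Injective (algebraMap B A) := by
    intro x y hxy
    have := congrArg (fun z : A => (z : L)) hxy
    exact Subtype.ext (by simpa using this)
  have hker : RingHom.ker (algebraMap B A) ≤ M := by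
    rw [(RingHom.injective_iff_ker_eq_bot _).mp hinj]
    exact bot_le
  obtain ⟨Q, hQ, hQM⟩ := Ideal.exists_ideal_over_maximal_of_isIntegral (S := A) M hker
  have hJQ : algebraMap B A JB ∈ Q := by
    have : JB ∈ Ideal.comap (algebraMap B A) Q := by
      rw [hQM]; exact hle (Ideal.subset_span (Set.mem_singleton JB))
    exact this
  let cA : A := ⟨c, hc⟩
  have hone : cA * algebraMap B A JB = 1 := by
    apply Subtype.ext
    show c * J = 1
    exact hJc
  have : (1 : A) ∈ Q := by
    rw [← hone]; exact Q.mul_mem_left cA hJQ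
  exact hQ.ne_top ((Ideal.eq_top_iff_one Q).mpr this)

/-- The ring-theoretic contradiction used for the node R1 of S16. -/
theorem s16r_ring_contra {F L : Type*} [Field F] [Field L] [Algebra F L] (J : L)
    (hJ : Transcendental F J) (u v : L) (k m : ℕ) (huv : u + v = 1)
    (hu : ∃ a : L, IsIntegral (Algebra.adjoin F {J}) a ∧ u ^ k = J * a)
    (hv : ∃ b : L, IsIntegral (Algebra.adjoin F {J}) b ∧ v ^ m = J * b) : False := by
  obtain ⟨a, ha, hua⟩ := hu
  obtain ⟨b, hb, hvb⟩ := hv
  set B := Algebra.adjoin F {J} with hB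
  have hJint : IsIntegral B J :=
    isIntegral_algebraMap (x := (⟨J, Algebra.subset_adjoin (Set.mem_singleton J)⟩ : B))
  rcases Nat.eq_zero_or_pos k with hk | hk
  · subst hk
    exact s16r_no_integral_inv J hJ a ha (by rw [mul_comm, ← hua, pow_zero])
  rcases Nat.eq_zero_or_pos m with hm | hm
  · subst hm
    exact s16r_no_integral_inv J hJ b hb (by rw [mul_comm, ← hvb, pow_zero])
  have hu_int : IsIntegral B u := IsIntegral.of_pow hk (by rw [hua]; exact hJint.mul ha)
  have hv_int : IsIntegral B v := IsIntegral.of_pow hm (by rw [hvb]; exact hJint.mul hb)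
  let A := integralClosure B L
  let uA : A := ⟨u, hu_int⟩
  let vA : A := ⟨v, hv_int⟩
  let JA : A := ⟨J, hJint⟩
  let aA : A := ⟨a, ha⟩
  let bA : A := ⟨b, hb⟩
  have hur : uA ∈ (Ideal.span {JA}).radical := by
    refine Ideal.mem_radical_iff.mpr ⟨k, Ideal.mem_span_singleton'.mpr ⟨aA, ?_⟩⟩
    apply Subtype.ext
    show a * J = u ^ k
    rw [hua, mul_comm]
  have hvr : vA ∈ (Ideal.span {JA}).radical := by
    refine Ideal.mem_radical_iff.mpr ⟨m, Ideal.mem_span_singleton'.mpr ⟨bA, ?_⟩⟩
    apply Subtype.ext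
    show b * J = v ^ m
    rw [hvb, mul_comm]
  have h1 : (1 : A) ∈ (Ideal.span {JA}).radical := by
    have : uA + vA = 1 := Subtype.ext huv
    rw [← this]
    exact Ideal.add_mem _ hur hvr
  have htop : Ideal.span {JA} = ⊤ :=
    Ideal.radical_eq_top.mp ((Ideal.eq_top_iff_one _).mpr h1)
  have h1' : (1 : A) ∈ Ideal.span {JA} := by rw [htop]; trivial
  obtain ⟨c, hc⟩ := Ideal.mem_span_singleton'.mp h1'
  exact s16r_no_integral_inv J hJ (c : L) c.2 (by
    have := congrArg (fun z : A => (z : L)) hc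
    simpa using this)

/-- R1 core, version with `t₄` and `K` (`x = t₄ mod 2`, `x² + J⁻¹ = K mod 2`):
`x³ J` and `(x² + J⁻¹)⁶ J⁵` cannot both be integral over `F[J]`. -/
theorem s16r_core_K {F L : Type*} [Field F] [Field L] [Algebra F L] (J x : L)
    (hJ : Transcendental F J)
    (h3 : IsIntegral (Algebra.adjoin F {J}) (x ^ 3 * J))
    (h2 : IsIntegral (Algebra.adjoin F {J}) ((x ^ 2 + J⁻¹) ^ 6 * J ^ 5)) : False := by
  have hJ0 : J ≠ 0 := by
    rintro rfl
    exact hJ ⟨Polynomial.X, Polynomial.X_ne_zero, by simp⟩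
  refine s16r_ring_contra J hJ ((x ^ 2 + J⁻¹) * J) (-(x ^ 2 * J)) 6 3 ?_
    ⟨(x ^ 2 + J⁻¹) ^ 6 * J ^ 5, h2, by ring⟩ ⟨-(x ^ 3 * J) ^ 2, (h3.pow 2).neg, by ring⟩
  field_simp
  ring

/-- R1 core, version with `a + b = 1`, `a² = J c`, `b³ = J d²` (`c`, `d` integral over `F[J]`). -/
theorem s16r_core_abcd {F L : Type*} [Field F] [Field L] [Algebra F L] (J a b c d : L)
    (hJ : Transcendental F J) (hab : a + b = 1) (ha : a ^ 2 = J * c) (hb : b ^ 3 = J * d ^ 2)
    (hc : IsIntegral (Algebra.adjoin F {J}) c)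
    (hd : IsIntegral (Algebra.adjoin F {J}) d) : False :=
  s16r_ring_contra J hJ a b 2 3 hab ⟨c, hc, ha⟩ ⟨d ^ 2, hd.pow 2, hb⟩

end Fermat.Agent.S16R
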