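import Fermat.Agent.S16.Defs
import Fermat.Agent.S16.GenUse
import Fermat.Agent.S16.RingContra
import Fermat.Agent.S16.R1Analytic
import Fermat.Agent.S16.R1Arith
import Fermat.Agent.S28.VGauss
import Fermat.Agent.S20.Basic

/-!
# S16 / F2c (node R1): no `G ≡ 1 mod 8` in `M₂(Γ₀(p))` for `p ≡ 7 mod 8`

`s16r1_main_of : s16r1_TR1 → s16_stmt_F2c`, where `s16r1_TR1` is the expansion of `G ∣ S`
in `s = q^{1/p}` (node TR).
-/

set_option autoImplicit false
set_option linter.style.haveILetI false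

namespace Fermat.Agent.S16R1

open UpperHalfPlane CongruenceSubgroup Function ModularForm EisensteinSeries
open scoped MatrixGroups ModularForm Manifold
open Fermat.Agent.S20 Fermat.Agent.S24 Fermat.Agent.S28 Fermat.Agent.S16 ModularCurve

local notation "𝕢" => Function.Periodic.qParam

/-- (TR1) the expansion of `G ∣ S` at the cusp `0`, in `s = q^{1/p}`. -/
def s16r1_TR1 : Prop :=
  ∀ (p : ℕ) [Fact p.Prime] (G : ModularForm (Gamma0 p) 2),
    s28ca_HasQExp p (fun τ => ((⇑G) ∣[(2 : ℤ)] ModularGroup.S) τ)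
      (HahnSeries.ofPowerSeries ℤ ℂ
        (PowerSeries.mk fun n => -(p : ℂ)⁻¹ * ModularFormClass.qCoeff G (p * n)))

theorem s16r1_qCoeff_smul (N : ℕ) (c : ℂ) (f : ModularForm (Gamma0 N) 2) (n : ℕ) :
    ModularFormClass.qCoeff ⇑(c • f) n = c * ModularFormClass.qCoeff ⇑f n := by
  have h1 : ⇑(c • f) = c • ⇑f := by
    ext z
    simp
  simp only [ModularFormClass.qCoeff, h1]
  rw [ModularForm.qExpansion_smul one_pos (Fermat.Agent.S22.one_mem_strictPeriods_Gamma0 N) c f]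
  simp

/-- normal form: after scaling, `G₁ = p (1 + 8 H)` with `H ∈ ℤ⟦q⟧`. -/
theorem s16r1_normal (p : ℕ) [Fact p.Prime] (r : ℕ) (hr : 3 ≤ r)
    (G : ModularForm (Gamma0 p) 2)
    (h0 : ModularFormClass.qCoeff G 0 = 1)
    (h1 : ∀ m : ℕ, 1 ≤ m → ∃ x : ℚ, ModularFormClass.qCoeff G m = (x : ℂ) ∧
      (x = 0 ∨ (r : ℤ) ≤ padicValRat 2 x))
    (hD : ∃ D : ℕ, 0 < D ∧ ∀ m : ℕ, ∃ z : ℤ,
      (D : ℂ) * ModularFormClass.qCoeff G m = (z : ℂ)) :
    ∃ (G₁ : ModularForm (Gamma0 p) 2) (H : PowerSeries ℤ),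
      ∀ m : ℕ, ModularFormClass.qCoeff G₁ m =
        (((p : ℤ) * ((if m = 0 then 1 else 0) + 8 * H.coeff m) : ℤ) : ℂ) := by
  obtain ⟨N0, w, -, hw⟩ := s16r1_arith (fun m => ModularFormClass.qCoeff G m) r hr h0 h1 hD
  refine ⟨((p * N0 : ℕ) : ℂ) • G, PowerSeries.mk w, fun m => ?_⟩
  rw [s16r1_qCoeff_smul, PowerSeries.coeff_mk]
  have := hw m
  beta_reduce at this
  push_cast at this ⊢
  rw [mul_assoc, this]

/-- the expansion at `∞`. -/
theorem s16r1_exp_infty (p : ℕ) [Fact p.Prime] (k : ℤ) (hk : (p : ℤ) = 8 * k - 1)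
    (G₁ : ModularForm (Gamma0 p) 2) (H : PowerSeries ℤ)
    (hH : ∀ m : ℕ, ModularFormClass.qCoeff G₁ m =
        (((p : ℤ) * ((if m = 0 then 1 else 0) + 8 * H.coeff m) : ℤ) : ℂ)) :
    s28ca_HasQExp 1 (⇑G₁) (coeffMap (Int.castRingHom ℂ)
      (-1 - 8 * (HahnSeries.ofPowerSeries ℤ ℤ H - (k : LaurentSeries ℤ)
        - 8 * (k : LaurentSeries ℤ) * HahnSeries.ofPowerSeries ℤ ℤ H))) := by
  have h := s16g_hasQExp_of_modularForm p G₁
  have e : HahnSeries.ofPowerSeries ℤ ℂ (qExpansion 1 G₁) =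
      coeffMap (Int.castRingHom ℂ)
      (-1 - 8 * (HahnSeries.ofPowerSeries ℤ ℤ H - (k : LaurentSeries ℤ)
        - 8 * (k : LaurentSeries ℤ) * HahnSeries.ofPowerSeries ℤ ℤ H)) := by
    have e1 : qExpansion 1 G₁ =
        PowerSeries.map (Int.castRingHom ℂ) (((p : ℤ) : PowerSeries ℤ) * (1 + 8 * H)) := by
      ext m
      have e8 : (8 : PowerSeries ℤ) = PowerSeries.C (8 : ℤ) :=
        (map_ofNat (PowerSeries.C (R := ℤ)) 8).symm
      have ep : ((p : ℤ) : PowerSeries ℤ) = PowerSeries.C (p : ℤ) :=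
        (map_intCast (PowerSeries.C (R := ℤ)) (p : ℤ)).symm
      have := hH m
      rw [ModularFormClass.qCoeff] at this
      rw [this, PowerSeries.coeff_map, ep, PowerSeries.coeff_C_mul, map_add, e8,
        PowerSeries.coeff_C_mul, PowerSeries.coeff_one]
      simp
    have e2 : (-1 - 8 * (HahnSeries.ofPowerSeries ℤ ℤ H - (k : LaurentSeries ℤ)
        - 8 * (k : LaurentSeries ℤ) * HahnSeries.ofPowerSeries ℤ ℤ H)) =
        HahnSeries.ofPowerSeries ℤ ℤ (((p : ℤ) : PowerSeries ℤ) * (1 + 8 * H)) := by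
      rw [map_mul, map_add, map_mul, map_one, map_ofNat, map_intCast, hk]
      push_cast
      ring
    rw [e1, e2, coeffMap_ofPowerSeries]
  rw [e] at h
  exact h

/-- the expansion at `0`. -/
theorem s16r1_exp_zero (tr : s16r1_TR1) (p : ℕ) [Fact p.Prime]
    (G₁ : ModularForm (Gamma0 p) 2) (H : PowerSeries ℤ)
    (hH : ∀ m : ℕ, ModularFormClass.qCoeff G₁ m =
        (((p : ℤ) * ((if m = 0 then 1 else 0) + 8 * H.coeff m) : ℤ) : ℂ)) :
    s28ca_HasQExp p (fun τ => ((⇑G₁) ∣[(2 : ℤ)] ModularGroup.S) τ)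
      (coeffMap (Int.castRingHom ℂ)
        (-1 - 8 * HahnSeries.ofPowerSeries ℤ ℤ (PowerSeries.mk fun n => H.coeff (p * n)))) := by
  have h := tr p G₁
  have hp0 : (p : ℂ) ≠ 0 := by
    exact_mod_cast (Fact.out : p.Prime).ne_zero
  have e : HahnSeries.ofPowerSeries ℤ ℂ
        (PowerSeries.mk fun n => -(p : ℂ)⁻¹ * ModularFormClass.qCoeff G₁ (p * n)) =
      coeffMap (Int.castRingHom ℂ)
        (-1 - 8 * HahnSeries.ofPowerSeries ℤ ℤ (PowerSeries.mk fun n => H.coeff (p * n))) := by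
    have e1 : (PowerSeries.mk fun n => -(p : ℂ)⁻¹ * ModularFormClass.qCoeff G₁ (p * n)) =
        PowerSeries.map (Int.castRingHom ℂ)
          (-1 - 8 * (PowerSeries.mk fun n => H.coeff (p * n))) := by
      ext n
      have e8 : (8 : PowerSeries ℤ) = PowerSeries.C (8 : ℤ) :=
        (map_ofNat (PowerSeries.C (R := ℤ)) 8).symm
      rw [PowerSeries.coeff_mk, hH, PowerSeries.coeff_map, map_sub, map_neg, e8,
        PowerSeries.coeff_C_mul, PowerSeries.coeff_one, PowerSeries.coeff_mk, eq_intCast]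
      have hpn : (p * n = 0) ↔ (n = 0) := by
        constructor
        · intro h
          rcases Nat.mul_eq_zero.mp h with h | h
          · exact absurd h (Fact.out : p.Prime).ne_zero
          · exact h
        · rintro rfl
          simp
      by_cases hn : n = 0
      · rw [if_pos (hpn.mpr hn), if_pos hn]
        push_cast
        field_simp
        ring
      · rw [if_neg (fun h => hn (hpn.mp h)), if_neg hn]
        push_cast
        field_simp
        ring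
    have e2 : (-1 - 8 * HahnSeries.ofPowerSeries ℤ ℤ
        (PowerSeries.mk fun n => H.coeff (p * n))) =
        HahnSeries.ofPowerSeries ℤ ℤ (-1 - 8 * (PowerSeries.mk fun n => H.coeff (p * n))) := by
      rw [map_sub, map_neg, map_mul, map_one, map_ofNat]
    rw [e1, e2, coeffMap_ofPowerSeries]
  rw [e] at h
  exact h

/-! ### reduction mod `2` and the contradiction -/

theorem s16r1_two_eq_zero : (2 : LaurentSeries (ZMod 2)) = 0 := by
  have e : (2 : LaurentSeries (ZMod 2)) = HahnSeries.C (2 : ZMod 2) :=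
    (map_ofNat (HahnSeries.C (Γ := ℤ) (R := ZMod 2)) 2).symm
  have h2 : (2 : ZMod 2) = 0 := by decide
  rw [e, h2, map_zero]

theorem s16r1_Delta_mod2 :
    coeffMap (Int.castRingHom (ZMod 2)) (s28_Delta ℤ) = (jqModC (ZMod 2))⁻¹ := by
  rw [s28ca_coeffMap_Delta]
  exact eq_inv_of_mul_eq_one_left s16r1_Delta_mul_j

theorem s16r1_DeltaInv_cm2 :
    coeffMap (Int.castRingHom (ZMod 2)) (s28_DeltaInv ℤ) = jqModC (ZMod 2) := by
  rw [s28ca_coeffMap_DeltaInv, s16r1_DeltaInv_mod2]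

/-- the core: a "weight `2`, level `p`" function with expansions `-1 - 8 h` at both cusps
cannot exist for `p = 8 k - 1`. -/
theorem s16r1_contra (p : ℕ) [Fact p.Prime] (k : ℤ) (g : ℍ → ℂ) (hol : MDiff g)
    (inv : ∀ γ ∈ Gamma0 p, g ∣[(2 : ℤ)] γ = g) (h hS : LaurentSeries ℤ)
    (hinf : s28ca_HasQExp 1 g (coeffMap (Int.castRingHom ℂ) (-1 - 8 * h)))
    (hzero : s28ca_HasQExp p (fun τ => (g ∣[(2 : ℤ)] ModularGroup.S) τ)
      (coeffMap (Int.castRingHom ℂ) (-1 - 8 * hS))) : False := by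
  haveI : NeZero p := ⟨(Fact.out : p.Prime).ne_zero⟩
  have hp : p.Prime := Fact.out
  set c : ℂ := ((8 * k - 1 : ℤ) : ℂ) with hc
  -- the function `P₃`
  have I3 := s16g_isIntegral p hp (s16r1_P3 c g) (s16r1_P3_mdiff c g hol)
    (fun γ hγ τ => by rw [s16r1_P3_smul, inv γ hγ]) _ _
    (s16r1_P3_hasQExp 1 k g h hinf)
    (s28ca_hasQExp_congr (s16r1_P3_hasQExp p k _ hS hzero)
      (fun τ => (s16r1_P3_smul c g ModularGroup.S τ).symm)) (ZMod 2)
  -- the function `P₂`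
  have I2 := s16g_isIntegral p hp (s16r1_P2 c g) (s16r1_P2_mdiff c g hol)
    (fun γ hγ τ => by rw [s16r1_P2_smul, inv γ hγ]) _ _
    (s16r1_P2_hasQExp 1 k g h hinf)
    (s28ca_hasQExp_congr (s16r1_P2_hasQExp p k _ hS hzero)
      (fun τ => (s16r1_P2_smul c g ModularGroup.S τ).symm)) (ZMod 2)
  -- reduction mod 2
  set X : LaurentSeries (ZMod 2) := coeffMap (Int.castRingHom (ZMod 2))
    (s16r1_t0 h (k : LaurentSeries ℤ) s16r1_aZ) with hX
  have hK : coeffMap (Int.castRingHom (ZMod 2))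
      (s16r1_K0 h (k : LaurentSeries ℤ) s16r1_aZ s16r1_bZ (s28_Delta ℤ)) =
      X ^ 2 + (jqModC (ZMod 2))⁻¹ := by
    rw [s16r1_K0_eq_add _ _ _ _ _ s16r1_rel4, map_add, map_add, map_mul, map_pow, map_ofNat,
      s16r1_two_eq_zero, zero_mul, add_zero, s16r1_Delta_mod2, add_comm]
  rw [qExpand_one_apply, qExpand_one_apply, map_mul, map_pow, s16r1_DeltaInv_cm2] at I3
  rw [qExpand_one_apply, qExpand_one_apply, qExpand_one_apply, qExpand_one_apply, map_mul,
    map_pow, map_pow, s16r1_DeltaInv_cm2, hK] at I2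
  exact Fermat.Agent.S16R.s16r_core_K (jqModC (ZMod 2)) X (s28v_jq_transcendental (ZMod 2)) I3 I2

/-- **F2c** from (TR1). -/
theorem s16r1_main_of (tr : s16r1_TR1) : s16_stmt_F2c := by
  intro p _ ℓ _ r _ hP _ hex
  obtain ⟨rfl, h8, hr⟩ := hP
  obtain ⟨G, h0, h1, hD⟩ := hex
  obtain ⟨G₁, H, hH⟩ := s16r1_normal p r hr G h0 h1 hD
  have hk : (p : ℤ) = 8 * (((p : ℤ) + 1) / 8) - 1 := by
    have : ((p : ℤ)) % 8 = 7 := by exact_mod_cast h8
    omega
  exact s16r1_contra p (((p : ℤ) + 1) / 8) (⇑G₁) (ModularFormClass.holo G₁)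
    (fun γ hγ => basic_inv G₁ γ hγ) _ _
    (s16r1_exp_infty p _ hk G₁ H hH) (s16r1_exp_zero tr p G₁ H hH)

end Fermat.Agent.S16R1
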