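import Fermat.Agent.S16.R1Formal
import Fermat.Agent.S28.CAQExp2
import Fermat.Agent.S24.QExpFormal
import Fermat.Agent.S22.Period
import Fermat.Agent.S28.NBOrder

/-!
# S16 / F2c (node R1): the `q`-series of `E₄`, `E₆`, `Δ` and their relation

* `s16r1_hasQExp_of_periodic`: a holomorphic `1`-periodic function bounded at `i∞` has its
  `q`-expansion as `s28ca_HasQExp 1`;
* `E₄ = 1 + 16 a`, `E₆ = 1 + 8 b` with `a, b ∈ ℤ⟦q⟧`;
* `1728 Δ = E₄³ - E₆²` in `ℤ⸨q⸩`.
-/

set_option autoImplicit false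
set_option linter.style.haveILetI false

namespace Fermat.Agent.S16R1

open UpperHalfPlane CongruenceSubgroup Function ModularForm EisensteinSeries
open scoped MatrixGroups ModularForm Manifold
open Fermat.Agent.S24 Fermat.Agent.S28 ModularCurve

local notation "𝕢" => Function.Periodic.qParam

/-- a holomorphic `1`-periodic function bounded at `i∞` has its `q`-expansion. -/
theorem s16r1_hasQExp_of_periodic (f : ℍ → ℂ) (hper : Periodic (f ∘ ofComplex) ((1 : ℝ) : ℂ))
    (hol : MDiff f) (hbdd : IsBoundedAtImInfty f) :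
    s28ca_HasQExp 1 f (HahnSeries.ofPowerSeries ℤ ℂ (qExpansion 1 f)) := by
  refine ⟨0, cuspFunction 1 f, differentiableOn_cuspFunction_ball one_pos hper hol hbdd,
    fun τ => ?_, ?_⟩
  · have := eq_cuspFunction (h := (1 : ℝ)) τ one_ne_zero hper
    simp only [pow_zero, mul_one, Nat.cast_one]
    exact this.symm
  · rw [qf_qExpansion_eq]
    simp

/-- the expansion at `∞` of a modular form on `Γ₀(N)`. -/
theorem s16r1_hasQExp_form (N : ℕ) (k : ℤ) (f : ModularForm (Gamma0 N) k) :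
    s28ca_HasQExp 1 (⇑f) (HahnSeries.ofPowerSeries ℤ ℂ (qExpansion 1 f)) := by
  have h1 := Fermat.Agent.S22.one_mem_strictPeriods_Gamma0 N
  haveI : Fact (IsCusp OnePoint.infty
      ((Gamma0 N).map (Matrix.SpecialLinearGroup.mapGL ℝ))) :=
    ⟨Subgroup.isCusp_of_mem_strictPeriods one_pos h1⟩
  exact s16r1_hasQExp_of_periodic _
    (SlashInvariantFormClass.periodic_comp_ofComplex f h1)
    (ModularFormClass.holo f) (ModularFormClass.bdd_at_infty f)

/-- `(E₄ - 1)/16`. -/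
noncomputable def s16r1_a : PowerSeries ℤ :=
  PowerSeries.mk fun n => if n = 0 then 0 else 15 * ∑ d ∈ n.divisors, (d : ℤ) ^ 3

/-- `(E₆ - 1)/8`. -/
noncomputable def s16r1_b : PowerSeries ℤ :=
  PowerSeries.mk fun n => if n = 0 then 0 else -63 * ∑ d ∈ n.divisors, (d : ℤ) ^ 5

theorem s16r1_eisenstein4_eq : ModularCurve.eisenstein4 = 1 + 16 * s16r1_a := by
  ext n
  have h16 : (16 : PowerSeries ℤ) = PowerSeries.C (16 : ℤ) := by
    simp
  rw [ModularCurve.eisenstein4, PowerSeries.coeff_mk, map_add, h16, PowerSeries.coeff_C_mul,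
    s16r1_a, PowerSeries.coeff_mk, PowerSeries.coeff_one]
  split_ifs with h
  · simp
  · ring

theorem s16r1_qExpansion_E4 :
    qExpansion 1 E₄ = PowerSeries.map (Int.castRingHom ℂ) (1 + 16 * s16r1_a) := by
  rw [qExpansion_E4, s16r1_eisenstein4_eq]

theorem s16r1_qExpansion_E6 :
    qExpansion 1 E₆ = PowerSeries.map (Int.castRingHom ℂ) (1 + 8 * s16r1_b) := by
  ext m
  have h8 : (8 : PowerSeries ℤ) = PowerSeries.C (8 : ℤ) := by
    simp
  rw [E_qExpansion_coeff (by norm_num) ⟨3, rfl⟩ m, PowerSeries.coeff_map, map_add, h8,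
    PowerSeries.coeff_C_mul, s16r1_b, PowerSeries.coeff_mk, PowerSeries.coeff_one]
  split_ifs with h
  · simp
  · have hb : bernoulli 6 = 1 / 42 := by decide +kernel
    rw [hb]
    simp only [ArithmeticFunction.sigma_apply]
    push_cast
    norm_num
    ring

/-! ### Laurent series over `ℤ` -/

/-- `(E₄ - 1)/16` as a Laurent series. -/
noncomputable def s16r1_aZ : LaurentSeries ℤ := HahnSeries.ofPowerSeries ℤ ℤ s16r1_a

/-- `(E₆ - 1)/8` as a Laurent series. -/
noncomputable def s16r1_bZ : LaurentSeries ℤ := HahnSeries.ofPowerSeries ℤ ℤ s16r1_b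

theorem s16r1_coeffMap_E4 :
    coeffMap (Int.castRingHom ℂ) (1 + 16 * s16r1_aZ) =
      HahnSeries.ofPowerSeries ℤ ℂ (qExpansion 1 E₄) := by
  rw [s16r1_qExpansion_E4, ← coeffMap_ofPowerSeries, s16r1_aZ]
  simp only [map_add, map_mul, map_one, map_ofNat]

theorem s16r1_coeffMap_E6 :
    coeffMap (Int.castRingHom ℂ) (1 + 8 * s16r1_bZ) =
      HahnSeries.ofPowerSeries ℤ ℂ (qExpansion 1 E₆) := by
  rw [s16r1_qExpansion_E6, ← coeffMap_ofPowerSeries, s16r1_bZ]
  simp only [map_add, map_mul, map_one, map_ofNat]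

theorem s16r1_hasQExp_E4 :
    s28ca_HasQExp 1 (⇑E₄) (coeffMap (Int.castRingHom ℂ) (1 + 16 * s16r1_aZ)) := by
  rw [s16r1_coeffMap_E4]
  exact s16r1_hasQExp_of_periodic _ jf_E4_per (ModularFormClass.holo E₄)
    (ModularFormClass.bdd_at_infty E₄)

theorem s16r1_hasQExp_E6 :
    s28ca_HasQExp 1 (⇑E₆) (coeffMap (Int.castRingHom ℂ) (1 + 8 * s16r1_bZ)) := by
  rw [s16r1_coeffMap_E6]
  exact s16r1_hasQExp_of_periodic _
    (SlashInvariantFormClass.periodic_comp_ofComplex E₆ one_mem_strictPeriods_SL)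
    (ModularFormClass.holo E₆) (ModularFormClass.bdd_at_infty E₆)

theorem s16r1_coeffMap_int_injective :
    Function.Injective (coeffMap (Int.castRingHom ℂ)) := by
  intro x y h
  ext k
  have := congrArg (fun z => z.coeff k) h
  simp only [coeffMap_coeff] at this
  exact Int.cast_injective this

/-- `1728 Δ = E₄³ - E₆²` in `ℤ⸨q⸩`. -/
theorem s16r1_rel :
    1728 * s28_Delta ℤ = (1 + 16 * s16r1_aZ) ^ 3 - (1 + 8 * s16r1_bZ) ^ 2 := by
  apply s16r1_coeffMap_int_injective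
  have h1 : s28ca_HasQExp 1 (fun τ => (1728 : ℂ) * ModularForm.discriminant τ)
      (HahnSeries.C (1728 : ℂ) * s28_Delta ℂ) :=
    s28ca_hasQExp_mul (s28ca_hasQExp_const 1 1728) s28ca_hasQExp_delta
  have h2 : s28ca_HasQExp 1 (fun τ => E₄ τ ^ 3 - E₆ τ ^ 2)
      (coeffMap (Int.castRingHom ℂ) (1 + 16 * s16r1_aZ) ^ 3 -
        coeffMap (Int.castRingHom ℂ) (1 + 8 * s16r1_bZ) ^ 2) :=
    s28ca_hasQExp_sub (s28ca_hasQExp_pow s16r1_hasQExp_E4 3) (s28ca_hasQExp_pow s16r1_hasQExp_E6 2)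
  have h3 := s28ca_hasQExp_unique h1 (s28ca_hasQExp_congr h2 (fun τ => by
    rw [ModularForm.discriminant_eq_E₄_cube_sub_E₆_sq]
    ring))
  rw [map_mul, map_sub, map_pow, map_pow, s28ca_coeffMap_Delta, ← h3, map_ofNat]
  congr 1

theorem s16r1_sixteen_ne_zero : (16 : LaurentSeries ℤ) ≠ 0 := by
  intro h
  have e : (16 : LaurentSeries ℤ) = HahnSeries.C (16 : ℤ) :=
    (map_ofNat (HahnSeries.C (Γ := ℤ) (R := ℤ)) 16).symm
  rw [e] at h
  have h2 : (16 : ℤ) = 0 :=
    HahnSeries.C_injective (h.trans (map_zero (HahnSeries.C (Γ := ℤ) (R := ℤ))).symm)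
  norm_num at h2

/-- the relation divided by `16`. -/
theorem s16r1_rel4 :
    3 * s16r1_aZ - s16r1_bZ =
      4 * (27 * s28_Delta ℤ - 12 * s16r1_aZ ^ 2 - 64 * s16r1_aZ ^ 3 + s16r1_bZ ^ 2) := by
  apply mul_left_cancel₀ s16r1_sixteen_ne_zero
  linear_combination (-1 : LaurentSeries ℤ) * s16r1_rel

/-! ### reduction modulo `2` -/

theorem s16r1_map_eisenstein4 :
    PowerSeries.map (Int.castRingHom (ZMod 2)) ModularCurve.eisenstein4 = 1 := by
  rw [s16r1_eisenstein4_eq, map_add, map_mul, map_one, map_ofNat]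
  have : (16 : PowerSeries (ZMod 2)) = 0 := by
    have h : (16 : PowerSeries (ZMod 2)) = PowerSeries.C (16 : ZMod 2) :=
      (map_ofNat (PowerSeries.C (R := ZMod 2)) 16).symm
    rw [h]
    have : (16 : ZMod 2) = 0 := by decide
    rw [this, map_zero]
  rw [this, zero_mul, add_zero]

/-- mod `2`, `Δ⁻¹ = j`. -/
theorem s16r1_DeltaInv_mod2 : s28_DeltaInv (ZMod 2) = jqModC (ZMod 2) := by
  unfold s28_DeltaInv jqModC
  rw [ModularCurve.jNum, map_mul, map_pow, s16r1_map_eisenstein4, one_pow, one_mul]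

theorem s16r1_Delta_mul_j : s28_Delta (ZMod 2) * jqModC (ZMod 2) = 1 := by
  rw [← s16r1_DeltaInv_mod2]
  exact s28nb_Delta_mul_inv (ZMod 2)

end Fermat.Agent.S16R1
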