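import Fermat.Agent.S16.TRCoreDefs
import Fermat.Agent.S16.GenUse
import Fermat.Prelude.Thm_ModularFormClass_qCoeff_heckeU
import Fermat.Prelude.Def_ModularForm_HeckeOperatorForms

/-!
# S16 / TR (A2): from the function-level core to the `q^{1/p}`-expansion of `G ∣ S`

`s16tr_of_core : s16tr_stmt_core → s16tr_stmt`.
-/

set_option autoImplicit false

open UpperHalfPlane CongruenceSubgroup
open scoped MatrixGroups ModularForm
open Fermat.Agent.S28 Fermat.Agent.S16

/-- `𝕢_1(τ/p) = 𝕢_p(τ)`. -/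
lemma s16tr_qParam_hecke (p : ℕ) [NeZero p] (τ : ℍ) :
    Function.Periodic.qParam (1 : ℝ) ((ModularForm.heckeMatrix p 0 • τ : ℍ) : ℂ) =
      Function.Periodic.qParam (p : ℝ) (τ : ℂ) := by
  rw [ModularForm.coe_heckeMatrix_smul (NeZero.ne p)]
  simp only [Function.Periodic.qParam]
  congr 1
  have hp : (p : ℂ) ≠ 0 := Nat.cast_ne_zero.mpr (NeZero.ne p)
  push_cast
  field_simp
  ring

/-- transfer of an expansion along `τ ↦ τ / p`. -/
lemma s16tr_hasQExp_scale (p : ℕ) [NeZero p] {f : ℍ → ℂ} {A : LaurentSeries ℂ}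
    (h : s28ca_HasQExp 1 f A) :
    s28ca_HasQExp p (fun τ => f (ModularForm.heckeMatrix p 0 • τ)) A := by
  obtain ⟨m, H, hH, hf, hT⟩ := h
  refine ⟨m, H, hH, fun τ => ?_, hT⟩
  have := hf (ModularForm.heckeMatrix p 0 • τ)
  rw [Nat.cast_one, s16tr_qParam_hecke] at this
  exact this

/-- the `q`-coefficients of `U_p G`. -/
lemma s16tr_coeff_heckeU (p : ℕ) [NeZero p]
    (G : ModularForm (CongruenceSubgroup.Gamma0 p) 2) (n : ℕ) :
    (UpperHalfPlane.qExpansion 1 (ModularForm.heckeULin 2 (dvd_refl p) G)).coeff n =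
      (UpperHalfPlane.qExpansion 1 G).coeff (p * n) := by
  have h := ModularFormClass.qCoeff_heckeU (k := 2) G
    (Fermat.Agent.S22.one_mem_strictPeriods_Gamma0 p) (NeZero.ne p) n
  rw [ModularForm.coeffHeckeU_apply, mul_comm] at h
  exact h

theorem s16tr_of_core (hcore : s16tr_stmt_core) : s16tr_stmt := by
  intro p _ _ G
  set U : ModularForm (CongruenceSubgroup.Gamma0 p) 2 :=
    ModularForm.heckeULin 2 (dvd_refl p) G with hUdef
  have hU : s28ca_HasQExp 1 U (HahnSeries.ofPowerSeries ℤ ℂ (qExpansion 1 U)) :=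
    s16g_hasQExp_of_modularForm p U
  have h1 := s16tr_hasQExp_scale p hU
  have h2 := s28ca_hasQExp_mul (s28ca_hasQExp_const p (-(p : ℂ)⁻¹)) h1
  have hser : (HahnSeries.C (-(p : ℂ)⁻¹) : LaurentSeries ℂ) *
      HahnSeries.ofPowerSeries ℤ ℂ (qExpansion 1 U) =
      HahnSeries.ofPowerSeries ℤ ℂ (s16tr_series p G) := by
    rw [← HahnSeries.ofPowerSeries_C, ← map_mul]
    congr 1
    ext n
    rw [PowerSeries.coeff_C_mul, s16tr_series, PowerSeries.coeff_mk, hUdef,
      s16tr_coeff_heckeU]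
  rw [hser] at h2
  refine s28ca_hasQExp_congr h2 (fun τ => ?_)
  have h3 := congrFun (hcore p G) τ
  rw [h3, Pi.neg_apply, ModularForm.slash_heckeMatrix_apply 2 (NeZero.ne p)]
  simp only [hUdef, ModularForm.coe_heckeULin_apply]
  ring
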