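import Fermat.Agent.S16.TRDefs
import Fermat.Prelude.Def_ModularForm_HeckeOperator

/-!
# S16 / TR : interface of the function-level core

* `s16tr_W p`            : the Fricke matrix `[0, -1; p, 0]` in `GL (Fin 2) ℝ`;
* `s16tr_stmt_fricke`    : `G ∣ W` is again a modular form on `Γ₀(p)`;
* `s16tr_stmt_core`      : `G ∣ S = -((U_p G) ∣ [1, 0; 0, p])` as functions on `ℍ`.
-/

open scoped MatrixGroups ModularForm

/-- The Fricke matrix `[0, -1; p, 0]`. -/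
noncomputable def s16tr_W (p : ℕ) [NeZero p] : GL (Fin 2) ℝ :=
  Matrix.GeneralLinearGroup.mkOfDetNeZero !![(0 : ℝ), -1; (p : ℝ), 0]
    (by
      rw [Matrix.det_fin_two_of]
      have : (p : ℝ) ≠ 0 := Nat.cast_ne_zero.mpr (NeZero.ne p)
      simpa using this)

/-- `G ∣ W` is a modular form on `Γ₀(p)`. -/
def s16tr_stmt_fricke : Prop :=
  ∀ (p : ℕ) [Fact p.Prime] [NeZero p] (G : ModularForm (CongruenceSubgroup.Gamma0 p) 2),
    ∃ H : ModularForm (CongruenceSubgroup.Gamma0 p) 2,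
      (⇑H : UpperHalfPlane → ℂ) = (⇑G : UpperHalfPlane → ℂ) ∣[(2 : ℤ)] s16tr_W p

/-- The function-level core of TR: `G ∣ S = -((U_p G) ∣ [1, 0; 0, p])`,
i.e. `(G ∣ S)(τ) = -p⁻¹ (U_p G)(τ / p)`. -/
def s16tr_stmt_core : Prop :=
  ∀ (p : ℕ) [Fact p.Prime] [NeZero p] (G : ModularForm (CongruenceSubgroup.Gamma0 p) 2),
    ((⇑G : UpperHalfPlane → ℂ) ∣[(2 : ℤ)] ModularGroup.S)
      = -((ModularForm.heckeU 2 p (⇑G : UpperHalfPlane → ℂ)) ∣[(2 : ℤ)] ModularForm.heckeMatrix p 0)
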