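import Fermat.Agent.S16.TRCoreDefs

/-!
# S16 / TR (A1): the Fricke involution preserves `M_2(Γ₀(p))`

`s16tr_fricke : s16tr_stmt_fricke` : for `G ∈ M_2(Γ₀(p))` the function `G ∣[2] W`,
`W = [0, -1; p, 0]`, is again a modular form on `Γ₀(p)`.
-/

set_option autoImplicit false

open UpperHalfPlane ModularForm CongruenceSubgroup Matrix.SpecialLinearGroup
open scoped MatrixGroups ModularForm Pointwise

lemma s16tr_W_coe (p : ℕ) [NeZero p] :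
    (s16tr_W p : Matrix (Fin 2) (Fin 2) ℝ) = !![(0 : ℝ), -1; (p : ℝ), 0] := rfl

/-- `W γ W⁻¹ ∈ Γ₀(p)` for `γ ∈ Γ₀(p)`. -/
lemma s16tr_conj_mem (p : ℕ) [NeZero p] (γ : SL(2, ℤ)) (hγ : γ ∈ Gamma0 p) :
    s16tr_W p * mapGL ℝ γ * (s16tr_W p)⁻¹ ∈
      ((Gamma0 p : Subgroup SL(2, ℤ)) : Subgroup (GL (Fin 2) ℝ)) := by
  rw [Gamma0_mem, ZMod.intCast_zmod_eq_zero_iff_dvd] at hγ
  obtain ⟨c', hc'⟩ := hγ
  have hdet : γ 0 0 * γ 1 1 - γ 0 1 * γ 1 0 = 1 := by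
    have := γ.det_coe
    rw [Matrix.det_fin_two] at this
    exact this
  obtain ⟨γ', h00, h01, h10, h11⟩ : ∃ γ' : SL(2, ℤ), γ' 0 0 = γ 1 1 ∧ γ' 0 1 = -c' ∧
      γ' 1 0 = -(p * γ 0 1) ∧ γ' 1 1 = γ 0 0 := by
    refine ⟨⟨!![γ 1 1, -c'; -(p * γ 0 1), γ 0 0], ?_⟩, rfl, rfl, rfl, rfl⟩
    rw [Matrix.det_fin_two_of]
    rw [hc'] at hdet
    linear_combination hdet
  have hmem : γ' ∈ Gamma0 p := by
    rw [Gamma0_mem, ZMod.intCast_zmod_eq_zero_iff_dvd, h10]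
    exact (dvd_mul_right _ _).neg_right
  refine ⟨γ', hmem, ?_⟩
  rw [eq_mul_inv_iff_mul_eq]
  ext i j
  fin_cases i <;> fin_cases j <;>
    simp [s16tr_W_coe, Matrix.mul_apply, Fin.sum_univ_two, hc', mul_comm, h00, h01, h10, h11]

lemma s16tr_le (p : ℕ) [NeZero p] :
    ((Gamma0 p : Subgroup SL(2, ℤ)) : Subgroup (GL (Fin 2) ℝ)) ≤
      ConjAct.toConjAct (s16tr_W p)⁻¹ • ((Gamma0 p : Subgroup SL(2, ℤ)) : Subgroup (GL (Fin 2) ℝ)) := by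
  rintro _ ⟨γ, hγ, rfl⟩
  rw [Subgroup.mem_pointwise_smul_iff_inv_smul_mem, ← ConjAct.toConjAct_inv, inv_inv,
    ConjAct.toConjAct_smul]
  exact s16tr_conj_mem p γ hγ

/-- `G ∣[k] W` as a form of level `Γ₀(p)`. -/
noncomputable def s16tr_frickeForm (p : ℕ) [NeZero p] {k : ℤ}
    (G : ModularForm (CongruenceSubgroup.Gamma0 p) k) :
    ModularForm (CongruenceSubgroup.Gamma0 p) k where
  toFun := (G : ℍ → ℂ) ∣[k] s16tr_W p
  slash_action_eq' γ hγ :=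
    (ModularForm.translate G (s16tr_W p)).slash_action_eq' γ (s16tr_le p hγ)
  holo' := (ModularForm.translate G (s16tr_W p)).holo'
  bdd_at_cusps' hc :=
    (ModularForm.translate G (s16tr_W p)).bdd_at_cusps' (hc.mono (s16tr_le p))

lemma s16tr_frickeForm_coe (p : ℕ) [NeZero p] {k : ℤ}
    (G : ModularForm (CongruenceSubgroup.Gamma0 p) k) :
    (s16tr_frickeForm p G : ℍ → ℂ) = (G : ℍ → ℂ) ∣[k] s16tr_W p := rfl

theorem s16tr_fricke : s16tr_stmt_fricke := by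
  intro p _ _ G
  exact ⟨s16tr_frickeForm p G, rfl⟩
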