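import Fermat.Agent.S16.Defs

/-!
# S16: the upper bound from duality and the congruence bound

`s16_stmt_UB ⟸ s16_stmt_DUAL + s16_stmt_CONG`.
-/

set_option autoImplicit false
open ModularCurve CuspForm

noncomputable section

theorem s16u_eisensteinNumerator_pos (p : ℕ) (hp : p.Prime) : 0 < eisensteinNumerator p := by
  unfold eisensteinNumerator
  have h1 : 0 < p - 1 := by have := hp.two_le; omega
  have hg : Nat.gcd (p - 1) 12 ∣ p - 1 := Nat.gcd_dvd_left _ _
  exact Nat.div_pos (Nat.le_of_dvd h1 hg) (Nat.gcd_pos_of_pos_left _ h1)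

theorem s16u_eps_C (p : ℕ) (c : ℤ) : s16_eps p (MvPolynomial.C c) = c := by
  show MvPolynomial.aeval (R := ℤ) (eisensteinSystem p) (MvPolynomial.C c) = c
  rw [MvPolynomial.aeval_C]
  rfl

theorem s16u_isEisCong_of_dvd (p : ℕ) [NeZero p] {M M' : ℕ} (h : M' ∣ M)
    {f : CuspForm (CongruenceSubgroup.Gamma0 p) 2} (hf : s16_IsEisCong p M f) :
    s16_IsEisCong p M' f := by
  intro m hm
  obtain ⟨a, ha, hdiv⟩ := hf m hm
  exact ⟨a, ha, (Int.natCast_dvd_natCast.2 h).trans hdiv⟩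

theorem s16_ub_of (hD : s16_stmt_DUAL) (hC : s16_stmt_CONG) : s16_stmt_UB := by
  classical
  intro p hpF
  have hp : p.Prime := hpF.out
  set n : ℕ := eisensteinNumerator p with hn
  have hnpos : 0 < n := s16u_eisensteinNumerator_pos p hp
  -- the set of Eisenstein values of relations is an additive subgroup closed under ℤ-multiples
  let J : Ideal ℤ :=
    { carrier := {c | ∃ t : HeckeAlg, heckeEvalForms p 2 t = 0 ∧ s16_eps p t = c}
      add_mem' := by
        rintro a b ⟨t, ht, rfl⟩ ⟨u, hu, rfl⟩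
        exact ⟨t + u, by rw [map_add, ht, hu, add_zero], map_add _ _ _⟩
      zero_mem' := ⟨0, map_zero _, map_zero _⟩
      smul_mem' := by
        rintro c a ⟨t, ht, rfl⟩
        refine ⟨MvPolynomial.C c * t, by rw [map_mul, ht, mul_zero], ?_⟩
        rw [map_mul, s16u_eps_C, smul_eq_mul] }
  have hJmem : ∀ c : ℤ, c ∈ J ↔ ∃ t : HeckeAlg, heckeEvalForms p 2 t = 0 ∧ s16_eps p t = c :=
    fun c => Iff.rfl
  suffices hmain : (n : ℤ) ∈ J from (hJmem _).1 hmain
  obtain ⟨g, hg⟩ : ∃ g : ℤ, J = Ideal.span {g} :=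
    ⟨_, (IsPrincipalIdealRing.principal J).span_singleton_generator.symm⟩
  set m : ℕ := g.natAbs with hm
  have hJm : J = Ideal.span {(m : ℤ)} := by
    rw [hg, hm, Int.span_natAbs]
  have hdivall : ∀ t : HeckeAlg, heckeEvalForms p 2 t = 0 → (m : ℤ) ∣ s16_eps p t := by
    intro t ht
    have : s16_eps p t ∈ J := (hJmem _).2 ⟨t, ht, rfl⟩
    rw [hJm] at this
    exact Ideal.mem_span_singleton.1 this
  by_cases hm0 : m = 0
  · -- no relation has a nonzero Eisenstein value: impossible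
    exfalso
    have hall : ∀ t : HeckeAlg, heckeEvalForms p 2 t = 0 → ((2 ^ n : ℕ) : ℤ) ∣ s16_eps p t := by
      intro t ht
      have h := hdivall t ht
      rw [hm0, Nat.cast_zero, zero_dvd_iff] at h
      rw [h]
      exact dvd_zero _
    obtain ⟨f, hf⟩ := hD p (2 ^ n) (by positivity) hall
    have h2 : 2 ^ n ∣ n := hC p 2 n Nat.prime_two ⟨f, hf⟩
    have h3 : 2 ^ n ≤ n := Nat.le_of_dvd hnpos h2
    exact absurd h3 (not_le.2 (Nat.lt_two_pow_self))
  · obtain ⟨f, hf⟩ := hD p m (Nat.pos_of_ne_zero hm0) hdivall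
    have hmn : m ∣ n := by
      rw [← Nat.factorization_prime_le_iff_dvd hm0 hnpos.ne']
      intro ℓ hℓ
      have h1 : ℓ ^ (m.factorization ℓ) ∣ m := Nat.ordProj_dvd m ℓ
      have h2 : ℓ ^ (m.factorization ℓ) ∣ n :=
        hC p ℓ (m.factorization ℓ) hℓ ⟨f, s16u_isEisCong_of_dvd p h1 hf⟩
      exact (hℓ.pow_dvd_iff_le_factorization hnpos.ne').1 h2
    rw [hJm]
    exact Ideal.mem_span_singleton.2 (Int.natCast_dvd_natCast.2 hmn)

end
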