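import Fermat.Agent.S16.Alg
import Fermat.Agent.S16.UBAssembly

/-!
# S16: top-level assembly from the three interface statements
-/

set_option autoImplicit false
open ModularCurve CuspForm

noncomputable section

theorem s16_top (hLB : s16_stmt_LB) (hD : s16_stmt_DUAL) (hC : s16_stmt_CONG)
    (p : ℕ) [Fact p.Prime] :
    Nat.card (↥(heckeLatticeAlgebra p ∅) ⧸
        Ideal.map ((latticeRestrictHom p ∅).toRingHom.comp (heckeEvalForms p 2))
          (eisensteinIdeal p)) =
      eisensteinNumerator p :=
  s16_alg hLB (s16_ub_of hD hC) p

end
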